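import Fermat.Agent.S20.Genus
import Fermat.Agent.S20.Serre
import Fermat.Agent.S20.Separating
import Fermat.Agent.S20.Cosets

/-!
# S18 block (B)(i): `dim M_{12 n}(Γ₀(M)) + dim S₂(Γ₀(M)) = n ψ(M) + 1`
-/

set_option autoImplicit false

open UpperHalfPlane CongruenceSubgroup Matrix.SpecialLinearGroup
open scoped MatrixGroups Manifold ModularForm

namespace Fermat.Agent.S18Lib

open Fermat.Agent.S20Lib

/-- the pointwise arithmetic identity behind the dimension formula -/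
lemma dimF_pointwise (n : ℕ) (hn : 1 ≤ n) (w : ℤ) (h0 : 0 ≤ w) (h10 : w ≤ 10) (hev : Even w) :
    eDim (12 * n - w) + eDim (2 + w - 12) = n + eDim (0 - w) := by
  obtain ⟨m, hm⟩ := hev
  have hm0 : 0 ≤ m := by omega
  have hm5 : m ≤ 5 := by omega
  obtain ⟨n', rfl⟩ : ∃ n', n = n' + 1 := ⟨n - 1, by omega⟩
  have key : ∀ a : ℕ, Even a → eDim ((a : ℕ) : ℤ) = if a % 12 = 2 then a / 12 else a / 12 + 1 :=
    fun a ha => eDim_nat a ha
  interval_cases m
  · have hw : w = 0 := by omega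
    subst hw
    have e1 : (12 * ((n' + 1 : ℕ) : ℤ) - 0) = ((12 * n' + 12 : ℕ) : ℤ) := by push_cast; ring
    rw [e1, key _ (by exact ⟨6 * n' + 6, by ring⟩), eDim_of_neg (by norm_num), sub_zero, eDim_zero]
    have : (12 * n' + 12) % 12 ≠ 2 := by omega
    rw [if_neg this]; omega
  · have hw : w = 2 := by omega
    subst hw
    have e1 : (12 * ((n' + 1 : ℕ) : ℤ) - 2) = ((12 * n' + 10 : ℕ) : ℤ) := by push_cast; ring
    rw [e1, key _ (by exact ⟨6 * n' + 5, by ring⟩), eDim_of_neg (by norm_num),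
      eDim_of_neg (by norm_num)]
    have : (12 * n' + 10) % 12 ≠ 2 := by omega
    rw [if_neg this]; omega
  · have hw : w = 4 := by omega
    subst hw
    have e1 : (12 * ((n' + 1 : ℕ) : ℤ) - 4) = ((12 * n' + 8 : ℕ) : ℤ) := by push_cast; ring
    rw [e1, key _ (by exact ⟨6 * n' + 4, by ring⟩), eDim_of_neg (by norm_num),
      eDim_of_neg (by norm_num)]
    have : (12 * n' + 8) % 12 ≠ 2 := by omega
    rw [if_neg this]; omega
  · have hw : w = 6 := by omega
    subst hw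
    have e1 : (12 * ((n' + 1 : ℕ) : ℤ) - 6) = ((12 * n' + 6 : ℕ) : ℤ) := by push_cast; ring
    rw [e1, key _ (by exact ⟨6 * n' + 3, by ring⟩), eDim_of_neg (by norm_num),
      eDim_of_neg (by norm_num)]
    have : (12 * n' + 6) % 12 ≠ 2 := by omega
    rw [if_neg this]; omega
  · have hw : w = 8 := by omega
    subst hw
    have e1 : (12 * ((n' + 1 : ℕ) : ℤ) - 8) = ((12 * n' + 4 : ℕ) : ℤ) := by push_cast; ring
    rw [e1, key _ (by exact ⟨6 * n' + 2, by ring⟩), eDim_of_neg (by norm_num),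
      eDim_of_neg (by norm_num)]
    have : (12 * n' + 4) % 12 ≠ 2 := by omega
    rw [if_neg this]; omega
  · have hw : w = 10 := by omega
    subst hw
    have e1 : (12 * ((n' + 1 : ℕ) : ℤ) - 10) = ((12 * n' + 2 : ℕ) : ℤ) := by push_cast; ring
    have e2 : (2 + 10 - 12 : ℤ) = 0 := by norm_num
    rw [e1, key _ (by exact ⟨6 * n' + 1, by ring⟩), e2, eDim_zero, eDim_of_neg (by norm_num)]
    have : (12 * n' + 2) % 12 = 2 := by omega
    rw [if_pos this]; omega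

/-- abstract form -/
theorem dimF_abstract {Γ : Subgroup SL(2, ℤ)} [Γ.FiniteIndex] {N : ℕ} [NeZero N]
    (hN : Gamma N ≤ Γ) (hneg : -1 ∈ Γ)
    {ι : Type} [Fintype ι] [DecidableEq ι] {wt : ι → ℤ} {F : ι → ℍ → ℂ}
    (hB : IsFreeBasis Γ wt F) (e : ι ≃ SL(2, ℤ) ⧸ Γ)
    (hdet : ∀ τ : ℍ, (PhiSq Γ wt F e τ).det ≠ 0) (n : ℕ) (hn : 1 ≤ n) :
    Module.finrank ℂ (Mk Γ (12 * n)) + Module.finrank ℂ (Sk Γ 2) = n * Γ.index + 1 := by
  have hev := hB.wt_even hneg
  have hnn := hB.wt_nonneg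
  have hzero : ∀ i j : ι, IsZeroAtImInfty (fun τ => Dl τ * (PhiSq Γ wt F e τ)⁻¹ i j) :=
    discriminant_mul_inv_isZeroAtImInfty hN hB hev e hdet
  have hS := finrank_Sk hB.mem e hdet hzero
  have hM := hB.finrank_eq
  have h10 : ∀ i, wt i ≤ 10 := by
    intro i
    by_contra hcon
    have h12 : 12 - wt i ≤ 0 := by
      obtain ⟨m, hm⟩ := hev i
      omega
    have h1 := hS (12 - wt i)
    rw [finrank_Sk_of_nonpos h12] at h1
    have h2 : eDim (12 - wt i + wt i - 12) ≤ ∑ j, eDim (12 - wt i + wt j - 12) :=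
      Finset.single_le_sum (f := fun j => eDim (12 - wt i + wt j - 12)) (fun _ _ => Nat.zero_le _)
        (Finset.mem_univ i)
    have h3 : eDim (12 - wt i + wt i - 12) = 1 := by
      have : 12 - wt i + wt i - 12 = 0 := by ring
      rw [this, eDim_zero]
    omega
  have hsum := Finset.sum_congr rfl
    (fun i (_ : i ∈ Finset.univ) => dimF_pointwise n hn (wt i) (hnn i) (h10 i) (hev i))
  rw [Finset.sum_add_distrib, Finset.sum_add_distrib, ← hM, ← hS, ← hM, finrank_Mk_zero,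
    Finset.sum_const, Finset.card_univ, smul_eq_mul] at hsum
  rw [hsum, Subgroup.index, ← Nat.card_congr e, Nat.card_eq_fintype_card, mul_comm]

/-- `dim M_{12 n}(Γ₀(M)) + dim S₂(Γ₀(M)) = n [SL₂(ℤ) : Γ₀(M)] + 1`, in `Mk`/`Sk` form -/
theorem finrank_Mk_add_finrank_Sk (M : ℕ) [NeZero M] (n : ℕ) (hn : 1 ≤ n) :
    Module.finrank ℂ (Mk (Gamma0 M) (12 * n)) + Module.finrank ℂ (Sk (Gamma0 M) 2)
      = n * (Gamma0 M).index + 1 := by
  classical
  obtain ⟨ι, _, wt, F, hB, hle⟩ := exists_freeBasis_Gamma0 M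
  obtain ⟨f, hf, hsep⟩ := exists_separating_form M
  obtain ⟨hcard, hex⟩ := card_eq_index_of_separating hB hle hf hsep
  have : Fintype (SL(2, ℤ) ⧸ Gamma0 M) := Fintype.ofFinite _
  have hc : Fintype.card ι = Fintype.card (SL(2, ℤ) ⧸ Gamma0 M) := by
    rw [hcard, ← Nat.card_eq_fintype_card]; rfl
  let e : ι ≃ SL(2, ℤ) ⧸ Gamma0 M := Fintype.equivOfCardEq hc
  have hdet := PhiSq_det_ne_zero hB e (hex e)
  have hN : Gamma M ≤ Gamma0 M := by
    intro γ hγ
    rw [Gamma_mem] at hγ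
    rw [Gamma0_mem]
    exact hγ.2.2.1
  exact dimF_abstract hN (neg_one_mem_Gamma0 M) hB e hdet n hn

/-- `dim M_{12 n}(Γ₀(M)) + dim S₂(Γ₀(M)) = n ψ(M) + 1` -/
theorem finrank_M12n_add (M : ℕ) [NeZero M] (n : ℕ) (hn : 1 ≤ n) :
    Module.finrank ℂ (ModularForm (Gamma0 M) (12 * n)) + Module.finrank ℂ (CuspForm (Gamma0 M) 2)
      = n * ModularCurve.dedekindPsi M + 1 := by
  rw [(modularFormEquiv (Gamma0 M) (12 * n)).finrank_eq, (cuspFormEquiv (Gamma0 M) 2).finrank_eq,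
    finrank_Mk_add_finrank_Sk M n hn, index_Gamma0]

end Fermat.Agent.S18Lib
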