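import Fermat.Agent.S18.Bridge
import Fermat.Agent.S24.Fibres

/-!
# S18 block (B), leaf (BM): a quotient `G/Δⁿ`, `G ∈ M_{12 n}(Γ₀(N))` with `q`-expansion in `ℚ̄((q))`,
lies in the function field of `X₀(N)`.
-/

set_option autoImplicit false
set_option synthInstance.maxHeartbeats 400000

open UpperHalfPlane ModularForm Matrix.SpecialLinearGroup CongruenceSubgroup ModularCurve
open AlgebraicCurve IntermediateField
open scoped MatrixGroups Manifold Polynomial
open Fermat.Agent.S20Lib Fermat.Agent.S28Lib Fermat.Agent.S24Lib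

namespace Fermat.Agent.S18Lib

noncomputable section

/-- `S24Lib.W7_core` with `W7_Rep` as hypothesis. -/
theorem bm_core (N : ℕ) [NeZero N] {α : Type} [Fintype α] (c : α → LaurentSeries Qb)
    (hc : ∀ i, ∃ M₀, W7_Rep N M₀ (c i))
    (hind : ∀ P : α → Qb[X], ∑ i, Polynomial.aeval W7_jE (P i) * c i = 0 → ∀ i, P i = 0) :
    Fintype.card α ≤ (Gamma0 N).index := by
  classical
  set n := (Gamma0 N).index with hn
  choose M₀ hM₀ using hc
  set M1 := Finset.univ.sup M₀ with hM1def
  have hM1 : ∀ i, W7_Rep N M1 (c i) := fun i => (hM₀ i).lift (Finset.le_sup (Finset.mem_univ i))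
  by_contra hlt
  rw [not_le] at hlt
  set L := M1 * n + 1 with hL
  set M := L + M1 with hM
  set B := M * n with hB
  let S : (α → Polynomial.degreeLT Qb (L + 1)) → LaurentSeries Qb :=
    fun P => ∑ i, Polynomial.aeval W7_jE (P i : Qb[X]) * c i
  have hSadd : ∀ P Q, S (P + Q) = S P + S Q := by
    intro P Q
    simp only [S, Pi.add_apply, Submodule.coe_add, map_add, add_mul, Finset.sum_add_distrib]
  have hSsmul : ∀ (a : Qb) P, S (a • P) = algebraMap Qb (LaurentSeries Qb) a * S P := by
    intro a P
    simp only [S, Pi.smul_apply, Submodule.coe_smul, Algebra.smul_def, Finset.mul_sum,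
      map_mul, mul_assoc]
    refine Finset.sum_congr rfl fun i _ => ?_
    congr 1
    simp
  let Φ : (α → Polynomial.degreeLT Qb (L + 1)) →ₗ[Qb] (Fin (B + 1) → Qb) :=
    { toFun := fun P k => (S P * W7_DK ^ M).coeff ((k : ℕ) : ℤ)
      map_add' := by
        intro P Q
        funext k
        simp only [hSadd, add_mul, HahnSeries.coeff_add, Pi.add_apply]
      map_smul' := by
        intro a P
        funext k
        simp only [hSsmul, mul_assoc, W7_coeff_algebraMap_mul, Pi.smul_apply, smul_eq_mul,
          RingHom.id_apply] }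
  have hinj : Function.Injective Φ := by
    rw [injective_iff_map_eq_zero]
    intro P hP
    have hrep : W7_Rep N M (S P) := by
      refine W7_Rep.sum _ _ fun i _ => ?_
      exact (W7_Rep_aeval N (W7_natDegree_lt (Nat.succ_pos L) (P i).2)).mul (hM1 i)
    have hS0 : S P = 0 := by
      apply hrep.eq_zero
      intro k hk
      exact congrFun hP ⟨k, Nat.lt_succ_of_le hk⟩
    funext i
    exact Subtype.ext (hind (fun i => (P i : Qb[X])) hS0 i)
  have : Module.Finite Qb (Polynomial.degreeLT Qb (L + 1)) :=
    Module.Finite.equiv (Polynomial.degreeLTEquiv Qb (L + 1)).symm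
  have h1 := LinearMap.finrank_le_finrank_of_injective hinj
  rw [Module.finrank_pi_fintype, Module.finrank_fin_fun] at h1
  simp only [(Polynomial.degreeLTEquiv Qb (L + 1)).finrank_eq, Module.finrank_fin_fun,
    Finset.sum_const, Finset.card_univ, smul_eq_mul] at h1
  have h2 : (n + 1) * (L + 1) ≤ Fintype.card α * (L + 1) := Nat.mul_le_mul_right _ hlt
  have h3 : (n + 1) * (L + 1) ≤ (L + M1) * n + 1 := h2.trans h1
  nlinarith

theorem bm_aeval_mem (N : ℕ) [NeZero N] (p : Qb[X]) : Polynomial.aeval W7_jE p ∈ FB N := by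
  rw [← W7_coe_aeval_gen N p]
  exact SetLike.coe_mem _

theorem mem_FB_of_Rep (N : ℕ) [NeZero N] (n : ℕ) (x : LaurentSeries Qb) (hx : W7_Rep N n x) :
    x ∈ FB N := by
  classical
  by_contra hxF
  have hfd := (finrank_le_index N).1
  set ψ := (Gamma0 N).index with hψ
  let b : Module.Basis (Fin ψ) Qb⟮jBar N⟯ (modularFunctionFieldBar N) :=
    Module.finBasisOfFinrankEq _ _ (finrank_eq_index N)
  have hden : ∀ i : Fin ψ, ∃ r t : LaurentSeries Qb, r ∈ Algebra.adjoin Qb (gensBar N) ∧
      t ∈ Algebra.adjoin Qb (gensBar N) ∧ t ≠ 0 ∧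
      ((b i : modularFunctionFieldBar N) : LaurentSeries Qb) * t = r := by
    intro i
    have hi : ((b i : modularFunctionFieldBar N) : LaurentSeries Qb) ∈
        IntermediateField.adjoin Qb (gensBar N) := by
      rw [← bar_eq_adjoin]; exact (b i : modularFunctionFieldBar N).2
    obtain ⟨r, hr, t, ht, e⟩ := IntermediateField.mem_adjoin_iff_div.mp hi
    by_cases ht0 : t = 0
    · refine ⟨0, 1, zero_mem _, one_mem _, one_ne_zero, ?_⟩
      rw [e, ht0, div_zero, zero_mul]
    · exact ⟨r, t, hr, ht, ht0, by rw [e, div_mul_cancel₀ _ ht0]⟩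
  choose r t hr ht ht0 hrt using hden
  set T := ∏ i, t i with hT
  have hT0 : T ≠ 0 := Finset.prod_ne_zero_iff.mpr fun i _ => ht0 i
  have hTmem : T ∈ Algebra.adjoin Qb (gensBar N) := Subalgebra.prod_mem _ fun k _ => ht k
  let c : Option (Fin ψ) → LaurentSeries Qb := fun o =>
    match o with
    | none => x * T
    | some i => ((b i : modularFunctionFieldBar N) : LaurentSeries Qb) * T
  have key := bm_core N c ?_ ?_
  · rw [Fintype.card_option, Fintype.card_fin] at key
    omega
  · rintro (_ | i)
    · obtain ⟨M₀, hM₀⟩ := W7_Rep_of_mem N hTmem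
      exact ⟨n + M₀, hx.mul hM₀⟩
    · apply W7_Rep_of_mem N
      have h1 : T = t i * ∏ k ∈ Finset.univ.erase i, t k :=
        (Finset.mul_prod_erase _ _ (Finset.mem_univ i)).symm
      show ((b i : modularFunctionFieldBar N) : LaurentSeries Qb) * T ∈ _
      rw [h1, ← mul_assoc, hrt]
      exact mul_mem (hr i) (Subalgebra.prod_mem _ fun k _ => ht k)
  · intro P hP
    rw [Fintype.sum_option] at hP
    have h1 : Polynomial.aeval W7_jE (P none) * x + ∑ i : Fin ψ, Polynomial.aeval W7_jE (P (some i)) *
        ((b i : modularFunctionFieldBar N) : LaurentSeries Qb) = 0 := by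
      have h : (Polynomial.aeval W7_jE (P none) * x + ∑ i : Fin ψ,
          Polynomial.aeval W7_jE (P (some i)) *
            ((b i : modularFunctionFieldBar N) : LaurentSeries Qb)) * T = 0 := by
        rw [add_mul, Finset.sum_mul, ← hP]
        congr 1
        · ring
        · exact Finset.sum_congr rfl fun i _ => by ring
      exact (mul_eq_zero.mp h).resolve_right hT0
    have hnone : P none = 0 := by
      by_contra hne
      have hne' : Polynomial.aeval W7_jE (P none) ≠ 0 := fun h0 =>
        hne (transcendental_iff.mp W7_transcendental_jE _ h0)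
      apply hxF
      have hx' : x = -(∑ i : Fin ψ, Polynomial.aeval W7_jE (P (some i)) *
          ((b i : modularFunctionFieldBar N) : LaurentSeries Qb)) /
            Polynomial.aeval W7_jE (P none) := by
        rw [eq_div_iff hne']
        linear_combination h1
      rw [hx']
      refine div_mem (neg_mem (sum_mem fun i _ => mul_mem (bm_aeval_mem N _) ?_))
        (bm_aeval_mem N _)
      exact SetLike.coe_mem _
    rw [hnone, map_zero, zero_mul, zero_add] at h1
    have h2 : ∑ i : Fin ψ, (Polynomial.aeval (AdjoinSimple.gen Qb (jBar N)) (P (some i)) :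
        Qb⟮jBar N⟯) • (b i : modularFunctionFieldBar N) = 0 := by
      apply (modularFunctionFieldBar N).val.toRingHom.injective
      rw [map_sum, map_zero, ← h1]
      refine Finset.sum_congr rfl fun i _ => ?_
      rw [Algebra.smul_def, map_mul]
      congr 1
      exact W7_coe_aeval_gen N (P (some i))
    have h3 := Fintype.linearIndependent_iff.mp b.linearIndependent _ h2
    rintro (_ | i)
    · exact hnone
    · apply transcendental_iff.mp W7_transcendental_jE
      rw [← W7_coe_aeval_gen N, h3 i]
      rfl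

end

end Fermat.Agent.S18Lib
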