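import Fermat.Agent.S24.OrdDiff

/-!
# S18 library, block (B), leaf (BV): pole orders from a monic relation
-/

set_option autoImplicit false

open AlgebraicCurve IntermediateField
open scoped Polynomial
open Fermat.Agent.S24Lib

namespace Fermat.Agent.S18Lib

section

variable {K F : Type*} [Field K] [Field F] [Algebra K F]

theorem bv_ord_pow (v : Place K F) (x : F) (r : ℕ) : v.ord (x ^ r) = r * v.ord x := by
  have := v.ord_zpow x (r : ℤ)
  rwa [zpow_natCast] at this

theorem bv_ge_pow (v : Place K F) {n : ℤ} {x : F} (hx : D2_ge v n x) (r : ℕ) :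
    D2_ge v (r * n) (x ^ r) := by
  induction r with
  | zero => right; simp
  | succ r ih =>
    rw [pow_succ]
    have := D2.ge_mul v ih hx
    refine D2.ge_mono v (le_of_eq ?_) this
    push_cast; ring

theorem bv_ge_sum (v : Place K F) {n : ℤ} {ι : Type*} (s : Finset ι) (f : ι → F)
    (h : ∀ i ∈ s, D2_ge v n (f i)) : D2_ge v n (∑ i ∈ s, f i) := by
  classical
  induction s using Finset.induction_on with
  | empty => left; simp
  | insert a s ha ih =>
    rw [Finset.sum_insert ha]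
    exact D2.ge_add v (h a (Finset.mem_insert_self _ _))
      (ih fun i hi => h i (Finset.mem_insert_of_mem hi))

theorem bv_ge_aeval (v : Place K F) (j : F) (d : ℤ) (hd : d ≤ 0) (hj : D2_ge v d j) (P : K[X])
    (m : ℕ) (hP : P.natDegree ≤ m) : D2_ge v (m * d) (Polynomial.aeval j P) := by
  rw [Polynomial.aeval_eq_sum_range' (Nat.lt_succ_of_le hP)]
  apply bv_ge_sum
  intro i hi
  have hi' : i ≤ m := Nat.lt_succ_iff.1 (Finset.mem_range.1 hi)
  rw [Algebra.smul_def]
  have h1 : D2_ge v 0 (algebraMap K F (P.coeff i)) := Or.inr (ord_algebraMap v _).ge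
  have h2 := D2.ge_mul v h1 (bv_ge_pow v hj i)
  refine D2.ge_mono v ?_ h2
  have : (i : ℤ) ≤ m := by exact_mod_cast hi'
  nlinarith

end

theorem ge_of_relation {K F : Type*} [Field K] [Field F] [Algebra K F] (v : Place K F) (j x : F)
    (n μ : ℕ) (hμ : 0 < μ) (Q : ℕ → K[X]) (hQ : ∀ i, (Q i).natDegree ≤ n * (i + 1))
    (h : x ^ μ + ∑ i ∈ Finset.range μ, Polynomial.aeval j (Q i) * x ^ (μ - 1 - i) = 0) :
    D2_ge v ((n : ℤ) * min (v.ord j) 0) x := by
  by_contra hcon
  have hx0 : x ≠ 0 := fun h0 => hcon (Or.inl h0)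
  have hlt : v.ord x < (n : ℤ) * min (v.ord j) 0 := by
    by_contra h'
    exact hcon (Or.inr (not_lt.1 h'))
  set d : ℤ := min (v.ord j) 0 with hd
  set e : ℤ := v.ord x with he
  have hd0 : d ≤ 0 := min_le_right _ _
  have hj : D2_ge v d j := Or.inr (min_le_left _ _)
  have hS : D2_ge v (v.ord (x ^ μ) + 1)
      (∑ i ∈ Finset.range μ, Polynomial.aeval j (Q i) * x ^ (μ - 1 - i)) := by
    apply bv_ge_sum
    intro i hi
    have hi' : i < μ := Finset.mem_range.1 hi
    obtain ⟨t, ht⟩ : ∃ t, μ = i + 1 + t := ⟨μ - (i + 1), by omega⟩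
    have ht' : μ - 1 - i = t := by omega
    rw [ht', bv_ord_pow]
    have h1 := bv_ge_aeval v j d hd0 hj (Q i) _ (hQ i)
    have h2 : D2_ge v ((t : ℤ) * e) (x ^ t) := bv_ge_pow v (Or.inr le_rfl) t
    refine D2.ge_mono v ?_ (D2.ge_mul v h1 h2)
    rw [ht]
    push_cast
    have h3 : e + 1 ≤ (n : ℤ) * d := hlt
    have h4 : ((i : ℤ) + 1) * (e + 1) ≤ ((i : ℤ) + 1) * ((n : ℤ) * d) :=
      mul_le_mul_of_nonneg_left h3 (by positivity)
    have h5 : (0 : ℤ) ≤ i := by positivity
    nlinarith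
  have := D2.add_ne_zero_of_ge v (pow_ne_zero μ hx0) hS
  apply this
  rw [add_comm]
  exact h

end Fermat.Agent.S18Lib
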