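import Fermat.Agent.S18.ConjMF
import Fermat.Agent.S23.Descent
import Fermat.Prelude.Thm_ModularForm_sturm_bound_Gamma0

/-!
# S18 library, block (B), leaf (BR): a basis of `M_k(Γ₀(N))` with rational `q`-expansions
-/

set_option autoImplicit false
set_option synthInstance.maxHeartbeats 400000

open UpperHalfPlane ModularForm Matrix.SpecialLinearGroup CongruenceSubgroup
open scoped MatrixGroups Manifold ModularForm

namespace Fermat.Agent.S18Lib

open Fermat.Agent.S23Lib

noncomputable section

/-- the first `n` `q`-coefficients, as a linear map -/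
def brCoeff (N : ℕ) [NeZero N] (k : ℤ) (n : ℕ) :
    ModularForm (Gamma0 N) k →ₗ[ℂ] (Fin n → ℂ) where
  toFun f := fun i => (qExpansion 1 f).coeff i
  map_add' f g := by
    ext i
    rw [FunLike.coe_add, ModularForm.qExpansion_add one_pos (one_mem_sp N)]
    simp
  map_smul' c f := by
    ext i
    rw [FunLike.coe_smul, ModularForm.qExpansion_smul one_pos (one_mem_sp N)]
    simp

theorem br_injective (N : ℕ) [NeZero N] (k : ℤ) :
    Function.Injective (brCoeff N k ((k * (Gamma0 N).index).toNat / 12 + 1)) := by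
  rw [injective_iff_map_eq_zero]
  intro f hf
  apply ModularForm.sturm_bound_Gamma0 N f
  intro n hn
  exact congrFun hf ⟨n, Nat.lt_succ_of_le hn⟩

theorem exists_rat_basis (N : ℕ) [NeZero N] (k : ℤ) :
    ∃ b : Fin (Module.finrank ℂ (ModularForm (Gamma0 N) k)) → ModularForm (Gamma0 N) k,
      LinearIndependent ℂ b ∧
        ∀ i, ∃ s : PowerSeries ℚ, qExpansion 1 (b i) = s.map (algebraMap ℚ ℂ) := by
  set n := (k * (Gamma0 N).index).toNat / 12 + 1 with hn
  have hinj := br_injective N k
  have hfin : FiniteDimensional ℂ (ModularForm (Gamma0 N) k) :=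
    FiniteDimensional.of_injective (brCoeff N k n) hinj
  have hconj : ∀ σ : ℂ →+* ℂ, ∀ v : ModularForm (Gamma0 N) k, ∃ w : ModularForm (Gamma0 N) k,
      ∀ i, brCoeff N k n w i = σ (brCoeff N k n v i) := by
    intro σ v
    obtain ⟨w, hw⟩ := exists_conj_mf N k σ v
    refine ⟨w, fun i => ?_⟩
    show (qExpansion 1 w).coeff i = σ ((qExpansion 1 v).coeff i)
    rw [hw, PowerSeries.coeff_map]
  have hspan := span_rat_eq_top (brCoeff N k n) hinj hconj
  set S : Set (ModularForm (Gamma0 N) k) := {v | ∀ i, ∃ r : ℚ, brCoeff N k n v i = (r : ℂ)}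
    with hS
  have hrat : ∀ v ∈ S, ∃ s : PowerSeries ℚ, qExpansion 1 v = s.map (algebraMap ℚ ℂ) := by
    intro v hv
    have h1 : ∀ m, ∃ r : ℚ, (r : ℂ) = (qExpansion 1 v).coeff m := by
      intro m
      refine exists_rat_of_forall_ringHom_fixed _ ?_
      intro σ
      obtain ⟨w, hw⟩ := exists_conj_mf N k σ v
      have hwv : w = v := by
        apply hinj
        ext i
        show (qExpansion 1 w).coeff i = (qExpansion 1 v).coeff i
        rw [hw, PowerSeries.coeff_map]
        obtain ⟨r, hr⟩ := hv i
        have hr' : (qExpansion 1 v).coeff i = (r : ℂ) := hr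
        rw [hr', map_ratCast]
      rw [hwv] at hw
      have := congrArg (PowerSeries.coeff m) hw
      rw [PowerSeries.coeff_map] at this
      exact this.symm
    choose r hr using h1
    refine ⟨PowerSeries.mk r, ?_⟩
    ext m
    rw [PowerSeries.coeff_map, PowerSeries.coeff_mk, ← hr]
    rfl
  have hfin' : Module.Finite ℂ (Submodule.span ℂ S) := inferInstance
  obtain ⟨f, hfS, -, hfind⟩ := Submodule.exists_fun_fin_finrank_span_eq ℂ S
  have hcard : Module.finrank ℂ (Submodule.span ℂ S) =
      Module.finrank ℂ (ModularForm (Gamma0 N) k) := by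
    rw [hspan, finrank_top]
  refine ⟨f ∘ Fin.cast hcard.symm, hfind.comp _ (Fin.cast_injective _), fun i => ?_⟩
  exact hrat _ (hfS _)

end

end Fermat.Agent.S18Lib
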