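import Fermat.Agent.S23.Core

set_option autoImplicit false

open UpperHalfPlane ModularForm CongruenceSubgroup SlashInvariantForm
open scoped MatrixGroups Manifold ModularForm

namespace Fermat.Agent.S18Lib

open Fermat.Agent.S23Lib Fermat.Agent.S23Lib.Core

noncomputable section

variable {𝒢 : Subgroup (GL (Fin 2) ℝ)} [𝒢.IsArithmetic]

local notation "𝒬" => 𝒮ℒ ⧸ (𝒢.subgroupOf 𝒮ℒ)

theorem core_fraction_mf {k wt : ℤ} (t : ModularForm 𝒢 wt)
    (ht_ne : ∀ q : 𝒬, q ≠ ⟦1⟧ → quotientFunc t q ≠ t)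
    (f : ModularForm 𝒢 k)
    (K : ℤ → Submodule ℂ (ℍ → ℂ))
    (hmul : ∀ (w v : ℤ) (F G : ℍ → ℂ), F ∈ K w → G ∈ K v → F * G ∈ K (w + v))
    (hone : ∀ (w : ℤ) (G : ModularForm 𝒮ℒ w), (G : ℍ → ℂ) ∈ K w)
    (ht : (t : ℍ → ℂ) ∈ K wt) :
    ∃ (w : ℤ) (D : ℍ → ℂ), D ∈ K w ∧ D ≠ 0 ∧ D * f ∈ K (w + k) := by
  classical
  let _ := Fintype.ofFinite 𝒬
  set x : 𝒬 → ℍ → ℂ := fun q => quotientFunc t q with hx
  set y : 𝒬 → ℍ → ℂ := fun q => quotientFunc f q with hy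
  set i₀ : 𝒬 := ⟦1⟧ with hi₀
  have hx0 : x i₀ = t := qf_one t
  have hy0 : y i₀ = f := qf_one f
  have h1 : (1 : ℍ → ℂ) ∈ K 0 := by simpa using hone 0 1
  have hps : ∀ j : ℕ, 0 < j → ∑ q, x q ^ j ∈ K (wt * j) := by
    intro j _
    have h := hone _ (ModularForm.trace 𝒮ℒ (t.pow j))
    rw [ModularForm.coe_trace] at h
    have h2 : ∑ q : 𝒬, quotientFunc (t.pow j) q = ∑ q, x q ^ j :=
      Finset.sum_congr rfl fun q _ => qf_pow t (t.pow j) j rfl (coe_pow t j) q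
    rw [mul_comm]
    rw [← h2]
    exact h
  have hes := Alg.es_mem K hmul h1 x wt hps
  refine ⟨wt * ((Fintype.card 𝒬 : ℤ) - 1), ∏ q ∈ Finset.univ.erase i₀, (x i₀ - x q), ?_, ?_, ?_⟩
  · rw [Alg.different_eq, hx0]
    have := sum_mem K hmul h1 (c := 0) ht (Fintype.card 𝒬) (Alg.es x) hes (fun b => (t : ℍ → ℂ) ^ b)
      (fun b => by simpa using pow_mem K hmul h1 ht b)
    simpa using this
  · intro h0
    rw [UpperHalfPlane.prod_eq_zero_iff] at h0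
    · obtain ⟨q, hq, hq0⟩ := h0
      rw [Finset.mem_erase] at hq
      apply ht_ne q hq.1
      rw [← hx0]
      exact (sub_eq_zero.mp hq0).symm
    · intro q _
      exact (mdiff_qf t i₀).sub (mdiff_qf t q)
  · rw [← hy0, Alg.interpolation, hx0]
    apply sum_mem K hmul h1 ht (Fintype.card 𝒬) (Alg.es x) hes
      (fun b => ∑ q, y q * x q ^ b)
    intro b
    have h := hone _ (ModularForm.trace 𝒮ℒ (f.mul (t.pow b)))
    rw [ModularForm.coe_trace] at h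
    have h2 : ∑ q : 𝒬, quotientFunc (f.mul (t.pow b)) q = ∑ q, y q * x q ^ b :=
      Finset.sum_congr rfl fun q _ => by
        rw [qf_mul f (t.pow b) (f.mul (t.pow b)) rfl
          (ModularForm.coe_mul f (t.pow b)) q, qf_pow t (t.pow b) b rfl (coe_pow t b) q]
    rw [mul_comm wt, ← h2]
    exact h

theorem core_integral_mf {k : ℤ} (f : ModularForm 𝒢 k) :
    ∃ (μ : ℕ) (_ : 0 < μ) (a : ∀ i : ℕ, ModularForm 𝒮ℒ (k * (i + 1))),
      ∀ z, f z ^ μ + ∑ i ∈ Finset.range μ, a i z * f z ^ (μ - 1 - i) = 0 := by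
  classical
  let _ := Fintype.ofFinite 𝒬
  set y : 𝒬 → ℍ → ℂ := fun q => quotientFunc f q with hy
  set i₀ : 𝒬 := ⟦1⟧ with hi₀
  have hy0 : y i₀ = f := qf_one f
  have hps : ∀ j : ℕ, 0 < j → ∑ q, y q ^ j ∈ K1 (k * j) := by
    intro j _
    refine ⟨ModularForm.mcast (mul_comm _ _) (ModularForm.trace 𝒮ℒ (f.pow j)), ?_⟩
    rw [ModularForm.coe_mcast, ModularForm.coe_trace]
    exact Finset.sum_congr rfl fun q _ => qf_pow f (f.pow j) j rfl (coe_pow f j) q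
  have hes := Alg.es_mem K1 K1_mul ⟨1, rfl⟩ y k hps
  choose G hG using hes
  refine ⟨Fintype.card 𝒬, Fintype.card_pos_iff.mpr ⟨i₀⟩,
    fun i => ModularForm.mcast (by push_cast; ring) ((-1 : ℂ) ^ (i + 1) • G (i + 1)), ?_⟩
  intro z
  have h := congrFun (Alg.charpoly_root' y i₀) z
  rw [hy0] at h
  simp only [Pi.add_apply, Pi.pow_apply, Finset.sum_apply, Pi.mul_apply, Pi.zero_apply] at h
  rw [← h]
  congr 1
  apply Finset.sum_congr rfl
  intro i _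
  congr 1
  show (-1 : ℂ) ^ (i + 1) * (G (i + 1)) z = _
  rw [hG]
  simp

end

end Fermat.Agent.S18Lib
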