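import Fermat.Agent.S18.Bridge
import Fermat.Agent.S24.Fibres
import Fermat.Agent.S18.CoreMF
import Fermat.Agent.S28.Esymm

/-!
# S18 block (B), leaf (BI): the integral relation of `G/Δⁿ` over `ℂ[j]`
-/

set_option autoImplicit false
set_option synthInstance.maxHeartbeats 400000

open UpperHalfPlane ModularForm Matrix.SpecialLinearGroup CongruenceSubgroup ModularCurve
open AlgebraicCurve IntermediateField
open scoped MatrixGroups Manifold Polynomial
open Fermat.Agent.S20Lib Fermat.Agent.S28Lib Fermat.Agent.S24Lib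

namespace Fermat.Agent.S18Lib

noncomputable section

/-- a level one form of weight `12 m` is `Δ^m` times a polynomial of degree `≤ m` in `j`. -/
theorem bi_poly (m : ℕ) {a : ℍ → ℂ} (ha : IsMF ⊤ (12 * (m : ℤ)) a) :
    ∃ P : ℂ[X], P.natDegree ≤ m ∧ ∀ τ, a τ = P.eval (jan τ) * Dl τ ^ m := by
  obtain ⟨c, hc⟩ := levelOne_structure ⊤ m a ha (fun _ => Subring.mem_top _)
  refine ⟨∑ i ∈ Finset.range (m + 1), Polynomial.C (c i : ℂ) * Polynomial.X ^ (m - i), ?_, ?_⟩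
  · refine Polynomial.natDegree_sum_le_of_forall_le _ _ fun i _ => ?_
    exact (Polynomial.natDegree_C_mul_X_pow_le _ _).trans (Nat.sub_le _ _)
  · intro τ
    have h1 := congrFun hc τ
    rw [h1, Polynomial.eval_finsetSum, Finset.sum_mul, Finset.sum_apply]
    refine Finset.sum_congr rfl fun i hi => ?_
    have hi' : i ≤ m := Nat.lt_succ_iff.mp (Finset.mem_range.mp hi)
    have hj : jan τ * Dl τ = E4 τ ^ 3 := congrFun W7_jan_mul_Dl τ
    have e1 : Dl τ ^ m = Dl τ ^ (m - i) * Dl τ ^ i := by rw [← pow_add]; congr 1; omega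
    simp only [Pi.smul_apply, Pi.mul_apply, Pi.pow_apply, smul_eq_mul, Polynomial.eval_mul,
      Polynomial.eval_C, Polynomial.eval_pow, Polynomial.eval_X]
    rw [e1, pow_mul]
    have e2 : (E₄ : ℍ → ℂ) τ = E4 τ := rfl
    have e3 : (ModularForm.discriminant : ℍ → ℂ) τ = Dl τ := rfl
    rw [e2, e3, ← hj, mul_pow]
    ring

theorem exists_integral_relation (N : ℕ) [NeZero N] (n : ℕ) (g : ℍ → ℂ)
    (hg : IsMF (Gamma0 N) (12 * (n : ℤ)) (g * Dl ^ n)) :
    ∃ (μ : ℕ) (_ : 0 < μ) (P : ℕ → ℂ[X]), (∀ i, (P i).natDegree ≤ n * (i + 1)) ∧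
      ∀ τ, g τ ^ μ + ∑ i ∈ Finset.range μ, (P i).eval (jan τ) * g τ ^ (μ - 1 - i) = 0 := by
  obtain ⟨μ, hμ, a, ha⟩ := core_integral_mf hg.toModularForm
  have hP : ∀ i : ℕ, ∃ P : ℂ[X], P.natDegree ≤ n * (i + 1) ∧
      ∀ τ, a i τ = P.eval (jan τ) * Dl τ ^ (n * (i + 1)) := by
    intro i
    apply bi_poly
    have h1 := isMF_top_coe (a i)
    have e : 12 * (n : ℤ) * ((i : ℤ) + 1) = 12 * ((n * (i + 1) : ℕ) : ℤ) := by push_cast; ring
    generalize (a i : ℍ → ℂ) = A at h1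
    rwa [e] at h1
  choose P hPd hPe using hP
  refine ⟨μ, hμ, P, hPd, fun τ => ?_⟩
  have h1 := ha τ
  simp only [IsMF.coe_toModularForm, Pi.mul_apply, Pi.pow_apply] at h1
  have hD : Dl τ ^ (n * μ) ≠ 0 := pow_ne_zero _ (Dl_ne_zero τ)
  apply mul_right_cancel₀ hD
  rw [zero_mul, ← h1, add_mul, Finset.sum_mul]
  congr 1
  · rw [mul_pow, ← pow_mul]
  · refine Finset.sum_congr rfl fun i hi => ?_
    have hi' : i < μ := Finset.mem_range.mp hi
    rw [hPe, mul_pow, ← pow_mul]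
    have e : Dl τ ^ (n * μ) = Dl τ ^ (n * (i + 1)) * Dl τ ^ (n * (μ - 1 - i)) := by
      rw [← pow_add, ← mul_add]; congr 2; omega
    rw [e]; ring

end

end Fermat.Agent.S18Lib
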