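import Fermat.Agent.S18.Bridge
import Fermat.Agent.S24.Fibres
import Fermat.Agent.S18.IntRel

/-!
# S18 block (B), leaf (BQ): the integral relation of `G/Δⁿ` over `ℚ̄[j]`
-/

set_option autoImplicit false
set_option synthInstance.maxHeartbeats 400000

open UpperHalfPlane ModularForm Matrix.SpecialLinearGroup CongruenceSubgroup ModularCurve
open AlgebraicCurve IntermediateField
open scoped MatrixGroups Manifold Polynomial
open Fermat.Agent.S20Lib Fermat.Agent.S28Lib Fermat.Agent.S24Lib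

namespace Fermat.Agent.S18Lib

noncomputable section

/-- an additive retraction `ψ` of `ι : ℚ̄ → ℂ` which is `ℚ̄`-linear -/
theorem bq_exists_retraction :
    ∃ ψ : ℂ →+ Qb, (∀ a : Qb, ψ (iotaC a) = a) ∧ ∀ (p : ℂ) (a : Qb), ψ (p * iotaC a) = ψ p * a := by
  let _ : Algebra Qb ℂ := iotaC.toAlgebra
  obtain ⟨ψ, hψ⟩ := LinearMap.exists_leftInverse_of_injective (Algebra.linearMap Qb ℂ)
    (LinearMap.ker_eq_bot.mpr iotaC.injective)
  refine ⟨ψ.toAddMonoidHom, fun a => ?_, fun p a => ?_⟩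
  · exact LinearMap.congr_fun hψ a
  · have h1 : p * iotaC a = a • p := by
      rw [Algebra.smul_def, mul_comm]; rfl
    show ψ (p * iotaC a) = ψ p * a
    rw [h1, map_smul, smul_eq_mul, mul_comm]

/-- coefficientwise application of `ψ` to a polynomial -/
def bqMap (ψ : ℂ →+ Qb) (P : ℂ[X]) : Qb[X] :=
  ∑ a ∈ Finset.range (P.natDegree + 1), Polynomial.C (ψ (P.coeff a)) * Polynomial.X ^ a

theorem bq_natDegree_le (ψ : ℂ →+ Qb) (P : ℂ[X]) : (bqMap ψ P).natDegree ≤ P.natDegree := by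
  unfold bqMap
  refine Polynomial.natDegree_sum_le_of_forall_le _ _ fun a ha => ?_
  exact (Polynomial.natDegree_C_mul_X_pow_le _ _).trans
    (Nat.lt_succ_iff.mp (Finset.mem_range.mp ha))

theorem bq_coeff (ψ : ℂ →+ Qb) (h2 : ∀ (p : ℂ) (a : Qb), ψ (p * iotaC a) = ψ p * a)
    (P : ℂ[X]) (w : LaurentSeries Qb) (m : ℤ) :
    ψ ((P.eval₂ (HahnSeries.C : ℂ →+* LaurentSeries ℂ) (coeffMap iotaC W7_jE) *
      coeffMap iotaC w).coeff m) = (Polynomial.aeval W7_jE (bqMap ψ P) * w).coeff m := by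
  rw [Polynomial.eval₂_eq_sum_range, Finset.sum_mul, HahnSeries.coeff_sum, map_sum, bqMap, map_sum,
    Finset.sum_mul, HahnSeries.coeff_sum]
  refine Finset.sum_congr rfl fun a _ => ?_
  rw [map_mul, Polynomial.aeval_C, map_pow, Polynomial.aeval_X, mul_assoc, mul_assoc,
    W7_coeff_algebraMap_mul, ← map_pow, ← map_mul, HahnSeries.C_mul_eq_smul, HahnSeries.coeff_smul,
    smul_eq_mul, coeffMap_coeff, h2]

theorem exists_relation_Qb (N : ℕ) [NeZero N] (n : ℕ) (x : LaurentSeries Qb) (hx : W7_Rep N n x) :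
    ∃ (μ : ℕ) (_ : 0 < μ) (Q : ℕ → Qb[X]), (∀ i, (Q i).natDegree ≤ n * (i + 1)) ∧
      x ^ μ + ∑ i ∈ Finset.range μ, Polynomial.aeval W7_jE (Q i) * x ^ (μ - 1 - i) = 0 := by
  obtain ⟨g, hWH, e, hMF⟩ := hx
  obtain ⟨μ, hμ, P, hPd, hP⟩ := exists_integral_relation N n g hMF
  obtain ⟨ψ, h1, h2⟩ := bq_exists_retraction
  refine ⟨μ, hμ, fun i => bqMap ψ (P i), fun i => (bq_natDegree_le ψ (P i)).trans (hPd i), ?_⟩
  -- the relation in the ring `WH`
  set G : WH (Gamma0 N) := ⟨g, hWH⟩ with hG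
  set J : WH (Gamma0 N) := ⟨jan, isWH_jan.mono le_top⟩ with hJ
  have hev : ∀ (p : ℂ[X]) (τ : ℍ), ((p.eval₂ (whConst (Gamma0 N)) J : WH (Gamma0 N)) : ℍ → ℂ) τ =
      p.eval (jan τ) := by
    intro p τ
    let evτ : WH (Gamma0 N) →+* ℂ := (Pi.evalRingHom (fun _ : ℍ => ℂ) τ).comp (WH (Gamma0 N)).subtype
    have h3 := Polynomial.hom_eval₂ p (whConst (Gamma0 N)) evτ J
    have h4 : evτ.comp (whConst (Gamma0 N)) = RingHom.id ℂ := by
      ext c; rfl
    rw [h4] at h3
    exact h3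
  have hrel : G ^ μ + ∑ i ∈ Finset.range μ, (P i).eval₂ (whConst (Gamma0 N)) J * G ^ (μ - 1 - i) = 0 := by
    apply Subtype.ext
    funext τ
    have h3 := hP τ
    simp only [Subring.coe_add, Subring.coe_pow, AddSubmonoidClass.coe_finsetSum, Subring.coe_mul,
      Pi.add_apply, Pi.pow_apply, Finset.sum_apply, Pi.mul_apply, hev, ZeroMemClass.coe_zero,
      Pi.zero_apply]
    exact h3
  have hrel2 := congrArg (W6_laurHom N) hrel
  have hC : (W6_laurHom N).comp (whConst (Gamma0 N)) = (HahnSeries.C : ℂ →+* LaurentSeries ℂ) := by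
    ext1 c
    exact laurentFun_const one_pos c
  have hJ' : W6_laurHom N J = coeffMap iotaC W7_jE := by
    obtain ⟨-, -, e', -⟩ : True ∧ True ∧ laurentFun 1 jan = coeffMap iotaC W7_jE ∧ True := by
      refine ⟨trivial, trivial, ?_, trivial⟩
      rw [← janD_one, laurentFun_janD, W7_jE, W6_coeffMap_iotaC_coeffEmb]
    exact e'
  have hG' : W6_laurHom N G = coeffMap iotaC x := e
  simp only [map_add, map_pow, map_sum, map_mul, map_zero, Polynomial.hom_eval₂, hC, hJ', hG']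
    at hrel2
  ext m
  have h5 := congrArg (fun z : LaurentSeries ℂ => ψ (z.coeff m)) hrel2
  simp only [HahnSeries.coeff_add, HahnSeries.coeff_sum, map_add, map_sum, HahnSeries.coeff_zero,
    map_zero, ← map_pow] at h5
  rw [HahnSeries.coeff_add, HahnSeries.coeff_sum, HahnSeries.coeff_zero, ← h5]
  congr 1
  · rw [coeffMap_coeff, h1]
  · refine Finset.sum_congr rfl fun i _ => ?_
    exact (bq_coeff ψ h2 (P i) _ m).symm

end

end Fermat.Agent.S18Lib
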