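import Fermat.Agent.S18.Bridge
import Fermat.Agent.S18.DimFormula
import Fermat.Agent.S18.RatBasis
import Fermat.Agent.S18.RelQb
import Fermat.Agent.S18.MemFB
import Fermat.Agent.S18.OrdRel
import Fermat.Agent.Lib.FF.Riemann
import Fermat.Agent.S24.Fibres

/-!
# S18 block (B): Riemann's inequality for the function field of `X₀(M)` over `ℚ̄` with
`g = dim S₂(Γ₀(M))`.
-/

set_option autoImplicit false
set_option synthInstance.maxHeartbeats 400000

open UpperHalfPlane ModularForm Matrix.SpecialLinearGroup CongruenceSubgroup ModularCurve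
open AlgebraicCurve IntermediateField
open scoped MatrixGroups Manifold Polynomial
open Fermat.Agent.S20Lib Fermat.Agent.S28Lib Fermat.Agent.S24Lib

namespace Fermat.Agent.S18Lib

noncomputable section

/-- a function `g` with `g Δⁿ` a modular form of weight `12 n` is weakly holomorphic -/
theorem bl_isWH {Γ : Subgroup SL(2, ℤ)} {n : ℕ} {g : ℍ → ℂ}
    (hg : IsMF Γ (12 * (n : ℤ)) (g * Dl ^ n)) : IsWH Γ g := by
  have hD : IsMF ⊤ (12 * (n : ℤ)) (Dl ^ n) := by
    have := SeparatingAux.isMF_pow isMF_Dl n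
    rwa [mul_comm] at this
  have hsl : ∀ γ : SL(2, ℤ), (g * Dl ^ n) ∣[(12 * n : ℤ)] γ = (g ∣[(0 : ℤ)] γ) * Dl ^ n := by
    intro γ
    have := mul_slash_SL2 0 (12 * n) γ g (Dl ^ n)
    rw [zero_add, hD.top_slash] at this
    exact this
  have hne : ∀ τ, (Dl ^ n) τ ≠ 0 := fun τ => pow_ne_zero _ (Dl_ne_zero τ)
  have hgeq : g = (g * Dl ^ n) / Dl ^ n := by
    ext τ
    simp only [Pi.div_apply, Pi.mul_apply]
    rw [mul_div_cancel_right₀ _ (hne τ)]
  refine ⟨?_, ?_, n, ?_⟩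
  · rw [hgeq]
    exact hg.holo.div hD.holo hne
  · intro γ hγ
    have h1 := hg.inv γ hγ
    rw [hsl] at h1
    ext τ
    have h2 := congrFun h1 τ
    simp only [Pi.mul_apply] at h2
    exact mul_right_cancel₀ (hne τ) h2
  · intro γ
    rw [← hsl]
    exact hg.bdd γ

/-- the Laurent series over `ℚ̄` attached to a power series over `ℚ`, divided by `Δⁿ` -/
def blX (n : ℕ) (s : PowerSeries ℚ) : LaurentSeries Qb :=
  HahnSeries.ofPowerSeries ℤ Qb (s.map (algebraMap ℚ Qb)) / W7_DK ^ n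

theorem bl_DK_ne_zero : W7_DK ≠ 0 := by
  intro h
  have h1 := W7_coeffMap_DK
  rw [h, map_zero] at h1
  exact W1_d_ne_zero one_pos (by simpa using h1.symm)

theorem bl_iotaC_algebraMap (r : ℚ) : iotaC (algebraMap ℚ Qb r) = algebraMap ℚ ℂ r := by
  simp

theorem bl_coeffMap_ofPS (s : PowerSeries ℚ) :
    coeffMap iotaC (HahnSeries.ofPowerSeries ℤ Qb (s.map (algebraMap ℚ Qb))) =
      HahnSeries.ofPowerSeries ℤ ℂ (s.map (algebraMap ℚ ℂ)) := by
  rw [W7_coeffMap_ofPowerSeries]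
  congr 1
  ext m
  simp only [PowerSeries.coeff_map]
  exact bl_iotaC_algebraMap _

theorem bl_Rep (M : ℕ) [NeZero M] (n : ℕ) (f : ModularForm (Gamma0 M) (12 * n))
    (s : PowerSeries ℚ) (hs : qExpansion 1 f = s.map (algebraMap ℚ ℂ)) :
    ∃ g : ℍ → ℂ, IsWH (Gamma0 M) g ∧ laurentFun 1 g = coeffMap iotaC (blX n s) ∧
      g * Dl ^ n = f := by
  have hne : ∀ τ, (Dl ^ n) τ ≠ 0 := fun τ => pow_ne_zero _ (Dl_ne_zero τ)
  have hgf : ((f : ℍ → ℂ) / Dl ^ n) * Dl ^ n = f := by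
    ext τ
    simp only [Pi.div_apply, Pi.mul_apply]
    rw [div_mul_cancel₀ _ (hne τ)]
  have hmf : IsMF (Gamma0 M) (12 * (n : ℤ)) (((f : ℍ → ℂ) / Dl ^ n) * Dl ^ n) := by
    rw [hgf]; exact isMF_coe _ f
  have hwh := bl_isWH hmf
  refine ⟨(f : ℍ → ℂ) / Dl ^ n, hwh, ?_, hgf⟩
  have hb : IsBoundedAtImInfty (((f : ℍ → ℂ) / Dl ^ n) * Dl ^ n) := by simpa using hmf.bdd 1
  have h1 := laurentFun_mul_pow one_pos hwh.isMerInf_one hb
  rw [hgf, Nat.cast_one, hs, ← bl_coeffMap_ofPS, ← W7_coeffMap_DK, ← map_pow] at h1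
  have hD0 : coeffMap iotaC (W7_DK ^ n) ≠ 0 := by
    rw [Ne, map_eq_zero_iff _ W7_coeffMap_injective]
    exact pow_ne_zero _ bl_DK_ne_zero
  rw [blX, map_div₀, eq_div_iff hD0]
  exact h1

theorem bl_W7_Rep (M : ℕ) [NeZero M] (n : ℕ) (f : ModularForm (Gamma0 M) (12 * n))
    (s : PowerSeries ℚ) (hs : qExpansion 1 f = s.map (algebraMap ℚ ℂ)) :
    W7_Rep M n (blX n s) := by
  obtain ⟨g, h1, h2, h3⟩ := bl_Rep M n f s hs
  exact ⟨g, h1, h2, by rw [h3]; exact isMF_coe _ f⟩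

theorem bl_coe_aeval (N : ℕ) (p : Qb[X]) :
    ((Polynomial.aeval (jBar N) p : FB N) : LaurentSeries Qb) = Polynomial.aeval W7_jE p :=
  (Polynomial.aeval_algHom_apply (FB N).val (jBar N) p).symm

/-- membership in `L(n (j)_∞)` -/
theorem bl_mem_L (M : ℕ) [NeZero M] (n : ℕ) (x : LaurentSeries Qb) (hx : W7_Rep M n x)
    (hmem : x ∈ FB M) :
    (⟨x, hmem⟩ : FB M) ∈ riemannRochSpace (n • FFLib.poleDiv Qb (jBar M)) := by
  rw [FFLib.mem_L_iff]
  intro v
  obtain ⟨μ, hμ, Q, hQ, hrel⟩ := exists_relation_Qb M n x hx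
  have hrel' : (⟨x, hmem⟩ : FB M) ^ μ + ∑ i ∈ Finset.range μ,
      Polynomial.aeval (jBar M) (Q i) * (⟨x, hmem⟩ : FB M) ^ (μ - 1 - i) = 0 := by
    apply (FB M).val.toRingHom.injective
    rw [map_zero, ← hrel, map_add, map_sum, map_pow]
    congr 1
    refine Finset.sum_congr rfl fun i _ => ?_
    rw [map_mul, map_pow]
    congr 1
    exact bl_coe_aeval M (Q i)
  have h := ge_of_relation v (jBar M) (⟨x, hmem⟩ : FB M) n μ hμ Q hQ hrel'
  have e : -(n • FFLib.poleDiv Qb (jBar M)) v = (n : ℤ) * min (v.ord (jBar M)) 0 := by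
    rw [Finsupp.smul_apply, FFLib.poleDiv_apply (isFF_bar M), nsmul_eq_mul, ← mul_neg]
    congr 1
    rcases le_total (v.ord (jBar M)) 0 with h0 | h0
    · rw [min_eq_left h0, max_eq_left (by omega)]; ring
    · rw [min_eq_right h0, max_eq_right (by omega)]; ring
  rw [e]
  exact h

theorem finrank_le_ell (M : ℕ) [NeZero M] (n : ℕ) :
    Module.finrank ℂ (ModularForm (Gamma0 M) (12 * n)) ≤
      FFLib.ell (n • FFLib.poleDiv Qb (jBar M)) := by
  obtain ⟨b, hb, hs⟩ := exists_rat_basis M (12 * n)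
  choose s hs using hs
  have hRep : ∀ i, W7_Rep M n (blX n (s i)) := fun i => bl_W7_Rep M n (b i) (s i) (hs i)
  have hmem : ∀ i, blX n (s i) ∈ FB M := fun i => mem_FB_of_Rep M n _ (hRep i)
  have hL : ∀ i, (⟨blX n (s i), hmem i⟩ : FB M) ∈
      riemannRochSpace (n • FFLib.poleDiv Qb (jBar M)) := fun i => bl_mem_L M n _ (hRep i) (hmem i)
  let y : Fin (Module.finrank ℂ (ModularForm (Gamma0 M) (12 * n))) →
      riemannRochSpace (n • FFLib.poleDiv Qb (jBar M)) := fun i => ⟨⟨blX n (s i), hmem i⟩, hL i⟩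
  have hy : LinearIndependent Qb y := by
    rw [Fintype.linearIndependent_iff]
    intro c hc i
    -- push the relation to Laurent series over `ℚ̄`
    have h1 : ∑ i, algebraMap Qb (LaurentSeries Qb) (c i) * blX n (s i) = 0 := by
      have h := congrArg (fun z : riemannRochSpace (n • FFLib.poleDiv Qb (jBar M)) =>
        (((z : FB M)) : LaurentSeries Qb)) hc
      simp only [Submodule.coe_sum, Submodule.coe_smul, ZeroMemClass.coe_zero] at h
      rw [← h]
      rw [AddSubmonoidClass.coe_finsetSum]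
      refine Finset.sum_congr rfl fun i _ => ?_
      rw [IntermediateField.coe_smul, Algebra.smul_def]
    choose g hgWH hgL hgb using fun i => bl_Rep M n (b i) (s i) (hs i)
    have h2 : W6_laurHom M (∑ i, whConst (Gamma0 M) (iotaC (c i)) * ⟨g i, hgWH i⟩) = 0 := by
      rw [map_sum]
      have h := congrArg (coeffMap iotaC) h1
      rw [map_sum, map_zero] at h
      rw [← h]
      refine Finset.sum_congr rfl fun i _ => ?_
      rw [map_mul, map_mul, W6_coeffMap_iotaC_algebraMap, ← hgL i, W6_laurHom_apply,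
        W6_laurHom_apply]
      congr 1
      exact laurentFun_const one_pos _
    have h3 : (∑ i, whConst (Gamma0 M) (iotaC (c i)) * ⟨g i, hgWH i⟩ : WH (Gamma0 M)) = 0 :=
      (map_eq_zero_iff _ (W6_laurHom_injective M)).mp h2
    have h4 : ∑ i, iotaC (c i) • b i = 0 := by
      ext τ
      have h := congrFun (congrArg Subtype.val h3) τ
      simp only [AddSubmonoidClass.coe_finsetSum, Finset.sum_apply] at h
      have h5 : ∑ i, iotaC (c i) * g i τ = 0 := h
      have h6 : ∀ i, b i τ = g i τ * Dl τ ^ n := fun i => by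
        rw [← hgb i]; rfl
      have hcoe : ((∑ i, iotaC (c i) • b i : ModularForm (Gamma0 M) (12 * n)) : ℍ → ℂ) =
          ∑ i, iotaC (c i) • (b i : ℍ → ℂ) := by
        rw [← FunLike.coeAddMonoidHom_apply, map_sum]; rfl
      rw [hcoe]
      simp only [Finset.sum_apply, Pi.smul_apply, smul_eq_mul, h6]
      calc ∑ i, iotaC (c i) * (g i τ * Dl τ ^ n) = (∑ i, iotaC (c i) * g i τ) * Dl τ ^ n := by
            rw [Finset.sum_mul]; exact Finset.sum_congr rfl fun i _ => by ring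
        _ = 0 := by rw [h5, zero_mul]
    have h7 := Fintype.linearIndependent_iff.mp hb _ h4 i
    exact (map_eq_zero iotaC).mp h7
  have := FFLib.finiteDimensional_L (isFF_bar M) (n • FFLib.poleDiv Qb (jBar M))
  have h := hy.fintype_card_le_finrank
  rwa [Fintype.card_fin] at h

theorem isFF_FB (M : ℕ) [NeZero M] : IsFF Qb (FB M) := isFF_bar M

theorem riemann_lower (M : ℕ) [NeZero M] (E : Divisor Qb (FB M)) :
    Divisor.degree E + 1 - (Module.finrank ℂ (CuspForm (Gamma0 M) 2) : ℤ) ≤ ell E := by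
  have hFF := isFF_bar M
  obtain ⟨c, hc⟩ := FFLib.riemann_equality hFF
  have hψ : 0 < (Gamma0 M).index := Nat.pos_of_ne_zero (Subgroup.FiniteIndex.index_ne_zero)
  set n : ℕ := c.toNat + 1 with hn
  have hdeg : Divisor.degree (n • FFLib.poleDiv Qb (jBar M)) = (n : ℤ) * ((Gamma0 M).index : ℤ) := by
    rw [map_nsmul, FFLib.degree_poleDiv hFF (transcendental_jBar M), finrank_eq_index,
      nsmul_eq_mul]
  have hcn : c ≤ Divisor.degree (n • FFLib.poleDiv Qb (jBar M)) := by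
    rw [hdeg]
    have h1 : c ≤ (n : ℤ) := by rw [hn]; push_cast; have := Int.self_le_toNat c; omega
    have h2 : (1 : ℤ) ≤ ((Gamma0 M).index : ℤ) := by exact_mod_cast hψ
    nlinarith
  have h1 := hc _ hcn
  have h2 := finrank_le_ell M n
  have h3 := finrank_M12n_add M n (by omega)
  rw [← index_Gamma0] at h3
  have h4 := FFLib.riemann_inequality hFF E
  rw [ell_eq_ell]
  rw [hdeg] at h1
  have h5 : (Module.finrank ℂ (ModularForm (Gamma0 M) (12 * n)) : ℤ) +
      (Module.finrank ℂ (CuspForm (Gamma0 M) 2) : ℤ) = (n : ℤ) * ((Gamma0 M).index : ℤ) + 1 := by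
    exact_mod_cast h3
  have h6 : (Module.finrank ℂ (ModularForm (Gamma0 M) (12 * n)) : ℤ) ≤
      (FFLib.ell (n • FFLib.poleDiv Qb (jBar M)) : ℤ) := by exact_mod_cast h2
  linarith

end

end Fermat.Agent.S18Lib
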