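import Mathlib
import Fermat.Prelude.Def_ModularCurve_ReductionModL
import Fermat.Prelude.Def_EllipticCurve_FrobeniusTrace
import Fermat.Agent.S24.AlgDefs

/-!
# S18 library: basic definitions

* `InL E f`, `LSpace E` : the Riemann-Roch space of a divisor of a function field `F/K`
* `RedData A resK F Ft` : a valued function field `(F, O)` over a valued field `(K, A)` together
  with an identification of the residue fields with `k` and `Ft`.
* `IsQRed A M R` : compatibility of a `RedData` on the function field of `X₀(M)` with reduction of
  `q`-expansions.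
-/

set_option autoImplicit false

open AlgebraicCurve

namespace Fermat.Agent.S18Lib

open Fermat.Agent.S24Lib

section LSpace

variable {K F : Type*} [Field K] [Field F] [Algebra K F]

/-- membership predicate of the Riemann-Roch space `L(E) = {f | f = 0 ∨ div f + E ≥ 0}` -/
def InL (E : Divisor K F) (f : F) : Prop := f = 0 ∨ ∀ v : Place K F, 0 ≤ v.ord f + E v

/-- the Riemann-Roch space (the set `{f | InL E f}` is already a subspace: `mem_LSpace`) -/
def LSpace (E : Divisor K F) : Submodule K F := Submodule.span K {f | InL E f}

/-- `ℓ(E)` -/
noncomputable def ell (E : Divisor K F) : ℤ := (Module.finrank K (LSpace E) : ℤ)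

end LSpace

/-- A valued function field `(F, O)` over a valued field `(K, A)`, with residue fields identified
with `k` (via `resK`) and `Ft` (via `red`). -/
structure RedData {K k : Type*} [Field K] [Field k] (A : ValuationSubring K) (resK : A →+* k)
    (F Ft : Type*) [Field F] [Algebra K F] [Field Ft] [Algebra k Ft] where
  /-- valuation ring of the function field -/
  O : ValuationSubring F
  /-- residue map on functions -/
  red : O →+* Ft
  red_surjective : Function.Surjective red
  /-- the kernel of `red` is the maximal ideal -/
  isUnit_of_red_ne_zero : ∀ x : O, red x ≠ 0 → IsUnit x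
  /-- `O ∩ K = A` -/
  algebraMap_mem_iff : ∀ a : K, algebraMap K F a ∈ O ↔ a ∈ A
  /-- compatibility of the two residue maps -/
  red_algebraMap : ∀ (a : A) (h : algebraMap K F (a : K) ∈ O),
    red ⟨algebraMap K F (a : K), h⟩ = algebraMap k Ft (resK a)
  /-- same value group: every nonzero function is a constant times a unit of `O` -/
  exists_scale : ∀ x : F, x ≠ 0 → ∃ c : K, c ≠ 0 ∧ ∃ y : Oˣ, x = algebraMap K F c * ((y : O) : F)
  /-- no defect: `k`-independent reductions exist in every finite dimensional `K`-subspace -/
  exists_orth : ∀ U : Submodule K F, FiniteDimensional K U →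
    ∃ b : Fin (Module.finrank K U) → O, (∀ i, ((b i : O) : F) ∈ U) ∧
      LinearIndependent k (fun i => red (b i))

section Modular

open ModularCurve

set_option synthInstance.maxHeartbeats 400000

/-- `ℚ̄` -/
abbrev Qb : Type := AlgebraicClosure ℚ

/-- residue field of a valuation ring of `ℚ̄` -/
abbrev kk (A : ValuationSubring Qb) : Type := IsLocalRing.ResidueField A

/-- the function field of `X₀(M)` over `ℚ̄` -/
noncomputable abbrev FB (M : ℕ) : IntermediateField Qb (LaurentSeries Qb) := modularFunctionFieldBar M

/-- the function field of `X₀(M)` over the residue field -/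
noncomputable abbrev FT (A : ValuationSubring Qb) (M : ℕ) : IntermediateField (kk A) (LaurentSeries (kk A)) :=
  modularFunctionFieldFullC (kk A) M

/-- compatibility of a `RedData` on the function field of `X₀(M)` with reduction of
`q`-expansions -/
structure IsQRed (A : ValuationSubring Qb) (M : ℕ)
    (R : RedData A (IsLocalRing.residue A) (FB M) (FT A M)) : Prop where
  /-- an element of `F` whose `q`-expansion has coefficients in `A` lies in `O` and `red` reduces
  its coefficients -/
  int : ∀ (y : LaurentSeries A) (hy : coeffMap A.subtype y ∈ FB M),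
    ∃ h : (⟨coeffMap A.subtype y, hy⟩ : FB M) ∈ R.O,
      ((R.red ⟨⟨coeffMap A.subtype y, hy⟩, h⟩ : FT A M) : LaurentSeries (kk A)) =
        coeffMap (IsLocalRing.residue A) y
  /-- every element of `O` is a fraction of such elements -/
  frac : ∀ x : R.O, ∃ (y₁ y₂ : LaurentSeries A) (h₁ : coeffMap A.subtype y₁ ∈ FB M)
    (h₂ : coeffMap A.subtype y₂ ∈ FB M), coeffMap (IsLocalRing.residue A) y₂ ≠ 0 ∧
      ((x : R.O) : FB M) * ⟨coeffMap A.subtype y₂, h₂⟩ = ⟨coeffMap A.subtype y₁, h₁⟩

end Modular

end Fermat.Agent.S18Lib
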