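import Fermat.Agent.S18.Defs

/-!
# S18 library, (D3): transfer between `RedData` and fractions of integral `q`-expansions
-/

set_option autoImplicit false
set_option synthInstance.maxHeartbeats 400000

open AlgebraicCurve ModularCurve

namespace Fermat.Agent.S18Lib

theorem red_of_frac {A : ValuationSubring Qb} {M : ℕ}
    {R : RedData A (IsLocalRing.residue A) (FB M) (FT A M)} (hR : IsQRed A M R)
    (x : FB M) (y₁ y₂ : LaurentSeries A) (h₁ : coeffMap A.subtype y₁ ∈ FB M)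
    (h₂ : coeffMap A.subtype y₂ ∈ FB M) (hne : coeffMap (IsLocalRing.residue A) y₂ ≠ 0)
    (hx : x * ⟨coeffMap A.subtype y₂, h₂⟩ = ⟨coeffMap A.subtype y₁, h₁⟩) :
    ∃ h : x ∈ R.O, ((R.red ⟨x, h⟩ : FT A M) : LaurentSeries (kk A)) *
      coeffMap (IsLocalRing.residue A) y₂ = coeffMap (IsLocalRing.residue A) y₁ := by
  obtain ⟨m₁, e₁⟩ := hR.int y₁ h₁
  obtain ⟨m₂, e₂⟩ := hR.int y₂ h₂
  have hne' : R.red ⟨⟨coeffMap A.subtype y₂, h₂⟩, m₂⟩ ≠ 0 := by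
    intro h0
    apply hne
    rw [← e₂, h0]
    rfl
  obtain ⟨v, hv⟩ := R.isUnit_of_red_ne_zero _ hne'
  have hv0 : (⟨coeffMap A.subtype y₂, h₂⟩ : FB M) ≠ 0 := by
    intro h0
    apply hne'
    have : (⟨⟨coeffMap A.subtype y₂, h₂⟩, m₂⟩ : R.O) = 0 := Subtype.ext h0
    rw [this, map_zero]
  have hxe : x = (((⟨⟨coeffMap A.subtype y₁, h₁⟩, m₁⟩ : R.O) * ((v⁻¹ : R.Oˣ) : R.O) : R.O) : FB M) := by
    have h1 : (((v : R.O) * ((v⁻¹ : R.Oˣ) : R.O) : R.O) : FB M) = 1 := by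
      rw [Units.mul_inv]; rfl
    rw [hv] at h1
    have h2 : (⟨coeffMap A.subtype y₂, h₂⟩ : FB M) * ((((v⁻¹ : R.Oˣ) : R.O)) : FB M) = 1 := h1
    have h3 : (((⟨⟨coeffMap A.subtype y₁, h₁⟩, m₁⟩ : R.O) * ((v⁻¹ : R.Oˣ) : R.O) : R.O) : FB M)
        = (⟨coeffMap A.subtype y₁, h₁⟩ : FB M) * ((((v⁻¹ : R.Oˣ) : R.O)) : FB M) := rfl
    rw [h3, ← hx, mul_assoc, h2, mul_one]
  have hmem : x ∈ R.O := by
    rw [hxe]; exact Subtype.property _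
  refine ⟨hmem, ?_⟩
  have hmul : (⟨x, hmem⟩ : R.O) * ⟨⟨coeffMap A.subtype y₂, h₂⟩, m₂⟩
      = ⟨⟨coeffMap A.subtype y₁, h₁⟩, m₁⟩ := Subtype.ext hx
  have := congrArg (fun z => ((R.red z : FT A M) : LaurentSeries (kk A))) hmul
  simp only [map_mul] at this
  rw [← e₁, ← e₂, ← this]
  rfl

theorem exists_frac_of_red_eq_one {A : ValuationSubring Qb} {N : ℕ}
    {R : RedData A (IsLocalRing.residue A) (FB N) (FT A N)} (hR : IsQRed A N R)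
    (u : R.O) (hu : R.red u = 1) :
    ∃ (y₁ y₂ : LaurentSeries A) (h₁ : coeffMap A.subtype y₁ ∈ FB N)
      (h₂ : coeffMap A.subtype y₂ ∈ FB N), coeffMap (IsLocalRing.residue A) y₂ ≠ 0 ∧
      coeffMap (IsLocalRing.residue A) y₁ = coeffMap (IsLocalRing.residue A) y₂ ∧
      ((u : R.O) : FB N) * ⟨coeffMap A.subtype y₂, h₂⟩ = ⟨coeffMap A.subtype y₁, h₁⟩ := by
  obtain ⟨y₁, y₂, h₁, h₂, hne, hx⟩ := hR.frac u
  refine ⟨y₁, y₂, h₁, h₂, hne, ?_, hx⟩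
  obtain ⟨h, e⟩ := red_of_frac hR _ y₁ y₂ h₁ h₂ hne hx
  have : (⟨(u : FB N), h⟩ : R.O) = u := rfl
  rw [this, hu] at e
  rw [← e]
  exact one_mul (coeffMap (IsLocalRing.residue A) y₂)

/-- the same with an arbitrary (nonzero) reduction -/
theorem exists_frac {A : ValuationSubring Qb} {N : ℕ}
    {R : RedData A (IsLocalRing.residue A) (FB N) (FT A N)} (hR : IsQRed A N R) (u : R.O) :
    ∃ (y₁ y₂ : LaurentSeries A) (h₁ : coeffMap A.subtype y₁ ∈ FB N)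
      (h₂ : coeffMap A.subtype y₂ ∈ FB N), coeffMap (IsLocalRing.residue A) y₂ ≠ 0 ∧
      ((R.red u : FT A N) : LaurentSeries (kk A)) * coeffMap (IsLocalRing.residue A) y₂ =
        coeffMap (IsLocalRing.residue A) y₁ ∧
      ((u : R.O) : FB N) * ⟨coeffMap A.subtype y₂, h₂⟩ = ⟨coeffMap A.subtype y₁, h₁⟩ := by
  obtain ⟨y₁, y₂, h₁, h₂, hne, hx⟩ := hR.frac u
  refine ⟨y₁, y₂, h₁, h₂, hne, ?_, hx⟩
  obtain ⟨h, e⟩ := red_of_frac hR _ y₁ y₂ h₁ h₂ hne hx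
  exact e

end Fermat.Agent.S18Lib
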