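import Fermat.Agent.S18.Bridge
import Fermat.Agent.S24.Fibres
import Fermat.Agent.S24.RiemannHurwitz
import Fermat.Prelude.Def_AlgebraicCurve_DivisorPushPull

/-!
# S18 (D1): descent of `r`-th powers along an extension of degree prime to `r`
-/

set_option autoImplicit false
set_option synthInstance.maxHeartbeats 400000

open AlgebraicCurve ModularCurve CongruenceSubgroup

namespace Fermat.Agent.S18Lib

open Fermat.Agent.S24Lib

/-- a function without zeros and poles is constant -/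
theorem D1_mem_range_of_ord_eq_zero {K F : Type*} [Field K] [IsAlgClosed K] [CharZero K]
    [Field F] [Algebra K F] (hF : IsFF K F) (c : F) (hc : ∀ P : Place K F, P.ord c = 0) :
    c ∈ (algebraMap K F).range := by
  by_contra hr
  have hy := transcendental_of_not_mem_range hr
  have hsum := sum_ord_zerosOf hF hy
  have h0 : ∑ᶠ v ∈ zerosOf K c, v.ord c = 0 := by
    apply finsum_eq_zero_of_forall_eq_zero
    intro v
    rw [hc v]
    exact finsum_zero
  rw [h0] at hsum
  have := IsFF.finiteDimensional hF hy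
  have hpos : 0 < Module.finrank (IntermediateField.adjoin K {c}) F := Module.finrank_pos
  omega

theorem exists_pow_eq_of_coprime_finrank {K F₁ F₂ : Type*} [Field K] [IsAlgClosed K] [CharZero K]
    [Field F₁] [Field F₂] [Algebra K F₁] [Algebra K F₂] [Algebra F₁ F₂] [IsScalarTower K F₁ F₂]
    [FiniteDimensional F₁ F₂] (hF₂ : IsFF K F₂) (r : ℕ) (hr : r.Prime)
    (hrd : ¬ r ∣ Module.finrank F₁ F₂) (u : F₁) (hu : u ≠ 0) (D : Divisor K F₁)
    (hD : ∀ P : Place K F₁, P.ord u = r * D P)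
    (H : ∀ D₂ : Divisor K F₂, (∀ P' : Place K F₂, P'.ord (algebraMap F₁ F₂ u) = r * D₂ P') →
      Divisor.IsPrincipal D₂) :
    ∃ w : F₁, w ^ r = u := by
  have hr0 : (r : ℤ) ≠ 0 := by exact_mod_cast hr.ne_zero
  have hu2 : algebraMap F₁ F₂ u ≠ 0 := by simpa using hu
  -- (i)
  have h1 : ∀ P' : Place K F₂, (r : ℤ) ∣ P'.ord (algebraMap F₁ F₂ u) := by
    intro P'
    rw [Place.ord_restrict (F := F₁) P' u, hD]
    exact ⟨(Place.ramificationIndex (F := F₁) P' : ℤ) * D (P'.restrict F₁), by ring⟩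
  -- (ii)
  obtain ⟨E, hE⟩ := D3_exists_divisor hF₂ hu2
  let D₂ : Divisor K F₂ := E.mapRange (· / (r : ℤ)) (by simp)
  have hD₂ : ∀ P' : Place K F₂, P'.ord (algebraMap F₁ F₂ u) = r * D₂ P' := by
    intro P'
    show _ = (r : ℤ) * (E.mapRange (· / (r : ℤ)) (by simp)) P'
    rw [Finsupp.mapRange_apply, hE, Int.mul_ediv_cancel' (h1 P')]
  obtain ⟨w₂, hw₂, hw₂D⟩ := H D₂ hD₂
  -- (iii)
  have hc : ∀ P' : Place K F₂, P'.ord (algebraMap F₁ F₂ u / w₂ ^ r) = 0 := by
    intro P'
    rw [div_eq_mul_inv, P'.ord_mul hu2 (inv_ne_zero (pow_ne_zero _ hw₂)), P'.ord_inv,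
      ← zpow_natCast, P'.ord_zpow, hD₂, hw₂D]
    ring
  obtain ⟨c, hc'⟩ := D1_mem_range_of_ord_eq_zero hF₂ _ hc
  obtain ⟨c₁, hc₁⟩ := IsAlgClosed.exists_pow_nat_eq c hr.pos
  have hz : (algebraMap K F₂ c₁ * w₂) ^ r = algebraMap F₁ F₂ u := by
    rw [mul_pow, ← map_pow, hc₁, hc', div_mul_cancel₀ _ (pow_ne_zero _ hw₂)]
  -- (iv)
  by_contra hno
  push Not at hno
  have hirr : Irreducible (Polynomial.X ^ r - Polynomial.C u : Polynomial F₁) :=
    X_pow_sub_C_irreducible_of_prime hr hno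
  set z := algebraMap K F₂ c₁ * w₂ with hzdef
  have hmin : minpoly F₁ z = Polynomial.X ^ r - Polynomial.C u := by
    symm
    apply minpoly.eq_of_irreducible_of_monic hirr
    · simp [hz]
    · exact Polynomial.monic_X_pow_sub_C u hr.ne_zero
  have hint : IsIntegral F₁ z := IsIntegral.of_finite F₁ z
  have hfin : Module.finrank F₁ (IntermediateField.adjoin F₁ {z}) = r := by
    rw [IntermediateField.adjoin.finrank hint, hmin, Polynomial.natDegree_X_pow_sub_C]
  apply hrd
  rw [← Module.finrank_mul_finrank F₁ (IntermediateField.adjoin F₁ {z}) F₂, hfin]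
  exact dvd_mul_right _ _

end Fermat.Agent.S18Lib
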