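import Fermat.Agent.S18.Defs
import Fermat.Agent.S24.PlaceBasic

/-!
# S18 library, (D4): abstract lemmas on `RedData`; reduction of the Kummer lemma to prime exponents
-/

set_option autoImplicit false

open AlgebraicCurve

namespace Fermat.Agent.S18Lib

open Fermat.Agent.S24Lib

theorem mem_valuationSubring_of_pow_mem {F : Type*} [Field F] (O : ValuationSubring F) {x : F}
    {r : ℕ} (hr : r ≠ 0) (h : x ^ r ∈ O) : x ∈ O := by
  rcases O.mem_or_inv_mem x with hx | hx
  · exact hx
  · by_cases h0 : x = 0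
    · rw [h0]; exact O.zero_mem
    have : x = x ^ r * (x⁻¹) ^ (r - 1) := by
      obtain ⟨s, rfl⟩ := Nat.exists_eq_succ_of_ne_zero hr
      rw [Nat.succ_sub_one, pow_succ, inv_pow]
      field_simp
    rw [this]
    exact O.mul_mem _ _ h (O.pow_mem hx _)

theorem mem_range_of_pow_eq_one {k Ft : Type*} [Field k] [Field Ft] [Algebra k Ft] [IsAlgClosed k]
    {x : Ft} {r : ℕ} (hr : 0 < r) (hx : x ^ r = 1) : x ∈ (algebraMap k Ft).range := by
  by_contra hnot
  have htr := transcendental_of_not_mem_range hnot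
  apply htr
  refine ⟨Polynomial.X ^ r - Polynomial.C 1, Polynomial.X_pow_sub_C_ne_zero hr (1 : k), ?_⟩
  simp [hx]

section

variable {K k F Ft : Type*} [Field K] [Field k] [Field F] [Algebra K F] [Field Ft] [Algebra k Ft]
  {A : ValuationSubring K} {resK : A →+* k}

/-- normalisation: a unit of `O` whose reduction is a nonzero constant can be scaled to have
reduction `1` -/
theorem RedData.exists_scale_red_eq_one (R : RedData A resK F Ft)
    (hres : Function.Surjective resK) (W : R.O) (c : k) (hc : c ≠ 0)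
    (hW : R.red W = algebraMap k Ft c) :
    ∃ (b : K) (W' : R.O), b ≠ 0 ∧ (W' : F) = (W : F) * algebraMap K F b ∧ R.red W' = 1 := by
  obtain ⟨a, ha⟩ := hres c⁻¹
  have hmem : algebraMap K F (a : K) ∈ R.O := (R.algebraMap_mem_iff _).mpr a.2
  refine ⟨(a : K), W * ⟨_, hmem⟩, ?_, rfl, ?_⟩
  · intro h0
    have : a = 0 := Subtype.ext h0
    rw [this, map_zero] at ha
    exact inv_ne_zero hc ha.symm
  · rw [map_mul, hW, R.red_algebraMap a hmem, ha, ← map_mul, mul_inv_cancel₀ hc, map_one]

theorem RedData.ne_zero_of_red_eq_one (R : RedData A resK F Ft) {u : R.O} (hu : R.red u = 1) :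
    ((u : R.O) : F) ≠ 0 := by
  intro h0
  have : u = 0 := Subtype.ext h0
  rw [this, map_zero] at hu
  exact zero_ne_one hu

/-- the Kummer lemma for all exponents prime to the residue characteristic follows from the case
of prime exponents -/
theorem RedData.isPrincipal_of_prime_case [IsAlgClosed k] (R : RedData A resK F Ft)
    (hres : Function.Surjective resK)
    (hprime : ∀ r : ℕ, r.Prime → (r : k) ≠ 0 → ∀ u : R.O, R.red u = 1 → ∀ D : Divisor K F,
      (∀ P : Place K F, P.ord ((u : R.O) : F) = r * D P) → ∃ w : F, w ^ r = ((u : R.O) : F))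
    (m : ℕ) : (m : k) ≠ 0 → ∀ u : R.O, R.red u = 1 → ∀ D : Divisor K F,
      (∀ P : Place K F, P.ord ((u : R.O) : F) = m * D P) → Divisor.IsPrincipal D := by
  induction m using Nat.strong_induction_on with
  | _ m ih =>
    intro hm u hu D hD
    have hu0 : ((u : R.O) : F) ≠ 0 := R.ne_zero_of_red_eq_one hu
    have hm0 : m ≠ 0 := fun h => hm (by rw [h, Nat.cast_zero])
    by_cases hm1 : m = 1
    · exact ⟨_, hu0, fun P => by rw [hD P, hm1]; simp⟩
    have hr : (m.minFac).Prime := Nat.minFac_prime hm1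
    obtain ⟨m', hm'⟩ := Nat.minFac_dvd m
    set r := m.minFac with hrdef
    have hmk : (r : k) * (m' : k) ≠ 0 := by
      rw [← Nat.cast_mul, ← hm']; exact hm
    have hrk : (r : k) ≠ 0 := left_ne_zero_of_mul hmk
    have hm'k : (m' : k) ≠ 0 := right_ne_zero_of_mul hmk
    have hm'0 : m' ≠ 0 := fun h => hm0 (by rw [hm', h, mul_zero])
    have hm'lt : m' < m := by
      rw [hm']
      exact lt_mul_of_one_lt_left (Nat.pos_of_ne_zero hm'0) hr.one_lt
    have hD' : ∀ P : Place K F, P.ord ((u : R.O) : F) = r * (m' • D) P := by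
      intro P
      rw [hD P, hm', Finsupp.smul_apply]
      push_cast
      simp only [nsmul_eq_mul]
      ring
    obtain ⟨w, hwu⟩ := hprime r hr hrk u hu (m' • D) hD'
    have hwO : w ∈ R.O := mem_valuationSubring_of_pow_mem R.O hr.ne_zero (hwu ▸ u.2)
    have hW : (⟨w, hwO⟩ : R.O) ^ r = u := Subtype.ext hwu
    have hredW : R.red ⟨w, hwO⟩ ^ r = 1 := by rw [← map_pow, hW, hu]
    obtain ⟨c, hc⟩ := mem_range_of_pow_eq_one (k := k) hr.pos hredW
    have hc0 : c ≠ 0 := by
      intro h0
      rw [h0, map_zero] at hc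
      rw [← hc, zero_pow hr.ne_zero] at hredW
      exact zero_ne_one hredW
    obtain ⟨b, W', hb, hW', hredW'⟩ := R.exists_scale_red_eq_one hres ⟨w, hwO⟩ c hc0 hc.symm
    have hw0 : w ≠ 0 := by
      intro h0
      rw [h0, zero_pow hr.ne_zero] at hwu
      exact hu0 hwu.symm
    refine ih m' hm'lt hm'k W' hredW' D fun P => ?_
    rw [hW', P.ord_mul hw0 (by simpa using hb), ord_algebraMap, add_zero]
    have h1 : (r : ℤ) * P.ord w = r * (m' * D P) := by
      have := hD P
      rw [← hwu, ← zpow_natCast, P.ord_zpow, hm'] at this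
      rw [this]
      push_cast
      ring
    exact mul_left_cancel₀ (by exact_mod_cast hr.ne_zero) h1

end

end Fermat.Agent.S18Lib
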