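import Fermat.Agent.S18.KLPrime
import Fermat.Agent.S18.RedAbs

/-!
# S18 library, (D4): the Kummer lemma KL
-/

set_option autoImplicit false
set_option synthInstance.maxHeartbeats 400000

open AlgebraicCurve ModularCurve CongruenceSubgroup

namespace Fermat.Agent.S18Lib

open Fermat.Agent.S24Lib

theorem coeffMap_subtype_ne_zero {A : ValuationSubring Qb} {y : LaurentSeries A}
    (hy : coeffMap (IsLocalRing.residue A) y ≠ 0) : coeffMap A.subtype y ≠ 0 := by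
  intro h0
  apply hy
  have : y = 0 := by
    ext n
    have := congrArg (fun z => z.coeff n) h0
    simpa using this
  rw [this, map_zero]

theorem kl_natCast_kk_eq_zero {ℓ : ℕ} (A : ValuationSubring Qb)
    (hA : A.LiesOverPrime ℓ) : (ℓ : kk A) = 0 := by
  obtain ⟨ha, hmem⟩ := ValuationSubring.mem_nonunits_iff_exists_mem_maximalIdeal.mp hA
  have h1 : (⟨(ℓ : Qb), ha⟩ : A) = (ℓ : A) := Subtype.ext (by simp)
  rw [h1] at hmem
  have := (IsLocalRing.residue_eq_zero_iff _).mpr hmem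
  rwa [map_natCast] at this

/-- KL in `RedData` form -/
theorem kummer_lemma_red (N : ℕ) [NeZero N] {ℓ : ℕ} [Fact ℓ.Prime] (hℓN : ¬ ℓ ∣ N)
    (A : ValuationSubring Qb) (hA : A.LiesOverPrime ℓ)
    (R : RedData A (IsLocalRing.residue A) (FB N) (FT A N)) (hR : IsQRed A N R) (m : ℕ)
    (hm : ¬ ℓ ∣ m) (u : R.O) (hu : R.red u = 1) (D : Divisor Qb (FB N))
    (hD : ∀ P : Place Qb (FB N), P.ord ((u : R.O) : FB N) = m * D P) : Divisor.IsPrincipal D := by
  have := isAlgClosed_kk A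
  refine R.isPrincipal_of_prime_case IsLocalRing.residue_surjective ?_ m
    (kl_natCast_kk_ne_zero Fact.out A hA m hm) u hu D hD
  intro r hr hrk u hu D hD
  have hrℓ : r ≠ ℓ := fun h => hrk (h ▸ kl_natCast_kk_eq_zero A hA)
  obtain ⟨y₁, y₂, h₁, h₂, hne, heq, hx⟩ := exists_frac_of_red_eq_one hR u hu
  have hY₂ : (⟨coeffMap A.subtype y₂, h₂⟩ : FB N) ≠ 0 :=
    fun h => coeffMap_subtype_ne_zero hne (congrArg Subtype.val h)
  have hu0 := R.ne_zero_of_red_eq_one hu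
  have hD' : ∀ P : Place Qb (FB N), P.ord (⟨coeffMap A.subtype y₁, h₁⟩ : FB N) -
      P.ord (⟨coeffMap A.subtype y₂, h₂⟩ : FB N) = r * D P := by
    intro P
    rw [← hx, P.ord_mul hu0 hY₂, hD P]
    ring
  obtain ⟨w, hw⟩ := kummer_lemma_prime N hℓN A hA r hr hrℓ y₁ y₂ h₁ h₂ hne heq D hD'
  exact ⟨w, mul_right_cancel₀ hY₂ (hw.trans hx.symm)⟩

/-- **KL**: a modular function on `X₀(N)` which is `≡ 1` modulo a place over `ℓ ∤ N` and whose
divisor is divisible by `m` prime to `ℓ` is an `m`-th power (up to a constant). -/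
theorem kummer_lemma (N : ℕ) [NeZero N] {ℓ : ℕ} [Fact ℓ.Prime] (hℓN : ¬ ℓ ∣ N)
    (A : ValuationSubring Qb) (hA : A.LiesOverPrime ℓ) (m : ℕ) (hm : ¬ ℓ ∣ m)
    (y₁ y₂ : LaurentSeries A) (h₁ : coeffMap A.subtype y₁ ∈ FB N)
    (h₂ : coeffMap A.subtype y₂ ∈ FB N)
    (hne : coeffMap (IsLocalRing.residue A) y₂ ≠ 0)
    (heq : coeffMap (IsLocalRing.residue A) y₁ = coeffMap (IsLocalRing.residue A) y₂)
    (D : Divisor Qb (FB N))
    (hD : ∀ P : Place Qb (FB N), P.ord (⟨coeffMap A.subtype y₁, h₁⟩ : FB N) -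
      P.ord (⟨coeffMap A.subtype y₂, h₂⟩ : FB N) = m * D P) :
    Divisor.IsPrincipal D := by
  obtain ⟨R, hR⟩ := exists_redData N hℓN A hA
  have hY₂ : (⟨coeffMap A.subtype y₂, h₂⟩ : FB N) ≠ 0 :=
    fun h => coeffMap_subtype_ne_zero hne (congrArg Subtype.val h)
  have hY₁ : (⟨coeffMap A.subtype y₁, h₁⟩ : FB N) ≠ 0 :=
    fun h => coeffMap_subtype_ne_zero (heq ▸ hne) (congrArg Subtype.val h)
  have hx : ((⟨coeffMap A.subtype y₁, h₁⟩ : FB N) * (⟨coeffMap A.subtype y₂, h₂⟩ : FB N)⁻¹) *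
      ⟨coeffMap A.subtype y₂, h₂⟩ = ⟨coeffMap A.subtype y₁, h₁⟩ := by
    rw [mul_assoc, inv_mul_cancel₀ hY₂, mul_one]
  obtain ⟨hmem, hred⟩ := red_of_frac hR _ y₁ y₂ h₁ h₂ hne hx
  have hred1 : R.red ⟨_, hmem⟩ = 1 := by
    apply Subtype.ext
    rw [heq] at hred
    exact mul_right_cancel₀ hne (hred.trans (one_mul _).symm)
  refine kummer_lemma_red N hℓN A hA R hR m hm ⟨_, hmem⟩ hred1 D fun P => ?_
  rw [P.ord_mul hY₁ (inv_ne_zero hY₂), P.ord_inv, ← hD P]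
  ring

end Fermat.Agent.S18Lib
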