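import Fermat.Agent.S18.RedSpace

/-!
# S18 library, leaf (LA): orthonormal bases of finite dimensional subspaces of `I →₀ K`
-/

set_option autoImplicit false

namespace Fermat.Agent.S18Lib

/-- lift a finitely supported vector with coordinates in `A` -/
theorem la_exists_lift {K : Type} [Field K] (A : ValuationSubring K) {I : Type} (u : I →₀ K)
    (hu : ∀ i, u i ∈ A) : ∃ w : I →₀ A, w.mapRange A.subtype (map_zero _) = u := by
  classical
  refine ⟨Finsupp.onFinset u.support (fun i => ⟨u i, hu i⟩) ?_, ?_⟩
  · intro i hi
    rw [Finsupp.mem_support_iff]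
    intro h0
    exact hi (Subtype.ext h0)
  · ext i
    simp

theorem la_aux {K : Type} [Field K] (A : ValuationSubring K) {I : Type} (n : ℕ) :
    ∀ (U : Submodule K (I →₀ K)) [FiniteDimensional K U], Module.finrank K U = n →
    ∃ w : Fin n → (I →₀ A),
      (∀ i, (w i).mapRange A.subtype (map_zero _) ∈ U) ∧
      LinearIndependent (IsLocalRing.ResidueField A)
        (fun i => (w i).mapRange (IsLocalRing.residue A) (map_zero _)) := by
  classical
  induction n with
  | zero =>
    intro U _ _
    exact ⟨fun i => i.elim0, fun i => i.elim0, linearIndependent_empty_type⟩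
  | succ n ih =>
    intro U _ hU
    have hne : U ≠ ⊥ := by
      intro h
      rw [h, finrank_bot] at hU
      omega
    obtain ⟨u, huU, hu0⟩ := Submodule.exists_mem_ne_zero_of_ne_bot hne
    obtain ⟨i1, hi1⟩ := Finsupp.support_nonempty_iff.mpr hu0
    obtain ⟨i₀, hi₀, hui₀, hall⟩ := exists_scale_finset A u.support (fun i => u i)
      ⟨i1, hi1, Finsupp.mem_support_iff.mp hi1⟩
    set u' : I →₀ K := (u i₀)⁻¹ • u with hu'
    have hu'U : u' ∈ U := U.smul_mem _ huU
    have hu'A : ∀ i, u' i ∈ A := by
      intro i
      rw [hu', Finsupp.smul_apply, smul_eq_mul, mul_comm, ← div_eq_mul_inv]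
      by_cases hi : i ∈ u.support
      · exact hall i hi
      · rw [Finsupp.notMem_support_iff.mp hi, zero_div]
        exact A.zero_mem
    have hu'1 : u' i₀ = 1 := by
      rw [hu', Finsupp.smul_apply, smul_eq_mul, inv_mul_cancel₀ hui₀]
    set φ : (I →₀ K) →ₗ[K] K := Finsupp.lapply i₀ with hφ
    set U' : Submodule K (I →₀ K) := U ⊓ LinearMap.ker φ with hU'
    have hfd : FiniteDimensional K U' := Submodule.finiteDimensional_inf_left U _
    have hrank : Module.finrank K U' = n := by
      have h1 := LinearMap.finrank_range_add_finrank_ker (K := K) (V := U) (V₂ := K) (φ.domRestrict U)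
      have h2 : LinearMap.range (φ.domRestrict U) = ⊤ := by
        rw [LinearMap.range_eq_top]
        intro c
        refine ⟨⟨c • u', U.smul_mem _ hu'U⟩, ?_⟩
        show φ (c • u') = c
        rw [map_smul, hφ, Finsupp.lapply_apply, hu'1, smul_eq_mul, mul_one]
      rw [h2, finrank_top, Module.finrank_self, hU] at h1
      have h3 : Module.finrank K (LinearMap.ker (φ.domRestrict U)) = Module.finrank K U' := by
        rw [LinearMap.ker_domRestrict, hU']
        have e : (LinearMap.ker φ).comap U.subtype =
            (U ⊓ LinearMap.ker φ).comap U.subtype := by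
          ext x
          simp
        rw [e]
        exact (Submodule.comapSubtypeEquivOfLe (p := U ⊓ LinearMap.ker φ) (q := U)
          inf_le_left).finrank_eq
      omega
    obtain ⟨w', hw'U, hw'ind⟩ := ih U' hrank
    obtain ⟨uA, huA⟩ := la_exists_lift A u' hu'A
    refine ⟨Fin.cons uA w', ?_, ?_⟩
    · intro i
      refine Fin.cases ?_ (fun j => ?_) i
      · rw [Fin.cons_zero, huA]; exact hu'U
      · rw [Fin.cons_succ]; exact (hw'U j).1
    · have hfun : (fun i : Fin (n + 1) => ((Fin.cons uA w' : Fin (n + 1) → (I →₀ A)) i).mapRange
          (IsLocalRing.residue A) (map_zero _)) =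
          Fin.cons (uA.mapRange (IsLocalRing.residue A) (map_zero _))
            (fun j => (w' j).mapRange (IsLocalRing.residue A) (map_zero _)) := by
        funext i
        refine Fin.cases ?_ (fun j => ?_) i
        · simp
        · simp
      rw [hfun, linearIndependent_finCons]
      refine ⟨hw'ind, ?_⟩
      intro hmem
      -- the `i₀` coordinate vanishes on the span
      have hz : ∀ v ∈ Submodule.span (IsLocalRing.ResidueField A) (Set.range fun j =>
          (w' j).mapRange (IsLocalRing.residue A) (map_zero _)), v i₀ = 0 := by
        intro v hv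
        induction hv using Submodule.span_induction with
        | mem x hx =>
          obtain ⟨j, rfl⟩ := hx
          have h1 : φ ((w' j).mapRange A.subtype (map_zero _)) = 0 := (hw'U j).2
          rw [hφ, Finsupp.lapply_apply, Finsupp.mapRange_apply] at h1
          have h2 : w' j i₀ = 0 := Subtype.ext h1
          rw [Finsupp.mapRange_apply, h2, map_zero]
        | zero => rfl
        | add x y _ _ hx hy => rw [Finsupp.add_apply, hx, hy, add_zero]
        | smul c x _ hx => rw [Finsupp.smul_apply, hx, smul_zero]
      have h1 := hz _ hmem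
      rw [Finsupp.mapRange_apply] at h1
      have h2 : uA i₀ = 1 := by
        apply Subtype.ext
        have := congrArg (fun v : I →₀ K => v i₀) huA
        simp only [Finsupp.mapRange_apply] at this
        rw [hu'1] at this
        exact this
      rw [h2, map_one] at h1
      exact one_ne_zero h1

theorem exists_orth_finsupp {K : Type} [Field K] (A : ValuationSubring K) {I : Type}
    (U : Submodule K (I →₀ K)) [FiniteDimensional K U] :
    ∃ w : Fin (Module.finrank K U) → (I →₀ A),
      (∀ i, (w i).mapRange A.subtype (map_zero _) ∈ U) ∧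
      LinearIndependent (IsLocalRing.ResidueField A)
        (fun i => (w i).mapRange (IsLocalRing.residue A) (map_zero _)) :=
  la_aux A _ U rfl

end Fermat.Agent.S18Lib
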