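import Fermat.Agent.S18.RedRing
import Fermat.Agent.S18.OrthFin

/-!
# S18 library, block (C1), assembly part 2: `exists_redData`
-/

set_option autoImplicit false
set_option synthInstance.maxHeartbeats 400000

open AlgebraicCurve ModularCurve CongruenceSubgroup
open scoped Polynomial IntermediateField

namespace Fermat.Agent.S18Lib

open Fermat.Agent.S24Lib Fermat.Agent.S28Lib

noncomputable section

variable (M : ℕ) [NeZero M] {ℓ : ℕ} [Fact ℓ.Prime] (hℓM : ¬ ℓ ∣ M)
  (A : ValuationSubring Qb) (hA : A.LiesOverPrime ℓ)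

/-- integral `q`-expansions lie in `O` -/
theorem rd_int (y : LaurentSeries A) (hy : cE A y ∈ FB M) :
    ∃ h : (⟨cE A y, hy⟩ : FB M) ∈ OC M hℓM A hA,
      (redC M hℓM A hA ⟨⟨cE A y, hy⟩, h⟩ : LaurentSeries (kk A)) = cR A y := by
  have h : (⟨cE A y, hy⟩ : FB M) ∈ OC M hℓM A hA := cE_mem_gRing A y
  refine ⟨h, ?_⟩
  have h1 := redC_mul_eq M hℓM A hA ⟨⟨cE A y, hy⟩, h⟩ (a := y) (s := 1) (by simp)
  simpa using h1

omit [NeZero M] in
theorem rd_C_mem_FB (c : Qb) : (HahnSeries.C c : LaurentSeries Qb) ∈ FB M := by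
  rw [← rr_coe_algebraMap M c]
  exact (algebraMap Qb (FB M) c).2

theorem rd_frac (x : OC M hℓM A hA) :
    ∃ (y₁ y₂ : LaurentSeries A) (h₁ : cE A y₁ ∈ FB M) (h₂ : cE A y₂ ∈ FB M), cR A y₂ ≠ 0 ∧
      (x : FB M) * ⟨cE A y₂, h₂⟩ = ⟨cE A y₁, h₁⟩ := by
  by_cases hx0 : ((x : FB M) : LaurentSeries Qb) = 0
  · refine ⟨0, 1, by rw [map_zero]; exact (FB M).zero_mem, by rw [map_one]; exact (FB M).one_mem,
      by simp, Subtype.ext ?_⟩
    show ((x : FB M) : LaurentSeries Qb) * cE A 1 = cE A 0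
    rw [hx0, zero_mul, map_zero]
  obtain ⟨c, b, w, hc, hb, hw, h⟩ := exists_normalForm M hℓM A hA _ (x : FB M).2 hx0
  have hcA : c ∈ A := rr_c_mem A x.2 hw h
  have h1 : ((x : FB M) : LaurentSeries Qb) * cE A (evJ A b) =
      cE A (HahnSeries.C (⟨c, hcA⟩ : A) * lcF M A w) := by rw [h, map_mul, rr_cE_C]
  refine ⟨HahnSeries.C (⟨c, hcA⟩ : A) * lcF M A w, evJ A b, ?_, cE_evJ_mem_FB M A b, hb,
    Subtype.ext h1⟩
  rw [map_mul, rr_cE_C]
  exact (FB M).mul_mem (rd_C_mem_FB M c) (cE_lcF_mem_FB M A w)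

theorem rd_exists_scale (x : FB M) (hx : x ≠ 0) :
    ∃ c : Qb, c ≠ 0 ∧ ∃ y : (OC M hℓM A hA)ˣ,
      x = algebraMap Qb (FB M) c * ((y : OC M hℓM A hA) : FB M) := by
  have hx0 : (x : LaurentSeries Qb) ≠ 0 := fun h => hx (Subtype.ext h)
  obtain ⟨c, b, w, hc, hb, hw, h⟩ := exists_normalForm M hℓM A hA _ x.2 hx0
  have hb0 := rr_cE_ne_zero A hb
  have hw0 := rr_cE_ne_zero A hw
  set eb : FB M := ⟨cE A (evJ A b), cE_evJ_mem_FB M A b⟩ with heb
  set ew : FB M := ⟨cE A (lcF M A w), cE_lcF_mem_FB M A w⟩ with hew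
  have heb0 : eb ≠ 0 := fun h0 => hb0 (congrArg Subtype.val h0)
  have hew0 : ew ≠ 0 := fun h0 => hw0 (congrArg Subtype.val h0)
  have h1 : ew / eb ∈ OC M hℓM A hA := by
    refine ⟨lcF M A w, evJ A b, hb, ?_⟩
    show (((ew / eb : FB M) * eb : FB M) : LaurentSeries Qb) = _
    rw [div_mul_cancel₀ _ heb0]
  have h2 : eb / ew ∈ OC M hℓM A hA := by
    refine ⟨evJ A b, lcF M A w, hw, ?_⟩
    show (((eb / ew : FB M) * ew : FB M) : LaurentSeries Qb) = _
    rw [div_mul_cancel₀ _ hew0]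
  refine ⟨c, hc, ⟨⟨_, h1⟩, ⟨_, h2⟩, Subtype.ext ?_, Subtype.ext ?_⟩, ?_⟩
  · show ew / eb * (eb / ew) = 1
    field_simp
  · show eb / ew * (ew / eb) = 1
    field_simp
  · show x = algebraMap Qb (FB M) c * (ew / eb)
    have h3 : x * eb = algebraMap Qb (FB M) c * ew := by
      apply Subtype.ext
      show (x : LaurentSeries Qb) * cE A (evJ A b) =
        ((algebraMap Qb (FB M) c : FB M) : LaurentSeries Qb) * cE A (lcF M A w)
      rw [rr_coe_algebraMap, h]
    rw [mul_div_assoc', ← h3, mul_div_cancel_right₀ _ heb0]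

theorem rd_surjective : Function.Surjective (redC M hℓM A hA) := by
  intro z
  have key : ∀ z : LaurentSeries (kk A), z ∈ FT A M →
      ∃ x : OC M hℓM A hA, (redC M hℓM A hA x : LaurentSeries (kk A)) = z := by
    intro z hz
    induction hz using IntermediateField.adjoin_induction with
    | mem z hz =>
      obtain ⟨d, hd0, hd, rfl⟩ := hz
      have h1 : cE A (qExpand A d (jqModC A)) = qExpand Qb d (jqModC Qb) := by
        rw [cE, coeffMap_qExpand, coeffMap_jqModC]
      have h2 : cE A (qExpand A d (jqModC A)) ∈ FB M := by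
        rw [h1]
        exact qExpand_jqModC_mem_FB M d hd
      obtain ⟨h, h3⟩ := rd_int M hℓM A hA _ h2
      refine ⟨_, h3.trans ?_⟩
      rw [cR, coeffMap_qExpand, coeffMap_jqModC]
    | algebraMap c =>
      obtain ⟨a, rfl⟩ := IsLocalRing.residue_surjective c
      have h := (algebraMap_mem_OC_iff M hℓM A hA (a : Qb)).2 a.2
      refine ⟨⟨_, h⟩, ?_⟩
      rw [redC_algebraMap]
      rfl
    | add z z' _ _ hz hz' =>
      obtain ⟨x, rfl⟩ := hz
      obtain ⟨x', rfl⟩ := hz'
      exact ⟨x + x', by rw [map_add]; rfl⟩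
    | inv z _ hz =>
      obtain ⟨x, rfl⟩ := hz
      by_cases h0 : redC M hℓM A hA x = 0
      · exact ⟨0, by rw [h0, map_zero]; simp⟩
      · obtain ⟨u, rfl⟩ := isUnit_of_redC_ne_zero M hℓM A hA x h0
        refine ⟨((u⁻¹ : (OC M hℓM A hA)ˣ) : OC M hℓM A hA), ?_⟩
        have h1 : redC M hℓM A hA ((u⁻¹ : (OC M hℓM A hA)ˣ) : OC M hℓM A hA) *
            redC M hℓM A hA (u : OC M hℓM A hA) = 1 := by
          rw [← map_mul]
          simp
        have h2 := eq_inv_of_mul_eq_one_left h1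
        rw [h2]
        rfl
    | mul z z' _ _ hz hz' =>
      obtain ⟨x, rfl⟩ := hz
      obtain ⟨x', rfl⟩ := hz'
      exact ⟨x * x', by rw [map_mul]; rfl⟩
  obtain ⟨x, hx⟩ := key z z.2
  exact ⟨x, Subtype.ext hx⟩

/-! ### no defect -/

omit [NeZero M] in
theorem rd_lcF_zero (κ : Type) [CommRing κ] : lcF M κ 0 = 0 := by
  rw [lcF, Finsupp.sum_zero_index]

omit [NeZero M] in
theorem rd_lcF_sum (κ : Type) [CommRing κ] {ι : Type} (s : Finset ι) (c : ι → κ)
    (w : ι → (Fin (idx M) × ℕ →₀ κ)) :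
    lcF M κ (∑ i ∈ s, c i • w i) = ∑ i ∈ s, HahnSeries.C (c i) * lcF M κ (w i) := by
  classical
  induction s using Finset.induction_on with
  | empty => simp [rd_lcF_zero]
  | insert a s ha ih => rw [Finset.sum_insert ha, Finset.sum_insert ha, lcF_add, lcF_smul, ih]

omit [NeZero M] in
theorem rd_coe_smul (c : Qb) (u : FB M) :
    ((c • u : FB M) : LaurentSeries Qb) = HahnSeries.C c * (u : LaurentSeries Qb) := by
  rw [Algebra.smul_def]
  show ((algebraMap Qb (FB M) c : FB M) : LaurentSeries Qb) * (u : LaurentSeries Qb) = _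
  rw [rr_coe_algebraMap]

/-- the functions with denominator `e` -/
def rdW (e : LaurentSeries Qb) : Submodule Qb (FB M) where
  carrier := {u | ∃ w, e * (u : LaurentSeries Qb) = lcF M Qb w}
  zero_mem' := ⟨0, by rw [rd_lcF_zero]; simp⟩
  add_mem' := by
    rintro u u' ⟨w, hw⟩ ⟨w', hw'⟩
    refine ⟨w + w', ?_⟩
    rw [lcF_add, ← hw, ← hw']
    show e * ((u : LaurentSeries Qb) + (u' : LaurentSeries Qb)) = _
    ring
  smul_mem' := by
    rintro c u ⟨w, hw⟩
    refine ⟨c • w, ?_⟩
    rw [lcF_smul, ← hw, rd_coe_smul]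
    ring

theorem rd_common_den (U : Submodule Qb (FB M)) [FiniteDimensional Qb U] :
    ∃ b : Qb[X], b ≠ 0 ∧ U ≤ rdW M (evJ Qb b) := by
  classical
  obtain ⟨S, hS⟩ := (Submodule.fg_iff_finiteDimensional U).2 inferInstance
  choose bf wf hb hw using fun y : FB M => span_eF_Qb M (y : LaurentSeries Qb) y.2
  refine ⟨∏ t ∈ S, bf t, Finset.prod_ne_zero_iff.2 fun t _ => hb t, ?_⟩
  rw [← hS, Submodule.span_le]
  intro t ht
  obtain ⟨w', hw'⟩ := exists_evJ_mul_lcF M Qb (∏ t' ∈ S.erase t, bf t') (wf t)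
  refine ⟨w', ?_⟩
  rw [← hw', ← hw t, ← Finset.mul_prod_erase S bf ht, map_mul]
  ring

set_option maxHeartbeats 3200000 in
theorem rd_exists_orth (U : Submodule Qb (FB M)) (hU : FiniteDimensional Qb U) :
    ∃ b : Fin (Module.finrank Qb U) → OC M hℓM A hA, (∀ i, ((b i : OC M hℓM A hA) : FB M) ∈ U) ∧
      LinearIndependent (kk A) (fun i => redC M hℓM A hA (b i)) := by
  classical
  have hchar : CharP (kk A) ℓ := charP_kk A hA
  obtain ⟨b₀, hb₀, hUW⟩ := rd_common_den M U
  obtain ⟨β, b', hβ, hb', hbb⟩ := exists_scale_poly A b₀ hb₀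
  -- the integral denominator
  have hRb : cR A (evJ A b') ≠ 0 := by
    rw [cR, coeffMap_evJ]
    exact fun h => hb' ((evJ_eq_zero_iff (kk A) _).1 h)
  have hEb := rr_cE_ne_zero A hRb
  have hev : evJ Qb b₀ = HahnSeries.C β * cE A (evJ A b') := by
    rw [hbb, map_mul, cE, coeffMap_evJ]
    congr 1
    rw [evJ]
    show Polynomial.aeval (jqModC Qb) (Polynomial.C β) = _
    rw [Polynomial.aeval_C, algebraMap_laurentSeries_eq_single]
    rfl
  have hUW' : U ≤ rdW M (cE A (evJ A b')) := by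
    intro u hu
    obtain ⟨w, hw⟩ := hUW hu
    refine ⟨β⁻¹ • w, ?_⟩
    rw [lcF_smul, ← hw, hev, ← mul_assoc, ← mul_assoc, ← map_mul, inv_mul_cancel₀ hβ, map_one,
      one_mul]
  set n := Module.finrank Qb U with hn
  let B := Module.finBasis Qb U
  choose w hw using fun i : Fin n => hUW' (B i).2
  have hwind : LinearIndependent Qb w := by
    rw [Fintype.linearIndependent_iff]
    intro g hg
    have h1 := rd_lcF_sum M Qb Finset.univ g w
    rw [hg, rd_lcF_zero] at h1
    have h2 : cE A (evJ A b') * (((∑ i, g i • B i : U) : FB M) : LaurentSeries Qb) = 0 := by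
      rw [h1]
      have : (((∑ i, g i • B i : U) : FB M) : LaurentSeries Qb) =
          ∑ i, HahnSeries.C (g i) * (((B i : U) : FB M) : LaurentSeries Qb) := by
        rw [Submodule.coe_sum]
        rw [← IntermediateField.coe_val, map_sum]
        refine Finset.sum_congr rfl fun i _ => ?_
        rw [IntermediateField.coe_val, Submodule.coe_smul, rd_coe_smul]
      rw [this, Finset.mul_sum]
      refine Finset.sum_congr rfl fun i _ => ?_
      rw [← hw i]
      ring
    have h3 : (∑ i, g i • B i : U) = 0 := by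
      apply Subtype.ext
      apply Subtype.ext
      exact (mul_eq_zero.1 h2).resolve_left hEb
    exact Fintype.linearIndependent_iff.1 B.linearIndependent g h3
  set U' : Submodule Qb (Fin (idx M) × ℕ →₀ Qb) := Submodule.span Qb (Set.range w) with hU'
  have hfin : FiniteDimensional Qb U' := FiniteDimensional.span_of_finite Qb (Set.finite_range w)
  have hrank : Module.finrank Qb U' = n := by
    rw [hU', finrank_span_eq_card hwind, Fintype.card_fin]
  have hU'U : ∀ v ∈ U', ∃ u ∈ U, cE A (evJ A b') * ((u : FB M) : LaurentSeries Qb) = lcF M Qb v := by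
    intro v hv
    induction hv using Submodule.span_induction with
    | mem v hv =>
      obtain ⟨i, rfl⟩ := hv
      exact ⟨B i, (B i).2, hw i⟩
    | zero => exact ⟨0, U.zero_mem, by rw [rd_lcF_zero]; simp⟩
    | add v v' _ _ h h' =>
      obtain ⟨u, hu, hh⟩ := h
      obtain ⟨u', hu', hh'⟩ := h'
      refine ⟨u + u', U.add_mem hu hu', ?_⟩
      rw [lcF_add, ← hh, ← hh']
      show _ * ((u : LaurentSeries Qb) + (u' : LaurentSeries Qb)) = _
      ring
    | smul c v _ h =>
      obtain ⟨u, hu, hh⟩ := h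
      refine ⟨c • u, U.smul_mem c hu, ?_⟩
      rw [lcF_smul, ← hh, rd_coe_smul]
      ring
  obtain ⟨v, hvU, hvind⟩ := exists_orth_finsupp A U'
  choose u huU hu using fun i => hU'U _ (hvU i)
  have huO : ∀ i, (u i : LaurentSeries Qb) * cE A (evJ A b') = cE A (lcF M A (v i)) := by
    intro i
    rw [mul_comm, hu i, cE, coeffMap_lcF]
  have hmem : ∀ i, u i ∈ OC M hℓM A hA := fun i => ⟨_, _, hRb, huO i⟩
  refine ⟨fun i => ⟨u (Fin.cast hrank.symm i), hmem _⟩, fun i => huU _, ?_⟩
  have hred : ∀ i, (redC M hℓM A hA ⟨u i, hmem i⟩ : LaurentSeries (kk A)) * cR A (evJ A b') =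
      lcF M (kk A) ((v i).mapRange (IsLocalRing.residue A) (map_zero _)) := by
    intro i
    rw [redC_mul_eq M hℓM A hA ⟨u i, hmem i⟩ (huO i), cR, coeffMap_lcF]
  have hind : LinearIndependent (kk A) (fun i => redC M hℓM A hA ⟨u i, hmem i⟩) := by
    rw [Fintype.linearIndependent_iff]
    intro g hg
    apply Fintype.linearIndependent_iff.1 hvind g
    rw [← lcF_eq_zero_iff M (kk A) (indep_charP M hℓM (kk A)), rd_lcF_sum]
    have h1 : (∑ i, HahnSeries.C (g i) *
        (redC M hℓM A hA ⟨u i, hmem i⟩ : LaurentSeries (kk A))) = 0 := by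
      have h2 := congrArg (fun z : FT A M => (z : LaurentSeries (kk A))) hg
      rw [← IntermediateField.coe_val, map_sum] at h2
      rw [← (show ((FT A M).val 0 : LaurentSeries (kk A)) = 0 from map_zero _), ← h2]
      refine Finset.sum_congr rfl fun i _ => ?_
      rw [Algebra.smul_def, map_mul]
      congr 1
      show _ = algebraMap (kk A) (LaurentSeries (kk A)) (g i)
      rw [algebraMap_laurentSeries_eq_single]
      rfl
    calc _ = (∑ i, HahnSeries.C (g i) *
        (redC M hℓM A hA ⟨u i, hmem i⟩ : LaurentSeries (kk A))) * cR A (evJ A b') := by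
          rw [Finset.sum_mul]
          refine Finset.sum_congr rfl fun i _ => ?_
          rw [← hred i]
          ring
      _ = 0 := by rw [h1, zero_mul]
  exact hind.comp _ (Fin.cast_injective _)

/-- **(C1)** the reduction datum on the function field of `X₀(M)` -/
theorem exists_redData (M : ℕ) [NeZero M] {ℓ : ℕ} [Fact ℓ.Prime] (hℓM : ¬ ℓ ∣ M)
    (A : ValuationSubring Qb) (hA : A.LiesOverPrime ℓ) :
    ∃ R : RedData A (IsLocalRing.residue A) (FB M) (FT A M), IsQRed A M R :=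
  ⟨{ O := OC M hℓM A hA
     red := redC M hℓM A hA
     red_surjective := rd_surjective M hℓM A hA
     isUnit_of_red_ne_zero := isUnit_of_redC_ne_zero M hℓM A hA
     algebraMap_mem_iff := algebraMap_mem_OC_iff M hℓM A hA
     red_algebraMap := redC_algebraMap M hℓM A hA
     exists_scale := rd_exists_scale M hℓM A hA
     exists_orth := rd_exists_orth M hℓM A hA },
   { int := rd_int M hℓM A hA
     frac := rd_frac M hℓM A hA }⟩

end

end Fermat.Agent.S18Lib
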