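import Fermat.Agent.S18.KL
import Fermat.Agent.Lib.FF.ValRing

/-!
# S18 library: final assembly
-/

set_option autoImplicit false
set_option synthInstance.maxHeartbeats 400000
set_option maxHeartbeats 1600000

open AlgebraicCurve ModularCurve CongruenceSubgroup

namespace Fermat.Agent.S18Lib

open Fermat.Agent.S24Lib

/-- a function without zeros and poles is constant (any characteristic) -/
theorem mem_range_of_forall_ord_eq_zero {K F : Type*} [Field K] [IsAlgClosed K]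
    [Field F] [Algebra K F] (hF : IsFF K F) (c : F) (hc : ∀ P : Place K F, P.ord c = 0) :
    c ∈ (algebraMap K F).range := by
  by_contra hr
  obtain ⟨v, hv⟩ := FFLib.exists_place_ord_pos hF (transcendental_of_not_mem_range hr)
  rw [hc v] at hv
  exact lt_irrefl _ hv

/-- the place map of a `ReductionInputsModL` is compatible with `red` on all units of `O` -/
theorem mapDomain_eq_ord_red {A : ValuationSubring Qb} {N : ℕ} [NeZero N]
    {R : RedData A (IsLocalRing.residue A) (FB N) (FT A N)} (hR : IsQRed A N R)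
    {ρ : Place Qb (FB N) → Place (kk A) (FT A N)} (hρ : IsPlaceReductionModL A N ρ)
    (x : R.O) (hx : R.red x ≠ 0) (E : Divisor Qb (FB N))
    (hE : ∀ P : Place Qb (FB N), E P = P.ord ((x : R.O) : FB N)) (Q : Place (kk A) (FT A N)) :
    Finsupp.mapDomain ρ E Q = Q.ord (R.red x) := by
  obtain ⟨y₁, y₂, h₁, h₂, hne₂, hred, hxy⟩ := exists_frac hR x
  obtain ⟨m₁, e₁⟩ := hR.int y₁ h₁
  obtain ⟨m₂, e₂⟩ := hR.int y₂ h₂
  have hk₁ : coeffMap (IsLocalRing.residue A) y₁ ∈ FT A N := e₁ ▸ Subtype.property _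
  have hk₂ : coeffMap (IsLocalRing.residue A) y₂ ∈ FT A N := e₂ ▸ Subtype.property _
  have hx' : ((R.red x : FT A N) : LaurentSeries (kk A)) ≠ 0 := fun h => hx (Subtype.ext h)
  have hne₁ : coeffMap (IsLocalRing.residue A) y₁ ≠ 0 := hred ▸ mul_ne_zero hx' hne₂
  have hY₁ : (⟨coeffMap A.subtype y₁, h₁⟩ : FB N) ≠ 0 :=
    fun h => coeffMap_subtype_ne_zero hne₁ (congrArg Subtype.val h)
  have hY₂ : (⟨coeffMap A.subtype y₂, h₂⟩ : FB N) ≠ 0 :=
    fun h => coeffMap_subtype_ne_zero hne₂ (congrArg Subtype.val h)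
  obtain ⟨E₁, hE₁⟩ := D3_exists_divisor (isFF_FB N) hY₁
  obtain ⟨E₂, hE₂⟩ := D3_exists_divisor (isFF_FB N) hY₂
  have r₁ := hρ.2 y₁ h₁ hk₁ hne₁ E₁ hE₁ Q
  have r₂ := hρ.2 y₂ h₂ hk₂ hne₂ E₂ hE₂ Q
  have hx0 : ((x : R.O) : FB N) ≠ 0 := by
    intro h0
    apply hx
    have : x = 0 := Subtype.ext h0
    rw [this, map_zero]
  have hEE : E = E₁ - E₂ := by
    ext P
    rw [Finsupp.sub_apply, hE, hE₁, hE₂, ← hxy, P.ord_mul hx0 hY₂]
    ring
  have hmul : R.red x * (⟨coeffMap (IsLocalRing.residue A) y₂, hk₂⟩ : FT A N) =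
      ⟨coeffMap (IsLocalRing.residue A) y₁, hk₁⟩ := Subtype.ext hred
  have hk₂0 : (⟨coeffMap (IsLocalRing.residue A) y₂, hk₂⟩ : FT A N) ≠ 0 :=
    fun h => hne₂ (congrArg Subtype.val h)
  rw [hEE, Finsupp.mapDomain_sub, Finsupp.sub_apply, r₁, r₂, ← hmul, Q.ord_mul hx hk₂0]
  ring

theorem eq_zero_of_reduction_eq_zero (N : ℕ) [NeZero N] {ℓ : ℕ}
    [Fact ℓ.Prime] (hℓN : ¬ ℓ ∣ N) (A : ValuationSubring (AlgebraicClosure ℚ))
    (hA : A.LiesOverPrime ℓ)
    (h : ModularCurve.ReductionInputsModL A N) (m : ℕ) (hm : ¬ ℓ ∣ m) (z : ModularCurve.JZero N)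
    (hmz : m • z = 0) (hz : ModularCurve.reductionModL A N z = 0) :
    z = 0 := by
  obtain ⟨D, rfl⟩ := Pic0.mk_surjective z
  obtain ⟨R, hR⟩ := exists_redData N hℓN A hA
  have hρ := isPlaceReductionModL_placeReductionModL h
  set ρ := placeReductionModL h with hρdef
  -- unfold the hypotheses
  have hf : Divisor.IsPrincipal (m • (D : Divisor Qb (FB N))) := by
    have h1 : Pic0.mk (m • D) = 0 := hmz
    have h2 := (QuotientAddGroup.eq_zero_iff _).mp h1
    rw [AddSubgroup.mem_addSubgroupOf] at h2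
    exact h2
  have hg : Divisor.IsPrincipal (Finsupp.mapDomain ρ (D : Divisor Qb (FB N))) := by
    rw [reductionModL_mk h D] at hz
    have h2 := (QuotientAddGroup.eq_zero_iff _).mp hz
    rw [AddSubgroup.mem_addSubgroupOf] at h2
    exact h2
  obtain ⟨f, hf0, hfD⟩ := hf
  obtain ⟨gt, hgt0, hgD⟩ := hg
  obtain ⟨g0, hg0⟩ := R.red_surjective gt
  have hg0ne : R.red g0 ≠ 0 := hg0 ▸ hgt0
  have hg00 : ((g0 : R.O) : FB N) ≠ 0 := by
    intro h0
    apply hg0ne
    have : g0 = 0 := Subtype.ext h0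
    rw [this, map_zero]
  obtain ⟨Eg, hEg⟩ := D3_exists_divisor (isFF_FB N) hg00
  have hmapEg : Finsupp.mapDomain ρ Eg = Finsupp.mapDomain ρ (D : Divisor Qb (FB N)) := by
    ext Q
    rw [mapDomain_eq_ord_red hR hρ g0 hg0ne Eg hEg Q, hgD Q, hg0]
  -- the corrected divisor
  set D0 : Divisor Qb (FB N) := (D : Divisor Qb (FB N)) - Eg with hD0
  have hf1 : f * (((g0 : R.O) : FB N) ^ m)⁻¹ ≠ 0 := mul_ne_zero hf0 (inv_ne_zero (pow_ne_zero _ hg00))
  obtain ⟨c, hc0, y, hy⟩ := R.exists_scale _ hf1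
  have hy0 : (((y : R.Oˣ) : R.O) : FB N) ≠ 0 := by
    intro h0
    have : ((y : R.Oˣ) : R.O) = 0 := Subtype.ext h0
    exact y.ne_zero this
  have hredy : R.red (y : R.O) ≠ 0 := (y.isUnit.map R.red).ne_zero
  have hordy : ∀ P : Place Qb (FB N), (m • D0) P = P.ord (((y : R.Oˣ) : R.O) : FB N) := by
    intro P
    have h1 : P.ord (f * (((g0 : R.O) : FB N) ^ m)⁻¹) = P.ord (((y : R.Oˣ) : R.O) : FB N) := by
      rw [hy, P.ord_mul (by simpa using hc0) hy0, ord_algebraMap, zero_add]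
    rw [← h1, P.ord_mul hf0 (inv_ne_zero (pow_ne_zero _ hg00)), P.ord_inv, ← zpow_natCast,
      P.ord_zpow, ← hfD P, ← hEg P, hD0]
    simp only [Finsupp.smul_apply, Finsupp.sub_apply, nsmul_eq_mul]
    ring
  have hall : ∀ Q : Place (kk A) (FT A N), Q.ord (R.red (y : R.O)) = 0 := by
    intro Q
    rw [← mapDomain_eq_ord_red hR hρ (y : R.O) hredy (m • D0) hordy Q, hD0,
      ← Finsupp.mapDomain.addMonoidHom_apply, map_nsmul, map_sub,
      Finsupp.mapDomain.addMonoidHom_apply, Finsupp.mapDomain.addMonoidHom_apply, hmapEg, sub_self,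
      smul_zero]
    rfl
  have := isAlgClosed_kk A
  obtain ⟨ct, hct⟩ := mem_range_of_forall_ord_eq_zero (isFF_FT A N) _ hall
  have hct0 : ct ≠ 0 := by
    intro h0
    rw [h0, map_zero] at hct
    exact hredy hct.symm
  obtain ⟨b, W', hb, hW', hredW'⟩ :=
    R.exists_scale_red_eq_one IsLocalRing.residue_surjective (y : R.O) ct hct0 hct.symm
  have hD0p : Divisor.IsPrincipal D0 := by
    refine kummer_lemma_red N hℓN A hA R hR m hm W' hredW' D0 fun P => ?_
    rw [hW', P.ord_mul hy0 (by simpa using hb), ord_algebraMap, add_zero, ← hordy P]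
    simp only [Finsupp.smul_apply, nsmul_eq_mul]
  have hDp : Divisor.IsPrincipal (D : Divisor Qb (FB N)) := by
    have h1 : (D : Divisor Qb (FB N)) = D0 + Eg := by rw [hD0, sub_add_cancel]
    rw [h1]
    exact (Divisor.principal (K := Qb) (F := FB N)).add_mem hD0p ⟨_, hg00, hEg⟩
  refine (QuotientAddGroup.eq_zero_iff _).mpr ?_
  rw [AddSubgroup.mem_addSubgroupOf]
  exact hDp

end Fermat.Agent.S18Lib
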