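import Fermat.Agent.S18.Defs
import Fermat.Prelude.Def_FLTPrelim_Ramification

/-!
# S18 library, C2b leaf (UC): integers prime to `ℓ` are nonzero in the residue field
-/

set_option autoImplicit false
set_option synthInstance.maxHeartbeats 400000

namespace Fermat.Agent.S18Lib

open Fermat.Agent.S24Lib

theorem natCast_kk_ne_zero (A : ValuationSubring Qb) {ℓ : ℕ} [Fact ℓ.Prime]
    (hA : A.LiesOverPrime ℓ) (n : ℕ) (hn : ¬ ℓ ∣ n) : ((n : ℕ) : kk A) ≠ 0 := by
  have hℓ : ℓ.Prime := Fact.out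
  intro h0
  have hℓ0 : ((ℓ : ℕ) : kk A) = 0 := by
    obtain ⟨ha, hm⟩ := ValuationSubring.mem_nonunits_iff_exists_mem_maximalIdeal.1 hA
    have h1 := (IsLocalRing.residue_eq_zero_iff _).2 hm
    have h2 : (⟨(ℓ : Qb), ha⟩ : A) = ((ℓ : ℕ) : A) := Subtype.ext (by simp)
    rw [h2, map_natCast] at h1
    exact h1
  have hcop : IsCoprime (ℓ : ℤ) (n : ℤ) :=
    Nat.isCoprime_iff_coprime.2 ((Nat.Prime.coprime_iff_not_dvd hℓ).2 hn)
  obtain ⟨a, b, hab⟩ := hcop
  have h4 := congrArg (Int.cast : ℤ → kk A) hab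
  push_cast at h4
  rw [h0, hℓ0, mul_zero, mul_zero, add_zero] at h4
  exact zero_ne_one h4

end Fermat.Agent.S18Lib
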