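import Fermat.Agent.S23.Final

/-!
# S18 library, block (C2b), leaf (UV): a basis of `S_2(Γ₀(N))` with rational `q`-expansions
-/

set_option autoImplicit false
set_option synthInstance.maxHeartbeats 400000

open UpperHalfPlane ModularForm Matrix.SpecialLinearGroup CongruenceSubgroup
open scoped MatrixGroups Manifold ModularForm

namespace Fermat.Agent.S18Lib

open Fermat.Agent.S23Lib

noncomputable section

theorem exists_rat_basis_cusp (N : ℕ) [NeZero N] :
    ∃ b : Fin (Module.finrank ℂ (CuspForm (Gamma0 N) 2)) → CuspForm (Gamma0 N) 2,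
      LinearIndependent ℂ b ∧
        ∀ i, ∃ s : PowerSeries ℚ, qExpansion 1 (b i) = s.map (algebraMap ℚ ℂ) := by
  set n := ((2 : ℤ) * (Gamma0 N).index).toNat / 12 + 1 with hn
  have hinj := S23Lib.coeffMap_injective N 2
  have hfin : FiniteDimensional ℂ (CuspForm (Gamma0 N) 2) :=
    FiniteDimensional.of_injective (S23Lib.coeffMap N 2 n) hinj
  have hconj : ∀ σ : ℂ →+* ℂ, ∀ v : CuspForm (Gamma0 N) 2, ∃ w : CuspForm (Gamma0 N) 2,
      ∀ i, S23Lib.coeffMap N 2 n w i = σ (S23Lib.coeffMap N 2 n v i) := by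
    intro σ v
    obtain ⟨w, hw⟩ := exists_conj N 2 σ v
    refine ⟨w, fun i => ?_⟩
    show (qExpansion 1 w).coeff i = σ ((qExpansion 1 v).coeff i)
    rw [hw, PowerSeries.coeff_map]
  have hspan := span_rat_eq_top (S23Lib.coeffMap N 2 n) hinj hconj
  set S : Set (CuspForm (Gamma0 N) 2) :=
    {v | ∀ i, ∃ r : ℚ, S23Lib.coeffMap N 2 n v i = (r : ℂ)} with hS
  have hrat : ∀ v ∈ S, ∃ s : PowerSeries ℚ, qExpansion 1 v = s.map (algebraMap ℚ ℂ) := by
    intro v hv
    have h1 : ∀ m, ∃ r : ℚ, (r : ℂ) = (qExpansion 1 v).coeff m := by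
      intro m
      refine exists_rat_of_forall_ringHom_fixed _ ?_
      intro σ
      obtain ⟨w, hw⟩ := exists_conj N 2 σ v
      have hwv : w = v := by
        apply hinj
        ext i
        show (qExpansion 1 w).coeff i = (qExpansion 1 v).coeff i
        rw [hw, PowerSeries.coeff_map]
        obtain ⟨r, hr⟩ := hv i
        have hr' : (qExpansion 1 v).coeff i = (r : ℂ) := hr
        rw [hr', map_ratCast]
      rw [hwv] at hw
      have := congrArg (PowerSeries.coeff m) hw
      rw [PowerSeries.coeff_map] at this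
      exact this.symm
    choose r hr using h1
    refine ⟨PowerSeries.mk r, ?_⟩
    ext m
    rw [PowerSeries.coeff_map, PowerSeries.coeff_mk, ← hr]
    rfl
  have hfin' : Module.Finite ℂ (Submodule.span ℂ S) := inferInstance
  obtain ⟨f, hfS, -, hfind⟩ := Submodule.exists_fun_fin_finrank_span_eq ℂ S
  have hcard : Module.finrank ℂ (Submodule.span ℂ S) =
      Module.finrank ℂ (CuspForm (Gamma0 N) 2) := by
    rw [hspan, finrank_top]
  refine ⟨f ∘ Fin.cast hcard.symm, hfind.comp _ (Fin.cast_injective _), fun i => ?_⟩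
  exact hrat _ (hfS _)

end

end Fermat.Agent.S18Lib
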