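import Fermat.Agent.S18.RiemannLower
import Fermat.Agent.S18.RatBasisCusp

/-!
# S18 library, block (C2b), leaf (UU): the space of cusp forms of weight two inside the
function field of `X₀(M)` over `ℚ̄`, after multiplication by a fixed nonzero Laurent series.
-/

set_option autoImplicit false
set_option synthInstance.maxHeartbeats 400000

open UpperHalfPlane ModularForm Matrix.SpecialLinearGroup CongruenceSubgroup ModularCurve
open AlgebraicCurve IntermediateField
open scoped MatrixGroups Manifold Polynomial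
open Fermat.Agent.S20Lib Fermat.Agent.S28Lib Fermat.Agent.S24Lib

namespace Fermat.Agent.S18Lib

noncomputable section

/-- the `q`-expansion of cusp forms as a linear map -/
def uu_qLin (M : ℕ) [NeZero M] : CuspForm (Gamma0 M) 2 →ₗ[ℂ] PowerSeries ℂ where
  toFun f := qExpansion 1 f
  map_add' f g := by
    rw [FunLike.coe_add, ModularForm.qExpansion_add one_pos (S23Lib.one_mem_sp M)]
  map_smul' c f := by
    rw [FunLike.coe_smul, ModularForm.qExpansion_smul one_pos (S23Lib.one_mem_sp M)]
    rfl

theorem uu_qLin_injective (M : ℕ) [NeZero M] : Function.Injective (uu_qLin M) := by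
  rw [injective_iff_map_eq_zero]
  intro f hf
  apply S23Lib.eq_zero_of_coeff
  intro n _
  have : qExpansion 1 f = 0 := hf
  rw [this, map_zero]

theorem uu_qExp_sum (M : ℕ) [NeZero M] {ι : Type*} [Fintype ι] (b : ι → CuspForm (Gamma0 M) 2)
    (φ : ι → PowerSeries Qb) (hφ : ∀ i, qExpansion 1 (b i) = (φ i).map iotaC) (c : ι → Qb) :
    qExpansion 1 (∑ i, iotaC (c i) • b i : CuspForm (Gamma0 M) 2) =
      (∑ i, c i • φ i : PowerSeries Qb).map iotaC := by
  have h : uu_qLin M (∑ i, iotaC (c i) • b i) = ∑ i, iotaC (c i) • (φ i).map iotaC := by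
    rw [map_sum]
    refine Finset.sum_congr rfl fun i _ => ?_
    rw [map_smul]
    congr 1
    exact hφ i
  have h' : qExpansion 1 (∑ i, iotaC (c i) • b i : CuspForm (Gamma0 M) 2) =
      ∑ i, iotaC (c i) • (φ i).map iotaC := h
  rw [h', map_sum]
  refine Finset.sum_congr rfl fun i _ => ?_
  ext m
  simp [PowerSeries.coeff_map]

theorem exists_cuspSpace (M : ℕ) [NeZero M] (u : LaurentSeries Qb) (hu : u ≠ 0)
    (hmem : ∀ (f : CuspForm (Gamma0 M) 2) (φ : PowerSeries Qb),
      qExpansion 1 f = φ.map iotaC → HahnSeries.ofPowerSeries ℤ Qb φ * u ∈ FB M) :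
    ∃ U : Submodule Qb (FB M), FiniteDimensional Qb U ∧
      Module.finrank Qb U = Module.finrank ℂ (CuspForm (Gamma0 M) 2) ∧
      ∀ b ∈ U, ∃ (f : CuspForm (Gamma0 M) 2) (φ : PowerSeries Qb),
        qExpansion 1 f = φ.map iotaC ∧
          ((b : FB M) : LaurentSeries Qb) = HahnSeries.ofPowerSeries ℤ Qb φ * u := by
  obtain ⟨b, hb, hs⟩ := exists_rat_basis_cusp M
  choose s hs using hs
  set φ : Fin (Module.finrank ℂ (CuspForm (Gamma0 M) 2)) → PowerSeries Qb :=
    fun i => (s i).map (algebraMap ℚ Qb) with hφdef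
  have hφ : ∀ i, qExpansion 1 (b i) = (φ i).map iotaC := by
    intro i
    rw [hs i]
    ext m
    simp only [hφdef, PowerSeries.coeff_map]
    exact (bl_iotaC_algebraMap _).symm
  let y : Fin (Module.finrank ℂ (CuspForm (Gamma0 M) 2)) → FB M :=
    fun i => ⟨HahnSeries.ofPowerSeries ℤ Qb (φ i) * u, hmem (b i) (φ i) (hφ i)⟩
  have hsum : ∀ c : Fin (Module.finrank ℂ (CuspForm (Gamma0 M) 2)) → Qb,
      (((∑ i, c i • y i : FB M)) : LaurentSeries Qb) =
        HahnSeries.ofPowerSeries ℤ Qb (∑ i, c i • φ i) * u := by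
    intro c
    rw [AddSubmonoidClass.coe_finsetSum, map_sum, Finset.sum_mul]
    refine Finset.sum_congr rfl fun i _ => ?_
    rw [IntermediateField.coe_smul, Algebra.smul_def, Algebra.smul_def, map_mul, mul_assoc]
    congr 1
  have hy : LinearIndependent Qb y := by
    rw [Fintype.linearIndependent_iff]
    intro c hc i
    have h1 := hsum c
    rw [hc, ZeroMemClass.coe_zero] at h1
    have h2 : HahnSeries.ofPowerSeries ℤ Qb (∑ i, c i • φ i) = 0 := by
      rcases mul_eq_zero.mp h1.symm with h | h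
      · exact h
      · exact absurd h hu
    have h3 : (∑ i, c i • φ i : PowerSeries Qb) = 0 := by
      apply HahnSeries.ofPowerSeries_injective (Γ := ℤ)
      rw [h2, map_zero]
    have h4 := uu_qExp_sum M b φ hφ c
    rw [h3, map_zero] at h4
    have h5 : (∑ i, iotaC (c i) • b i : CuspForm (Gamma0 M) 2) = 0 := by
      apply uu_qLin_injective M
      rw [map_zero]
      exact h4
    have h7 := Fintype.linearIndependent_iff.mp hb _ h5 i
    exact (map_eq_zero iotaC).mp h7
  refine ⟨Submodule.span Qb (Set.range y), ?_, ?_, ?_⟩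
  · exact FiniteDimensional.span_of_finite Qb (Set.finite_range y)
  · rw [finrank_span_eq_card hy, Fintype.card_fin]
  · intro x hx
    obtain ⟨c, rfl⟩ := (Submodule.mem_span_range_iff_exists_fun Qb).mp hx
    exact ⟨∑ i, iotaC (c i) • b i, ∑ i, c i • φ i, uu_qExp_sum M b φ hφ c, hsum c⟩

end

end Fermat.Agent.S18Lib
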