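import Fermat.Agent.S18.RedDefs

/-!
# S18 library, block (A2)-(A5), leaf (RS): the dimension of the reduction `V(U)` of a finite
dimensional space of functions
-/

set_option autoImplicit false

open AlgebraicCurve IntermediateField Polynomial Fermat.Agent.S24Lib Fermat.Agent.FFLib

namespace Fermat.Agent.S18Lib

variable {K k F Ft : Type*} [Field K] [Field k] [Field F] [Algebra K F] [Field Ft] [Algebra k Ft]
  {A : ValuationSubring K} {resK : A →+* k}

/-- normalising a finite family of constants -/
theorem exists_scale_finset (A : ValuationSubring K) {ι : Type*} (s : Finset ι) (c : ι → K)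
    (h : ∃ i ∈ s, c i ≠ 0) : ∃ i₀ ∈ s, c i₀ ≠ 0 ∧ ∀ i ∈ s, c i / c i₀ ∈ A := by
  obtain ⟨i0, hi0, hci0⟩ := h
  obtain ⟨j, hj, hmax⟩ := Finset.exists_max_image s (fun i => A.valuation (c i)) ⟨i0, hi0⟩
  have hj0 : c j ≠ 0 := by
    intro h
    have h1 := hmax i0 hi0
    simp only [h, map_zero, le_zero_iff, map_eq_zero] at h1
    exact hci0 h1
  refine ⟨j, hj, hj0, fun i hi => ?_⟩
  rw [← A.valuation_le_one_iff, map_div₀]
  exact div_le_one_of_le₀ (hmax i hi) zero_le

/-- the kernel of `resK` is the maximal ideal -/
theorem resK_eq_zero_iff (hres : Function.Surjective resK) (a : A) :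
    resK a = 0 ↔ ¬ IsUnit a := by
  have h1 : (RingHom.ker resK).IsMaximal := RingHom.ker_isMaximal_of_surjective resK hres
  have h2 : RingHom.ker resK = IsLocalRing.maximalIdeal A := IsLocalRing.eq_maximalIdeal h1
  rw [← RingHom.mem_ker, h2, IsLocalRing.mem_maximalIdeal, mem_nonunits_iff]

/-- the kernel of `red` is the maximal ideal -/
theorem red_eq_zero_iff (R : RedData A resK F Ft) (x : R.O) : R.red x = 0 ↔ ¬ IsUnit x := by
  constructor
  · intro h hu
    have := hu.map R.red
    rw [h] at this
    exact not_isUnit_zero this
  · intro h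
    by_contra h0
    exact h (R.isUnit_of_red_ne_zero x h0)

/-- lifts of `k`-independent elements are `K`-independent -/
theorem linearIndependent_of_red (R : RedData A resK F Ft) {ι : Type*} (b : ι → R.O)
    (hb : LinearIndependent k (fun i => R.red (b i))) :
    LinearIndependent K (fun i => ((b i : R.O) : F)) := by
  classical
  rw [linearIndependent_iff']
  intro s c hsum
  by_contra hcon
  push Not at hcon
  obtain ⟨j, hj, hj0, hA⟩ := exists_scale_finset A s c hcon
  set a : ι → A := fun i => if hi : i ∈ s then ⟨c i / c j, hA i hi⟩ else 0 with ha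
  have h1 : ∑ i ∈ s, R.const (a i) * b i = 0 := by
    apply Subtype.val_injective
    have h2 : ((∑ i ∈ s, R.const (a i) * b i : R.O) : F) =
        ∑ i ∈ s, ((R.const (a i) * b i : R.O) : F) := by
      exact map_sum R.O.subtype _ _
    rw [h2]
    have h3 : ∀ i ∈ s, ((R.const (a i) * b i : R.O) : F) =
        (c j)⁻¹ • (c i • ((b i : R.O) : F)) := by
      intro i hi
      have : ((a i : A) : K) = c i / c j := by
        rw [ha]
        simp only [dif_pos hi]
      rw [smul_smul, Algebra.smul_def]
      change algebraMap K F ((a i : A) : K) * _ = _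
      rw [this, div_eq_inv_mul]
    rw [Finset.sum_congr rfl h3, ← Finset.smul_sum, hsum, smul_zero]
    rfl
  have h2 := congrArg R.red h1
  rw [map_sum, map_zero] at h2
  simp only [map_mul, R.red_const, ← Algebra.smul_def] at h2
  have h3 := (linearIndependent_iff'.1 hb) s (fun i => resK (a i)) h2 j hj
  have h4 : a j = 1 := by
    rw [ha]
    simp only [dif_pos hj]
    exact Subtype.ext (div_self hj0)
  rw [h4, map_one] at h3
  exact one_ne_zero h3

theorem rs_card_le (R : RedData A resK F Ft) (hres : Function.Surjective resK)
    (U : Submodule K F) [FiniteDimensional K U] (s : Finset (redSpace R hres U))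
    (hs : LinearIndependent k fun i : s => (i : redSpace R hres U)) :
    s.card ≤ Module.finrank K U := by
  have h1 : ∀ i : s, ∃ x : R.O, ((x : R.O) : F) ∈ U ∧
      R.red x = ((i : redSpace R hres U) : Ft) :=
    fun i => mem_redSpace.1 (i : redSpace R hres U).2
  choose x hxU hx using h1
  have h2 : LinearIndependent k (fun i : s => R.red (x i)) := by
    have h3 := hs.map' (redSpace R hres U).subtype (Submodule.ker_subtype _)
    have h4 : (fun i : s => R.red (x i)) =
        (redSpace R hres U).subtype ∘ fun i : s => (i : redSpace R hres U) := by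
      funext i
      exact hx i
    rw [h4]
    exact h3
  have h3 := linearIndependent_of_red R x h2
  have h4 : LinearIndependent K (fun i : s => (⟨((x i : R.O) : F), hxU i⟩ : U)) :=
    LinearIndependent.of_comp U.subtype h3
  have h5 := h4.fintype_card_le_finrank
  simpa using h5

theorem rs_rank_le (R : RedData A resK F Ft) (hres : Function.Surjective resK)
    (U : Submodule K F) [FiniteDimensional K U] :
    Module.rank k (redSpace R hres U) ≤ (Module.finrank K U : ℕ) :=
  rank_le fun s hs => rs_card_le R hres U s hs

theorem finiteDimensional_redSpace (R : RedData A resK F Ft) (hres : Function.Surjective resK)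
    (U : Submodule K F) [FiniteDimensional K U] : FiniteDimensional k (redSpace R hres U) := by
  rw [FiniteDimensional, ← Module.rank_lt_aleph0_iff]
  exact (rs_rank_le R hres U).trans_lt (Cardinal.natCast_lt_aleph0)

theorem finrank_redSpace (R : RedData A resK F Ft) (hres : Function.Surjective resK)
    (U : Submodule K F) [FiniteDimensional K U] :
    Module.finrank k (redSpace R hres U) = Module.finrank K U := by
  have hfin := finiteDimensional_redSpace R hres U
  apply le_antisymm
  · have h1 := rs_rank_le R hres U
    rw [← Module.finrank_eq_rank] at h1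
    exact_mod_cast h1
  · obtain ⟨b, hbU, hb⟩ := R.exists_orth U inferInstance
    have h1 : LinearIndependent k
        (fun i => (⟨R.red (b i), red_mem_redSpace hres (hbU i)⟩ : redSpace R hres U)) :=
      LinearIndependent.of_comp (redSpace R hres U).subtype hb
    have h2 := h1.fintype_card_le_finrank
    simpa using h2

end Fermat.Agent.S18Lib
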