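import Fermat.Agent.S18.CGauss
import Fermat.Agent.S18.RedSpace
import Fermat.Agent.S18.OrthFin

/-!
# S18 library, leaf (SC): scaling finitely supported vectors / polynomials to primitive ones
-/

set_option autoImplicit false
set_option synthInstance.maxHeartbeats 400000

open scoped Polynomial

namespace Fermat.Agent.S18Lib

theorem exists_scale_finsupp (A : ValuationSubring Qb) {I : Type} (w : I →₀ Qb) (hw : w ≠ 0) :
    ∃ (α : Qb) (w' : I →₀ A), α ≠ 0 ∧ w'.mapRange (resA A) (map_zero _) ≠ 0 ∧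
      w = α • w'.mapRange A.subtype (map_zero _) := by
  classical
  obtain ⟨i1, hi1⟩ := Finsupp.support_nonempty_iff.mpr hw
  obtain ⟨i₀, hi₀, hwi₀, hall⟩ := exists_scale_finset A w.support (fun i => w i)
    ⟨i1, hi1, Finsupp.mem_support_iff.mp hi1⟩
  have hA : ∀ i, ((w i₀)⁻¹ • w) i ∈ A := by
    intro i
    rw [Finsupp.smul_apply, smul_eq_mul, mul_comm, ← div_eq_mul_inv]
    by_cases hi : i ∈ w.support
    · exact hall i hi
    · rw [Finsupp.notMem_support_iff.mp hi, zero_div]
      exact A.zero_mem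
  obtain ⟨w', hw'⟩ := la_exists_lift A _ hA
  refine ⟨w i₀, w', hwi₀, ?_, ?_⟩
  · intro h0
    have h1 := congrArg (fun v : I →₀ kk A => v i₀) h0
    simp only [Finsupp.mapRange_apply, Finsupp.coe_zero, Pi.zero_apply] at h1
    have h2 : w' i₀ = 1 := by
      apply Subtype.ext
      have := congrArg (fun v : I →₀ Qb => v i₀) hw'
      simp only [Finsupp.mapRange_apply, Finsupp.smul_apply, smul_eq_mul] at this
      rw [inv_mul_cancel₀ hwi₀] at this
      exact this
    rw [h2, map_one] at h1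
    exact one_ne_zero h1
  · rw [hw', smul_smul, mul_inv_cancel₀ hwi₀, one_smul]

/-- lifting a polynomial with coefficients in `A` -/
theorem sc_exists_lift (A : ValuationSubring Qb) (b : Qb[X]) (h : ∀ n, b.coeff n ∈ A) :
    ∃ b' : A[X], b'.map A.subtype = b := by
  have : b ∈ Polynomial.lifts A.subtype := by
    rw [Polynomial.lifts_iff_coeff_lifts]
    intro n
    exact ⟨⟨b.coeff n, h n⟩, rfl⟩
  exact this

theorem exists_scale_poly (A : ValuationSubring Qb) (b : Qb[X]) (hb : b ≠ 0) :
    ∃ (β : Qb) (b' : A[X]), β ≠ 0 ∧ b'.map (resA A) ≠ 0 ∧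
      b = Polynomial.C β * b'.map A.subtype := by
  classical
  obtain ⟨n1, hn1⟩ := Polynomial.nonempty_support_iff.mpr hb
  obtain ⟨n₀, hn₀, hbn₀, hall⟩ := exists_scale_finset A b.support (fun n => b.coeff n)
    ⟨n1, hn1, Polynomial.mem_support_iff.mp hn1⟩
  have hA : ∀ n, (Polynomial.C (b.coeff n₀)⁻¹ * b).coeff n ∈ A := by
    intro n
    rw [Polynomial.coeff_C_mul, mul_comm, ← div_eq_mul_inv]
    by_cases hn : n ∈ b.support
    · exact hall n hn
    · rw [Polynomial.notMem_support_iff.mp hn, zero_div]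
      exact A.zero_mem
  obtain ⟨b', hb'⟩ := sc_exists_lift A _ hA
  refine ⟨b.coeff n₀, b', hbn₀, ?_, ?_⟩
  · intro h0
    have h1 := congrArg (fun v : (kk A)[X] => v.coeff n₀) h0
    simp only [Polynomial.coeff_map, Polynomial.coeff_zero] at h1
    have h2 : b'.coeff n₀ = 1 := by
      apply Subtype.ext
      have := congrArg (fun v : Qb[X] => v.coeff n₀) hb'
      simp only [Polynomial.coeff_map, Polynomial.coeff_C_mul] at this
      rw [inv_mul_cancel₀ hbn₀] at this
      exact this
    rw [h2, map_one] at h1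
    exact one_ne_zero h1
  · rw [hb', ← mul_assoc, ← Polynomial.C_mul, mul_inv_cancel₀ hbn₀, Polynomial.C_1, one_mul]

theorem exists_scale_poly2 (A : ValuationSubring Qb) (b : Qb[X][X]) (hb : b ≠ 0) :
    ∃ (β : Qb) (b' : A[X][X]), β ≠ 0 ∧ b'.map (Polynomial.mapRingHom (resA A)) ≠ 0 ∧
      b = Polynomial.C (Polynomial.C β) * b'.map (Polynomial.mapRingHom A.subtype) := by
  classical
  obtain ⟨m1, hm1⟩ := Polynomial.nonempty_support_iff.mpr hb
  obtain ⟨n1, hn1⟩ := Polynomial.nonempty_support_iff.mpr (Polynomial.mem_support_iff.mp hm1)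
  set S : Finset (ℕ × ℕ) := b.support.biUnion (fun m => (b.coeff m).support.image (fun n => (m, n)))
    with hS
  have hmemS : ∀ m n, (m, n) ∈ S ↔ (b.coeff m).coeff n ≠ 0 := by
    intro m n
    rw [hS, Finset.mem_biUnion]
    constructor
    · rintro ⟨m', _, h⟩
      rw [Finset.mem_image] at h
      obtain ⟨n', hn', h⟩ := h
      obtain ⟨rfl, rfl⟩ := Prod.mk.inj h
      exact Polynomial.mem_support_iff.mp hn'
    · intro h
      refine ⟨m, ?_, Finset.mem_image.mpr ⟨n, Polynomial.mem_support_iff.mpr h, rfl⟩⟩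
      rw [Polynomial.mem_support_iff]
      intro h0
      rw [h0, Polynomial.coeff_zero] at h
      exact h rfl
  obtain ⟨⟨m₀, n₀⟩, h₀, hb₀, hall⟩ := exists_scale_finset A S
    (fun p => (b.coeff p.1).coeff p.2)
    ⟨(m1, n1), (hmemS m1 n1).mpr (Polynomial.mem_support_iff.mp hn1),
      Polynomial.mem_support_iff.mp hn1⟩
  simp only at hb₀ hall
  set β : Qb := (b.coeff m₀).coeff n₀ with hβ
  have hA : ∀ m n, ((Polynomial.C (Polynomial.C β⁻¹) * b).coeff m).coeff n ∈ A := by
    intro m n
    rw [Polynomial.coeff_C_mul, Polynomial.coeff_C_mul, mul_comm, ← div_eq_mul_inv]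
    by_cases hn : (m, n) ∈ S
    · exact hall (m, n) hn
    · have : (b.coeff m).coeff n = 0 := by
        by_contra h
        exact hn ((hmemS m n).mpr h)
      rw [this, zero_div]
      exact A.zero_mem
  have hl : Polynomial.C (Polynomial.C β⁻¹) * b ∈
      Polynomial.lifts (Polynomial.mapRingHom A.subtype) := by
    rw [Polynomial.lifts_iff_coeff_lifts]
    intro m
    obtain ⟨c, hc⟩ := sc_exists_lift A _ (hA m)
    exact ⟨c, hc⟩
  obtain ⟨b', hb'⟩ := hl
  refine ⟨β, b', hb₀, ?_, ?_⟩
  · intro h0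
    have h1 := congrArg (fun v : (kk A)[X][X] => (v.coeff m₀).coeff n₀) h0
    simp only [Polynomial.coeff_map, Polynomial.coeff_zero, Polynomial.coe_mapRingHom] at h1
    have h2 : (b'.coeff m₀).coeff n₀ = 1 := by
      apply Subtype.ext
      have := congrArg (fun v : Qb[X][X] => (v.coeff m₀).coeff n₀) hb'
      simp only [Polynomial.coe_mapRingHom, Polynomial.coeff_map, Polynomial.coeff_C_mul] at this
      rw [← hβ, inv_mul_cancel₀ hb₀] at this
      exact this
    rw [h2, map_one] at h1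
    exact one_ne_zero h1
  · have hb'' : b'.map (Polynomial.mapRingHom A.subtype) = Polynomial.C (Polynomial.C β⁻¹) * b := hb'
    rw [hb'', ← mul_assoc, ← Polynomial.C_mul, ← Polynomial.C_mul, mul_inv_cancel₀ hb₀,
      Polynomial.C_1, Polynomial.C_1, one_mul]

end Fermat.Agent.S18Lib
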