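import Mathlib
import Fermat.Prelude.Def_ModularCurve_X0ModL
import Fermat.Agent.Lib.FF.ThetaD

/-!
# S18 library: more API for `θ = q d/dq` (`FFLib.thetaFun`, `FFLib.thetaD`) on Laurent series
-/

set_option autoImplicit false

open ModularCurve HahnSeries Fermat.Agent.FFLib

namespace Fermat.Agent.S18Lib

noncomputable section

variable {R : Type*} [CommRing R]

theorem th_zero : thetaFun (0 : LaurentSeries R) = 0 := by
  ext n; simp

theorem th_neg (f : LaurentSeries R) : thetaFun (-f) = -thetaFun f := by
  ext n; simp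

theorem th_sub (f g : LaurentSeries R) : thetaFun (f - g) = thetaFun f - thetaFun g := by
  ext n; simp [mul_sub]

theorem th_single (n : ℤ) (r : R) :
    thetaFun (HahnSeries.single n r : LaurentSeries R) = HahnSeries.single n ((n : R) * r) := by
  ext m
  rw [thetaFun_coeff]
  rcases eq_or_ne m n with rfl | h
  · rw [HahnSeries.coeff_single_same, HahnSeries.coeff_single_same]
  · rw [HahnSeries.coeff_single_of_ne h, HahnSeries.coeff_single_of_ne h, mul_zero]

theorem th_one : thetaFun (1 : LaurentSeries R) = 0 := by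
  have := thetaFun_C (1 : R)
  rwa [map_one] at this

theorem th_algebraMap (r : R) : thetaFun (algebraMap R (LaurentSeries R) r) = 0 := by
  rw [algebraMap_eq_C, thetaFun_C]

theorem th_natCast (n : ℕ) : thetaFun (n : LaurentSeries R) = 0 := by
  have := thetaFun_C ((n : R))
  rwa [map_natCast] at this

theorem th_intCast (n : ℤ) : thetaFun (n : LaurentSeries R) = 0 := by
  have := thetaFun_C ((n : R))
  rwa [map_intCast] at this

theorem th_ofNat (n : ℕ) [n.AtLeastTwo] : thetaFun (OfNat.ofNat n : LaurentSeries R) = 0 :=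
  th_natCast n

theorem th_pow (f : LaurentSeries R) (n : ℕ) :
    thetaFun (f ^ n) = (n : LaurentSeries R) * f ^ (n - 1) * thetaFun f := by
  induction n with
  | zero => simp [th_one]
  | succ n ih =>
    rw [pow_succ, thetaFun_mul, ih]
    rcases n with _ | n
    · simp
    · simp only [Nat.add_sub_cancel]
      push_cast
      ring

theorem coeff_zero_th (f : LaurentSeries R) : (thetaFun f).coeff 0 = 0 := by
  rw [thetaFun_coeff]; simp

theorem th_coeffMap {S : Type*} [CommRing S] (φ : R →+* S) (f : LaurentSeries R) :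
    thetaFun (coeffMap φ f) = coeffMap φ (thetaFun f) := by
  ext n
  rw [thetaFun_coeff, coeffMap_coeff, coeffMap_coeff, thetaFun_coeff, map_mul, map_intCast]

theorem th_qExpand (d : ℕ) [NeZero d] (f : LaurentSeries R) :
    thetaFun (qExpand R d f) = (d : LaurentSeries R) * qExpand R d (thetaFun f) := by
  have hC : (d : LaurentSeries R) = HahnSeries.C (d : R) := by rw [map_natCast]
  ext n
  rw [thetaFun_coeff, hC, HahnSeries.C_mul_eq_smul, HahnSeries.coeff_smul, smul_eq_mul]
  by_cases hn : (d : ℤ) ∣ n
  · obtain ⟨m, rfl⟩ := hn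
    rw [qExpand_coeff_mul, qExpand_coeff_mul, thetaFun_coeff]
    push_cast
    ring
  · rw [qExpand_coeff_of_not_dvd d _ hn, qExpand_coeff_of_not_dvd d _ hn, mul_zero, mul_zero]

theorem th_aeval (x : LaurentSeries R) (p : Polynomial R) :
    thetaFun (Polynomial.aeval x p) = Polynomial.aeval x (Polynomial.derivative p) * thetaFun x := by
  induction p using Polynomial.induction_on' with
  | add p q hp hq => rw [map_add, thetaFun_add, hp, hq, map_add, map_add, add_mul]
  | monomial n a =>
    rw [Polynomial.aeval_monomial, Polynomial.derivative_monomial, Polynomial.aeval_monomial,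
      thetaFun_mul, th_algebraMap, mul_zero, add_zero, th_pow, map_mul, map_natCast]
    ring

theorem th_ofPowerSeries (p : PowerSeries R) :
    thetaFun (HahnSeries.ofPowerSeries ℤ R p) =
      HahnSeries.ofPowerSeries ℤ R (PowerSeries.X * PowerSeries.derivative R p) := by
  ext n
  rw [thetaFun_coeff]
  rcases le_or_gt 0 n with hn | hn
  · lift n to ℕ using hn
    rw [HahnSeries.ofPowerSeries_apply_coeff, HahnSeries.ofPowerSeries_apply_coeff]
    rcases n with _ | n
    · simp
    · rw [PowerSeries.coeff_succ_X_mul, PowerSeries.coeff_derivative]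
      push_cast
      ring
  · rw [ofPowerSeries_coeff_of_neg _ hn, ofPowerSeries_coeff_of_neg _ hn, mul_zero]

section Field

variable {K : Type*} [Field K]

theorem th_inv (x : LaurentSeries K) : thetaFun x⁻¹ = -(thetaFun x * (x⁻¹) ^ 2) := by
  rcases eq_or_ne x 0 with rfl | hx
  · simp [th_zero]
  · have h : thetaFun (x * x⁻¹) = 0 := by rw [mul_inv_cancel₀ hx, th_one]
    rw [thetaFun_mul] at h
    have h2 : x * thetaFun x⁻¹ = -(thetaFun x * x⁻¹) := by linear_combination h
    have h3 : thetaFun x⁻¹ = x⁻¹ * (x * thetaFun x⁻¹) := by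
      rw [← mul_assoc, inv_mul_cancel₀ hx, one_mul]
    rw [h3, h2]
    ring

theorem th_div (x y : LaurentSeries K) (hy : y ≠ 0) :
    thetaFun (x / y) = (thetaFun x * y - x * thetaFun y) / y ^ 2 := by
  rw [div_eq_mul_inv, thetaFun_mul, th_inv]
  field_simp
  ring

theorem th_pow_char (ℓ : ℕ) [CharP K ℓ] (x : LaurentSeries K) : thetaFun (x ^ ℓ) = 0 := by
  rw [th_pow]
  have : (ℓ : LaurentSeries K) = 0 := by
    have h : (ℓ : LaurentSeries K) = HahnSeries.C (ℓ : K) := by rw [map_natCast]
    rw [h, CharP.cast_eq_zero, map_zero]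
  rw [this, zero_mul, zero_mul]

end Field

end

end Fermat.Agent.S18Lib
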