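import Fermat.Agent.S18.CGauss
import Fermat.Agent.S18.ThetaApi
import Fermat.Agent.S18.RedSpace
import Fermat.Agent.S28.Relation
import Fermat.Agent.S24.Fibres
import Fermat.Agent.S20.Serre
import Fermat.Agent.S18.Scale

set_option autoImplicit false
set_option synthInstance.maxHeartbeats 400000

open AlgebraicCurve ModularCurve CongruenceSubgroup UpperHalfPlane
open scoped Polynomial IntermediateField

namespace Fermat.Agent.S18Lib

open Fermat.Agent.S24Lib Fermat.Agent.S28Lib Fermat.Agent.S28Lib.RelationAux Fermat.Agent.FFLib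

/-! ## (FF) `FT A M` is a function field over `kk A` -/

open scoped IntermediateField.algebraAdjoinAdjoin in
/-- an element algebraic over `K(x)` satisfies a nonzero two-variable polynomial relation -/
theorem ff_exists_poly {K F : Type*} [Field K] [Field F] [Algebra K F] (x y : F)
    (h : IsAlgebraic K⟮x⟯ y) :
    ∃ P : K[X][X], P ≠ 0 ∧ P.eval₂ (Polynomial.aeval x).toRingHom y = 0 := by
  have h1 : IsAlgebraic (Algebra.adjoin K ({x} : Set F)) y :=
    (IsFractionRing.isAlgebraic_iff (Algebra.adjoin K ({x} : Set F)) K⟮x⟯ F).mpr h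
  obtain ⟨p, hp0, hp⟩ := h1
  let φ : K[X] →+* Algebra.adjoin K ({x} : Set F) :=
    ((Polynomial.aeval x : K[X] →ₐ[K] F).codRestrict (Algebra.adjoin K ({x} : Set F))
      (fun a => by
        rw [Algebra.adjoin_singleton_eq_range_aeval]
        exact ⟨a, rfl⟩)).toRingHom
  have hφ : Function.Surjective φ := by
    rintro ⟨a, ha⟩
    rw [Algebra.adjoin_singleton_eq_range_aeval] at ha
    obtain ⟨b, hb⟩ := ha
    exact ⟨b, Subtype.ext hb⟩
  obtain ⟨P, hP⟩ := Polynomial.map_surjective φ hφ p
  refine ⟨P, fun h0 => hp0 (by rw [← hP, h0, Polynomial.map_zero]), ?_⟩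
  rw [← hP, Polynomial.aeval_def, Polynomial.eval₂_map] at hp
  exact hp

theorem ff_coeffMap_qExpand {R S : Type*} [CommRing R] [CommRing S] (φ : R →+* S) (n : ℕ)
    [NeZero n] (x : LaurentSeries R) :
    coeffMap φ (qExpand R n x) = qExpand S n (coeffMap φ x) := by
  ext k
  by_cases hk : (n : ℤ) ∣ k
  · obtain ⟨m, rfl⟩ := hk
    rw [coeffMap_coeff, qExpand_coeff_mul, qExpand_coeff_mul, coeffMap_coeff]
  · rw [coeffMap_coeff, qExpand_coeff_of_not_dvd n _ hk, qExpand_coeff_of_not_dvd n _ hk,
      map_zero]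

theorem ff_coe_jBarD (M : ℕ) (d : ℕ) [NeZero d] (hd : d ∣ M) :
    ((jBarD M d hd : FB M) : LaurentSeries Qb) = qExpand Qb d (jqModC Qb) := by
  change coeffMap (algebraMap ℚ Qb) (qExpand ℚ d jq) = _
  rw [ff_coeffMap_qExpand, ← jqModC_rat, coeffMap_jqModC]

theorem ff_coe_jBar (M : ℕ) : ((jBar M : FB M) : LaurentSeries Qb) = jqModC Qb := by
  rw [jBar, ff_coe_jBarD, qExpand_one_apply]

/-- the relation between `j` and `j(q^d)` over `ℚ̄` -/
theorem ff_rel_Qb (M : ℕ) [NeZero M] (d : ℕ) [NeZero d] (hd : d ∣ M) :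
    ∃ P : Qb[X][X], P ≠ 0 ∧
      P.eval₂ (Polynomial.aeval (jqModC Qb)).toRingHom (qExpand Qb d (jqModC Qb)) = 0 := by
  haveI := (finrank_le_index M).1
  have halg : IsAlgebraic Qb⟮jBar M⟯ (jBarD M d hd) :=
    (Algebra.IsAlgebraic.of_finite Qb⟮jBar M⟯ (FB M)).isAlgebraic _
  obtain ⟨P, hP0, hP⟩ := ff_exists_poly (jBar M) (jBarD M d hd) halg
  refine ⟨P, hP0, ?_⟩
  have h1 := congrArg (FB M).val hP
  rw [map_zero] at h1
  rw [← h1]
  change _ = ((FB M).val : FB M →+* LaurentSeries Qb) _
  rw [Polynomial.hom_eval₂]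
  have h2 : ((FB M).val : FB M →+* LaurentSeries Qb) (jBarD M d hd) =
      qExpand Qb d (jqModC Qb) := ff_coe_jBarD M d hd
  rw [h2]
  congr 1
  apply Polynomial.ringHom_ext
  · intro a
    simp
  · simp [ff_coe_jBar]

/-- the relation between `j` and `j(q^d)` over the residue field -/
theorem ff_rel_kk (A : ValuationSubring Qb) (M : ℕ) [NeZero M] (d : ℕ) [NeZero d] (hd : d ∣ M) :
    ∃ P : (kk A)[X][X], P ≠ 0 ∧
      P.eval₂ (Polynomial.aeval (jqModC (kk A))).toRingHom
        (qExpand (kk A) d (jqModC (kk A))) = 0 := by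
  obtain ⟨P, hP0, hP⟩ := ff_rel_Qb M d hd
  obtain ⟨β, P', hβ, hres, hPP'⟩ := exists_scale_poly2 A P hP0
  refine ⟨_, hres, ?_⟩
  have h1 : (P'.map (Polynomial.mapRingHom A.subtype)).eval₂
      (Polynomial.aeval (jqModC Qb)).toRingHom (qExpand Qb d (jqModC Qb)) = 0 := by
    rw [hPP', Polynomial.eval₂_mul, Polynomial.eval₂_C] at hP
    rcases mul_eq_zero.mp hP with h | h
    · exfalso
      have h2 : (Polynomial.aeval (jqModC Qb)).toRingHom (Polynomial.C β) =
          algebraMap Qb (LaurentSeries Qb) β := by simp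
      rw [h2] at h
      exact hβ ((map_eq_zero _).mp h)
    · exact h
  have h2 := coeffMap_eval₂_aeval A.subtype (jqModC A) (qExpand A d (jqModC A)) P'
  rw [ff_coeffMap_qExpand, coeffMap_jqModC, h1] at h2
  have h3 : P'.eval₂ (Polynomial.aeval (jqModC A)).toRingHom (qExpand A d (jqModC A)) = 0 :=
    coeffMap_injective (f := A.subtype) Subtype.val_injective (h2.trans (map_zero _).symm)
  have h4 := coeffMap_eval₂_aeval (resA A) (jqModC A) (qExpand A d (jqModC A)) P'
  rw [ff_coeffMap_qExpand, coeffMap_jqModC, h3, map_zero] at h4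
  exact h4.symm

/-- `j` as an element of `FT A M` -/
noncomputable def jT (A : ValuationSubring Qb) (M : ℕ) : FT A M :=
  ⟨jqModC (kk A), jqModC_mem_full (kk A) M⟩

theorem transcendental_jT (A : ValuationSubring Qb) (M : ℕ) [NeZero M] :
    Transcendental (kk A) (jT A M) := by
  have h1 : Transcendental (kk A) (jqModC (kk A)) :=
    transcendental_iff_injective.mpr (KeyLemma.aeval_injective _ (order_jqModC (kk A)))
  intro h
  exact h1 ((isAlgebraic_algHom_iff (FT A M).val Subtype.val_injective).mpr h)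

theorem ff_abs_isIntegral {k L : Type*} [Field k] [Field L] [Algebra k L]
    (F : IntermediateField k L) (t y : F) (ht : Transcendental k t) (P : k[X][X]) (hP0 : P ≠ 0)
    (hP : P.eval₂ (Polynomial.aeval (t : L)).toRingHom (y : L) = 0) : IsIntegral k⟮t⟯ y := by
  rw [← isAlgebraic_iff_isIntegral]
  let φ : k[X] →+* k⟮t⟯ :=
    (Polynomial.aeval (IntermediateField.AdjoinSimple.gen k t)).toRingHom
  have h2 : ∀ a : k[X], algebraMap k⟮t⟯ F (φ a) = Polynomial.aeval t a := by
    intro a
    change algebraMap k⟮t⟯ F (Polynomial.aeval (IntermediateField.AdjoinSimple.gen k t) a) = _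
    rw [← Polynomial.aeval_algebraMap_apply]
    simp
  have hφ : Function.Injective φ := by
    intro a b hab
    have h1 := congrArg (algebraMap k⟮t⟯ F) hab
    rw [h2, h2] at h1
    exact transcendental_iff_injective.mp ht h1
  refine ⟨P.map φ, fun h0 => hP0 (Polynomial.map_injective φ hφ (h0.trans
    (Polynomial.map_zero _).symm)), ?_⟩
  rw [Polynomial.aeval_def, Polynomial.eval₂_map]
  apply Subtype.val_injective
  change (F.val : F →+* L) _ = 0
  rw [Polynomial.hom_eval₂, ← hP]
  congr 1
  apply RingHom.ext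
  intro a
  change ((algebraMap k⟮t⟯ F (φ a) : F) : L) = Polynomial.aeval (t : L) a
  rw [h2]
  exact (Polynomial.aeval_algHom_apply F.val t a).symm ▸ rfl

theorem ff_abs_finite {k L : Type*} [Field k] [Field L] [Algebra k L] (S : Set L)
    (hS : S.Finite) (t : IntermediateField.adjoin k S)
    (hint : ∀ y : IntermediateField.adjoin k S, (y : L) ∈ S → IsIntegral k⟮t⟯ y) :
    FiniteDimensional k⟮t⟯ (IntermediateField.adjoin k S) := by
  let S' : Set (IntermediateField.adjoin k S) :=
    (Subtype.val : IntermediateField.adjoin k S → L) ⁻¹' S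
  have hSfin : S'.Finite := hS.preimage Subtype.val_injective.injOn
  haveI : Finite S' := hSfin
  have hint' : ∀ x ∈ S', IsIntegral k⟮t⟯ x := fun x hx => hint x hx
  haveI := IntermediateField.finiteDimensional_adjoin hint'
  have htop : IntermediateField.adjoin k⟮t⟯ S' = ⊤ := by
    rw [eq_top_iff]
    intro x _
    let E : IntermediateField k (IntermediateField.adjoin k S) :=
      (IntermediateField.adjoin k⟮t⟯ S').restrictScalars k
    have hle : IntermediateField.adjoin k S ≤ E.map (IntermediateField.adjoin k S).val := by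
      rw [IntermediateField.adjoin_le_iff]
      intro y hy
      have hyF : y ∈ IntermediateField.adjoin k S := IntermediateField.subset_adjoin _ _ hy
      have h1 : (⟨y, hyF⟩ : IntermediateField.adjoin k S) ∈ IntermediateField.adjoin k⟮t⟯ S' :=
        IntermediateField.subset_adjoin k⟮t⟯ S'
          (show (⟨y, hyF⟩ : IntermediateField.adjoin k S) ∈ S' from hy)
      have h2 : (⟨y, hyF⟩ : IntermediateField.adjoin k S) ∈ E :=
        (IntermediateField.mem_restrictScalars k).mpr h1
      exact (IntermediateField.mem_map E).mpr ⟨⟨y, hyF⟩, h2, rfl⟩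
    obtain ⟨x', hx', hxx'⟩ := (IntermediateField.mem_map E).mp (hle x.2)
    have : x' = x := Subtype.ext hxx'
    rw [← this]
    exact (IntermediateField.mem_restrictScalars k).mp hx'
  rw [htop] at this
  exact Module.Finite.equiv (IntermediateField.topEquiv (F := k⟮t⟯)
    (E := IntermediateField.adjoin k S)).toLinearEquiv

theorem ff_finite_gens (κ : Type) [Field κ] (M : ℕ) [NeZero M] :
    (divisorExpansionsC κ M).Finite := by
  classical
  refine ((M.divisors.finite_toSet).image
    (fun d => if h : d = 0 then 0 else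
      haveI : NeZero d := ⟨h⟩
      qExpand κ d (jqModC κ))).subset ?_
  rintro x ⟨d, hne, hd, rfl⟩
  refine ⟨d, ?_, ?_⟩
  · simp [Nat.mem_divisors, hd, NeZero.ne M]
  · simp only [dif_neg (NeZero.ne d)]

theorem finiteDimensional_jT (A : ValuationSubring Qb) (M : ℕ) [NeZero M] :
    FiniteDimensional (kk A)⟮jT A M⟯ (FT A M) := by
  refine ff_abs_finite (divisorExpansionsC (kk A) M) (ff_finite_gens (kk A) M) (jT A M) ?_
  rintro y ⟨d, hne, hd, hyd⟩
  haveI := hne
  obtain ⟨P, hP0, hP⟩ := ff_rel_kk A M d hd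
  refine ff_abs_isIntegral (FT A M) (jT A M) y (transcendental_jT A M) P hP0 ?_
  rw [hyd]
  exact hP

theorem isFF_FT (A : ValuationSubring Qb) (M : ℕ) [NeZero M] : IsFF (kk A) (FT A M) :=
  ⟨jT A M, transcendental_jT A M, finiteDimensional_jT A M⟩

end Fermat.Agent.S18Lib
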