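import Fermat.Agent.S28.IsQ2
import Fermat.Agent.S16.Defs

/-!
# S18 block (C2b), leaf (UH): the integral power series `G_p`, `EE_p`
-/

set_option autoImplicit false

open ModularCurve

namespace Fermat.Agent.S18Lib

noncomputable section

/-- `G_p = (E₄(z) - E₄(pz)) / 240 = q + ⋯` -/
def hgZ (p : ℕ) : PowerSeries ℤ :=
  PowerSeries.mk fun n => (∑ d ∈ n.divisors, (d : ℤ) ^ 3) -
    if p ∣ n then ∑ d ∈ (n / p).divisors, (d : ℤ) ^ 3 else 0

/-- `EE_p = 1 + c ∑ sig p n qⁿ` (`c = 24 / (p - 1)`), the weight two Eisenstein series of level `p` -/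
def heZ (c : ℤ) (p : ℕ) : PowerSeries ℤ :=
  PowerSeries.mk fun n => if n = 0 then 1 else c * S16Lib.sig p n

end

end Fermat.Agent.S18Lib
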