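import Fermat.Agent.S16.Eis
import Fermat.Agent.S28.IsQ2
import Fermat.Agent.S23.LevelOne
import Fermat.Agent.S20.Cosets
import Fermat.Agent.S18.HauptDefs

/-!
# S18 block (C2b), leaf (UH): the Sturm identities at level `2` and `3`

`G_p = (E₄(τ) - E₄(pτ))/240`, `EE₂ = 24 eisF 2`, `EE₃ = 12 eisF 3` and the identities
`EE₂² = E₄ - 192 G₂`, `Δ = G₂ (E₄ - 256 G₂)²`, `EE₃² = E₄ - 216 G₃`,
`Δ EE₃² = G₃ (E₄ - 243 G₃)³` between integral power series.
-/

set_option autoImplicit false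

open UpperHalfPlane ModularForm Matrix.SpecialLinearGroup CongruenceSubgroup ModularCurve
open scoped MatrixGroups Manifold
open Fermat.Agent.S20Lib Fermat.Agent.S28Lib Fermat.Agent.S16Lib

namespace Fermat.Agent.S18Lib

noncomputable section

namespace HS

/-! ### truncated arithmetic -/

/-- the quotient `ℤ⟦X⟧ / X^n` -/
abbrev Tr (n : ℕ) : Type := PowerSeries ℤ ⧸ Ideal.span {(PowerSeries.X : PowerSeries ℤ) ^ n}

/-- the projection -/
abbrev pr (n : ℕ) : PowerSeries ℤ →+* Tr n := Ideal.Quotient.mk _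

theorem pr_X_pow (n : ℕ) : (pr n PowerSeries.X) ^ n = 0 := by
  rw [← map_pow, Ideal.Quotient.eq_zero_iff_mem]
  exact Ideal.mem_span_singleton_self _

theorem coeff_eq_zero_of_pr {n : ℕ} {s : PowerSeries ℤ} (h : pr n s = 0) :
    ∀ m < n, s.coeff m = 0 := by
  rw [Ideal.Quotient.eq_zero_iff_mem, Ideal.mem_span_singleton, PowerSeries.X_pow_dvd_iff] at h
  exact h

theorem pr_eq_sum (n : ℕ) (s : PowerSeries ℤ) :
    pr n s = ∑ i ∈ Finset.range n, ((s.coeff i : ℤ) : Tr n) * (pr n PowerSeries.X) ^ i := by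
  have h : pr n (s - ∑ i ∈ Finset.range n, PowerSeries.C (s.coeff i) * PowerSeries.X ^ i) = 0 := by
    rw [Ideal.Quotient.eq_zero_iff_mem, Ideal.mem_span_singleton, PowerSeries.X_pow_dvd_iff]
    intro m hm
    rw [map_sub, map_sum, sub_eq_zero]
    simp only [PowerSeries.coeff_C_mul, PowerSeries.coeff_X_pow, mul_ite, mul_one, mul_zero]
    rw [Finset.sum_ite_eq]
    simp [hm]
  rw [map_sub, sub_eq_zero] at h
  rw [h, map_sum]
  refine Finset.sum_congr rfl fun i _ => ?_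
  rw [map_mul, map_pow]
  congr 1
  have : (PowerSeries.C (s.coeff i) : PowerSeries ℤ) = ((s.coeff i : ℤ) : PowerSeries ℤ) := by
    simp
  rw [this, map_intCast]

/-! ### the series -/

/-- coefficients of `E₄` -/
def c4 (n : ℕ) : ℤ := if n = 0 then 1 else 240 * ∑ d ∈ n.divisors, (d : ℤ) ^ 3

/-- coefficients of `E₆` -/
def c6 (n : ℕ) : ℤ := if n = 0 then 1 else -504 * ∑ d ∈ n.divisors, (d : ℤ) ^ 5

/-- coefficients of `G_p` -/
def cg (p n : ℕ) : ℤ :=
  (∑ d ∈ n.divisors, (d : ℤ) ^ 3) - if p ∣ n then ∑ d ∈ (n / p).divisors, (d : ℤ) ^ 3 else 0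

/-- coefficients of `EE_p` -/
def ce (c : ℤ) (p n : ℕ) : ℤ := if n = 0 then 1 else c * sig p n

end HS

/-- `E₆` as an integral power series -/
def e6Z : PowerSeries ℤ := PowerSeries.mk HS.c6

theorem hgZ_eq_mk (p : ℕ) : hgZ p = PowerSeries.mk (HS.cg p) := rfl

theorem heZ_eq_mk (c : ℤ) (p : ℕ) : heZ c p = PowerSeries.mk (HS.ce c p) := rfl

/-- `G_p = (E₄(τ) - E₄(pτ))/240` -/
def hG (p : ℕ) : ℍ → ℂ := (240 : ℂ)⁻¹ • ((E₄ : ℍ → ℂ) - fun τ => (E₄ : ℍ → ℂ) (utr p 0 1 τ))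

/-- `EE_p = c eisF p` -/
def hE (c : ℤ) (p : ℕ) : ℍ → ℂ := (c : ℂ) • eisF p

theorem eisenstein4_eq : eisenstein4 = PowerSeries.mk HS.c4 := rfl

theorem qExpansion_E6 : qExpansion 1 (E₆ : ℍ → ℂ) = e6Z.map (Int.castRingHom ℂ) := by
  ext n
  rw [EisensteinSeries.E_qExpansion_coeff _ ⟨3, rfl⟩, PowerSeries.coeff_map, e6Z,
    PowerSeries.coeff_mk, HS.c6]
  split_ifs with h
  · simp
  · norm_num [show bernoulli 6 = 1 / 42 by decide +kernel, ArithmeticFunction.sigma_apply]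

theorem map_int_injective : Function.Injective (PowerSeries.map (Int.castRingHom ℂ)) := by
  intro a b h
  ext n
  have := congrArg (PowerSeries.coeff n) h
  simpa using this

/-- `1728 Δ = E₄³ - E₆²` -/
theorem delta_eq : 1728 * (PowerSeries.X * dedekindEtaUnit) = eisenstein4 ^ 3 - e6Z ^ 2 := by
  apply map_int_injective
  have h := S23Lib.LevelOneAux.qExp_discriminant
  rw [qExpansion_Delta, qExpansion_E4, qExpansion_E6] at h
  rw [map_mul, map_sub, map_pow, map_pow, ← h, Algebra.smul_def, map_ofNat]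
  congr 1

theorem hgZ_eq (p : ℕ) (hp : p ≠ 0) :
    240 * hgZ p = eisenstein4 - PowerSeries.expand p hp eisenstein4 := by
  ext n
  have e : ((240 : PowerSeries ℤ) * hgZ p).coeff n = 240 * (hgZ p).coeff n := by
    have : (240 : PowerSeries ℤ) = PowerSeries.C 240 := by simp
    rw [this, PowerSeries.coeff_C_mul]
  rw [e, map_sub, PowerSeries.coeff_expand, hgZ_eq_mk, eisenstein4_eq, PowerSeries.coeff_mk,
    PowerSeries.coeff_mk, PowerSeries.coeff_mk, HS.cg, HS.c4, HS.c4]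
  by_cases hn : n = 0
  · subst hn
    simp
  · rw [if_neg hn]
    by_cases hd : p ∣ n
    · have hnp : n / p ≠ 0 := by
        obtain ⟨m, rfl⟩ := hd
        rw [Nat.mul_div_cancel_left _ (Nat.pos_of_ne_zero hp)]
        rintro rfl
        simp at hn
      rw [if_pos hd, if_pos hd, if_neg hnp]
      ring
    · rw [if_neg hd, if_neg hd]
      ring

/-! ### the forms -/

theorem HS.isMF_sub {Γ : Subgroup SL(2, ℤ)} {k : ℤ} {f g : ℍ → ℂ} (hf : IsMF Γ k f)
    (hg : IsMF Γ k g) : IsMF Γ k (f - g) := (Mk Γ k).sub_mem hf hg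

theorem isMF_hG (p M : ℕ) [NeZero M] (h : p ∣ M) : IsMF (Gamma0 M) 4 (hG p) :=
  (HS.isMF_sub ((isMF_top_coe E₄).mono le_top) (isMF_dilate M (isMF_top_coe E₄) h)).smul _

theorem qExpansion_hG (p : ℕ) (hp : p ≠ 0) :
    qExpansion 1 (hG p) = (hgZ p).map (Int.castRingHom ℂ) := by
  have : NeZero p := ⟨hp⟩
  have h1 : IsMF (Gamma0 p) 4 (E₄ : ℍ → ℂ) := (isMF_top_coe E₄).mono le_top
  have h2 : IsMF (Gamma0 p) 4 (fun τ => (E₄ : ℍ → ℂ) (utr p 0 1 τ)) :=
    isMF_dilate p (isMF_top_coe E₄) dvd_rfl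
  have hq : QI ⊤ 1 (E₄ : ℍ → ℂ) := IsQAux.qi_top (N := 1) ((isMF_top_coe E₄).mono le_top)
  rw [hG, qExpansion_smul (IsQAux.analytic (HS.isMF_sub h1 h2)),
    qExpansion_sub (IsQAux.analytic h1) (IsQAux.analytic h2), qExpansion_dilate hq hp,
    qExpansion_E4, ← PowerSeries.map_expand, ← map_sub, ← hgZ_eq p hp, map_mul, map_ofNat]
  ext n
  have : (240 : PowerSeries ℂ) = PowerSeries.C 240 := (map_ofNat PowerSeries.C 240).symm
  rw [this, PowerSeries.coeff_smul, PowerSeries.coeff_C_mul]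
  simp

theorem isMF_hE (c : ℤ) (p M : ℕ) [NeZero M] (h : p ∣ M) : IsMF (Gamma0 M) 2 (hE c p) := by
  have hp : p ≠ 0 := by
    rintro rfl
    exact NeZero.ne M (Nat.eq_zero_of_zero_dvd h)
  have hle : Gamma0 M ≤ Gamma0 p := by
    intro g hg
    rw [Gamma0_mem, ZMod.intCast_zmod_eq_zero_iff_dvd] at hg ⊢
    exact (Int.natCast_dvd_natCast.mpr h).trans hg
  exact ((isMF_eisF p hp).mono hle).smul _

theorem qExpansion_hE (c : ℤ) (p : ℕ) [Fact p.Prime] (hc : c * ((p : ℤ) - 1) = 24) :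
    qExpansion 1 (hE c p) = (heZ c p).map (Int.castRingHom ℂ) := by
  have hp : p ≠ 0 := (Fact.out : p.Prime).ne_zero
  have hp1 : 1 ≤ p := Nat.pos_of_ne_zero hp
  have : NeZero p := ⟨hp⟩
  have hMF := isMF_eisF p hp
  have hcf : ∀ k : ℕ, (qExpansion 1 (eisF p)).coeff k =
      if k = 0 then ((p : ℂ) - 1) / 24 else (sig p k : ℂ) := by
    intro k
    have hc := fun m => QIAux.coeff_unique one_pos (IsQAux.analytic hMF) (EIS.hasSum_eisF p hp) m
    by_cases hk0 : k = 0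
    · subst hk0
      rw [if_pos rfl, ← hc 0]
      simp [EIS.e2c]
      ring
    · rw [if_neg hk0, ← hc k]
      have hs := EIS.sigma_eq p hp k
      have hs' : ((ArithmeticFunction.sigma 1 k : ℕ) : ℂ) = (sig p k : ℂ) +
          if p ∣ k then (p : ℂ) * ((ArithmeticFunction.sigma 1 (k / p) : ℕ) : ℂ) else 0 := by
        have := congrArg (Int.cast : ℤ → ℂ) hs
        push_cast at this
        rw [this]
      by_cases h : p ∣ k
      · have hkp : k / p ≠ 0 := by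
          obtain ⟨m, rfl⟩ := h
          rw [Nat.mul_div_cancel_left _ (Nat.pos_of_ne_zero hp)]
          rintro rfl
          simp at hk0
        rw [if_pos h] at hs' ⊢
        simp only [EIS.e2c, if_neg hk0, if_neg hkp]
        rw [hs']
        ring
      · rw [if_neg h] at hs' ⊢
        simp only [EIS.e2c, if_neg hk0]
        rw [hs']
        ring
  ext k
  rw [hE, qExpansion_smul (IsQAux.analytic hMF), PowerSeries.coeff_smul, hcf, PowerSeries.coeff_map,
    heZ_eq_mk, PowerSeries.coeff_mk, HS.ce]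
  have hcC : (c : ℂ) * ((p : ℂ) - 1) = 24 := by
    have := congrArg (Int.cast : ℤ → ℂ) hc
    push_cast at this
    exact this
  split_ifs with h
  · simp only [smul_eq_mul, eq_intCast, Int.cast_one]
    linear_combination hcC / 24
  · simp

/-! ### Sturm -/

theorem idx_two : idx 2 = 3 := by
  rw [idx, index_Gamma0]
  decide +kernel

theorem idx_three : idx 3 = 4 := by
  rw [idx, index_Gamma0]
  decide +kernel

theorem HS.eq_zero_of_isQ (N : ℕ) [NeZero N] {k : ℕ} {s : PowerSeries ℤ}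
    (h : IsQ N k (s.map (Int.castRingHom ℚ))) {n : ℕ} (hn : k * idx N / 12 < n)
    (h0 : pr n s = 0) : s = 0 := by
  have h1 := h.eq_zero (fun m hm => by
    rw [PowerSeries.coeff_map, HS.coeff_eq_zero_of_pr h0 m (by omega), map_zero])
  ext n
  have := congrArg (PowerSeries.coeff n) h1
  simpa using this

namespace HS

/-- the class of `X` modulo `X^6` -/
abbrev x6 : Tr 6 := pr 6 PowerSeries.X

theorem x6_pow : x6 ^ 6 = 0 := pr_X_pow 6

theorem pr_e4 : pr 6 eisenstein4 = 1 + 240 * x6 + 2160 * x6 ^ 2 + 6720 * x6 ^ 3 + 17520 * x6 ^ 4 + 30240 * x6 ^ 5 := by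
  rw [pr_eq_sum, eisenstein4_eq]
  simp only [Finset.sum_range_succ, Finset.sum_range_zero, PowerSeries.coeff_mk]
  rw [show c4 0 = 1 by decide +kernel, show c4 1 = 240 by decide +kernel, show c4 2 = 2160 by decide +kernel, show c4 3 = 6720 by decide +kernel, show c4 4 = 17520 by decide +kernel, show c4 5 = 30240 by decide +kernel]
  push_cast
  ring

theorem pr_e6 : pr 6 e6Z = 1 + (-504) * x6 + (-16632) * x6 ^ 2 + (-122976) * x6 ^ 3 + (-532728) * x6 ^ 4 + (-1575504) * x6 ^ 5 := by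
  rw [pr_eq_sum, e6Z]
  simp only [Finset.sum_range_succ, Finset.sum_range_zero, PowerSeries.coeff_mk]
  rw [show c6 0 = 1 by decide +kernel, show c6 1 = (-504) by decide +kernel, show c6 2 = (-16632) by decide +kernel, show c6 3 = (-122976) by decide +kernel, show c6 4 = (-532728) by decide +kernel, show c6 5 = (-1575504) by decide +kernel]
  push_cast
  ring

theorem pr_g2 : pr 6 (hgZ 2) = 1 * x6 + 8 * x6 ^ 2 + 28 * x6 ^ 3 + 64 * x6 ^ 4 + 126 * x6 ^ 5 := by
  rw [pr_eq_sum, hgZ_eq_mk]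
  simp only [Finset.sum_range_succ, Finset.sum_range_zero, PowerSeries.coeff_mk]
  rw [show cg 2 0 = 0 by decide +kernel, show cg 2 1 = 1 by decide +kernel, show cg 2 2 = 8 by decide +kernel, show cg 2 3 = 28 by decide +kernel, show cg 2 4 = 64 by decide +kernel, show cg 2 5 = 126 by decide +kernel]
  push_cast
  ring

theorem pr_g3 : pr 6 (hgZ 3) = 1 * x6 + 9 * x6 ^ 2 + 27 * x6 ^ 3 + 73 * x6 ^ 4 + 126 * x6 ^ 5 := by
  rw [pr_eq_sum, hgZ_eq_mk]
  simp only [Finset.sum_range_succ, Finset.sum_range_zero, PowerSeries.coeff_mk]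
  rw [show cg 3 0 = 0 by decide +kernel, show cg 3 1 = 1 by decide +kernel, show cg 3 2 = 9 by decide +kernel, show cg 3 3 = 27 by decide +kernel, show cg 3 4 = 73 by decide +kernel, show cg 3 5 = 126 by decide +kernel]
  push_cast
  ring

theorem pr_e2 : pr 6 (heZ 24 2) = 1 + 24 * x6 + 24 * x6 ^ 2 + 96 * x6 ^ 3 + 24 * x6 ^ 4 + 144 * x6 ^ 5 := by
  rw [pr_eq_sum, heZ_eq_mk]
  simp only [Finset.sum_range_succ, Finset.sum_range_zero, PowerSeries.coeff_mk]
  rw [show ce 24 2 0 = 1 by decide +kernel, show ce 24 2 1 = 24 by decide +kernel, show ce 24 2 2 = 24 by decide +kernel, show ce 24 2 3 = 96 by decide +kernel, show ce 24 2 4 = 24 by decide +kernel, show ce 24 2 5 = 144 by decide +kernel]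
  push_cast
  ring

theorem pr_e3 : pr 6 (heZ 12 3) = 1 + 12 * x6 + 36 * x6 ^ 2 + 12 * x6 ^ 3 + 84 * x6 ^ 4 + 72 * x6 ^ 5 := by
  rw [pr_eq_sum, heZ_eq_mk]
  simp only [Finset.sum_range_succ, Finset.sum_range_zero, PowerSeries.coeff_mk]
  rw [show ce 12 3 0 = 1 by decide +kernel, show ce 12 3 1 = 12 by decide +kernel, show ce 12 3 2 = 36 by decide +kernel, show ce 12 3 3 = 12 by decide +kernel, show ce 12 3 4 = 84 by decide +kernel, show ce 12 3 5 = 72 by decide +kernel]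
  push_cast
  ring

theorem ne1728 : (1728 : PowerSeries ℤ) ≠ 0 := by
  intro h
  have := congrArg (PowerSeries.constantCoeff (R := ℤ)) h
  rw [map_ofNat, map_zero] at this
  norm_num at this

/-- integral `q`-expansions of forms on `Γ₀(N)` -/
def IsZ (N : ℕ) [NeZero N] (k : ℕ) (s : PowerSeries ℤ) : Prop :=
  IsQ N k (s.map (Int.castRingHom ℚ))

variable {N : ℕ} [NeZero N] {k k' : ℕ} {s s' : PowerSeries ℤ}

theorem IsZ.add (h : IsZ N k s) (h' : IsZ N k s') : IsZ N k (s + s') := by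
  unfold IsZ
  rw [map_add]
  exact IsQ.add h h'

theorem IsZ.cmul (c : ℤ) (h : IsZ N k s) : IsZ N k ((c : PowerSeries ℤ) * s) := by
  unfold IsZ
  have e : ((c : PowerSeries ℤ) * s).map (Int.castRingHom ℚ) =
      (c : ℚ) • s.map (Int.castRingHom ℚ) := by
    ext n
    have : (c : PowerSeries ℤ) = PowerSeries.C c := by simp
    rw [this, PowerSeries.coeff_map, PowerSeries.coeff_C_mul, PowerSeries.coeff_smul,
      PowerSeries.coeff_map]
    simp
  rw [e]
  exact IsQ.smul _ h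

theorem IsZ.mul (h : IsZ N k s) (h' : IsZ N k' s') : IsZ N (k + k') (s * s') := by
  unfold IsZ
  rw [map_mul]
  exact IsQ.mul h h'

theorem isZ_e4 : IsZ N 4 eisenstein4 :=
  isQ_of_int N (k := 4) ((isMF_top_coe E₄).mono le_top) qExpansion_E4

theorem isZ_e6 : IsZ N 6 e6Z :=
  isQ_of_int N (k := 6) ((isMF_top_coe E₆).mono le_top) qExpansion_E6

theorem isZ_g (p : ℕ) (h : p ∣ N) : IsZ N 4 (hgZ p) :=
  isQ_of_int N (k := 4) (isMF_hG p N h) (qExpansion_hG p (by
    rintro rfl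
    exact NeZero.ne N (Nat.eq_zero_of_zero_dvd h)))

theorem isZ_e (c : ℤ) (p : ℕ) [Fact p.Prime] (hc : c * ((p : ℤ) - 1) = 24) (h : p ∣ N) :
    IsZ N 2 (heZ c p) :=
  isQ_of_int N (k := 2) (isMF_hE c p N h) (qExpansion_hE c p hc)

end HS

open HS in
/-- `EE₂² = E₄ - 192 G₂` -/
theorem haupt_two_a : heZ 24 2 ^ 2 = eisenstein4 - 192 * hgZ 2 := by
  have : Fact (Nat.Prime 2) := ⟨Nat.prime_two⟩
  have hE : IsZ 2 2 (heZ 24 2) := isZ_e 24 2 (by norm_num) dvd_rfl
  have hZ : IsZ 2 4 (heZ 24 2 * heZ 24 2 + (((-1 : ℤ) : PowerSeries ℤ) * eisenstein4 +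
      ((192 : ℤ) : PowerSeries ℤ) * hgZ 2)) :=
    (hE.mul hE).add ((isZ_e4.cmul _).add ((isZ_g 2 dvd_rfl).cmul _))
  have h0 := eq_zero_of_isQ 2 hZ (n := 6) (by rw [idx_two]; norm_num) (by
    simp only [map_add, map_mul, map_intCast, pr_e4, pr_g2, pr_e2]
    push_cast
    linear_combination (17280 + 11520 * x6 + 28224 * x6 ^ 2 + 6912 * x6 ^ 3 + 20736 * x6 ^ 4) *
      x6_pow)
  push_cast at h0
  linear_combination h0

open HS in
/-- `EE₃² = E₄ - 216 G₃` -/
theorem haupt_three_a : heZ 12 3 ^ 2 = eisenstein4 - 216 * hgZ 3 := by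
  have : Fact (Nat.Prime 3) := ⟨Nat.prime_three⟩
  have hE : IsZ 3 2 (heZ 12 3) := isZ_e 12 3 (by norm_num) dvd_rfl
  have hZ : IsZ 3 4 (heZ 12 3 * heZ 12 3 + (((-1 : ℤ) : PowerSeries ℤ) * eisenstein4 +
      ((216 : ℤ) : PowerSeries ℤ) * hgZ 3)) :=
    (hE.mul hE).add ((isZ_e4.cmul _).add ((isZ_g 3 dvd_rfl).cmul _))
  have h0 := eq_zero_of_isQ 3 hZ (n := 6) (by rw [idx_three]; norm_num) (by
    simp only [map_add, map_mul, map_intCast, pr_e4, pr_g3, pr_e3]
    push_cast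
    linear_combination (7920 + 7200 * x6 + 8784 * x6 ^ 2 + 12096 * x6 ^ 3 + 5184 * x6 ^ 4) *
      x6_pow)
  push_cast at h0
  linear_combination h0

open HS in
/-- `Δ = G₂ (E₄ - 256 G₂)²` -/
theorem haupt_two_b :
    PowerSeries.X * dedekindEtaUnit = hgZ 2 * (eisenstein4 - 256 * hgZ 2) ^ 2 := by
  have h4 : IsZ 2 4 eisenstein4 := isZ_e4
  have h6 : IsZ 2 6 e6Z := isZ_e6
  have hg : IsZ 2 4 (hgZ 2) := isZ_g 2 dvd_rfl
  have hw : IsZ 2 4 (eisenstein4 + ((-256 : ℤ) : PowerSeries ℤ) * hgZ 2) := h4.add (hg.cmul _)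
  have hZ : IsZ 2 12 (eisenstein4 * eisenstein4 * eisenstein4 +
      (((-1 : ℤ) : PowerSeries ℤ) * (e6Z * e6Z) + ((-1728 : ℤ) : PowerSeries ℤ) *
        (hgZ 2 * (eisenstein4 + ((-256 : ℤ) : PowerSeries ℤ) * hgZ 2) *
          (eisenstein4 + ((-256 : ℤ) : PowerSeries ℤ) * hgZ 2)))) :=
    ((h4.mul h4).mul h4).add (((h6.mul h6).cmul _).add (((hg.mul hw).mul hw).cmul _))
  have h0 := eq_zero_of_isQ 2 hZ (n := 6) (by rw [idx_two]; norm_num) (by
    simp only [map_add, map_mul, map_intCast, pr_e4, pr_e6, pr_g2]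
    push_cast
    linear_combination ((-7910784) + (3985438464) * x6 + (132204996288) * x6 ^ 2 + (1089779947776) * x6 ^ 3 +
      (5289022759680) * x6 ^ 4 + (17765387845632) * x6 ^ 5 + (32808070656000) * x6 ^ 6 +
      (45917643792384) * x6 ^ 7 + (48611688136704) * x6 ^ 8 + (26768295493632) * x6 ^ 9) *
      x6_pow)
  push_cast at h0
  have h1 := delta_eq
  have h2 : (1728 : PowerSeries ℤ) * (PowerSeries.X * dedekindEtaUnit) =
      1728 * (hgZ 2 * (eisenstein4 - 256 * hgZ 2) ^ 2) := by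
    linear_combination h1 + h0
  exact mul_left_cancel₀ ne1728 h2

open HS in
/-- `Δ EE₃² = G₃ (E₄ - 243 G₃)³` -/
theorem haupt_three_b :
    PowerSeries.X * dedekindEtaUnit * heZ 12 3 ^ 2 =
      hgZ 3 * (eisenstein4 - 243 * hgZ 3) ^ 3 := by
  have : Fact (Nat.Prime 3) := ⟨Nat.prime_three⟩
  have hE : IsZ 3 2 (heZ 12 3) := isZ_e 12 3 (by norm_num) dvd_rfl
  have h4 : IsZ 3 4 eisenstein4 := isZ_e4
  have h6 : IsZ 3 6 e6Z := isZ_e6
  have hg : IsZ 3 4 (hgZ 3) := isZ_g 3 dvd_rfl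
  have hw : IsZ 3 4 (eisenstein4 + ((-243 : ℤ) : PowerSeries ℤ) * hgZ 3) := h4.add (hg.cmul _)
  have hZ : IsZ 3 16 ((eisenstein4 * eisenstein4 * eisenstein4 +
      ((-1 : ℤ) : PowerSeries ℤ) * (e6Z * e6Z)) * (heZ 12 3 * heZ 12 3) +
        ((-1728 : ℤ) : PowerSeries ℤ) *
        (hgZ 3 * (eisenstein4 + ((-243 : ℤ) : PowerSeries ℤ) * hgZ 3) *
          (eisenstein4 + ((-243 : ℤ) : PowerSeries ℤ) * hgZ 3) *
          (eisenstein4 + ((-243 : ℤ) : PowerSeries ℤ) * hgZ 3))) :=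
    ((((h4.mul h4).mul h4).add ((h6.mul h6).cmul _)).mul (hE.mul hE)).add
      ((((hg.mul hw).mul hw).mul hw).cmul _)
  have h0 := eq_zero_of_isQ 3 hZ (n := 6) (by rw [idx_three]; norm_num) (by
    simp only [map_add, map_mul, map_intCast, pr_e4, pr_e6, pr_g3, pr_e3]
    push_cast
    linear_combination ((-7877952) + (3791352960) * x6 + (226015195968) * x6 ^ 2 + (5115864223872) * x6 ^ 3 +
      (63530546838912) * x6 ^ 4 + (504476396239680) * x6 ^ 5 + (2812788188940672) * x6 ^ 6 +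
      (11707737538253184) * x6 ^ 7 + (37653282959499648) * x6 ^ 8 + (96981027507830016) * x6 ^ 9
      + (214105638668802624) * x6 ^ 10 + (418777586393541120) * x6 ^ 11 + (695925194406206976) *
      x6 ^ 12 + (1021520029806950400) * x6 ^ 13 + (1327256750837670912) * x6 ^ 14 +
      (1459057378738176000) * x6 ^ 15 + (1350459708604416000) * x6 ^ 16 + (1064212437270528000)
      * x6 ^ 17 + (583656294187008000) * x6 ^ 18 + (143354177519616000) * x6 ^ 19) *
      x6_pow)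
  push_cast at h0
  have h1 := delta_eq
  have h2 : (1728 : PowerSeries ℤ) * (PowerSeries.X * dedekindEtaUnit * heZ 12 3 ^ 2) =
      1728 * (hgZ 3 * (eisenstein4 - 243 * hgZ 3) ^ 3) := by
    linear_combination heZ 12 3 ^ 2 * h1 + h0
  exact mul_left_cancel₀ ne1728 h2

/-! ### the interface of the (UH) skeleton -/

theorem isQ_hgZ (p : ℕ) [NeZero p] : IsQ p 4 ((hgZ p).map (Int.castRingHom ℚ)) :=
  HS.isZ_g p dvd_rfl

theorem isQ_heZ_two : IsQ 2 2 ((heZ 24 2).map (Int.castRingHom ℚ)) := by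
  have : Fact (Nat.Prime 2) := ⟨Nat.prime_two⟩
  exact HS.isZ_e 24 2 (by norm_num) dvd_rfl

theorem isQ_heZ_three : IsQ 3 2 ((heZ 12 3).map (Int.castRingHom ℚ)) := by
  have : Fact (Nat.Prime 3) := ⟨Nat.prime_three⟩
  exact HS.isZ_e 12 3 (by norm_num) dvd_rfl

theorem hs_two_a : heZ 24 2 ^ 2 = eisenstein4 - 192 * hgZ 2 := haupt_two_a

theorem hs_two_b : PowerSeries.X * dedekindEtaUnit = hgZ 2 * (eisenstein4 - 256 * hgZ 2) ^ 2 :=
  haupt_two_b

theorem hs_three_a : heZ 12 3 ^ 2 = eisenstein4 - 216 * hgZ 3 := haupt_three_a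

theorem hs_three_b : PowerSeries.X * dedekindEtaUnit * heZ 12 3 ^ 2 =
    hgZ 3 * (eisenstein4 - 243 * hgZ 3) ^ 3 := haupt_three_b

end

end Fermat.Agent.S18Lib
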