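import Fermat.Agent.S18.HauptCore
import Fermat.Agent.S18.HauptSturm

/-!
# S18 block (C2b), leaf (UH): Hauptmodul data at `p = 2`
-/

set_option autoImplicit false
set_option synthInstance.maxHeartbeats 400000

open ModularCurve

namespace Fermat.Agent.S18Lib

theorem exists_haupt_two (M : ℕ) [NeZero M] (h : 2 ∣ M) : Nonempty (HauptData M 0 64 256) :=
  haupt_of M 2 h le_rfl 0 64 256 24 (by norm_num) (by norm_num) (isQ_hgZ 2) isQ_heZ_two
    (by simpa using hs_two_a) (by simpa using hs_two_b)

end Fermat.Agent.S18Lib
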