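import Fermat.Agent.S18.HauptCore
import Fermat.Agent.S18.HauptSturm

/-!
# S18 block (C2b), leaf (UH): Hauptmodul data at `p = 3`
-/

set_option autoImplicit false
set_option synthInstance.maxHeartbeats 400000

open ModularCurve

namespace Fermat.Agent.S18Lib

theorem exists_haupt_three (M : ℕ) [NeZero M] (h : 3 ∣ M) : Nonempty (HauptData M 1 27 243) :=
  haupt_of M 3 h (by norm_num) 1 27 243 12 le_rfl (by norm_num) (isQ_hgZ 3) isQ_heZ_three
    (by simpa using hs_three_a) (by simpa using hs_three_b)

end Fermat.Agent.S18Lib
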