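import Mathlib

/-!
# S18 block C1, leaf (DC): a derivation of a separable extension of `k(t)` takes values in
`F • D t`.
-/

set_option autoImplicit false
set_option synthInstance.maxHeartbeats 400000

open scoped Polynomial IntermediateField

namespace Fermat.Agent.S18Lib

/-- the intermediate field of the `y` with `D y ∈ F • D t` -/
noncomputable def dcField {k F Ω : Type*} [Field k] [Field F]
    [Algebra k F] [Field Ω] [Algebra F Ω] [Algebra k Ω] [IsScalarTower k F Ω]
    (D : Derivation k F Ω) (t : F) : IntermediateField k F where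
  carrier := {y | ∃ z : F, D y = z • D t}
  mul_mem' := by
    rintro a b ⟨za, ha⟩ ⟨zb, hb⟩
    refine ⟨a * zb + b * za, ?_⟩
    rw [D.leibniz, ha, hb, add_smul, mul_smul, mul_smul]
  one_mem' := ⟨0, by rw [D.map_one_eq_zero, zero_smul]⟩
  add_mem' := by
    rintro a b ⟨za, ha⟩ ⟨zb, hb⟩
    exact ⟨za + zb, by rw [map_add, ha, hb, add_smul]⟩
  zero_mem' := ⟨0, by rw [map_zero, zero_smul]⟩
  algebraMap_mem' := fun c => ⟨0, by rw [D.map_algebraMap, zero_smul]⟩
  inv_mem' := by
    rintro a ⟨za, ha⟩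
    refine ⟨-a⁻¹ ^ 2 * za, ?_⟩
    rw [D.leibniz_inv, ha, smul_smul]

theorem dc_mem_iff {k F Ω : Type*} [Field k] [Field F]
    [Algebra k F] [Field Ω] [Algebra F Ω] [Algebra k Ω] [IsScalarTower k F Ω]
    (D : Derivation k F Ω) (t y : F) : y ∈ dcField D t ↔ ∃ z : F, D y = z • D t := Iff.rfl

theorem dc_adjoin_le {k F Ω : Type*} [Field k] [Field F]
    [Algebra k F] [Field Ω] [Algebra F Ω] [Algebra k Ω] [IsScalarTower k F Ω]
    (D : Derivation k F Ω) (t : F) : k⟮t⟯ ≤ dcField D t := by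
  rw [IntermediateField.adjoin_simple_le_iff]
  exact ⟨1, by rw [one_smul]⟩

theorem dc_aeval {k F Ω : Type*} [Field k] [Field F]
    [Algebra k F] [Field Ω] [Algebra F Ω] [Algebra k Ω] [IsScalarTower k F Ω]
    (D : Derivation k F Ω) (t y : F) (p : (k⟮t⟯)[X]) :
    ∃ z : F, D (Polynomial.aeval y p) = z • D t + Polynomial.aeval y (Polynomial.derivative p) • D y := by
  induction p using Polynomial.induction_on' with
  | add p q hp hq =>
    obtain ⟨zp, hp⟩ := hp
    obtain ⟨zq, hq⟩ := hq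
    refine ⟨zp + zq, ?_⟩
    rw [map_add, map_add, hp, hq, map_add, map_add, add_smul, add_smul]
    abel
  | monomial n a =>
    obtain ⟨za, ha⟩ := dc_adjoin_le D t a.2
    refine ⟨y ^ n * za, ?_⟩
    rw [Polynomial.aeval_monomial, D.leibniz, D.leibniz_pow, Polynomial.derivative_monomial,
      Polynomial.aeval_monomial]
    have h1 : D (algebraMap (k⟮t⟯) F a) = za • D t := ha
    rw [h1, mul_smul, add_comm]
    congr 1
    rw [map_mul, map_natCast, ← Nat.cast_smul_eq_nsmul F, smul_smul, smul_smul, mul_assoc]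

theorem deriv_mem_smul {k F Ω : Type*} [Field k] [Field F]
    [Algebra k F] [Field Ω] [Algebra F Ω] [Algebra k Ω] [IsScalarTower k F Ω]
    (D : Derivation k F Ω) (t : F) (hD : D t ≠ 0) [Algebra.IsSeparable k⟮t⟯ F] (y : F) :
    ∃ z : F, D y = z • D t := by
  have hsep : (minpoly k⟮t⟯ y).Separable := Algebra.IsSeparable.isSeparable k⟮t⟯ y
  have h2 : Polynomial.aeval y (Polynomial.derivative (minpoly k⟮t⟯ y)) ≠ 0 :=
    hsep.aeval_derivative_ne_zero (minpoly.aeval k⟮t⟯ y)
  obtain ⟨z, hz⟩ := dc_aeval D t y (minpoly k⟮t⟯ y)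
  rw [minpoly.aeval, map_zero] at hz
  refine ⟨-(Polynomial.aeval y (Polynomial.derivative (minpoly k⟮t⟯ y)))⁻¹ * z, ?_⟩
  have h3 : Polynomial.aeval y (Polynomial.derivative (minpoly k⟮t⟯ y)) • D y = -(z • D t) := by
    rw [eq_neg_iff_add_eq_zero, add_comm]; exact hz.symm
  rw [mul_smul, neg_smul, ← smul_neg, ← h3, smul_smul, inv_mul_cancel₀ h2, one_smul]

end Fermat.Agent.S18Lib
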