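import Fermat.Agent.S18.CGauss
import Fermat.Agent.S18.ThetaApi
import Fermat.Agent.S18.RedSpace
import Fermat.Agent.S28.Relation
import Fermat.Agent.S24.Fibres
import Fermat.Agent.S20.Serre

/-!
# S18 library, block (C1), leaf (HP): `H = ∏_{d ∣ M} (Δ(q^d)/Δ(q))^{r_d}` as Laurent series
-/

set_option autoImplicit false
set_option synthInstance.maxHeartbeats 400000

open AlgebraicCurve ModularCurve CongruenceSubgroup UpperHalfPlane
open scoped Polynomial IntermediateField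

namespace Fermat.Agent.S18Lib

open Fermat.Agent.S24Lib Fermat.Agent.S28Lib Fermat.Agent.S28Lib.RelationAux Fermat.Agent.FFLib

/-- `Δ(q^d)` as a Laurent series -/
noncomputable def DLd (κ : Type*) [CommRing κ] (d : ℕ) : LaurentSeries κ :=
  LL κ (PowerSeries.X ^ d * (expU d : PowerSeries ℤ))

theorem HP_qExpand_LL (κ : Type*) [CommRing κ] (d : ℕ) [NeZero d] (s : PowerSeries ℤ) :
    qExpand κ d (LL κ s) = LL κ (PowerSeries.expand d (NeZero.ne d) s) := by
  ext k
  by_cases hk : (d : ℤ) ∣ k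
  · obtain ⟨m, rfl⟩ := hk
    rw [qExpand_coeff_mul, LL_apply, LL_apply]
    rcases le_or_gt 0 m with hm | hm
    · lift m to ℕ using hm
      rw [← Nat.cast_mul, HahnSeries.ofPowerSeries_apply_coeff,
        HahnSeries.ofPowerSeries_apply_coeff, PowerSeries.coeff_map, PowerSeries.coeff_map,
        PowerSeries.coeff_expand_mul]
    · have hd : (0 : ℤ) < d := by exact_mod_cast Nat.pos_of_ne_zero (NeZero.ne d)
      rw [ofPowerSeries_coeff_of_neg _ hm, ofPowerSeries_coeff_of_neg _ (mul_neg_of_pos_of_neg hd hm)]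
  · rw [qExpand_coeff_of_not_dvd _ _ hk, LL_apply]
    rcases le_or_gt 0 k with hk0 | hk0
    · lift k to ℕ using hk0
      rw [HahnSeries.ofPowerSeries_apply_coeff, PowerSeries.coeff_map,
        PowerSeries.coeff_expand_of_not_dvd _ _ _ (by exact_mod_cast hk), map_zero]
    · rw [ofPowerSeries_coeff_of_neg _ hk0]

theorem DLd_eq_qExpand (κ : Type) [CommRing κ] (d : ℕ) [NeZero d] :
    DLd κ d = qExpand κ d (DL κ) := by
  rw [DL, HP_qExpand_LL, DLd, map_mul (PowerSeries.expand d (NeZero.ne d)), PowerSeries.expand_X]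
  congr 2
  rw [expU, dif_neg (NeZero.ne d)]
  rfl

theorem HP_map_units_zpow {R K : Type*} [CommRing R] [Field K] (f : R →+* K) (u : Rˣ) (n : ℤ) :
    f ((u ^ n : Rˣ) : R) = f u ^ n := by
  have h : f ((u ^ n : Rˣ) : R) = ((Units.map (f : R →* K) (u ^ n) : Kˣ) : K) := rfl
  rw [h, map_zpow, Units.val_zpow_eq_zpow_val]
  rfl

theorem HP_prod_zpow_eq {K ι : Type*} [Field K] (s : Finset ι) {x : K} (hx : x ≠ 0) (e : ι → ℤ) :
    ∏ i ∈ s, x ^ e i = x ^ ∑ i ∈ s, e i := by
  classical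
  induction s using Finset.induction_on with
  | empty => simp
  | insert a s ha ih => rw [Finset.prod_insert ha, Finset.sum_insert ha, ih, zpow_add₀ hx]

theorem HH_eq_prod (M : ℕ) [NeZero M] (κ : Type) [Field κ] :
    HH M κ = ∏ d ∈ M.divisors, (DLd κ d / DL κ) ^ rExp M d := by
  set q : LaurentSeries κ := HahnSeries.single (1 : ℤ) 1 with hq
  have hq0 : q ≠ 0 := by simp [hq]
  have hE0 : LL κ (etaU : PowerSeries ℤ) ≠ 0 := (etaU.isUnit.map (LL κ)).ne_zero
  have h1 : ∀ d : ℕ, DLd κ d = q ^ (d : ℤ) * LL κ (expU d : PowerSeries ℤ) := by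
    intro d
    rw [DLd, map_mul, map_pow, LL_X, zpow_natCast]
  have h2 : DL κ = q * LL κ (etaU : PowerSeries ℤ) := DL_eq κ
  have h3 : ∀ d : ℕ, (DLd κ d / DL κ) ^ rExp M d =
      q ^ (rExp M d * d) * (q ^ rExp M d)⁻¹ * LL κ (expU d : PowerSeries ℤ) ^ rExp M d *
        (LL κ (etaU : PowerSeries ℤ) ^ rExp M d)⁻¹ := by
    intro d
    rw [h1, h2, div_zpow, mul_zpow, mul_zpow, ← zpow_mul, mul_comm (d : ℤ), div_eq_mul_inv,
      mul_inv]
    ring
  rw [Finset.prod_congr rfl fun d _ => h3 d, Finset.prod_mul_distrib, Finset.prod_mul_distrib,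
    Finset.prod_mul_distrib, Finset.prod_inv_distrib, Finset.prod_inv_distrib,
    HP_prod_zpow_eq _ hq0, HP_prod_zpow_eq _ hq0, HP_prod_zpow_eq _ hE0]
  have h4 : LL κ (HNum M) = (∏ d ∈ M.divisors, LL κ (expU d : PowerSeries ℤ) ^ rExp M d) *
      (LL κ (etaU : PowerSeries ℤ) ^ MM M)⁻¹ := by
    rw [HNum, Units.val_mul, map_mul, HP_map_units_zpow, zpow_neg, wU, Units.coe_prod, map_prod]
    congr 1
    exact Finset.prod_congr rfl fun d _ => HP_map_units_zpow _ _ _
  rw [HH, ← LL_apply, h4, RatFunc.single_zpow, ← hq, zpow_sub₀ hq0, div_eq_mul_inv]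
  show _ = q ^ ZZ M * (q ^ MM M)⁻¹ * _ * (_ ^ MM M)⁻¹
  ring

end Fermat.Agent.S18Lib
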