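import Fermat.Agent.S18.Defs
import Fermat.Prelude.Def_FLTPrelim_Ramification

/-!
# S18 library, leaf (AC): the residue field of a valuation ring of `ℚ̄`
-/

set_option autoImplicit false
set_option synthInstance.maxHeartbeats 400000

open scoped Polynomial

namespace Fermat.Agent.S18Lib

theorem isAlgClosed_kk (A : ValuationSubring Qb) : IsAlgClosed (kk A) := by
  apply IsAlgClosed.of_exists_root
  intro p hp hirr
  have hl : p ∈ Polynomial.lifts (IsLocalRing.residue A) := by
    rw [Polynomial.lifts_iff_coeff_lifts]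
    intro n
    exact IsLocalRing.residue_surjective _
  obtain ⟨P, hPmap, hPdeg, hPmonic⟩ := Polynomial.lifts_and_natDegree_eq_and_monic hl hp
  have hdeg : (P.map A.subtype).degree ≠ 0 := by
    rw [Polynomial.degree_map_eq_of_injective A.subtype_injective,
      Polynomial.degree_eq_natDegree hPmonic.ne_zero, hPdeg]
    have := hirr.natDegree_pos
    exact_mod_cast this.ne'
  obtain ⟨x, hx⟩ := IsAlgClosed.exists_root (P.map A.subtype) hdeg
  have hint : IsIntegral A x := by
    refine ⟨P, hPmonic, ?_⟩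
    rw [Polynomial.IsRoot, Polynomial.eval_map] at hx
    exact hx
  obtain ⟨y, hy⟩ := IsIntegrallyClosed.isIntegral_iff.mp hint
  refine ⟨IsLocalRing.residue A y, ?_⟩
  rw [← hPmap, Polynomial.eval_map, Polynomial.eval₂_hom]
  have h0 : P.eval y = 0 := by
    apply A.subtype_injective
    rw [map_zero, ← Polynomial.eval₂_hom, ← Polynomial.eval_map]
    have : A.subtype y = x := hy
    rw [this]
    exact hx
  rw [h0, map_zero]

theorem charP_kk {ℓ : ℕ} [Fact ℓ.Prime] (A : ValuationSubring Qb) (hA : A.LiesOverPrime ℓ) :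
    CharP (kk A) ℓ := by
  have hℓ : ℓ.Prime := Fact.out
  have hℓ0 : ((ℓ : ℕ) : kk A) = 0 := by
    obtain ⟨ha, hm⟩ := ValuationSubring.mem_nonunits_iff_exists_mem_maximalIdeal.1 hA
    have h1 := (IsLocalRing.residue_eq_zero_iff _).2 hm
    have h2 : (⟨(ℓ : Qb), ha⟩ : A) = ((ℓ : ℕ) : A) := Subtype.ext (by simp)
    rw [h2, map_natCast] at h1
    exact h1
  obtain ⟨p, hp⟩ := CharP.exists (kk A)
  have hdvd : p ∣ ℓ := (CharP.cast_eq_zero_iff (kk A) p ℓ).mp hℓ0
  rcases (Nat.dvd_prime hℓ).mp hdvd with h | h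
  · exact absurd h (CharP.char_ne_one (kk A) p)
  · rwa [h] at hp

end Fermat.Agent.S18Lib
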