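import Fermat.Agent.S18.ThetaAn

/-!
# S18 block C1, leaf (TJ): `(θ j)^6 = j^4 (j - 1728)^3 Δ`
-/

set_option autoImplicit false
set_option synthInstance.maxHeartbeats 400000

open AlgebraicCurve ModularCurve CongruenceSubgroup UpperHalfPlane
open scoped Polynomial IntermediateField

namespace Fermat.Agent.S18Lib

open Fermat.Agent.S24Lib Fermat.Agent.S28Lib Fermat.Agent.S28Lib.RelationAux Fermat.Agent.FFLib

theorem TJ_coeffMap_LL {κ κ' : Type*} [CommRing κ] [CommRing κ'] (f : κ →+* κ') (s : PowerSeries ℤ) :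
    coeffMap f (LL κ s) = LL κ' s := by
  rw [LL_apply, coeffMap_ofPowerSeries, LL_apply,
    ← RingHom.comp_apply (PowerSeries.map f) (PowerSeries.map (Int.castRingHom κ)),
    ← PowerSeries.map_comp, RingHom.ext_int (f.comp (Int.castRingHom κ)) (Int.castRingHom κ')]

theorem TJ_coeffMap_DL {κ κ' : Type*} [CommRing κ] [CommRing κ'] (f : κ →+* κ') :
    coeffMap f (DL κ) = DL κ' := TJ_coeffMap_LL f _

/-- pure algebra -/
theorem TJ_alg {R : Type*} [CommRing R] {a d j e ta td tj : R} (hd : IsUnit d)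
    (h1 : d * j = a ^ 3) (h2 : a ^ 3 - e ^ 2 = 1728 * d) (h3 : 3 * ta * d - a * td = -(e * d))
    (h4 : d * tj + j * td = 3 * a ^ 2 * ta) :
    tj ^ 6 = j ^ 4 * (j - 1728) ^ 3 * d := by
  have h5 : d * tj = -(a ^ 2 * e) := by
    apply hd.mul_left_cancel
    linear_combination d * h4 - td * h1 + a ^ 2 * h3
  apply (hd.pow 6).mul_left_cancel
  have h6 : d ^ 6 * tj ^ 6 = a ^ 12 * e ^ 6 := by
    rw [← mul_pow, h5]; ring
  have h7 : d * j - 1728 * d = e ^ 2 := by rw [h1]; linear_combination h2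
  have h8 : d ^ 6 * (j ^ 4 * (j - 1728) ^ 3 * d) = (d * j) ^ 4 * (d * j - 1728 * d) ^ 3 := by ring
  rw [h6, h8, h7, h1]
  ring

theorem TJ_complex :
    thetaFun (jqModC ℂ) ^ 6 = jqModC ℂ ^ 4 * (jqModC ℂ - 1728) ^ 3 * DL ℂ := by
  obtain ⟨e6, h2, h3⟩ := exists_e6
  refine TJ_alg (isUnit_DL ℂ) (DL_mul_j ℂ) h2 h3 ?_
  have h := congrArg thetaFun (DL_mul_j ℂ)
  rw [thetaFun_mul, th_pow] at h
  push_cast at h
  linear_combination h

theorem TJ_int :
    thetaFun (jqModC ℤ) ^ 6 = jqModC ℤ ^ 4 * (jqModC ℤ - 1728) ^ 3 * DL ℤ := by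
  apply coeffMap_injective (f := Int.castRingHom ℂ) (RingHom.injective_int _)
  rw [map_pow, ← th_coeffMap, map_mul, map_mul, map_pow, map_pow, map_sub, coeffMap_jqModC,
    TJ_coeffMap_DL, map_ofNat]
  exact TJ_complex

theorem thetaFun_j_pow_six (κ : Type) [CommRing κ] :
    thetaFun (jqModC κ) ^ 6 = jqModC κ ^ 4 * (jqModC κ - 1728) ^ 3 * DL κ := by
  have h := congrArg (coeffMap (Int.castRingHom κ)) TJ_int
  rw [map_pow, ← th_coeffMap, map_mul, map_mul, map_pow, map_pow, map_sub, coeffMap_jqModC,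
    TJ_coeffMap_DL, map_ofNat] at h
  exact h

end Fermat.Agent.S18Lib
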