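import Fermat.Agent.S18.CGauss
import Fermat.Agent.S18.ThetaApi
import Fermat.Agent.S18.RedSpace
import Fermat.Agent.S28.Relation
import Fermat.Agent.S24.Fibres
import Fermat.Agent.S20.Serre
import Fermat.Agent.S18.ThetaJ
import Fermat.Agent.S18.HHProd
import Fermat.Agent.S18.ResField
import Fermat.Agent.S18.FiniteFT
import Fermat.Agent.S18.DerivClosure
import Fermat.Agent.S18.CharKK

set_option autoImplicit false
set_option synthInstance.maxHeartbeats 400000

open AlgebraicCurve ModularCurve CongruenceSubgroup UpperHalfPlane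
open scoped Polynomial IntermediateField

namespace Fermat.Agent.S18Lib

open Fermat.Agent.S24Lib Fermat.Agent.S28Lib Fermat.Agent.S28Lib.RelationAux Fermat.Agent.FFLib

/-! ## (HF) `H̄ ∈ FT`, by the theta trick -/

theorem hf_j_sub_ne_zero (κ : Type) [Field κ] : jqModC κ - 1728 ≠ 0 := by
  intro h0
  have h1 := congrArg (fun x : LaurentSeries κ => x.coeff (-1)) h0
  have hC : (1728 : LaurentSeries κ) = HahnSeries.C (1728 : κ) := by rw [map_ofNat]
  simp only [HahnSeries.coeff_sub, coeff_jqModC_neg_one, HahnSeries.coeff_zero] at h1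
  rw [hC, HahnSeries.C_apply, HahnSeries.coeff_single_of_ne (by decide), sub_zero] at h1
  exact one_ne_zero h1

theorem DLd_div_mem (κ : Type) [Field κ] (M : ℕ) [NeZero M] (d : ℕ) [NeZero d] (hd : d ∣ M)
    (hdκ : (d : κ) ≠ 0)
    (hθ : ∃ z ∈ modularFunctionFieldFullC κ M,
      thetaFun (qExpand κ d (jqModC κ)) = z * thetaFun (jqModC κ)) :
    DLd κ d / DL κ ∈ modularFunctionFieldFullC κ M := by
  obtain ⟨z, hz, hzθ⟩ := hθ
  have hj : jqModC κ ∈ modularFunctionFieldFullC κ M := jqModC_mem_full κ M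
  have hjd : qExpand κ d (jqModC κ) ∈ modularFunctionFieldFullC κ M := jqModCd_mem_full κ M hd
  have h1 := thetaFun_j_pow_six κ
  have h2 := congrArg (qExpand κ d) h1
  simp only [map_mul, map_pow, map_sub, map_ofNat] at h2
  rw [← DLd_eq_qExpand] at h2
  have h3 := th_qExpand d (jqModC κ)
  have hdL : (d : LaurentSeries κ) ≠ 0 := by
    have hC : (d : LaurentSeries κ) = HahnSeries.C (d : κ) := by rw [map_natCast]
    rw [hC]
    intro h0
    exact hdκ (HahnSeries.C_injective (h0.trans (map_zero _).symm))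
  have hjd0 : qExpand κ d (jqModC κ) ≠ 0 := by
    intro h0
    exact jqModC_ne_zero_of_nontrivial κ (qExpand_injective d (h0.trans (map_zero _).symm))
  have hjd1 : qExpand κ d (jqModC κ) - 1728 ≠ 0 := by
    intro h0
    apply hf_j_sub_ne_zero κ
    apply qExpand_injective d
    rw [map_sub, map_ofNat, h0, map_zero]
  have hDL : DL κ ≠ 0 := (isUnit_DL κ).ne_zero
  have key : DLd κ d / DL κ = z ^ 6 * jqModC κ ^ 4 * (jqModC κ - 1728) ^ 3 /
      ((d : LaurentSeries κ) ^ 6 * qExpand κ d (jqModC κ) ^ 4 *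
        (qExpand κ d (jqModC κ) - 1728) ^ 3) := by
    rw [div_eq_div_iff hDL (by positivity)]
    have h4 : (z * thetaFun (jqModC κ)) ^ 6 =
        ((d : LaurentSeries κ) * qExpand κ d (thetaFun (jqModC κ))) ^ 6 := by
      rw [← hzθ, h3]
    rw [mul_pow, mul_pow, h1, h2] at h4
    linear_combination -h4
  rw [key]
  have h1728 : (1728 : LaurentSeries κ) ∈ modularFunctionFieldFullC κ M := by
    exact_mod_cast natCast_mem (modularFunctionFieldFullC κ M) 1728
  exact div_mem (mul_mem (mul_mem (pow_mem hz _) (pow_mem hj _)) (pow_mem (sub_mem hj h1728) _))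
    (mul_mem (mul_mem (pow_mem (natCast_mem _ d) _) (pow_mem hjd _))
      (pow_mem (sub_mem hjd h1728) _))

theorem HH_mem_FT (M : ℕ) [NeZero M] {ℓ : ℕ} [Fact ℓ.Prime] (hℓM : ¬ ℓ ∣ M)
    (A : ValuationSubring Qb) (hA : A.LiesOverPrime ℓ) : HH M (kk A) ∈ FT A M := by
  haveI := isAlgClosed_kk A
  haveI : FiniteDimensional (kk A)⟮jT A M⟯ (FT A M) := finiteDimensional_jT A M
  haveI : Algebra.IsAlgebraic (kk A)⟮jT A M⟯ (FT A M) := Algebra.IsAlgebraic.of_finite _ _
  have ht : thetaD (kk A) ((jT A M : FT A M) : LaurentSeries (kk A)) ≠ 0 := by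
    apply thetaD_ne_zero (n := -1)
    change ((-1 : ℤ) : kk A) * (jqModC (kk A)).coeff (-1) ≠ 0
    rw [coeff_jqModC_neg_one]
    simp
  haveI : Algebra.IsSeparable (kk A)⟮jT A M⟯ (FT A M) :=
    isSeparable_of_thetaD_ne_zero (FT A M) (jT A M) ht
  rw [HH_eq_prod]
  refine prod_mem fun d hd => zpow_mem ?_ _
  have hdM : d ∣ M := Nat.dvd_of_mem_divisors hd
  haveI : NeZero d := ⟨fun h0 => NeZero.ne M (by rw [h0] at hdM; exact Nat.eq_zero_of_zero_dvd hdM)⟩
  refine DLd_div_mem (kk A) M d hdM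
    (natCast_kk_ne_zero A hA d fun h => hℓM (h.trans hdM)) ?_
  obtain ⟨z, hz⟩ := deriv_mem_smul (Ω := LaurentSeries (kk A)) (thetaDF (FT A M)) (jT A M) ht
    ⟨qExpand (kk A) d (jqModC (kk A)), jqModCd_mem_full (kk A) M hdM⟩
  refine ⟨z, z.2, ?_⟩
  rw [Algebra.smul_def] at hz
  exact hz

end Fermat.Agent.S18Lib
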