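import Fermat.Agent.S18.CGauss
import Fermat.Agent.S18.ThetaApi
import Fermat.Agent.S18.RedSpace
import Fermat.Agent.S28.Relation
import Fermat.Agent.S24.Fibres
import Fermat.Agent.S20.Serre

/-!
# S18 C1 (IK): independence of `1, H, …, H^(idx - 1)` over `κ(j)` for fields of char `ℓ ∤ M`, and
over `ℚ̄`
-/

set_option autoImplicit false
set_option synthInstance.maxHeartbeats 400000

open AlgebraicCurve ModularCurve CongruenceSubgroup UpperHalfPlane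
open scoped Polynomial IntermediateField

namespace Fermat.Agent.S18Lib

open Fermat.Agent.S24Lib Fermat.Agent.S28Lib Fermat.Agent.S28Lib.RelationAux Fermat.Agent.FFLib

open scoped TensorProduct in
theorem indep_charP (M : ℕ) [NeZero M] {ℓ : ℕ} [Fact ℓ.Prime] (hℓM : ¬ ℓ ∣ M)
    (κ : Type) [Field κ] [CharP κ ℓ] :
    ∀ p : κ[X][X], p ≠ 0 → ev2 M κ p = 0 → idx M ≤ p.natDegree := by
  have hne : Ideal.span {(ℓ : OO ℓ)} ≠ ⊤ := fun htop =>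
    not_isUnit_l_OO ℓ (Ideal.span_singleton_eq_top.mp htop)
  obtain ⟨𝔪, h𝔪max, h𝔪le⟩ := Ideal.exists_le_maximal _ hne
  let _ : Field (OO ℓ ⧸ 𝔪) := Ideal.Quotient.field 𝔪
  have h0 : ((ℓ : ℕ) : OO ℓ ⧸ 𝔪) = 0 := by
    have : Ideal.Quotient.mk 𝔪 (ℓ : OO ℓ) = 0 :=
      Ideal.Quotient.eq_zero_iff_mem.mpr (h𝔪le (Ideal.subset_span rfl))
    simpa using this
  have : CharP (OO ℓ ⧸ 𝔪) ℓ := (CharP.charP_iff_prime_eq_zero (Fact.out : ℓ.Prime)).mpr h0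
  let _ : Algebra (ZMod ℓ) (OO ℓ ⧸ 𝔪) := ZMod.algebra _ ℓ
  let _ : Algebra (ZMod ℓ) κ := ZMod.algebra _ ℓ
  have hnt : Nontrivial ((OO ℓ ⧸ 𝔪) ⊗[ZMod ℓ] κ) :=
    Algebra.TensorProduct.nontrivial_of_algebraMap_injective_of_flat_left (ZMod ℓ) (OO ℓ ⧸ 𝔪) κ
      (algebraMap (ZMod ℓ) κ).injective
  obtain ⟨𝔫, h𝔫⟩ := Ideal.exists_maximal ((OO ℓ ⧸ 𝔪) ⊗[ZMod ℓ] κ)
  let _ : Field (((OO ℓ ⧸ 𝔪) ⊗[ZMod ℓ] κ) ⧸ 𝔫) := Ideal.Quotient.field 𝔫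
  exact indep_of_hom M (OO ℓ) (inv_natCast_mem_OO M ℓ hℓM) (exp_mem_OO M ℓ)
    ((Ideal.Quotient.mk 𝔫).comp
      ((Algebra.TensorProduct.includeLeft (R := ZMod ℓ) (S := ZMod ℓ) (A := OO ℓ ⧸ 𝔪)
        (B := κ)).toRingHom.comp (Ideal.Quotient.mk 𝔪)))
    ((Ideal.Quotient.mk 𝔫).comp
      (Algebra.TensorProduct.includeRight (R := ZMod ℓ) (A := OO ℓ ⧸ 𝔪) (B := κ)).toRingHom)

theorem indep_Qb (M : ℕ) [NeZero M] :
    ∀ p : Qb[X][X], p ≠ 0 → ev2 M Qb p = 0 → idx M ≤ p.natDegree :=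
  indep_of_hom M (⊤ : Subring ℂ) trivial trivial (Subring.subtype ⊤) iotaC

end Fermat.Agent.S18Lib
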