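import Fermat.Agent.S18.ResField
import Fermat.Agent.S18.IndepK
import Fermat.Agent.S18.FiniteFT
import Fermat.Agent.S18.HHMemFT

/-!
# S18 library, block (C1), leaf (UJ): `j` is integral, reduces to `j`, and the degree does not drop
-/

set_option autoImplicit false
set_option synthInstance.maxHeartbeats 400000

open AlgebraicCurve ModularCurve CongruenceSubgroup UpperHalfPlane
open scoped Polynomial IntermediateField

namespace Fermat.Agent.S18Lib

open Fermat.Agent.S24Lib Fermat.Agent.S28Lib Fermat.Agent.S28Lib.RelationAux Fermat.Agent.FFLib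

open IntermediateField.algebraAdjoinAdjoin in
/-- abstract form: powers of `h` are independent over `k(t)` if no polynomial relation of small
degree holds. -/
theorem uj_linearIndependent {k F : Type*} [Field k] [Field F] [Algebra k F] (t h : F) (n : ℕ)
    (hind : ∀ p : k[X][X], p ≠ 0 →
      p.eval₂ ((Polynomial.aeval (R := k) t).toRingHom) h = 0 → n ≤ p.natDegree) :
    LinearIndependent k⟮t⟯ (fun i : Fin n => h ^ (i : ℕ)) := by
  rw [← LinearIndependent.iff_fractionRing (Algebra.adjoin k {t}) k⟮t⟯]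
  rw [Fintype.linearIndependent_iff]
  intro g hg
  have hr : ∀ i, ∃ r : k[X], Polynomial.aeval t r = (g i : F) := by
    intro i
    obtain ⟨y, hy⟩ := g i
    have hy' := hy
    rw [Algebra.adjoin_singleton_eq_range_aeval] at hy'
    exact hy'
  choose r hr using hr
  set p : k[X][X] := ∑ i : Fin n, Polynomial.C (r i) * Polynomial.X ^ (i : ℕ) with hp
  have hcoeff : ∀ i : Fin n, p.coeff i = r i := by
    intro i
    rw [hp, Polynomial.finsetSum_coeff]
    rw [Finset.sum_eq_single i]
    · simp
    · intro j _ hj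
      rw [Polynomial.coeff_C_mul, Polynomial.coeff_X_pow, if_neg, mul_zero]
      exact fun h => hj (Fin.ext h.symm)
    · simp
  have hev : p.eval₂ ((Polynomial.aeval (R := k) t).toRingHom) h = 0 := by
    rw [hp, Polynomial.eval₂_finsetSum, ← hg]
    refine Finset.sum_congr rfl fun i _ => ?_
    rw [Polynomial.eval₂_mul, Polynomial.eval₂_C, Polynomial.eval₂_pow, Polynomial.eval₂_X]
    show Polynomial.aeval t (r i) * _ = _
    rw [hr i]
    rfl
  have hdeg : p = 0 ∨ p.natDegree < n := by
    rcases Nat.eq_zero_or_pos n with h0 | h0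
    · left
      subst h0
      simp [hp]
    · right
      rw [hp]
      refine lt_of_le_of_lt (Polynomial.natDegree_sum_le _ _) ?_
      rw [Finset.fold_max_lt]
      refine ⟨h0, fun i _ => ?_⟩
      exact lt_of_le_of_lt (Polynomial.natDegree_C_mul_X_pow_le _ _) i.2
  have hp0 : p = 0 := by
    rcases hdeg with h | h
    · exact h
    · by_contra hne
      exact absurd (hind p hne hev) (not_le.2 h)
  intro i
  apply Subtype.ext
  rw [← hr i, ← hcoeff i, hp0]
  simp

theorem idx_le_finrank_FT (M : ℕ) [NeZero M] {ℓ : ℕ} [Fact ℓ.Prime] (hℓM : ¬ ℓ ∣ M)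
    (A : ValuationSubring Qb) (hA : A.LiesOverPrime ℓ) :
    idx M ≤ Module.finrank (kk A)⟮jT A M⟯ (FT A M) := by
  have : CharP (kk A) ℓ := charP_kk A hA
  have hfd := finiteDimensional_jT A M
  have hli := uj_linearIndependent (k := kk A) (F := FT A M) (jT A M)
    ⟨HH M (kk A), HH_mem_FT M hℓM A hA⟩ (idx M) (by
      intro p hp hev
      apply indep_charP M hℓM (kk A) p hp
      have h1 := congrArg (algebraMap (FT A M) (LaurentSeries (kk A))) hev
      rw [map_zero, Polynomial.hom_eval₂] at h1
      rw [ev2, ← h1]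
      congr 1
      apply RingHom.ext
      intro b
      show Polynomial.aeval (jqModC (kk A)) b =
        algebraMap (FT A M) (LaurentSeries (kk A)) (Polynomial.aeval (jT A M) b)
      rw [← Polynomial.aeval_algebraMap_apply]
      rfl)
  have := hli.fintype_card_le_finrank
  simpa using this

theorem uj_coe_jBar (M : ℕ) (A : ValuationSubring Qb) :
    ((jBar M : FB M) : LaurentSeries Qb) = coeffMap A.subtype (jqModC A) := by
  rw [coeffMap_jqModC]
  show coeffEmb Qb (qExpand ℚ 1 jq) = _
  rw [qExpand_one_apply, ← jqModC_rat, coeffEmb, coeffMap_jqModC]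

theorem exists_jO (M : ℕ) [NeZero M] {ℓ : ℕ} [Fact ℓ.Prime] (hℓM : ¬ ℓ ∣ M)
    (A : ValuationSubring Qb) (hA : A.LiesOverPrime ℓ)
    (R : RedData A (IsLocalRing.residue A) (FB M) (FT A M)) (hR : IsQRed A M R) :
    ∃ x : R.O, ((x : R.O) : FB M) = jBar M ∧ Transcendental (kk A) (R.red x) ∧
      Module.finrank Qb⟮((x : R.O) : FB M)⟯ (FB M) ≤
        Module.finrank (kk A)⟮R.red x⟯ (FT A M) := by
  have hy : coeffMap A.subtype (jqModC A) ∈ FB M := by
    rw [← uj_coe_jBar M A]
    exact (jBar M).2
  obtain ⟨h, hred⟩ := hR.int (jqModC A) hy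
  have hx : (⟨coeffMap A.subtype (jqModC A), hy⟩ : FB M) = jBar M :=
    Subtype.ext (uj_coe_jBar M A).symm
  have hr : R.red ⟨⟨coeffMap A.subtype (jqModC A), hy⟩, h⟩ = jT A M := by
    apply Subtype.ext
    rw [hred, coeffMap_jqModC]
    rfl
  refine ⟨⟨⟨coeffMap A.subtype (jqModC A), hy⟩, h⟩, hx, ?_, ?_⟩
  · rw [hr]
    exact transcendental_jT A M
  · rw [hr]
    show Module.finrank Qb⟮(⟨coeffMap A.subtype (jqModC A), hy⟩ : FB M)⟯ (FB M) ≤ _
    rw [hx]
    have := finrank_eq_index M
    rw [this]
    exact idx_le_finrank_FT M hℓM A hA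

end Fermat.Agent.S18Lib
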