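import Fermat.Agent.S18.Defs

/-!
# S18 library, C2b leaf (UT): reduction of functions with integral `q`-expansion
-/

set_option autoImplicit false
set_option synthInstance.maxHeartbeats 400000

open ModularCurve AlgebraicCurve

namespace Fermat.Agent.S18Lib

open Fermat.Agent.S24Lib

theorem exists_red_int {A : ValuationSubring Qb} {M : ℕ}
    (R : RedData A (IsLocalRing.residue A) (FB M) (FT A M)) (hR : IsQRed A M R)
    (s : LaurentSeries ℤ) (hs : coeffMap (Int.castRingHom Qb) s ∈ FB M) :
    ∃ x : R.O, (((x : R.O) : FB M) : LaurentSeries Qb) = coeffMap (Int.castRingHom Qb) s ∧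
      ((R.red x : FT A M) : LaurentSeries (kk A)) = coeffMap (Int.castRingHom (kk A)) s := by
  have h1 : coeffMap A.subtype (coeffMap (Int.castRingHom A) s) =
      coeffMap (Int.castRingHom Qb) s := by
    rw [coeffMap_coeffMap]
    exact coeffMap_congr (RingHom.ext_int _ _) s
  have h2 : coeffMap (IsLocalRing.residue A) (coeffMap (Int.castRingHom A) s) =
      coeffMap (Int.castRingHom (kk A)) s := by
    rw [coeffMap_coeffMap]
    exact coeffMap_congr (RingHom.ext_int _ _) s
  obtain ⟨h, e⟩ := hR.int (coeffMap (Int.castRingHom A) s) (h1 ▸ hs)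
  exact ⟨⟨_, h⟩, h1, e.trans h2⟩

end Fermat.Agent.S18Lib
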