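import Fermat.Agent.S18.Defs
import Fermat.Agent.S24.Degree

/-!
# S18 block (C2b): the Hauptmodul data at level `p ∈ {2, 3}`
-/

set_option autoImplicit false
set_option synthInstance.maxHeartbeats 400000

open UpperHalfPlane ModularForm Matrix.SpecialLinearGroup CongruenceSubgroup ModularCurve
open AlgebraicCurve IntermediateField
open scoped MatrixGroups Manifold Polynomial
open Fermat.Agent.S20Lib Fermat.Agent.S28Lib Fermat.Agent.S24Lib

namespace Fermat.Agent.S18Lib

noncomputable section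

/-- Hauptmodul data: `t = tZ` (integral `q`-expansion `q⁻¹ + ⋯`) in the function field of `X₀(M)`,
`j t^(2+s) = (t+c₀)^s (t+c₂)^3`, and a multiplier `u` (`= 1/θt`) with
`u⁶ t^(4-s) (t+c₀)^(3+s) Δ = 1` such that `f u` lies in the function field for every cusp form `f`
of weight `2` with `ℚ̄`-rational `q`-expansion.
`(s, c₀, c₂) = (0, 64, 256)` for `p = 2`, `(1, 27, 243)` for `p = 3`. -/
structure HauptData (M s c₀ c₂ : ℕ) where
  tZ : LaurentSeries ℤ
  u : LaurentSeries Qb
  coeff_neg_one : tZ.coeff (-1) = 1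
  u_ne : u ≠ 0
  t_mem : coeffMap (Int.castRingHom Qb) tZ ∈ FB M
  rel_j : W7_jE * (coeffMap (Int.castRingHom Qb) tZ) ^ (2 + s) =
    (coeffMap (Int.castRingHom Qb) tZ + (c₀ : LaurentSeries Qb)) ^ s *
      (coeffMap (Int.castRingHom Qb) tZ + (c₂ : LaurentSeries Qb)) ^ 3
  rel_u : u ^ 6 * ((coeffMap (Int.castRingHom Qb) tZ) ^ (4 - s) *
    (coeffMap (Int.castRingHom Qb) tZ + (c₀ : LaurentSeries Qb)) ^ (3 + s)) * W7_DK = 1
  mem : ∀ (f : CuspForm (Gamma0 M) 2) (φ : PowerSeries Qb),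
      qExpansion 1 f = φ.map iotaC → HahnSeries.ofPowerSeries ℤ Qb φ * u ∈ FB M

end

end Fermat.Agent.S18Lib
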