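import Fermat.Agent.S18.PoleLemma

/-!
# S18 library, C2b leaf (UA): valuation arithmetic for the differentials `ω dt`
-/

set_option autoImplicit false

open AlgebraicCurve IntermediateField
open Fermat.Agent.S24Lib

namespace Fermat.Agent.S18Lib

section

variable {k Ft : Type*} [Field k] [Field Ft] [Algebra k Ft]

/-- `u + d` at a zero of `u` -/
theorem ua_add_const_of_pos (Q : Place k Ft) {u : Ft} (hu : 0 < Q.ord u) (d : k) :
    u + algebraMap k Ft d ≠ 0 ∧ (d ≠ 0 → Q.ord (u + algebraMap k Ft d) = 0) ∧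
      (d = 0 → Q.ord (u + algebraMap k Ft d) = Q.ord u) := by
  have hu0 : u ≠ 0 := by
    rintro rfl
    simp at hu
  rcases eq_or_ne d 0 with rfl | hd
  · simp [hu0]
  · have hd' : algebraMap k Ft d ≠ 0 := (map_ne_zero_iff _ (algebraMap k Ft).injective).mpr hd
    have hge : D2_ge Q (Q.ord (algebraMap k Ft d) + 1) u := Or.inr (by rw [ord_algebraMap]; omega)
    refine ⟨D2.add_ne_zero_of_ge Q hd' hge, fun _ => ?_, fun h => absurd h hd⟩
    rw [D2.ord_add_eq Q hd' hge, ord_algebraMap]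

/-- `u + d` at a pole of `u` -/
theorem ua_add_const_of_neg (Q : Place k Ft) {u : Ft} (hu : Q.ord u < 0) (d : k) :
    u + algebraMap k Ft d ≠ 0 ∧ Q.ord (u + algebraMap k Ft d) = Q.ord u := by
  have hu0 : u ≠ 0 := by
    rintro rfl
    simp at hu
  have hge : D2_ge Q (Q.ord u + 1) (algebraMap k Ft d) := Or.inr (by rw [ord_algebraMap]; omega)
  rw [add_comm]
  exact ⟨D2.add_ne_zero_of_ge Q hu0 hge, D2.ord_add_eq Q hu0 hge⟩

/-- the two order relations -/
theorem ua_ord_relations (Q : Place k Ft) {J t T₀ T₂ ω y : Ft} {p₁ p₂ p₃ p₄ : ℕ} (ht : t ≠ 0)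
    (hT₀ : T₀ ≠ 0) (hT₂ : T₂ ≠ 0) (hω : ω ≠ 0)
    (hJ : J * t ^ p₁ = T₀ ^ p₂ * T₂ ^ 3) (hy : ω ^ 6 * (t ^ p₃ * T₀ ^ p₄) = y) :
    y ≠ 0 ∧ Q.ord J + p₁ * Q.ord t = p₂ * Q.ord T₀ + 3 * Q.ord T₂ ∧
      Q.ord y = 6 * Q.ord ω + (p₃ * Q.ord t + p₄ * Q.ord T₀) := by
  have hJ0 : J ≠ 0 := by
    rintro rfl
    rw [zero_mul] at hJ
    exact mul_ne_zero (pow_ne_zero _ hT₀) (pow_ne_zero _ hT₂) hJ.symm
  refine ⟨?_, ?_, ?_⟩
  · rw [← hy]
    exact mul_ne_zero (pow_ne_zero _ hω) (mul_ne_zero (pow_ne_zero _ ht) (pow_ne_zero _ hT₀))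
  · have := congrArg Q.ord hJ
    rw [Q.ord_mul hJ0 (pow_ne_zero _ ht), Q.ord_mul (pow_ne_zero _ hT₀) (pow_ne_zero _ hT₂),
      pl_ord_pow, pl_ord_pow, pl_ord_pow] at this
    exact_mod_cast this
  · rw [← hy, Q.ord_mul (pow_ne_zero _ hω) (mul_ne_zero (pow_ne_zero _ ht) (pow_ne_zero _ hT₀)),
      Q.ord_mul (pow_ne_zero _ ht) (pow_ne_zero _ hT₀), pl_ord_pow, pl_ord_pow, pl_ord_pow]
    norm_num

end

theorem hfin_hinf_of_relations {k Ft : Type*} [Field k] [Field Ft] [Algebra k Ft]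
    (J t ω y : Ft) (c₀ c₂ : k) (hc₀ : c₀ ≠ 0) (hc₂ : c₂ ≠ 0) (s : ℕ) (hs : s ≤ 1)
    (hJ : J * t ^ (2 + s) = (t + algebraMap k Ft c₀) ^ s * (t + algebraMap k Ft c₂) ^ 3)
    (hy : ω ^ 6 * (t ^ (4 - s) * (t + algebraMap k Ft c₀) ^ (3 + s)) = y)
    (h0 : ∀ Q : Place k Ft, 0 ≤ Q.ord J → D2_ge Q 0 y)
    (h1 : ∀ Q : Place k Ft, Q.ord J < 0 → D2_ge Q (1 + Q.ord J) y) :
    (∀ (Q : Place k Ft) (c : k), 0 < Q.ord (t - algebraMap k Ft c) →
      D2_ge Q (1 - Q.ord (t - algebraMap k Ft c)) ω) ∧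
    (∀ Q : Place k Ft, Q.ord t < 0 → D2_ge Q (1 - Q.ord t) ω) := by
  constructor
  · intro Q c he
    by_cases hω : ω = 0
    · exact Or.inl hω
    right
    set u := t - algebraMap k Ft c with hu
    have e1 : t = u + algebraMap k Ft c := by rw [hu]; ring
    have e2 : t + algebraMap k Ft c₀ = u + algebraMap k Ft (c + c₀) := by rw [hu, map_add]; ring
    have e3 : t + algebraMap k Ft c₂ = u + algebraMap k Ft (c + c₂) := by rw [hu, map_add]; ring
    obtain ⟨a1, a2, a3⟩ := ua_add_const_of_pos Q he c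
    obtain ⟨b1, b2, b3⟩ := ua_add_const_of_pos Q he (c + c₀)
    obtain ⟨d1, d2, d3⟩ := ua_add_const_of_pos Q he (c + c₂)
    rw [← e1] at a1 a2 a3
    rw [← e2] at b1 b2 b3
    rw [← e3] at d1 d2 d3
    obtain ⟨hy0, r1, r2⟩ := ua_ord_relations Q a1 b1 d1 hω hJ hy
    have g0 := fun h => (h0 Q h).resolve_left hy0
    have g1 := fun h => (h1 Q h).resolve_left hy0
    have hd : 0 ≤ Q.ord (t + algebraMap k Ft c₂) := by
      by_cases h : c + c₂ = 0
      · rw [d3 h]; omega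
      · rw [d2 h]
    obtain rfl | rfl : s = 0 ∨ s = 1 := by omega
    · norm_num at r1 r2
      by_cases hc : c = 0
      · have hb : c + c₀ ≠ 0 := by rw [hc, zero_add]; exact hc₀
        have hd' : c + c₂ ≠ 0 := by rw [hc, zero_add]; exact hc₂
        rw [a3 hc, d2 hd'] at r1
        rw [a3 hc, b2 hb] at r2
        have := g1 (by omega)
        omega
      · rw [a2 hc] at r1 r2
        have := g0 (by omega)
        by_cases hb : c + c₀ = 0
        · rw [b3 hb] at r2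
          omega
        · rw [b2 hb] at r2
          omega
    · norm_num at r1 r2
      by_cases hc : c = 0
      · have hb : c + c₀ ≠ 0 := by rw [hc, zero_add]; exact hc₀
        have hd' : c + c₂ ≠ 0 := by rw [hc, zero_add]; exact hc₂
        rw [a3 hc, d2 hd', b2 hb] at r1
        rw [a3 hc, b2 hb] at r2
        have := g1 (by omega)
        omega
      · rw [a2 hc] at r1 r2
        by_cases hb : c + c₀ = 0
        · rw [b3 hb] at r1 r2
          have := g0 (by omega)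
          omega
        · rw [b2 hb] at r1 r2
          have := g0 (by omega)
          omega
  · intro Q hn
    by_cases hω : ω = 0
    · exact Or.inl hω
    right
    have ht : t ≠ 0 := by
      rintro rfl
      simp at hn
    obtain ⟨b1, b2⟩ := ua_add_const_of_neg Q hn c₀
    obtain ⟨d1, d2⟩ := ua_add_const_of_neg Q hn c₂
    obtain ⟨hy0, r1, r2⟩ := ua_ord_relations Q ht b1 d1 hω hJ hy
    have g1 := fun h => (h1 Q h).resolve_left hy0
    rw [b2, d2] at r1
    rw [b2] at r2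
    obtain rfl | rfl : s = 0 ∨ s = 1 := by omega
    · norm_num at r1 r2
      have := g1 (by omega)
      omega
    · norm_num at r1 r2
      have := g1 (by omega)
      omega

end Fermat.Agent.S18Lib
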