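import Fermat.Agent.S18.RedCusp
import Fermat.Agent.S18.OrdArith
import Fermat.Agent.Lib.FF.TraceFunctional

/-!
# S18 block (C2b): abstract form of the upper bound
-/

set_option autoImplicit false

open AlgebraicCurve IntermediateField
open Fermat.Agent.S24Lib

namespace Fermat.Agent.S18Lib

theorem upper_abstract {K k F Ft : Type*} [Field K] [Field k] [Field F] [Algebra K F]
    [Field Ft] [Algebra k Ft] {A : ValuationSubring K} {resK : A →+* k}
    (hF : IsFF K F) (hFt : IsFF k Ft) [IsAlgClosed K] [IsAlgClosed k]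
    (R : RedData A resK F Ft) (xj xt : R.O) (hxjt : Transcendental k (R.red xj))
    (hdeg : Module.finrank K⟮((xj : R.O) : F)⟯ F ≤ Module.finrank k⟮R.red xj⟯ Ft)
    (htt : Transcendental k (R.red xt)) [Algebra.IsSeparable k⟮R.red xt⟯ Ft]
    (s c₀ c₂ : ℕ) (hs : s ≤ 1) (hc₀ : (c₀ : k) ≠ 0) (hc₂ : (c₂ : k) ≠ 0)
    (hJ : ((xj : R.O) : F) * ((xt : R.O) : F) ^ (2 + s) =
      (((xt : R.O) : F) + (c₀ : F)) ^ s * (((xt : R.O) : F) + (c₂ : F)) ^ 3)
    (U : Submodule K F) (hUfd : FiniteDimensional K U) (m : ℕ) (hm : 1 ≤ m)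
    (hU : ∀ b ∈ U,
      b ^ 6 * (((xt : R.O) : F) ^ (4 - s) * (((xt : R.O) : F) + (c₀ : F)) ^ (3 + s)) ∈
        riemannRochSpace (1 • FFLib.poleDiv K ((xj : R.O) : F)) ∧
      (b ^ 6 * (((xt : R.O) : F) ^ (4 - s) * (((xt : R.O) : F) + (c₀ : F)) ^ (3 + s))) ^ m ∈
        riemannRochSpace ((m - 1) • FFLib.poleDiv K ((xj : R.O) : F)))
    (c : ℤ) :
    ∃ E : Divisor k Ft, c ≤ Divisor.degree E ∧
      (FFLib.ell E : ℤ) ≤ Divisor.degree E + 1 - (Module.finrank K U : ℤ) := by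
  obtain ⟨b, hbU, hbind⟩ := R.exists_orth U hUfd
  have hJ' : R.red xj * R.red xt ^ (2 + s) =
      (R.red xt + algebraMap k Ft (c₀ : k)) ^ s * (R.red xt + algebraMap k Ft (c₂ : k)) ^ 3 := by
    have h1 : xj * xt ^ (2 + s) = (xt + (c₀ : R.O)) ^ s * (xt + (c₂ : R.O)) ^ 3 := by
      apply Subtype.ext
      push_cast
      exact hJ
    have h2 := congrArg R.red h1
    simpa only [map_mul, map_pow, map_add, map_natCast] using h2
  have key : ∀ i, (∀ (Q : Place k Ft) (c : k), 0 < Q.ord (R.red xt - algebraMap k Ft c) →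
      D2_ge Q (1 - Q.ord (R.red xt - algebraMap k Ft c)) (R.red (b i))) ∧
      (∀ Q : Place k Ft, Q.ord (R.red xt) < 0 → D2_ge Q (1 - Q.ord (R.red xt)) (R.red (b i))) := by
    intro i
    set y : R.O := (b i) ^ 6 * (xt ^ (4 - s) * (xt + (c₀ : R.O)) ^ (3 + s)) with hy
    have hyF : ((y : R.O) : F) = ((b i : R.O) : F) ^ 6 *
        (((xt : R.O) : F) ^ (4 - s) * (((xt : R.O) : F) + (c₀ : F)) ^ (3 + s)) := by
      rw [hy]; push_cast; rfl
    obtain ⟨h1, h2⟩ := hU _ (hbU i)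
    rw [← hyF] at h1 h2
    have h3 := red_ge_of_pow_mem hF hFt R xj hxjt hdeg y m hm h1 h2
    refine hfin_hinf_of_relations (R.red xj) (R.red xt) (R.red (b i)) (R.red y) (c₀ : k) (c₂ : k)
      hc₀ hc₂ s hs hJ' ?_ (fun Q => (h3 Q).1) (fun Q => (h3 Q).2)
    rw [hy]
    simp only [map_mul, map_pow, map_add, map_natCast]
  exact FFLib.exists_ell_le_of_differentials hFt htt (fun i => R.red (b i)) hbind
    (fun i => (key i).1) (fun i => (key i).2) c

end Fermat.Agent.S18Lib
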