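import Fermat.Agent.S18.RiemannLower

/-!
# S18 C2b (UD): `f ^ (6 m) / Δ` is a holomorphic modular form for a cusp form `f` of weight `2`
-/

set_option autoImplicit false
set_option synthInstance.maxHeartbeats 400000

open UpperHalfPlane ModularForm Matrix.SpecialLinearGroup CongruenceSubgroup ModularCurve
open AlgebraicCurve IntermediateField
open scoped MatrixGroups Manifold Polynomial
open Fermat.Agent.S20Lib Fermat.Agent.S28Lib Fermat.Agent.S24Lib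

namespace Fermat.Agent.S18Lib

noncomputable section

theorem ud_slash_T_pow_apply (k : ℤ) (f : ℍ → ℂ) (n : ℕ) (τ : ℍ) :
    (f ∣[k] (ModularGroup.T ^ n)) τ = f (((n : ℕ) : ℝ) +ᵥ τ) := by
  induction n generalizing τ with
  | zero => simp
  | succ n ih =>
    rw [pow_succ, SlashAction.slash_mul, Cusps.slash_T_apply, ih]
    congr 1
    ext
    simp
    ring

theorem ud_pow_slash (k : ℤ) (g : ℍ → ℂ) (γ : SL(2, ℤ)) (n : ℕ) :
    (g ^ n) ∣[(n : ℤ) * k] γ = (g ∣[k] γ) ^ n := by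
  induction n with
  | zero =>
    simp only [pow_zero, Nat.cast_zero, zero_mul]
    exact is_invariant_one γ
  | succ n ih =>
    have : ((n + 1 : ℕ) : ℤ) * k = (n : ℤ) * k + k := by push_cast; ring
    rw [this, pow_succ, mul_slash_SL2, ih, pow_succ]

theorem ud_conj_T_pow_mem (M : ℕ) (γ : SL(2, ℤ)) : γ * ModularGroup.T ^ M * γ⁻¹ ∈ Gamma0 M := by
  have h1 : ModularGroup.T ^ M ∈ Gamma M := by
    have h : ModularGroup.T ^ M = ModularGroup.T ^ ((M : ℕ) : ℤ) := (zpow_natCast _ _).symm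
    rw [h, Gamma_mem, ModularGroup.coe_T_zpow]
    simp
  have h2 := (Gamma_normal M).conj_mem _ h1 γ
  rw [Gamma_mem] at h2
  rw [Gamma0_mem]
  exact h2.2.2.1

theorem ud_periodic {M : ℕ} {k : ℤ} {f : ℍ → ℂ} (hinv : ∀ γ ∈ Gamma0 M, f ∣[k] γ = f)
    (γ : SL(2, ℤ)) : Function.Periodic ((f ∣[k] γ) ∘ ofComplex) (M : ℂ) := by
  apply W3.periodic_of_vadd_nat
  intro τ
  rw [← ud_slash_T_pow_apply k (f ∣[k] γ) M τ]
  have h2 : (f ∣[k] γ) ∣[k] (ModularGroup.T ^ M : SL(2, ℤ)) = f ∣[k] γ := by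
    conv_rhs => rw [← hinv _ (ud_conj_T_pow_mem M γ)]
    rw [← SlashAction.slash_mul, ← SlashAction.slash_mul]
    congr 1
    group
  rw [h2]

theorem isMF_pow_div_Dl (M : ℕ) [NeZero M] (f : ℍ → ℂ) (hf : IsCF (Gamma0 M) 2 f) (m : ℕ)
    (hm : M ≤ 6 * m) (hm1 : 1 ≤ m) :
    IsMF (Gamma0 M) (12 * ((m - 1 : ℕ) : ℤ)) (f ^ (6 * m) / Dl) := by
  have hM : 0 < M := Nat.pos_of_ne_zero (NeZero.ne M)
  have hM' : (0 : ℝ) < (M : ℝ) := by exact_mod_cast hM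
  have hF : IsMF (Gamma0 M) (((6 * m : ℕ) : ℤ) * 2) (f ^ (6 * m)) :=
    SeparatingAux.isMF_pow hf.isMF (6 * m)
  have hw : (12 * ((m - 1 : ℕ) : ℤ)) = ((6 * m : ℕ) : ℤ) * 2 - 12 := by
    obtain ⟨m', rfl⟩ : ∃ m', m = m' + 1 := ⟨m - 1, by omega⟩
    simp only [Nat.add_sub_cancel]
    push_cast
    ring
  rw [hw]
  apply hF.div_Dl
  intro γ
  rw [ud_pow_slash]
  have hol : MDiff (f ∣[(2 : ℤ)] γ) := hf.holo.slash 2 _
  have h1 : (f ∣[(2 : ℤ)] γ) =O[atImInfty] fun τ : ℍ => Real.exp (-2 * Real.pi * τ.im / (M : ℝ)) :=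
    UpperHalfPlane.IsZeroAtImInfty.exp_decay_atImInfty (hf.zero γ) hM' (ud_periodic hf.inv γ) hol
      (hf.isMF.bdd γ)
  have h2 := h1.pow (6 * m)
  refine h2.trans (Asymptotics.IsBigO.of_bound 1 (Filter.Eventually.of_forall fun τ => ?_))
  rw [one_mul, Real.norm_eq_abs, Real.norm_eq_abs, abs_of_pos (Real.exp_pos _),
    abs_of_pos (pow_pos (Real.exp_pos _) _), ← Real.exp_nat_mul, Real.exp_le_exp]
  have h3 : (M : ℝ) ≤ ((6 * m : ℕ) : ℝ) := by exact_mod_cast hm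
  have h4 : 0 < τ.im := τ.im_pos
  have h5 : ((6 * m : ℕ) : ℝ) * (-2 * Real.pi * τ.im / (M : ℝ)) =
      -(2 * Real.pi * τ.im) * (((6 * m : ℕ) : ℝ) / (M : ℝ)) := by
    field_simp
  rw [h5]
  have h6 : 1 ≤ ((6 * m : ℕ) : ℝ) / (M : ℝ) := by rwa [one_le_div hM']
  have h7 : 0 < 2 * Real.pi * τ.im := by positivity
  nlinarith

end

end Fermat.Agent.S18Lib
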