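import Fermat.Agent.S18.RiemannLower
import Fermat.Agent.S18.DivDelta
import Fermat.Prelude.Thm_UpperHalfPlane_qExpansion_prod

/-!
# S18 C2b (UY): `f ^ 6 / Δ` and its powers as `W7_Rep`
-/

set_option autoImplicit false
set_option synthInstance.maxHeartbeats 400000

open UpperHalfPlane ModularForm Matrix.SpecialLinearGroup CongruenceSubgroup ModularCurve
open AlgebraicCurve IntermediateField
open scoped MatrixGroups Manifold Polynomial
open Fermat.Agent.S20Lib Fermat.Agent.S28Lib Fermat.Agent.S24Lib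

namespace Fermat.Agent.S18Lib

noncomputable section

theorem uy_qExpansion_pow {M : ℕ} [NeZero M] {k : ℤ} {f : ℍ → ℂ} (hf : IsMF (Gamma0 M) k f)
    (n : ℕ) : qExpansion 1 (f ^ n) = qExpansion 1 f ^ n := by
  have hmer := W2.isMerInf_of_isMF hf
  have han : AnalyticAt ℂ (cuspFunction (1 : ℝ) f) 0 :=
    analyticAt_cuspFunction_zero one_pos (by simpa using hmer.per) hf.holo (by simpa using hf.bdd 1)
  have := UpperHalfPlane.qExpansion_prod (h := (1 : ℝ)) (Finset.range n) (F := fun _ => f)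
    (fun _ _ => han)
  simpa using this

theorem rep_pow_six (M : ℕ) [NeZero M] (f : CuspForm (Gamma0 M) 2) (φ : PowerSeries Qb)
    (hφ : qExpansion 1 f = φ.map iotaC) :
    W7_Rep M 1 ((HahnSeries.ofPowerSeries ℤ Qb φ) ^ 6 / W7_DK) ∧
      ∀ m : ℕ, M ≤ 6 * m → 1 ≤ m →
        W7_Rep M (m - 1) (((HahnSeries.ofPowerSeries ℤ Qb φ) ^ 6 / W7_DK) ^ m) := by
  have hcf : IsCF (Gamma0 M) 2 (f : ℍ → ℂ) := isCF_coe _ f
  have hne : ∀ τ, Dl τ ≠ 0 := Dl_ne_zero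
  set g : ℍ → ℂ := (f : ℍ → ℂ) ^ 6 / Dl with hg
  have hg1 : g * Dl ^ 1 = (f : ℍ → ℂ) ^ 6 := by
    ext τ
    simp only [hg, Pi.div_apply, Pi.mul_apply, Pi.pow_apply, pow_one]
    rw [div_mul_cancel₀ _ (hne τ)]
  have hf6 : IsMF (Gamma0 M) (12 * ((1 : ℕ) : ℤ)) ((f : ℍ → ℂ) ^ 6) := by
    have := SeparatingAux.isMF_pow hcf.isMF 6
    have e : ((6 : ℕ) : ℤ) * 2 = 12 * ((1 : ℕ) : ℤ) := by norm_num
    rwa [e] at this
  have hmf : IsMF (Gamma0 M) (12 * ((1 : ℕ) : ℤ)) (g * Dl ^ 1) := by rw [hg1]; exact hf6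
  have hwh : IsWH (Gamma0 M) g := bl_isWH hmf
  have hL : laurentFun 1 g = coeffMap iotaC ((HahnSeries.ofPowerSeries ℤ Qb φ) ^ 6 / W7_DK) := by
    have hb : IsBoundedAtImInfty (g * Dl ^ 1) := by simpa using hmf.bdd 1
    have h1 := laurentFun_mul_pow one_pos hwh.isMerInf_one hb
    rw [hg1, Nat.cast_one, uy_qExpansion_pow hcf.isMF, hφ, map_pow, ← W7_coeffMap_ofPowerSeries,
      ← W7_coeffMap_DK, pow_one] at h1
    have hD0 : coeffMap iotaC W7_DK ≠ 0 := by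
      rw [Ne, map_eq_zero_iff _ W7_coeffMap_injective]
      exact bl_DK_ne_zero
    rw [map_div₀, map_pow, eq_div_iff hD0]
    exact h1
  refine ⟨⟨g, hwh, hL, hmf⟩, fun m hm hm1 => ?_⟩
  refine ⟨g ^ m, (WH (Gamma0 M)).pow_mem hwh m, ?_, ?_⟩
  · have h2 := map_pow (W6_laurHom M) ⟨g, hwh⟩ m
    rw [W6_laurHom_apply, W6_laurHom_apply] at h2
    rw [map_pow, ← hL]
    exact h2
  · have e : g ^ m * Dl ^ (m - 1) = (f : ℍ → ℂ) ^ (6 * m) / Dl := by
      obtain ⟨m', rfl⟩ : ∃ m', m = m' + 1 := ⟨m - 1, by omega⟩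
      ext τ
      simp only [hg, Pi.div_apply, Pi.mul_apply, Pi.pow_apply, Nat.add_sub_cancel]
      have h0 := hne τ
      rw [div_pow, ← pow_mul, pow_succ (Dl τ) m', div_mul_eq_mul_div, mul_comm (Dl τ ^ m') (Dl τ),
        mul_div_mul_right _ _ (pow_ne_zero m' h0)]
    rw [e]
    exact isMF_pow_div_Dl M f hcf m hm hm1

end

end Fermat.Agent.S18Lib
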