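import Fermat.Agent.S18.RiemannLower
import Fermat.Agent.S18.UDefs
import Fermat.Agent.S18.ResField
import Fermat.Agent.S18.FiniteFT
import Fermat.Agent.S18.RedDataC
import Fermat.Agent.S18.JRed
import Fermat.Agent.S18.Haupt2
import Fermat.Agent.S18.Haupt3
import Fermat.Agent.S18.UpperAbs
import Fermat.Agent.S18.CharKK
import Fermat.Agent.S18.RedInt
import Fermat.Agent.S18.CuspSpace
import Fermat.Agent.S18.YRep
import Fermat.Agent.Lib.FF.ThetaD

/-!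
# S18 block (C2b): Riemann's upper bound for the function field of `X₀(M)` mod `ℓ`
-/

set_option autoImplicit false
set_option synthInstance.maxHeartbeats 400000

open UpperHalfPlane ModularForm Matrix.SpecialLinearGroup CongruenceSubgroup ModularCurve
open AlgebraicCurve IntermediateField
open scoped MatrixGroups Manifold Polynomial
open Fermat.Agent.S20Lib Fermat.Agent.S28Lib Fermat.Agent.S24Lib

namespace Fermat.Agent.S18Lib

noncomputable section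

/-- separability from the `q`-expansion `q⁻¹ + ⋯` -/
theorem ru_sep {k : Type*} [Field k] [IsAlgClosed k] (F : IntermediateField k (LaurentSeries k))
    (hF : IsFF k F) (t : F) (ht : ((t : F) : LaurentSeries k).coeff (-1) = 1) :
    Transcendental k t ∧ Algebra.IsSeparable k⟮t⟯ F := by
  have hθ : FFLib.thetaD k ((t : F) : LaurentSeries k) ≠ 0 := by
    apply FFLib.thetaD_ne_zero (n := -1)
    rw [ht]
    simp
  have htt : Transcendental k t :=
    FFLib.sep_transcendental (Ω := LaurentSeries k) (FFLib.thetaDF F) t hθ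
  have : FiniteDimensional k⟮t⟯ F := hF.finiteDimensional htt
  have : Algebra.IsAlgebraic k⟮t⟯ F := Algebra.IsAlgebraic.of_finite _ _
  exact ⟨htt, FFLib.isSeparable_of_thetaD_ne_zero F t hθ⟩

/-- the `L`-space memberships in characteristic `0` -/
theorem ru_mem_L (M : ℕ) [NeZero M] (s c₀ c₂ : ℕ) (H : HauptData M s c₀ c₂)
    (t b : FB M) (ht : ((t : FB M) : LaurentSeries Qb) = coeffMap (Int.castRingHom Qb) H.tZ)
    (f : CuspForm (Gamma0 M) 2) (φ : PowerSeries Qb) (hφ : qExpansion 1 f = φ.map iotaC)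
    (hb : ((b : FB M) : LaurentSeries Qb) = HahnSeries.ofPowerSeries ℤ Qb φ * H.u) :
    b ^ 6 * (t ^ (4 - s) * (t + (c₀ : FB M)) ^ (3 + s)) ∈
        riemannRochSpace (1 • FFLib.poleDiv Qb (jBar M)) ∧
      (b ^ 6 * (t ^ (4 - s) * (t + (c₀ : FB M)) ^ (3 + s))) ^ M ∈
        riemannRochSpace ((M - 1) • FFLib.poleDiv Qb (jBar M)) := by
  have hM : 1 ≤ M := Nat.one_le_iff_ne_zero.mpr (NeZero.ne M)
  obtain ⟨hr1, hrm⟩ := rep_pow_six M f φ hφ
  have hD0 : W7_DK ≠ 0 := bl_DK_ne_zero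
  have hy : ((b ^ 6 * (t ^ (4 - s) * (t + (c₀ : FB M)) ^ (3 + s)) : FB M) : LaurentSeries Qb) =
      (HahnSeries.ofPowerSeries ℤ Qb φ) ^ 6 / W7_DK := by
    push_cast
    rw [hb, ht, eq_div_iff hD0, mul_pow]
    have h := H.rel_u
    calc _ = HahnSeries.ofPowerSeries ℤ Qb φ ^ 6 * (H.u ^ 6 *
          ((coeffMap (Int.castRingHom Qb) H.tZ) ^ (4 - s) *
          (coeffMap (Int.castRingHom Qb) H.tZ + (c₀ : LaurentSeries Qb)) ^ (3 + s)) * W7_DK) := by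
            ring
      _ = _ := by rw [h, mul_one]
  constructor
  · have h1 := bl_mem_L M 1 _ hr1 (mem_FB_of_Rep M 1 _ hr1)
    convert h1 using 1
    exact Subtype.ext hy
  · have h2 := hrm M (by omega) hM
    have h1 := bl_mem_L M (M - 1) _ h2 (mem_FB_of_Rep M (M - 1) _ h2)
    convert h1 using 1
    apply Subtype.ext
    push_cast at hy ⊢
    rw [hy]

set_option maxHeartbeats 2000000 in
theorem riemann_upper_of_haupt (M : ℕ) [NeZero M] {ℓ : ℕ} [Fact ℓ.Prime] (hℓM : ¬ ℓ ∣ M)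
    (A : ValuationSubring Qb) (hA : A.LiesOverPrime ℓ) (s c₀ c₂ : ℕ) (hs : s ≤ 1)
    (hc₀ : ¬ ℓ ∣ c₀) (hc₂ : ¬ ℓ ∣ c₂) (H : HauptData M s c₀ c₂) (c : ℤ) :
    ∃ E : Divisor (kk A) (FT A M), c ≤ Divisor.degree E ∧
      ell E ≤ Divisor.degree E + 1 - (Module.finrank ℂ (CuspForm (Gamma0 M) 2) : ℤ) := by
  have hk := isAlgClosed_kk A
  have hFt := isFF_FT A M
  have hF := isFF_bar M
  have hM : 1 ≤ M := Nat.one_le_iff_ne_zero.mpr (NeZero.ne M)
  obtain ⟨R, hR⟩ := exists_redData M hℓM A hA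
  obtain ⟨xj, hxj, hxjt, hdeg⟩ := exists_jO M hℓM A hA R hR
  obtain ⟨xt, hxt, hxtr⟩ := exists_red_int R hR H.tZ H.t_mem
  obtain ⟨U, hUfd, hUrank, hU⟩ := exists_cuspSpace M H.u H.u_ne H.mem
  obtain ⟨htt, hsep⟩ := ru_sep (FT A M) hFt (R.red xt) (by
    rw [hxtr, coeffMap_coeff, H.coeff_neg_one]; simp)
  have hJ : ((xj : R.O) : FB M) * ((xt : R.O) : FB M) ^ (2 + s) =
      (((xt : R.O) : FB M) + (c₀ : FB M)) ^ s * (((xt : R.O) : FB M) + (c₂ : FB M)) ^ 3 := by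
    apply Subtype.ext
    push_cast
    rw [hxj, hxt]
    exact H.rel_j
  have hU' : ∀ b ∈ U,
      b ^ 6 * (((xt : R.O) : FB M) ^ (4 - s) * (((xt : R.O) : FB M) + (c₀ : FB M)) ^ (3 + s)) ∈
        riemannRochSpace (1 • FFLib.poleDiv Qb ((xj : R.O) : FB M)) ∧
      (b ^ 6 * (((xt : R.O) : FB M) ^ (4 - s) *
        (((xt : R.O) : FB M) + (c₀ : FB M)) ^ (3 + s))) ^ M ∈
        riemannRochSpace ((M - 1) • FFLib.poleDiv Qb ((xj : R.O) : FB M)) := by
    intro b hb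
    obtain ⟨f, φ, hφ, hbφ⟩ := hU b hb
    rw [hxj]
    exact ru_mem_L M s c₀ c₂ H _ b hxt f φ hφ hbφ
  obtain ⟨E, hE1, hE2⟩ := upper_abstract hF hFt R xj xt hxjt hdeg htt s c₀ c₂ hs
    (natCast_kk_ne_zero A hA c₀ hc₀) (natCast_kk_ne_zero A hA c₂ hc₂) hJ U hUfd M hM hU' c
  refine ⟨E, hE1, ?_⟩
  rw [ell_eq_ell, ← hUrank]
  exact hE2

theorem riemann_upper (M : ℕ) [NeZero M] {ℓ : ℕ} [Fact ℓ.Prime] (hℓM : ¬ ℓ ∣ M)
    (hbase : 2 ∣ M ∨ 3 ∣ M)
    (A : ValuationSubring Qb) (hA : A.LiesOverPrime ℓ) (c : ℤ) :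
    ∃ E : Divisor (kk A) (FT A M), c ≤ Divisor.degree E ∧
      ell E ≤ Divisor.degree E + 1 - (Module.finrank ℂ (CuspForm (Gamma0 M) 2) : ℤ) := by
  have hℓ : ℓ.Prime := Fact.out
  rcases hbase with h | h
  · obtain ⟨H⟩ := exists_haupt_two M h
    have h2 : ¬ ℓ ∣ 2 := fun hd => hℓM (hd.trans h)
    have hp : ∀ n : ℕ, ¬ ℓ ∣ 2 ^ n := fun n hd => h2 (hℓ.dvd_of_dvd_pow hd)
    exact riemann_upper_of_haupt M hℓM A hA 0 64 256 (by norm_num) (hp 6) (hp 8) H c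
  · obtain ⟨H⟩ := exists_haupt_three M h
    have h3 : ¬ ℓ ∣ 3 := fun hd => hℓM (hd.trans h)
    have hp : ∀ n : ℕ, ¬ ℓ ∣ 3 ^ n := fun n hd => h3 (hℓ.dvd_of_dvd_pow hd)
    exact riemann_upper_of_haupt M hℓM A hA 1 27 243 (by norm_num) (hp 3) (hp 5) H c

end

end Fermat.Agent.S18Lib
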