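import Fermat.Agent.S18.Defs
import Fermat.Agent.Lib.FF.Defs

/-!
# S18 library, block (A): reduction of a finite dimensional space of functions
-/

set_option autoImplicit false

open AlgebraicCurve

namespace Fermat.Agent.S18Lib

variable {K k : Type*} [Field K] [Field k] {A : ValuationSubring K} {resK : A →+* k}
  {F Ft : Type*} [Field F] [Algebra K F] [Field Ft] [Algebra k Ft]

/-- the reduction `red (U ∩ O)` of a `K`-subspace `U` of `F` (the set is already a `k`-subspace when
`resK` is surjective: `mem_redV_iff`). -/
def redV (R : RedData A resK F Ft) (U : Submodule K F) : Submodule k Ft :=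
  Submodule.span k {y | ∃ x : R.O, ((x : R.O) : F) ∈ U ∧ R.red x = y}

end Fermat.Agent.S18Lib
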