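import Fermat.Agent.S18.Bridge
import Fermat.Agent.S24.Fibres

/-!
# S18 block (B): definitions

* `CRep N n x` : `x ∈ ℚ̄((q))` is the `q`-expansion of `h/Δⁿ`, `h` a cusp form of weight `12 n`
  on `Γ₀(N)` (cusp version of `S24Lib.W7_Rep`).
* `sigAt N τ₀ x`, `sigInf N x` : the explicit analytic embeddings of the function field of `X₀(N)`
  into `ℂ((t))` (Taylor expansion at `τ₀`, resp. `q_N`-expansion at `i∞`, of the conjugate by the
  coset `x`).
* `cuspDiv N` : the sum of the places over `j = ∞`.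
-/

set_option autoImplicit false
set_option synthInstance.maxHeartbeats 400000

open UpperHalfPlane ModularForm Matrix.SpecialLinearGroup CongruenceSubgroup ModularCurve
open AlgebraicCurve
open scoped MatrixGroups Manifold

namespace Fermat.Agent.S18Lib

open Fermat.Agent.S20Lib Fermat.Agent.S24Lib Fermat.Agent.FFLib

noncomputable section

/-- `x` is the expansion of `G/Δⁿ` with `G` a cusp form of weight `12 n` on `Γ₀(N)`. -/
def CRep (N n : ℕ) (x : LaurentSeries Qb) : Prop :=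
  ∃ g : ℍ → ℂ, IsWH (Gamma0 N) g ∧ laurentFun 1 g = coeffMap iotaC x ∧
    IsCF (Gamma0 N) (12 * (n : ℤ)) (g * Dl ^ n)

theorem CRep.rep {N n : ℕ} {x : LaurentSeries Qb} (h : CRep N n x) : W7_Rep N n x := by
  obtain ⟨g, h1, h2, h3⟩ := h
  exact ⟨g, h1, h2, h3.isMF⟩

/-- Taylor expansion at `τ₀` of the conjugate by the coset `x`. -/
def sigAt (N : ℕ) [NeZero N] (τ₀ : ℍ) (x : SL(2, ℤ) ⧸ Gamma0 N) : FB N →+* LaurentSeries ℂ :=
  (Emb.lift (W8.EAt (Gamma0 N) τ₀ x) (W8.EAt_injective τ₀ x)).comp (W6_theta N)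

theorem Gamma_le_Gamma0 (N : ℕ) : Gamma N ≤ Gamma0 N := by
  intro γ hγ
  rw [Gamma_mem] at hγ
  rw [Gamma0_mem]
  exact hγ.2.2.1

/-- expansion at `i∞`, in the variable `exp(2πiτ/N)`, of the conjugate by the coset `x`. -/
def sigInf (N : ℕ) [NeZero N] (x : SL(2, ℤ) ⧸ Gamma0 N) : FB N →+* LaurentSeries ℂ :=
  (Emb.lift (W9.EInf (Nat.pos_of_ne_zero (NeZero.ne N)) (Gamma_le_Gamma0 N) x)
    (W9.EInf_injective (Nat.pos_of_ne_zero (NeZero.ne N)) (Gamma_le_Gamma0 N) x)).comp (W6_theta N)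

/-- the sum of the places of `X₀(N)` over `j = ∞` -/
def cuspDiv (N : ℕ) : Divisor Qb (FB N) :=
  (poleDiv Qb (jBar N)).mapRange (fun n => if n = 0 then 0 else 1) (by simp)

end

end Fermat.Agent.S18Lib
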