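import Fermat.Agent.S18.CGauss
import Fermat.Agent.S18.ThetaApi
import Fermat.Agent.S18.RedSpace
import Fermat.Agent.S28.Relation
import Fermat.Agent.S24.Fibres
import Fermat.Agent.S20.Serre

/-!
# S18 block C1, leaf (RA): the Rankin-Cohen bracket `[E₄, Δ]`
-/

set_option autoImplicit false
set_option synthInstance.maxHeartbeats 400000

open AlgebraicCurve ModularCurve CongruenceSubgroup UpperHalfPlane
open scoped Polynomial IntermediateField

namespace Fermat.Agent.S18Lib

open Fermat.Agent.S24Lib Fermat.Agent.S28Lib Fermat.Agent.S28Lib.RelationAux Fermat.Agent.FFLib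

open Fermat.Agent.S20Lib MatrixGroups in
theorem exists_bracket : ∃ c : ℂ,
    (3 : ℂ) • (Derivative.normalizedDerivOfComplex E4 * Dl) - E4 * Derivative.normalizedDerivOfComplex Dl
      = c • (E6 * Dl) := by
  have h6 : IsMF ⊤ (4 + 2) (Derivative.serreDerivative ((4 : ℤ) : ℂ) E4) := serre_isMF isMF_E4
  have h6' : IsMF ⊤ 6 (Derivative.serreDerivative ((4 : ℤ) : ℂ) E4) := h6
  obtain ⟨c, hc⟩ : ∃ c : ℂ, c • ModularForm.E₆ = h6'.toLevelOne :=
    (finrank_eq_one_iff_of_nonzero' ModularForm.E₆ (EisensteinSeries.E_ne_zero _ ⟨3, rfl⟩)).mp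
      (Module.rank_eq_one_iff_finrank_eq_one.mp ModularForm.levelOne_weight_six_rank_one) _
  refine ⟨3 * c, ?_⟩
  ext τ
  have h1 : c * E6 τ = Derivative.serreDerivative ((4 : ℤ) : ℂ) E4 τ := by
    have := congrArg (fun F : ModularForm 𝒮ℒ 6 => (F : ℍ → ℂ) τ) hc
    simpa using this
  rw [D_discriminant]
  simp only [Pi.sub_apply, Pi.smul_apply, Pi.mul_apply, smul_eq_mul]
  rw [Derivative.serreDerivative_apply] at h1
  push_cast at h1
  linear_combination (-3 * Dl τ) * h1

end Fermat.Agent.S18Lib
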