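import Fermat.Agent.S18.Defs
import Fermat.Agent.Lib.FF.Defs

/-!
# S18 library: `S18Lib.LSpace` / `S18Lib.ell` agree with the Prelude `riemannRochSpace` and
`FFLib.ell`
-/

set_option autoImplicit false

open AlgebraicCurve

namespace Fermat.Agent.S18Lib

variable {K F : Type*} [Field K] [Field F] [Algebra K F]

theorem inL_iff_mem_riemannRochSpace {E : Divisor K F} {f : F} :
    InL E f ↔ f ∈ riemannRochSpace E := by
  rw [mem_riemannRochSpace_iff, InL]
  constructor
  · rintro (h | h) v
    · exact Or.inl h
    · exact Or.inr (by have := h v; omega)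
  · intro h
    by_cases hf : f = 0
    · exact Or.inl hf
    · refine Or.inr fun v => ?_
      rcases h v with h | h
      · exact absurd h hf
      · omega

theorem LSpace_eq_riemannRochSpace (E : Divisor K F) : LSpace E = riemannRochSpace E := by
  have : {f : F | InL E f} = (riemannRochSpace E : Set F) := by
    ext f
    exact inL_iff_mem_riemannRochSpace
  rw [LSpace, this, Submodule.span_eq]

theorem mem_LSpace {E : Divisor K F} {f : F} : f ∈ LSpace E ↔ InL E f := by
  rw [LSpace_eq_riemannRochSpace, inL_iff_mem_riemannRochSpace]

theorem ell_eq_ell (E : Divisor K F) : ell E = (FFLib.ell E : ℤ) := by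
  rw [ell, FFLib.ell, LSpace_eq_riemannRochSpace]

end Fermat.Agent.S18Lib
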