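import Fermat.Agent.S18.Defs
import Fermat.Agent.S28.Transfer

/-!
# S18 library, block (C1): the Gauss valuation ring inside `ℚ̄((q))` attached to a valuation ring
`A` of `ℚ̄`, its reduction map, and the orthonormal family `j^a H^i`.
-/

set_option autoImplicit false
set_option linter.unusedSectionVars false
set_option synthInstance.maxHeartbeats 400000

open ModularCurve
open scoped Polynomial

namespace Fermat.Agent.S18Lib

open Fermat.Agent.S28Lib

noncomputable section

variable (A : ValuationSubring Qb)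

/-- the residue map of `A` -/
abbrev resA : A →+* kk A := IsLocalRing.residue A

/-- coefficientwise inclusion `A((q)) → ℚ̄((q))` -/
def cE : LaurentSeries A →+* LaurentSeries Qb := coeffMap A.subtype

/-- coefficientwise reduction `A((q)) → k((q))` -/
def cR : LaurentSeries A →+* LaurentSeries (kk A) := coeffMap (IsLocalRing.residue A)

theorem cE_def (y : LaurentSeries A) : cE A y = coeffMap A.subtype y := rfl

theorem cR_def (y : LaurentSeries A) : cR A y = coeffMap (IsLocalRing.residue A) y := rfl

theorem cE_injective : Function.Injective (cE A) := by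
  intro f g h
  ext k
  have := congrArg (fun z => HahnSeries.coeff z k) h
  simpa [cE] using this

/-- localisation of `A((q))` at the prime `𝔪((q))`, as a subring of `ℚ̄((q))`. -/
def gRing : Subring (LaurentSeries Qb) where
  carrier := {x | ∃ a s, cR A s ≠ 0 ∧ x * cE A s = cE A a}
  mul_mem' := by
    rintro x y ⟨a, s, hs, h⟩ ⟨a', s', hs', h'⟩
    refine ⟨a * a', s * s', by rw [map_mul]; exact mul_ne_zero hs hs', ?_⟩
    rw [map_mul, map_mul, ← h, ← h']
    ring
  one_mem' := ⟨1, 1, by simp, by simp⟩
  add_mem' := by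
    rintro x y ⟨a, s, hs, h⟩ ⟨a', s', hs', h'⟩
    refine ⟨a * s' + a' * s, s * s', by rw [map_mul]; exact mul_ne_zero hs hs', ?_⟩
    rw [map_add, map_mul, map_mul, map_mul, ← h, ← h']
    ring
  zero_mem' := ⟨0, 1, by simp, by simp⟩
  neg_mem' := by
    rintro x ⟨a, s, hs, h⟩
    exact ⟨-a, s, hs, by rw [map_neg, ← h]; ring⟩

theorem mem_gRing_iff {x : LaurentSeries Qb} :
    x ∈ gRing A ↔ ∃ a s, cR A s ≠ 0 ∧ x * cE A s = cE A a := Iff.rfl

/-- chosen numerator -/
def gNum (x : gRing A) : LaurentSeries A := x.2.choose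
/-- chosen denominator -/
def gDen (x : gRing A) : LaurentSeries A := x.2.choose_spec.choose

theorem gDen_ne (x : gRing A) : cR A (gDen A x) ≠ 0 := x.2.choose_spec.choose_spec.1

theorem gNum_spec (x : gRing A) :
    (x : LaurentSeries Qb) * cE A (gDen A x) = cE A (gNum A x) :=
  x.2.choose_spec.choose_spec.2

/-- the underlying function of `gRed` -/
def gRedFun (x : gRing A) : LaurentSeries (kk A) :=
  cR A (gNum A x) / cR A (gDen A x)

theorem gRedFun_mul_eq (x : gRing A) {a s : LaurentSeries A}
    (h : (x : LaurentSeries Qb) * cE A s = cE A a) : gRedFun A x * cR A s = cR A a := by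
  have h1 : gNum A x * s = a * gDen A x := by
    apply cE_injective A
    rw [map_mul, map_mul, ← h, ← gNum_spec]
    ring
  have h2 := congrArg (cR A) h1
  rw [map_mul, map_mul] at h2
  rw [gRedFun, div_mul_eq_mul_div, h2, mul_div_assoc, div_self (gDen_ne A x), mul_one]

theorem gRedFun_eq (x : gRing A) {a s : LaurentSeries A} (hs : cR A s ≠ 0)
    (h : (x : LaurentSeries Qb) * cE A s = cE A a) : gRedFun A x = cR A a / cR A s := by
  rw [eq_div_iff hs, gRedFun_mul_eq A x h]

/-- the reduction map of the Gauss ring -/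
def gRed : gRing A →+* LaurentSeries (kk A) where
  toFun := gRedFun A
  map_one' := by
    rw [gRedFun_eq A 1 (a := 1) (s := 1) (by simp) (by simp)]
    simp
  map_zero' := by
    rw [gRedFun_eq A 0 (a := 0) (s := 1) (by simp) (by simp)]
    simp
  map_mul' x y := by
    have hx := gNum_spec A x
    have hy := gNum_spec A y
    rw [gRedFun_eq A (x * y) (a := gNum A x * gNum A y)
      (s := gDen A x * gDen A y)
      (by rw [map_mul]; exact mul_ne_zero (gDen_ne A x) (gDen_ne A y))
      (by rw [map_mul, map_mul, ← hx, ← hy, Subring.coe_mul]; ring)]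
    rw [map_mul, map_mul, gRedFun, gRedFun, div_mul_div_comm]
  map_add' x y := by
    have hx := gNum_spec A x
    have hy := gNum_spec A y
    rw [gRedFun_eq A (x + y) (a := gNum A x * gDen A y + gNum A y * gDen A x)
      (s := gDen A x * gDen A y)
      (by rw [map_mul]; exact mul_ne_zero (gDen_ne A x) (gDen_ne A y))
      (by rw [map_add, map_mul, map_mul, map_mul, ← hx, ← hy, Subring.coe_add]; ring)]
    rw [map_add, map_mul, map_mul, map_mul, gRedFun, gRedFun,
      div_add_div _ _ (gDen_ne A x) (gDen_ne A y)]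
    ring

theorem gRed_mul_eq (x : gRing A) {a s : LaurentSeries A}
    (h : (x : LaurentSeries Qb) * cE A s = cE A a) : gRed A x * cR A s = cR A a :=
  gRedFun_mul_eq A x h

theorem gRed_eq (x : gRing A) {a s : LaurentSeries A} (hs : cR A s ≠ 0)
    (h : (x : LaurentSeries Qb) * cE A s = cE A a) : gRed A x = cR A a / cR A s :=
  gRedFun_eq A x hs h

theorem cE_mem_gRing (y : LaurentSeries A) : cE A y ∈ gRing A :=
  ⟨y, 1, by simp, by simp⟩

theorem gRed_cE (y : LaurentSeries A) : gRed A ⟨cE A y, cE_mem_gRing A y⟩ = cR A y := by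
  have := gRed_mul_eq A ⟨cE A y, cE_mem_gRing A y⟩ (a := y) (s := 1) (by simp)
  simpa using this

/-- an element of the Gauss ring with non-zero reduction is a unit -/
theorem inv_mem_gRing (x : gRing A) (hx : gRed A x ≠ 0) : (x : LaurentSeries Qb)⁻¹ ∈ gRing A := by
  have h := gNum_spec A x
  have h1 := gRed_mul_eq A x h
  have h2 : cR A (gNum A x) ≠ 0 := by
    rw [← h1]
    exact mul_ne_zero hx (gDen_ne A x)
  have hx0 : (x : LaurentSeries Qb) ≠ 0 := by
    intro h0
    apply hx
    have : x = 0 := Subtype.ext h0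
    rw [this, map_zero]
  refine ⟨gDen A x, gNum A x, h2, ?_⟩
  rw [← h, ← mul_assoc, inv_mul_cancel₀ hx0, one_mul]

/-! ### the orthonormal family -/

/-- the family `j^a H^i`, `i < [SL₂(ℤ) : Γ₀(M)]` -/
def eF (M : ℕ) (κ : Type*) [CommRing κ] : Fin (idx M) × ℕ → LaurentSeries κ :=
  fun p => jqModC κ ^ p.2 * HH M κ ^ (p.1 : ℕ)

/-- linear combinations of the family `j^a H^i` -/
def lcF (M : ℕ) (κ : Type*) [CommRing κ] (w : Fin (idx M) × ℕ →₀ κ) : LaurentSeries κ :=
  w.sum fun p c => HahnSeries.C c * eF M κ p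

theorem coeffMap_eF (M : ℕ) [NeZero M] {κ κ' : Type*} [CommRing κ] [CommRing κ'] (f : κ →+* κ')
    (p : Fin (idx M) × ℕ) : coeffMap f (eF M κ p) = eF M κ' p := by
  rw [eF, map_mul, map_pow, map_pow, coeffMap_jqModC, coeffMap_HH]
  rfl

end

end Fermat.Agent.S18Lib
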