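import Mathlib
import Fermat.Prelude.Def_ModularCurve_X0ModL

/-!
# S18 library, block (C): the derivation `θ = q d/dq` of `R((q))`
-/

set_option autoImplicit false

open ModularCurve

namespace Fermat.Agent.S18Lib

noncomputable section

variable (R : Type*) [CommRing R]

/-- `θ = q d/dq` as a linear map -/
def thetaLin : LaurentSeries R →ₗ[R] LaurentSeries R where
  toFun f := ⟨fun n => (n : R) * f.coeff n, f.isPWO_support.mono (by
    intro n hn
    simp only [Function.mem_support, ne_eq] at hn
    rw [HahnSeries.mem_support]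
    intro h
    exact hn (by rw [h, mul_zero]))⟩
  map_add' f g := by
    ext n
    simp [mul_add]
  map_smul' c f := by
    ext n
    simp [mul_left_comm]

theorem thetaLin_coeff (f : LaurentSeries R) (n : ℤ) :
    (thetaLin R f).coeff n = (n : R) * f.coeff n := rfl

theorem thetaLin_mul (f g : LaurentSeries R) :
    thetaLin R (f * g) = f * thetaLin R g + g * thetaLin R f := by
  ext n
  rw [thetaLin_coeff, HahnSeries.coeff_add]
  have hsg : (thetaLin R g).support ⊆ g.support := by
    intro m hm
    rw [HahnSeries.mem_support] at hm ⊢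
    intro h
    exact hm (by rw [thetaLin_coeff, h, mul_zero])
  have hsf : (thetaLin R f).support ⊆ f.support := by
    intro m hm
    rw [HahnSeries.mem_support] at hm ⊢
    intro h
    exact hm (by rw [thetaLin_coeff, h, mul_zero])
  rw [HahnSeries.coeff_mul, mul_comm g,
    HahnSeries.coeff_mul_right' (x := f) (y := thetaLin R g) g.isPWO_support hsg,
    HahnSeries.coeff_mul_left' (x := thetaLin R f) (y := g) f.isPWO_support hsf,
    Finset.mul_sum, ← Finset.sum_add_distrib]
  refine Finset.sum_congr rfl fun p hp => ?_
  rw [Finset.mem_antidiagonal] at hp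
  rw [thetaLin_coeff, thetaLin_coeff, ← hp.2.2]
  push_cast
  ring

/-- `θ = q d/dq` as a derivation -/
def thetaD : Derivation R (LaurentSeries R) (LaurentSeries R) where
  toFun := thetaLin R
  map_add' := (thetaLin R).map_add
  map_smul' c f := by
    have h : algebraMap R (LaurentSeries R) c = HahnSeries.C c := by
      have h1 : algebraMap R (PowerSeries R) c = PowerSeries.C c := by simp
      rw [HahnSeries.algebraMap_apply', h1, HahnSeries.ofPowerSeries_C]
    rw [Algebra.smul_def, h, HahnSeries.C_mul_eq_smul, (thetaLin R).map_smul]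
    rfl
  map_one_eq_zero' := by
    ext n
    show (thetaLin R 1).coeff n = 0
    rw [thetaLin_coeff, HahnSeries.coeff_one]
    split_ifs with h
    · simp [h]
    · simp
  leibniz' f g := by
    show thetaLin R (f * g) = f • thetaLin R g + g • thetaLin R f
    rw [thetaLin_mul]
    simp [smul_eq_mul]

theorem thetaD_coeff (f : LaurentSeries R) (n : ℤ) :
    (thetaD R f).coeff n = (n : R) * f.coeff n := rfl

variable {R}

theorem coeffMap_thetaD {S : Type*} [CommRing S] (φ : R →+* S) (f : LaurentSeries R) :
    coeffMap φ (thetaD R f) = thetaD S (coeffMap φ f) := by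
  ext n
  rw [coeffMap_coeff, thetaD_coeff, thetaD_coeff, coeffMap_coeff, map_mul, map_intCast]

theorem thetaD_qExpand (d : ℕ) [NeZero d] (f : LaurentSeries R) :
    thetaD R (qExpand R d f) = HahnSeries.C (d : R) * qExpand R d (thetaD R f) := by
  ext n
  rw [thetaD_coeff, HahnSeries.C_mul_eq_smul, HahnSeries.coeff_smul, smul_eq_mul]
  by_cases h : (d : ℤ) ∣ n
  · obtain ⟨m, rfl⟩ := h
    rw [qExpand_coeff_mul, qExpand_coeff_mul, thetaD_coeff]
    push_cast
    ring
  · rw [qExpand_coeff_of_not_dvd d _ h, qExpand_coeff_of_not_dvd d _ h, mul_zero, mul_zero]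

end

end Fermat.Agent.S18Lib
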