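import Mathlib
import Fermat.Prelude.Def_ModularCurve_LaurentCoeff

/-!
# S18 library, block (B), leaf (BD): descent of linear relations between Laurent series along a
field extension of the coefficients
-/

set_option autoImplicit false

open ModularCurve

namespace Fermat.Agent.S18Lib

theorem mem_span_of_coeffMap_mem_span {K L : Type*} [Field K] [Field L] (φ : K →+* L)
    {ι : Type*} (v : ι → LaurentSeries K) (v₀ : LaurentSeries K)
    (h : coeffMap φ v₀ ∈ Submodule.span L (Set.range fun i => coeffMap φ (v i))) :
    v₀ ∈ Submodule.span K (Set.range v) := by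
  classical
  let _ : Algebra K L := φ.toAlgebra
  -- a `K`-linear retraction of `φ`
  obtain ⟨ψ, hψ⟩ := LinearMap.exists_leftInverse_of_injective (Algebra.linearMap K L)
    (LinearMap.ker_eq_bot.2 (algebraMap K L).injective)
  have hψ' : ∀ a : K, ψ (φ a) = a := fun a => by
    have := LinearMap.congr_fun hψ a
    simp only [LinearMap.coe_comp, Function.comp_apply, Algebra.linearMap_apply,
      LinearMap.id_coe, id_eq] at this
    exact this
  obtain ⟨c, hc⟩ := (Finsupp.mem_span_range_iff_exists_finsupp).1 h
  have key : v₀ = ∑ i ∈ c.support, ψ (c i) • v i := by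
    ext m
    have h1 := congrArg (fun z : LaurentSeries L => ψ (z.coeff m)) hc
    simp only [Finsupp.sum, coeffMap_coeff, hψ'] at h1
    rw [← h1]
    have h2 : ∀ (s : Finset ι) (f : ι → LaurentSeries L),
        (∑ i ∈ s, f i).coeff m = ∑ i ∈ s, (f i).coeff m := fun s f => by
      induction s using Finset.induction_on with
      | empty => simp
      | insert a s ha ih => rw [Finset.sum_insert ha, Finset.sum_insert ha, HahnSeries.coeff_add, ih]
    have h3 : ∀ (s : Finset ι) (f : ι → LaurentSeries K),
        (∑ i ∈ s, f i).coeff m = ∑ i ∈ s, (f i).coeff m := fun s f => by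
      induction s using Finset.induction_on with
      | empty => simp
      | insert a s ha ih => rw [Finset.sum_insert ha, Finset.sum_insert ha, HahnSeries.coeff_add, ih]
    rw [h2, h3, map_sum]
    refine Finset.sum_congr rfl fun i _ => ?_
    rw [HahnSeries.coeff_smul, HahnSeries.coeff_smul, coeffMap_coeff, smul_eq_mul, smul_eq_mul]
    have : c i * φ ((v i).coeff m) = (v i).coeff m • c i := by
      rw [Algebra.smul_def, mul_comm]; rfl
    rw [this, map_smul, smul_eq_mul, mul_comm]
  rw [key]
  exact Submodule.sum_mem _ fun i _ => Submodule.smul_mem _ _ (Submodule.subset_span ⟨i, rfl⟩)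

end Fermat.Agent.S18Lib
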