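import Fermat.Agent.S18.CoreMF
import Fermat.Agent.S23.Conj

/-!
# S18 library, block (B), leaf (BC): the `σ`-conjugate of a modular form on `Γ₀(N)`
-/

set_option autoImplicit false
set_option synthInstance.maxHeartbeats 400000

open UpperHalfPlane ModularForm Matrix.SpecialLinearGroup CongruenceSubgroup SlashInvariantForm
open scoped MatrixGroups Manifold ModularForm

namespace Fermat.Agent.S18Lib

open Fermat.Agent.S23Lib Fermat.Agent.S23Lib.Core

noncomputable section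

theorem bc_isBoundedAtImInfty_of_root {μ : ℕ} (hμ : 0 < μ) (G : ℍ → ℂ) (a : ℕ → ℍ → ℂ)
    (ha : ∀ i, IsBoundedAtImInfty (a i))
    (h : ∀ z, G z ^ μ + ∑ i ∈ Finset.range μ, a i z * G z ^ (μ - 1 - i) = 0) :
    IsBoundedAtImInfty G := by
  have h1 : (fun z => (1 : ℝ) + ∑ i ∈ Finset.range μ, ‖a i z‖) =O[atImInfty]
      (fun _ => (1 : ℝ)) := by
    refine (Asymptotics.isBigO_refl _ _).add ?_
    have h3 := Asymptotics.IsBigO.sum (s := Finset.range μ) (A := fun i z => ‖a i z‖)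
      (g := fun _ => (1 : ℝ)) (l := atImInfty) (fun i _ => (ha i).norm_left)
    have h4 : (fun z => ∑ i ∈ Finset.range μ, ‖a i z‖) =
        ∑ i ∈ Finset.range μ, fun z => ‖a i z‖ := by
      funext z
      simp
    rw [h4]
    exact h3
  have h2 : G =O[atImInfty] (fun z => (1 : ℝ) + ∑ i ∈ Finset.range μ, ‖a i z‖) := by
    refine Asymptotics.IsBigO.of_bound 1 (Filter.Eventually.of_forall fun z => ?_)
    have h3 := Division.root_bound hμ (G z) (fun i => a i z) (h z)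
    rw [one_mul]
    exact h3.trans (le_abs_self _)
  exact h2.trans h1

theorem exists_conj_mf (N : ℕ) [NeZero N] (k : ℤ) (σ : ℂ →+* ℂ) (f : ModularForm (Gamma0 N) k) :
    ∃ g : ModularForm (Gamma0 N) k, qExpansion 1 g = (qExpansion 1 f).map σ := by
  have hsp := one_mem_sp N
  obtain ⟨w, D, hD, hD0, hQ⟩ := core_fraction_mf (tForm N) (tForm_qf_ne N) f (KS N σ)
    (KS_mul N σ) (KS_one N σ) (KS_t N σ)
  obtain ⟨μ, hμ, a, ha⟩ := core_integral_mf f
  obtain ⟨GD, GD', rfl, hGD⟩ := hD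
  obtain ⟨GQ, GQ', hGQ, hGQ'⟩ := hQ
  choose a' ha' using fun i => exists_conj_levelOne σ _ (a i)
  have cD : Conj σ GD GD' := ⟨.of_modularForm hsp GD, .of_modularForm hsp GD', hGD⟩
  have cQ : Conj σ GQ GQ' := ⟨.of_modularForm hsp GQ, .of_modularForm hsp GQ', hGQ'⟩
  have ca : ∀ i, Conj σ (a i) (a' i) := fun i =>
    ⟨.of_modularForm one_mem_strictPeriods_SL (a i), .of_modularForm one_mem_strictPeriods_SL (a' i),
      ha' i⟩
  -- the homogenised relation
  have hrel : (GQ : ℍ → ℂ) ^ μ + ∑ i ∈ Finset.range μ,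
      (a i : ℍ → ℂ) * (GQ : ℍ → ℂ) ^ (μ - 1 - i) * (GD : ℍ → ℂ) ^ (i + 1) = 0 := by
    ext z
    simp only [Pi.add_apply, Pi.pow_apply, Finset.sum_apply, Pi.mul_apply, Pi.zero_apply]
    have hz : GQ z = GD z * f z := congrFun hGQ z
    have h1 : ∀ i ∈ Finset.range μ, a i z * GQ z ^ (μ - 1 - i) * GD z ^ (i + 1)
        = GD z ^ μ * (a i z * f z ^ (μ - 1 - i)) := by
      intro i hi
      rw [Finset.mem_range] at hi
      have : GD z ^ μ = GD z ^ (μ - 1 - i) * GD z ^ (i + 1) := by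
        rw [← pow_add]; congr 1; omega
      rw [hz, mul_pow, this]; ring
    rw [Finset.sum_congr rfl h1, ← Finset.mul_sum, hz, mul_pow, ← mul_add, ha z, mul_zero]
  have hrel' : (GQ' : ℍ → ℂ) ^ μ + ∑ i ∈ Finset.range μ,
      (a' i : ℍ → ℂ) * (GQ' : ℍ → ℂ) ^ (μ - 1 - i) * (GD' : ℍ → ℂ) ^ (i + 1) = 0 :=
    Conj.eq_zero ((cQ.pow μ).add (Conj.sum _ _ _ fun i _ =>
      ((ca i).mul (cQ.pow _)).mul (cD.pow _))) hrel
  have hD0' : (GD' : ℍ → ℂ) ≠ 0 := cD.ne_zero hD0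
  obtain ⟨g, hg, hgD, hgint⟩ := exists_holo_quotient hμ GD' GQ' (fun i => a' i) GD'.holo' GQ'.holo'
    (fun i => (a' i).holo') hD0' (fun z => by
      have := congrFun hrel' z
      simpa only [Pi.add_apply, Pi.pow_apply, Finset.sum_apply, Pi.mul_apply, Pi.zero_apply]
        using this)
  have hgD' : g * (GD' : ℍ → ℂ) = GQ' := funext hgD
  -- slash invariance
  have hslash : ∀ γ ∈ ((Gamma0 N : Subgroup SL(2, ℤ)) : Subgroup (GL (Fin 2) ℝ)), g ∣[k] γ = g := by
    intro γ hγ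
    have hγ' : γ ∈ 𝒮ℒ := Gamma0_le_SL N hγ
    have h1 : (g ∣[k] γ) * (GD' : ℍ → ℂ) = g * (GD' : ℍ → ℂ) := by
      have e1 : (GD' : ℍ → ℂ) ∣[w] γ = GD' := GD'.slash_action_eq' γ hγ
      have e2 : (GQ' : ℍ → ℂ) ∣[w + k] γ = GQ' := GQ'.slash_action_eq' γ hγ
      calc (g ∣[k] γ) * (GD' : ℍ → ℂ) = (g ∣[k] γ) * ((GD' : ℍ → ℂ) ∣[w] γ) := by rw [e1]
        _ = (g * (GD' : ℍ → ℂ)) ∣[k + w] γ := (Core.mul_slash_of_mem hγ' k w g GD').symm
        _ = g * (GD' : ℍ → ℂ) := by rw [hgD', add_comm k w, e2]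
    have h2 : (g ∣[k] γ - g) * (GD' : ℍ → ℂ) = 0 := by rw [sub_mul, h1, sub_self]
    rcases (UpperHalfPlane.mul_eq_zero_iff ((hg.slash k γ).sub hg) GD'.holo').mp h2 with h3 | h3
    · exact sub_eq_zero.mp h3
    · exact absurd h3 hD0'
  -- boundedness at cusps
  have hcusp : ∀ γ : SL(2, ℤ), IsBoundedAtImInfty (g ∣[k] γ) := by
    intro γ
    apply bc_isBoundedAtImInfty_of_root (μ := μ) hμ _ (fun i => a' i)
      (fun i => ModularFormClass.bdd_at_infty (a' i))
    intro z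
    have h1 := hgint (γ • z)
    have hden : denom γ z ≠ 0 := denom_ne_zero γ z
    have e1 : ∀ i, a' i z = a' i (γ • z) * denom γ z ^ (-(k * ((i : ℤ) + 1))) := by
      intro i
      have : ((a' i : ℍ → ℂ) ∣[k * ((i : ℤ) + 1)] γ) = a' i := (a' i).slash_action_eq' _ ⟨γ, rfl⟩
      rw [← ModularForm.SL_slash_apply, this]
    rw [ModularForm.SL_slash_apply]
    have h2 : ∀ i ∈ Finset.range μ,
        a' i z * (g (γ • z) * denom γ z ^ (-k)) ^ (μ - 1 - i)
          = (denom γ z ^ (-k)) ^ μ * (a' i (γ • z) * g (γ • z) ^ (μ - 1 - i)) := by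
      intro i hi
      rw [Finset.mem_range] at hi
      have e2 : (denom γ z ^ (-k)) ^ μ
          = (denom γ z ^ (-k)) ^ (μ - 1 - i) * (denom γ z ^ (-k)) ^ (i + 1) := by
        rw [← pow_add]; congr 1; omega
      have e3 : denom γ z ^ (-(k * ((i : ℤ) + 1))) = (denom γ z ^ (-k)) ^ (i + 1) := by
        rw [← zpow_natCast, ← zpow_mul]; congr 1; push_cast; ring
      rw [e1 i, e2, e3, mul_pow]; ring
    rw [Finset.sum_congr rfl h2, ← Finset.mul_sum, mul_pow, mul_comm (g (γ • z) ^ μ), ← mul_add,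
      h1, mul_zero]
  let gC : ModularForm (Gamma0 N) k :=
    { toFun := g
      slash_action_eq' := hslash
      holo' := hg
      bdd_at_cusps' := fun {c} hc => by
        rw [Subgroup.IsArithmetic.isCusp_iff_isCusp_SL2Z] at hc
        rw [OnePoint.isBoundedAt_iff_forall_SL2Z hc]
        exact fun γ _ => hcusp γ }
  refine ⟨gC, ?_⟩
  have e1 : qExpansion 1 gC * qExpansion 1 GD' = qExpansion 1 GQ' := by
    rw [← ModularForm.qExpansion_mul_coe one_pos hsp gC GD']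
    exact congrArg _ hgD'
  have e2 : qExpansion 1 GD * qExpansion 1 f = qExpansion 1 GQ := by
    rw [← ModularForm.qExpansion_mul_coe one_pos hsp GD f, hGQ]
  have e3 : qExpansion 1 GD' ≠ 0 := by
    rw [Ne, cD.right.eq_zero_iff]; exact hD0'
  apply mul_right_cancel₀ e3
  rw [e1, hGQ', ← e2, map_mul, hGD, mul_comm]


end

end Fermat.Agent.S18Lib
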