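import Fermat.Agent.S18.RedSpace
import Fermat.Agent.Lib.FF.LinIndep

/-!
# S18 library, block (A3), leaf (DL): the degree of a function does not grow under reduction
-/

set_option autoImplicit false

open AlgebraicCurve IntermediateField Polynomial Fermat.Agent.S24Lib Fermat.Agent.FFLib

namespace Fermat.Agent.S18Lib

variable {K k F Ft : Type*} [Field K] [Field k] [Field F] [Algebra K F] [Field Ft] [Algebra k Ft]
  {A : ValuationSubring K} {resK : A →+* k}

theorem dl_linearIndependent_pow {R S : Type*} [Field R] [Field S] [Algebra R S] {y : S}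
    (hy : Transcendental R y) : LinearIndependent R (fun n : ℕ => y ^ n) := by
  have h1 : LinearIndependent R (fun n : ℕ => (monomial n (1 : R) : R[X])) := by
    have := (Polynomial.basisMonomials R).linearIndependent
    simpa [Polynomial.coe_basisMonomials] using this
  have h2 := h1.map' (aeval y : R[X] →ₐ[R] S).toLinearMap
    (LinearMap.ker_eq_bot.2 (transcendental_iff_injective.1 hy))
  have h3 : (fun n : ℕ => y ^ n) =
      (aeval y : R[X] →ₐ[R] S).toLinearMap ∘ fun n : ℕ => (monomial n (1 : R) : R[X]) := by
    funext n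
    simp [aeval_monomial]
  rw [h3]
  exact h2

theorem dl_transcendental_of_pow {R S : Type*} [Field R] [Field S] [Algebra R S] {y : S}
    (hy : LinearIndependent R (fun n : ℕ => y ^ n)) : Transcendental R y := by
  rw [transcendental_iff]
  intro p hp
  rw [aeval_eq_sum_range] at hp
  have h1 := (linearIndependent_iff'.1 hy) _ (fun i => p.coeff i) hp
  ext i
  by_cases hi : i ∈ Finset.range (p.natDegree + 1)
  · rw [h1 i hi, coeff_zero]
  · rw [coeff_zero]
    exact coeff_eq_zero_of_natDegree_lt (by rw [Finset.mem_range] at hi; omega)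

theorem transcendental_of_red (R : RedData A resK F Ft) [IsAlgClosed K] (x : R.O)
    (hx : Transcendental k (R.red x)) : Transcendental K ((x : R.O) : F) := by
  apply dl_transcendental_of_pow
  have h1 := dl_linearIndependent_pow hx
  have h2 : (fun n : ℕ => R.red x ^ n) = fun n : ℕ => R.red (x ^ n) := by
    funext n
    rw [map_pow]
  rw [h2] at h1
  exact linearIndependent_of_red R (fun n => x ^ n) h1

/-- `[Ft : k(x̄)] ≤ [F : K(x)]` -/
theorem finrank_red_le (hF : IsFF K F) (hFt : IsFF k Ft) [IsAlgClosed K]
    (R : RedData A resK F Ft) (x : R.O) (hx : Transcendental k (R.red x)) :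
    Module.finrank k⟮R.red x⟯ Ft ≤ Module.finrank K⟮((x : R.O) : F)⟯ F := by
  classical
  have hxK := transcendental_of_red R x hx
  have hfin1 : FiniteDimensional k⟮R.red x⟯ Ft := hFt.finiteDimensional hx
  have hfin2 : FiniteDimensional K⟮((x : R.O) : F)⟯ F := hF.finiteDimensional hxK
  have hx0 : ((x : R.O) : F) ≠ 0 := by
    intro h
    rw [h] at hxK
    exact hxK isAlgebraic_zero
  set b := Module.finBasis k⟮R.red x⟯ Ft with hb
  have hlift : ∀ i, ∃ y : R.O, R.red y = b i := fun i => R.red_surjective _
  choose y hy using hlift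
  set g : k⟮R.red x⟯ := AdjoinSimple.gen k (R.red x) with hg
  have hgt : Transcendental k g := by
    intro hal
    apply hx
    have := hal.algebraMap (A := Ft)
    rwa [hg, AdjoinSimple.algebraMap_gen] at this
  have h1 : LinearIndependent k (fun p : ℕ × Fin (Module.finrank k⟮R.red x⟯ Ft) =>
      g ^ p.1 • b p.2) :=
    linearIndependent_smul (dl_linearIndependent_pow hgt) b.linearIndependent
  have h2 : (fun p : ℕ × Fin (Module.finrank k⟮R.red x⟯ Ft) => g ^ p.1 • b p.2) =
      fun p => R.red (x ^ p.1 * y p.2) := by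
    funext p
    rw [map_mul, map_pow, hy, Algebra.smul_def, map_pow, hg, AdjoinSimple.algebraMap_gen]
  rw [h2] at h1
  have h3 := linearIndependent_of_red R _ h1
  have h4 := card_le_finrank_of_indep (K := K) ((x : R.O) : F) hx0
    (fun i => ((y i : R.O) : F)) ?_
  · simpa using h4
  intro φ hsum i
  obtain ⟨N, hN⟩ : ∃ N : ℕ, ∀ i, (φ i).natDegree < N := by
    refine ⟨Finset.univ.sup (fun i => (φ i).natDegree) + 1, fun i => ?_⟩
    have := Finset.le_sup (f := fun i => (φ i).natDegree) (Finset.mem_univ i)
    omega
  have h5 : ∑ p ∈ Finset.range N ×ˢ Finset.univ,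
      (φ p.2).coeff p.1 • (((x ^ p.1 * y p.2 : R.O)) : F) = 0 := by
    rw [Finset.sum_product_right, ← hsum]
    refine Finset.sum_congr rfl fun i _ => ?_
    rw [aeval_eq_sum_range' (hN i), Finset.sum_mul]
    refine Finset.sum_congr rfl fun m _ => ?_
    push_cast
    rw [smul_mul_assoc]
  have h6 := (linearIndependent_iff'.1 h3) _ (fun p => (φ p.2).coeff p.1) h5 (0, i)
    (Finset.mem_product.2 ⟨Finset.mem_range.2 (by have := hN i; omega), Finset.mem_univ _⟩)
  exact h6

end Fermat.Agent.S18Lib
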