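import Fermat.Agent.S18.CGauss
import Fermat.Agent.S18.ThetaApi
import Fermat.Agent.S18.RedSpace
import Fermat.Agent.S28.Relation
import Fermat.Agent.S24.Fibres
import Fermat.Agent.S20.Serre

/-!
# S18 block C1, leaf (DQ): the `q`-expansion of `D F`
-/

set_option autoImplicit false
set_option synthInstance.maxHeartbeats 400000

open AlgebraicCurve ModularCurve CongruenceSubgroup UpperHalfPlane
open scoped Polynomial IntermediateField

namespace Fermat.Agent.S18Lib

open Fermat.Agent.S24Lib Fermat.Agent.S28Lib Fermat.Agent.S28Lib.RelationAux Fermat.Agent.FFLib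

local notation "𝕢" => Function.Periodic.qParam

/-- `D F = q g'(q)` as a convergent series -/
theorem DQ_hasSum {F : ℍ → ℂ} (hF : QI ⊤ 1 F) (τ : ℍ) :
    HasSum (fun m : ℕ => ((m : ℂ) * (qExpansion 1 F).coeff m) • 𝕢 (1 : ℕ) (τ : ℂ) ^ m)
      (Derivative.normalizedDerivOfComplex F τ) := by
  have h1 : (0 : ℝ) < 1 := one_pos
  have hper : Function.Periodic (F ∘ ofComplex) ((1 : ℝ) : ℂ) := by simpa using hF.per'
  set G : ℂ → ℂ := cuspFunction 1 F with hG
  have hGd : DifferentiableOn ℂ G (Metric.ball 0 1) :=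
    differentiableOn_cuspFunction_ball h1 hper hF.holo hF.bdd
  have hG'd : DifferentiableOn ℂ (deriv G) (Metric.ball 0 1) := hGd.deriv Metric.isOpen_ball
  set q : ℂ := 𝕢 (1 : ℝ) (τ : ℂ) with hq
  have hq1 : ‖q‖ < 1 := Function.Periodic.norm_qParam_lt_one h1 τ.im_pos
  have hqb : q ∈ Metric.ball (0 : ℂ) 1 := by simpa using hq1
  have hs := Complex.hasSum_taylorSeries_on_ball hG'd hqb
  -- the chain rule
  have hGq : HasDerivAt G (deriv G q) q :=
    (hGd.differentiableAt (Metric.isOpen_ball.mem_nhds hqb)).hasDerivAt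
  have hqd : HasDerivAt (fun z : ℂ => 𝕢 (1 : ℝ) z) (2 * Real.pi * Complex.I * q) (τ : ℂ) := by
    have : HasDerivAt (fun z : ℂ => 2 * Real.pi * Complex.I * z / ((1 : ℝ) : ℂ))
        (2 * Real.pi * Complex.I) (τ : ℂ) := by
      simpa using ((hasDerivAt_id (τ : ℂ)).const_mul (2 * Real.pi * Complex.I : ℂ))
    have h2 := this.cexp
    have h3 : Complex.exp (2 * Real.pi * Complex.I * (τ : ℂ) / ((1 : ℝ) : ℂ)) * (2 * Real.pi * Complex.I)
        = 2 * Real.pi * Complex.I * q := by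
      rw [mul_comm]; rfl
    rw [h3] at h2
    exact h2
  have hcomp : HasDerivAt (fun z : ℂ => G (𝕢 (1 : ℝ) z)) (deriv G q * (2 * Real.pi * Complex.I * q))
      (τ : ℂ) := HasDerivAt.comp (τ : ℂ) hGq hqd
  have hev : (F ∘ ofComplex) =ᶠ[nhds (τ : ℂ)] fun z : ℂ => G (𝕢 (1 : ℝ) z) := by
    filter_upwards [isOpen_upperHalfPlaneSet.mem_nhds τ.im_pos] with w hw
    have := eq_cuspFunction (f := F) (⟨w, hw⟩ : ℍ) h1.ne' hper
    rw [Function.comp_apply, ofComplex_apply_of_im_pos hw, ← this]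
  have hD : Derivative.normalizedDerivOfComplex F τ = q * deriv G q := by
    rw [Derivative.normalizedDerivOfComplex, (hcomp.congr_of_eventuallyEq hev).deriv]
    have : (2 * Real.pi * Complex.I : ℂ) ≠ 0 := by simp [Real.pi_ne_zero]
    field_simp
  rw [hD]
  have hs2 := hs.mul_left q
  have hs3 : HasSum (fun m : ℕ => (((m + 1 : ℕ) : ℂ) * (qExpansion 1 F).coeff (m + 1)) • q ^ (m + 1))
      (q * deriv G q) := by
    have hfun : (fun m : ℕ => (((m + 1 : ℕ) : ℂ) * (qExpansion 1 F).coeff (m + 1)) • q ^ (m + 1))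
        = fun i : ℕ => q * ((i.factorial : ℂ))⁻¹ • (q - 0) ^ i • iteratedDeriv i (deriv G) 0 := by
      funext m
      rw [qExpansion_coeff, sub_zero, ← iteratedDeriv_succ', Nat.factorial_succ]
      have h3 : ((m.factorial : ℕ) : ℂ) ≠ 0 := by exact_mod_cast m.factorial_ne_zero
      have h4 : ((m + 1 : ℕ) : ℂ) ≠ 0 := by exact_mod_cast m.succ_ne_zero
      simp only [smul_eq_mul]
      push_cast
      push_cast at h4
      field_simp
      rw [hG]
      ring
    rw [hfun]
    exact hs2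
  have hs4 := (hasSum_nat_add_iff' (f := fun m : ℕ => ((m : ℂ) * (qExpansion 1 F).coeff m) • q ^ m)
    (g := q * deriv G q) 1).1 (by simpa using hs3)
  simpa [hq] using hs4

theorem DQ_qi {F : ℍ → ℂ} (hF : QI ⊤ 1 F) : QI ⊤ 1 (Derivative.normalizedDerivOfComplex F) :=
  QI.of_hasSum one_pos (Derivative.normalizedDerivOfComplex_mdifferentiable hF.holo)
    (fun _ => Subring.mem_top _) (DQ_hasSum hF)

open ModularFormClass in
theorem qExpansion_D_coeff {F : ℍ → ℂ} (hF : QI ⊤ 1 F) (n : ℕ) :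
    (qExpansion 1 (Derivative.normalizedDerivOfComplex F)).coeff n = n * (qExpansion 1 F).coeff n := by
  have h := QIAux.coeff_unique (h := ((1 : ℕ) : ℝ)) (by norm_num) ((DQ_qi hF).analytic one_pos)
    (DQ_hasSum hF) n
  rw [Nat.cast_one] at h
  exact h.symm

end Fermat.Agent.S18Lib
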