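import Fermat.Agent.S18.RedSpace
import Fermat.Agent.Lib.FF.Riemann

/-!
# S18, block (A), leaf (GX): existence of a function `x ∈ O` with `[F : K(x)] ≤ [Ft : k(x̄)]`
-/

set_option autoImplicit false

open AlgebraicCurve IntermediateField Polynomial Fermat.Agent.S24Lib Fermat.Agent.FFLib

namespace Fermat.Agent.S18Lib

section FF

variable {K F : Type*} [Field K] [Field F] [Algebra K F]

theorem gx_degree_mono [IsAlgClosed K] (h : IsFF K F) {D D' : Divisor K F} (hle : D ≤ D') :
    Divisor.degree D ≤ Divisor.degree D' := by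
  classical
  rw [degree_eq_sum h D (D.support ∪ D'.support) Finset.subset_union_left,
    degree_eq_sum h D' (D.support ∪ D'.support) Finset.subset_union_right]
  exact Finset.sum_le_sum fun v _ => hle v

/-- the "base divisor" of a finite dimensional space of functions -/
theorem gx_exists_BB [IsAlgClosed K] (h : IsFF K F) (V : Submodule K F) [FiniteDimensional K V]
    (hV : V ≠ ⊥) :
    ∃ BB : Divisor K F, V ≤ riemannRochSpace BB ∧
      ∀ Q : Place K F, ∃ e ∈ V, e ≠ 0 ∧ Q.ord e = -BB Q := by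
  classical
  have hnt : Nontrivial V := (Submodule.nontrivial_iff_ne_bot).mpr hV
  have hn : 0 < Module.finrank K V := Module.finrank_pos
  let b := Module.finBasis K V
  have hne : (Finset.univ : Finset (Fin (Module.finrank K V))).Nonempty :=
    ⟨⟨0, hn⟩, Finset.mem_univ _⟩
  have hb0 : ∀ i, ((b i : V) : F) ≠ 0 := fun i => by
    have := b.ne_zero i
    simpa using this
  let T0 : Finset (Place K F) :=
    Finset.univ.biUnion fun i => (finite_ord_ne_zero h ((b i : V) : F)).toFinset
  let f : Place K F → ℤ := fun Q => Finset.univ.sup' hne fun i => -Q.ord ((b i : V) : F)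
  have hf : ∀ Q, f Q ≠ 0 → Q ∈ T0 := by
    intro Q hQ
    by_contra hmem
    apply hQ
    have h0 : ∀ i, Q.ord ((b i : V) : F) = 0 := by
      intro i
      by_contra hi
      apply hmem
      rw [Finset.mem_biUnion]
      exact ⟨i, Finset.mem_univ _, by simpa using hi⟩
    show Finset.univ.sup' hne (fun i => -Q.ord ((b i : V) : F)) = 0
    simp only [h0, neg_zero]
    exact Finset.sup'_const hne 0
  let BB : Divisor K F := Finsupp.onFinset T0 f hf
  have hBB : ∀ Q, BB Q = f Q := fun Q => rfl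
  refine ⟨BB, ?_, ?_⟩
  · intro a ha
    have hmem : ∀ i, ((b i : V) : F) ∈ riemannRochSpace BB := by
      intro i
      rw [mem_L_iff]
      intro v
      refine Or.inr ?_
      have : -v.ord ((b i : V) : F) ≤ f v :=
        Finset.le_sup' (fun i => -v.ord ((b i : V) : F)) (Finset.mem_univ i)
      rw [hBB]; omega
    have hsum := congrArg (Subtype.val) (b.sum_repr ⟨a, ha⟩)
    rw [AddSubmonoidClass.coe_finsetSum] at hsum
    rw [show a = ((⟨a, ha⟩ : V) : F) from rfl, ← hsum]
    exact Submodule.sum_mem _ fun i _ => Submodule.smul_mem _ _ (hmem i)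
  · intro Q
    obtain ⟨i, -, hi⟩ := Finset.exists_mem_eq_sup' hne fun i => -Q.ord ((b i : V) : F)
    refine ⟨((b i : V) : F), (b i).2, hb0 i, ?_⟩
    rw [hBB]
    show _ = -(Finset.univ.sup' hne fun i => -Q.ord ((b i : V) : F))
    rw [hi]; ring

theorem gx_not_mem_sub_single {BB : Divisor K F} {Q : Place K F} {e : F} (he : e ≠ 0)
    (hQ : Q.ord e = -BB Q) : e ∉ riemannRochSpace (BB - Finsupp.single Q 1) := by
  rw [mem_L_iff]
  intro hall
  rcases hall Q with h0 | h1
  · exact he h0
  · rw [Finsupp.sub_apply, Finsupp.single_eq_same] at h1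
    omega

theorem gx_ord_eq_of_not_mem {BB : Divisor K F} {Q : Place K F} {a : F}
    (ha : a ∈ riemannRochSpace BB) (hQ : a ∉ riemannRochSpace (BB - Finsupp.single Q 1)) :
    a ≠ 0 ∧ Q.ord a = -BB Q := by
  classical
  have ha0 : a ≠ 0 := fun h0 => hQ (h0 ▸ Submodule.zero_mem _)
  refine ⟨ha0, ?_⟩
  rw [mem_L_iff] at ha hQ
  push Not at hQ
  obtain ⟨Q', hQ'⟩ := hQ
  have h1 : ¬ (-(BB - Finsupp.single Q 1 : Divisor K F) Q' ≤ Q'.ord a) :=
    fun hh => hQ' (Or.inr hh)
  have h2 : -BB Q' ≤ Q'.ord a := (ha Q').resolve_left ha0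
  by_cases hQQ : Q' = Q
  · subst hQQ
    rw [Finsupp.sub_apply, Finsupp.single_eq_same] at h1
    omega
  · rw [Finsupp.sub_apply, Finsupp.single_eq_of_ne hQQ] at h1
    omega

/-- a generic element of `V` has exact order `-BB` at finitely many prescribed places -/
theorem gx_generic [Infinite K] (V : Submodule K F) (hV : V ≠ ⊥) (BB : Divisor K F)
    (hle : V ≤ riemannRochSpace BB)
    (hex : ∀ Q : Place K F, ∃ e ∈ V, e ≠ 0 ∧ Q.ord e = -BB Q) (T : Finset (Place K F)) :
    ∃ a ∈ V, a ≠ 0 ∧ ∀ Q ∈ T, Q.ord a = -BB Q := by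
  classical
  have hnt : Nontrivial V := (Submodule.nontrivial_iff_ne_bot).mpr hV
  let s : Finset (Subspace K V) :=
    insert ⊥ (T.image fun Q => (riemannRochSpace (BB - Finsupp.single Q 1)).comap V.subtype)
  have hs : (⊤ : Subspace K V) ∉ s := by
    intro hmem
    rw [Finset.mem_insert, Finset.mem_image] at hmem
    rcases hmem with h0 | ⟨Q, -, hQ⟩
    · exact top_ne_bot h0
    · obtain ⟨e, heV, he0, heQ⟩ := hex Q
      have : (⟨e, heV⟩ : V) ∈ (riemannRochSpace (BB - Finsupp.single Q 1)).comap V.subtype := by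
        rw [hQ]; exact Submodule.mem_top
      exact gx_not_mem_sub_single he0 heQ this
  have hcov := Subspace.biUnion_ne_univ_of_top_notMem hs
  rw [Set.ne_univ_iff_exists_notMem] at hcov
  obtain ⟨a, ha⟩ := hcov
  simp only [Set.mem_iUnion, not_exists] at ha
  have ha0 : a ≠ 0 := fun h0 => ha ⊥ (Finset.mem_insert_self _ _) (by simp [h0])
  refine ⟨a, a.2, by simpa using ha0, fun Q hQ => ?_⟩
  have h1 := ha _ (Finset.mem_insert_of_mem (Finset.mem_image_of_mem _ hQ))
  exact (gx_ord_eq_of_not_mem (hle a.2) h1).2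

theorem gx_poleDiv_div [IsAlgClosed K] (h : IsFF K F) (BB : Divisor K F) {a b : F}
    (ha : a ∈ riemannRochSpace BB) (hb : b ∈ riemannRochSpace BB) (ha0 : a ≠ 0) (hb0 : b ≠ 0)
    (hab : ∀ Q ∈ (divOf K b + BB).support, Q.ord a = -BB Q) :
    poleDiv K (a / b) = divOf K b + BB := by
  ext Q
  rw [poleDiv_apply h, Finsupp.add_apply, divOf_apply h, div_eq_mul_inv,
    Q.ord_mul ha0 (inv_ne_zero hb0), Q.ord_inv]
  have h1 : -BB Q ≤ Q.ord a := ((mem_L_iff.mp ha) Q).resolve_left ha0
  have h2 : -BB Q ≤ Q.ord b := ((mem_L_iff.mp hb) Q).resolve_left hb0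
  by_cases hQ : Q ∈ (divOf K b + BB).support
  · rw [hab Q hQ]
    rw [max_eq_left (by omega)]; ring
  · rw [Finsupp.notMem_support_iff, Finsupp.add_apply, divOf_apply h] at hQ
    rw [max_eq_right (by omega)]; omega

theorem gx_poleDiv_div_le [IsAlgClosed K] (h : IsFF K F) (E : Divisor K F) {a b : F}
    (ha : a ∈ riemannRochSpace E) (hb : b ∈ riemannRochSpace E) (ha0 : a ≠ 0) (hb0 : b ≠ 0) :
    poleDiv K (a / b) ≤ divOf K b + E := by
  intro Q
  rw [poleDiv_apply h, Finsupp.add_apply, divOf_apply h, div_eq_mul_inv,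
    Q.ord_mul ha0 (inv_ne_zero hb0), Q.ord_inv]
  have h1 : -E Q ≤ Q.ord a := ((mem_L_iff.mp ha) Q).resolve_left ha0
  have h2 : -E Q ≤ Q.ord b := ((mem_L_iff.mp hb) Q).resolve_left hb0
  exact max_le (by omega) (by omega)

theorem gx_transcendental_of_degree_pos [IsAlgClosed K] (h : IsFF K F) {x : F}
    (hx : 0 < Divisor.degree (poleDiv K x)) : Transcendental K x := by
  have hne : poleDiv K x ≠ 0 := by
    intro h0
    rw [h0, map_zero] at hx
    exact lt_irrefl _ hx
  obtain ⟨Q, hQ⟩ := Finsupp.ne_iff.mp hne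
  rw [poleDiv_apply h, Finsupp.zero_apply] at hQ
  refine transcendental_of_ord_ne_zero Q (y := x) ?_
  intro h0
  rw [h0] at hQ
  simp at hQ

end FF

variable {K k F Ft : Type*} [Field K] [Field k] [Field F] [Algebra K F] [Field Ft] [Algebra k Ft]
  {A : ValuationSubring K} {resK : A →+* k}

theorem gx_transcendental_of_red (R : RedData A resK F Ft) [IsAlgClosed K] (x : R.O)
    (hx : Transcendental k (R.red x)) : Transcendental K ((x : R.O) : F) := by
  by_contra halg
  have hmem : ((x : R.O) : F) ∈ (algebraMap K F).range := by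
    by_contra hn
    exact halg (transcendental_of_not_mem_range hn)
  obtain ⟨a, ha⟩ := hmem
  have haA : a ∈ A := (R.algebraMap_mem_iff a).mp (ha ▸ x.2)
  have hxa : x = R.const ⟨a, haA⟩ := Subtype.ext ha.symm
  rw [hxa, R.red_const] at hx
  exact hx (isAlgebraic_algebraMap _)

theorem exists_good_x (hF : IsFF K F) (hFt : IsFF k Ft) [IsAlgClosed K] [IsAlgClosed k]
    (hres : Function.Surjective resK) (R : RedData A resK F Ft) (g : ℤ)
    (hlow : ∀ E : Divisor K F, Divisor.degree E + 1 - g ≤ (FFLib.ell E : ℤ))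
    (hup : ∀ c : ℤ, ∃ E : Divisor k Ft, c ≤ Divisor.degree E ∧
      (FFLib.ell E : ℤ) ≤ Divisor.degree E + 1 - g) :
    ∃ x : R.O, Transcendental k (R.red x) ∧
      Module.finrank K⟮((x : R.O) : F)⟯ F ≤ Module.finrank k⟮R.red x⟯ Ft := by
  classical
  -- comparison of the genera
  obtain ⟨c, hc⟩ := riemann_equality hFt
  have hg : g ≤ (genusR k Ft : ℤ) := by
    obtain ⟨E0, h1, h2⟩ := hup c
    have := hc E0 h1
    omega
  -- a place of `F`
  obtain ⟨x0, hx0, -⟩ := id hF
  obtain ⟨P, -⟩ := exists_place_ord_pos hF hx0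
  obtain ⟨N, hN1, hN2, hN3⟩ : ∃ N : ℕ, (1 : ℤ) ≤ N ∧ c + g ≤ N ∧ g + 1 ≤ N :=
    ⟨(max 1 (max (c + g) (g + 1))).toNat, by omega, by omega, by omega⟩
  set E : Divisor K F := Finsupp.single P (N : ℤ) with hE
  have hdegE : Divisor.degree E = N := by
    rw [hE, Divisor.degree_single, deg_eq_one hF P]; simp
  have hlowE := hlow E
  have hfdU : FiniteDimensional K (riemannRochSpace E) := finiteDimensional_L hF E
  have hfdV : FiniteDimensional k (redSpace R hres (riemannRochSpace E)) :=
    finiteDimensional_redSpace R hres _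
  set V := redSpace R hres (riemannRochSpace E) with hVdef
  have hdimV : Module.finrank k V = FFLib.ell E := finrank_redSpace R hres _
  have hVbot : V ≠ ⊥ := by
    intro h0
    rw [h0, finrank_bot] at hdimV
    omega
  obtain ⟨BB, hle, hex⟩ := gx_exists_BB hFt V hVbot
  have hfdBB : FiniteDimensional k (riemannRochSpace BB) := finiteDimensional_L hFt BB
  have h1 : Module.finrank k V ≤ FFLib.ell BB := Submodule.finrank_mono hle
  have hdeg0 : 0 ≤ Divisor.degree BB := by
    by_contra hneg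
    push Not at hneg
    have := ell_eq_zero_of_degree_neg hFt hneg
    omega
  have h2 := ell_le_degree_add_one hFt hdeg0
  have h3 : c ≤ Divisor.degree BB := by omega
  have h4 := hc BB h3
  have hdegBB : (N : ℤ) ≤ Divisor.degree BB := by omega
  -- two generic elements
  obtain ⟨b, hbV, hb0, -⟩ := gx_generic V hVbot BB hle hex ∅
  obtain ⟨a, haV, ha0, haT⟩ := gx_generic V hVbot BB hle hex (divOf k b + BB).support
  have hpole := gx_poleDiv_div hFt BB (hle haV) (hle hbV) ha0 hb0 haT
  have hdegpole : Divisor.degree (poleDiv k (a / b)) = Divisor.degree BB := by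
    rw [hpole, map_add, degree_divOf hFt, zero_add]
  have htr : Transcendental k (a / b) := gx_transcendental_of_degree_pos hFt (by omega)
  have hfin : (Module.finrank k⟮a / b⟯ Ft : ℤ) = Divisor.degree BB := by
    rw [← degree_poleDiv hFt htr, hdegpole]
  -- lifts
  obtain ⟨α, hαU, hα⟩ := haV
  obtain ⟨β, hβU, hβ⟩ := hbV
  have hβu : IsUnit β := R.isUnit_of_red_ne_zero β (by rw [hβ]; exact hb0)
  obtain ⟨βu, rfl⟩ := hβu
  set x : R.O := α * ((βu⁻¹ : R.Oˣ) : R.O) with hx
  have hredx : R.red x = a / b := by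
    rw [hx, map_mul, hα, div_eq_mul_inv]
    congr 1
    apply eq_inv_of_mul_eq_one_left
    rw [← hβ, ← map_mul, Units.inv_mul, map_one]
  have hxF : ((x : R.O) : F) = (α : F) / ((βu : R.O) : F) := by
    rw [hx, div_eq_mul_inv]
    show (α : F) * (((βu⁻¹ : R.Oˣ) : R.O) : F) = _
    congr 1
    apply eq_inv_of_mul_eq_one_left
    have := congrArg (Subtype.val) (Units.inv_mul βu)
    exact this
  have hα0 : (α : F) ≠ 0 := by
    intro h0
    apply ha0
    have h5 : α = 0 := Subtype.ext h0
    rw [← hα, h5, map_zero]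
  have hβ0 : ((βu : R.O) : F) ≠ 0 := by
    intro h0
    apply hb0
    have h5 : (βu : R.O) = 0 := Subtype.ext h0
    rw [← hβ, h5, map_zero]
  have htr' : Transcendental k (R.red x) := by rw [hredx]; exact htr
  have hxtr : Transcendental K ((x : R.O) : F) := gx_transcendental_of_red R x htr'
  have hle2 := gx_degree_mono hF (gx_poleDiv_div_le hF E hαU hβU hα0 hβ0)
  rw [map_add, degree_divOf hF, zero_add, hdegE, ← hxF, degree_poleDiv hF hxtr] at hle2
  refine ⟨x, htr', ?_⟩
  rw [hredx]
  have : (Module.finrank K⟮((x : R.O) : F)⟯ F : ℤ) ≤ (Module.finrank k⟮a / b⟯ Ft : ℤ) := by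
    omega
  exact_mod_cast this

end Fermat.Agent.S18Lib
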