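import Fermat.Agent.S18.DegLe
import Fermat.Agent.Lib.FF.Riemann

/-!
# S18 library, leaf (PL): reduction does not create poles
-/

set_option autoImplicit false

open AlgebraicCurve IntermediateField Polynomial Fermat.Agent.S24Lib Fermat.Agent.FFLib

namespace Fermat.Agent.S18Lib

variable {K k F Ft : Type*} [Field K] [Field k] [Field F] [Algebra K F] [Field Ft] [Algebra k Ft]
  {A : ValuationSubring K} {resK : A →+* k}

/-- the orders of a function are bounded below -/
theorem pl_exists_bound [IsAlgClosed K] (h : IsFF K F) (y : F) :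
    ∃ m : ℕ, ∀ v : Place K F, -(m : ℤ) ≤ v.ord y := by
  classical
  set T := (finite_ord_ne_zero h y).toFinset with hT
  refine ⟨∑ v ∈ T, (v.ord y).natAbs, fun v => ?_⟩
  by_cases hv : v ∈ T
  · have h1 := Finset.single_le_sum (f := fun v : Place K F => (v.ord y).natAbs)
      (fun _ _ => Nat.zero_le _) hv
    have h2 : ((v.ord y).natAbs : ℤ) ≤ ((∑ v ∈ T, (v.ord y).natAbs : ℕ) : ℤ) := by exact_mod_cast h1
    omega
  · have h0 : v.ord y = 0 := by
      by_contra hne
      exact hv (by rw [hT, Set.Finite.mem_toFinset]; exact hne)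
    rw [h0]
    omega

theorem pl_ord_pow (v : Place K F) (x : F) (M : ℕ) : v.ord (x ^ M) = M * v.ord x := by
  have := v.ord_zpow x M
  simpa using this

/-- order of `x ^ M + y` at a pole of `x` -/
theorem pl_ord_at_pole (v : Place K F) {x y : F} {M m : ℕ} (hm : -(m : ℤ) ≤ v.ord y) (hM : m < M)
    (hx : v.ord x < 0) : v.ord (x ^ M + y) = M * v.ord x := by
  have hx0 : x ≠ 0 := by
    rintro rfl
    simp at hx
  have hpow := pl_ord_pow v x M
  rw [add_comm, D2.ord_add_eq v (pow_ne_zero M hx0) (Or.inr ?_), hpow]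
  rw [hpow]
  have h1 : (M : ℤ) * v.ord x ≤ (M : ℤ) * (-1) :=
    mul_le_mul_of_nonneg_left (by omega) (by positivity)
  have h2 : (m : ℤ) < M := by exact_mod_cast hM
  omega

theorem pl_ord_nonneg (v : Place K F) {x y : F} (M : ℕ) (hx : 0 ≤ v.ord x) (hy : 0 ≤ v.ord y) :
    0 ≤ v.ord (x ^ M + y) := by
  have h1 : D2_ge v 0 (x ^ M) := Or.inr (by rw [pl_ord_pow]; positivity)
  rcases D2.ge_add v h1 (Or.inr hy) with h | h
  · rw [h, Place.ord_zero]
  · exact h

/-- core: a function of `O` without poles outside the poles of `x` reduces to a function without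
poles outside the poles of `x̄` -/
theorem red_ord_nonneg (hF : IsFF K F) (hFt : IsFF k Ft) [IsAlgClosed K] [IsAlgClosed k]
    (R : RedData A resK F Ft) (x : R.O) (hx : Transcendental k (R.red x))
    (hdeg : Module.finrank K⟮((x : R.O) : F)⟯ F ≤ Module.finrank k⟮R.red x⟯ Ft)
    (y : R.O) (hy : ∀ v : Place K F, 0 ≤ v.ord ((x : R.O) : F) → 0 ≤ v.ord ((y : R.O) : F))
    (Q : Place k Ft) (hQ : 0 ≤ Q.ord (R.red x)) : 0 ≤ Q.ord (R.red y) := by
  classical
  by_contra hneg
  push Not at hneg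
  have hxK := transcendental_of_red R x hx
  have hyb0 : R.red y ≠ 0 := by
    intro h
    rw [h, Place.ord_zero] at hneg
    exact lt_irrefl _ hneg
  obtain ⟨m, hm⟩ := pl_exists_bound hF ((y : R.O) : F)
  obtain ⟨m', hm'⟩ := pl_exists_bound hFt (R.red y)
  set M := max m m' + 1 with hM
  have hmM : m < M := by omega
  have hm'M : m' < M := by omega
  set z : R.O := x ^ M + y with hz
  have hzF : ((z : R.O) : F) = ((x : R.O) : F) ^ M + ((y : R.O) : F) := rfl
  have hzb : R.red z = R.red x ^ M + R.red y := by rw [hz, map_add, map_pow]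
  -- the side of `F`
  have hpoleF : poleDiv K ((z : R.O) : F) = M • poleDiv K ((x : R.O) : F) := by
    ext v
    rw [Finsupp.smul_apply, poleDiv_apply hF, poleDiv_apply hF, hzF]
    rcases lt_or_ge (v.ord ((x : R.O) : F)) 0 with h | h
    · have h1 : (M : ℤ) * v.ord ((x : R.O) : F) ≤ 0 :=
        mul_nonpos_of_nonneg_of_nonpos (by positivity) h.le
      rw [pl_ord_at_pole v (hm v) hmM h, max_eq_left (by omega), max_eq_left (by omega),
        nsmul_eq_mul]
      ring
    · have := pl_ord_nonneg v M h (hy v h)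
      rw [max_eq_right (by omega), max_eq_right (by omega), smul_zero]
  obtain ⟨v₀, hv₀⟩ := exists_place_ord_pos hF (dg_transcendental_inv hxK)
  rw [v₀.ord_inv] at hv₀
  have hzK : Transcendental K ((z : R.O) : F) := by
    apply transcendental_of_ord_ne_zero v₀
    rw [hzF, pl_ord_at_pole v₀ (hm v₀) hmM (by omega)]
    have h1 : (0 : ℤ) < M := by positivity
    have h2 : v₀.ord ((x : R.O) : F) < 0 := by omega
    exact (mul_neg_of_pos_of_neg h1 h2).ne
  have hdF : (Module.finrank K⟮((z : R.O) : F)⟯ F : ℤ)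
      = M * Module.finrank K⟮((x : R.O) : F)⟯ F := by
    rw [← degree_poleDiv hF hzK, hpoleF, map_nsmul, degree_poleDiv hF hxK, nsmul_eq_mul]
  -- the side of `Ft`
  have hQz : Q.ord (R.red z) = Q.ord (R.red y) := by
    rw [hzb]
    refine D2.ord_add_eq Q hyb0 (Or.inr ?_)
    rw [pl_ord_pow]
    have : (0 : ℤ) ≤ M * Q.ord (R.red x) := by positivity
    omega
  have hzt : Transcendental k (R.red z) :=
    transcendental_of_ord_ne_zero Q (by rw [hQz]; omega)
  have hle : 0 ≤ poleDiv k (R.red z) - (M • poleDiv k (R.red x) + Finsupp.single Q 1) := by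
    intro Q'
    rw [Finsupp.zero_apply, Finsupp.sub_apply, Finsupp.add_apply, Finsupp.smul_apply,
      poleDiv_apply hFt, poleDiv_apply hFt, Finsupp.single_apply]
    rcases lt_or_ge (Q'.ord (R.red x)) 0 with h | h
    · have hne : Q ≠ Q' := by
        rintro rfl
        omega
      have h1 : (M : ℤ) * Q'.ord (R.red x) ≤ 0 :=
        mul_nonpos_of_nonneg_of_nonpos (by positivity) h.le
      rw [if_neg hne, hzb, pl_ord_at_pole Q' (hm' Q') hm'M h, max_eq_left (by omega),
        max_eq_left (by omega), nsmul_eq_mul]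
      apply le_of_eq
      ring
    · rw [max_eq_right (a := -Q'.ord (R.red x)) (by omega), smul_zero]
      split_ifs with hQQ
      · subst hQQ
        rw [hQz]
        have := le_max_left (-Q.ord (R.red y)) 0
        omega
      · have := le_max_right (-Q'.ord (R.red z)) 0
        omega
  have hd := dg_degree_nonneg hFt hle
  rw [AddMonoidHom.map_sub, AddMonoidHom.map_add, AddMonoidHom.map_nsmul, degree_poleDiv hFt hzt,
    degree_poleDiv hFt hx, degree_single' hFt, nsmul_eq_mul] at hd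
  have h1 := finrank_red_le hF hFt R z hzt
  have h2 : (Module.finrank k⟮R.red z⟯ Ft : ℤ) ≤ Module.finrank K⟮((z : R.O) : F)⟯ F := by
    exact_mod_cast h1
  have h3 : (M : ℤ) * Module.finrank K⟮((x : R.O) : F)⟯ F
      ≤ M * Module.finrank k⟮R.red x⟯ Ft :=
    mul_le_mul_of_nonneg_left (by exact_mod_cast hdeg) (by positivity)
  omega

theorem pl_div_apply [IsAlgClosed K] (h : IsFF K F) (a b : ℕ) (x : F) (v : Place K F) :
    (a • poleDiv K x + b • zeroDiv K x) v = a * max (-v.ord x) 0 + b * max (v.ord x) 0 := by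
  rw [Finsupp.add_apply, Finsupp.smul_apply, Finsupp.smul_apply, poleDiv_apply h, zeroDiv_apply h,
    nsmul_eq_mul, nsmul_eq_mul]

theorem red_mem_L_pole_zero (hF : IsFF K F) (hFt : IsFF k Ft) [IsAlgClosed K] [IsAlgClosed k]
    (R : RedData A resK F Ft) (x : R.O) (hx : Transcendental k (R.red x))
    (hdeg : Module.finrank K⟮((x : R.O) : F)⟯ F ≤ Module.finrank k⟮R.red x⟯ Ft)
    (a b : ℕ) (y : R.O)
    (hy : ((y : R.O) : F) ∈
      riemannRochSpace (a • poleDiv K ((x : R.O) : F) + b • zeroDiv K ((x : R.O) : F))) :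
    R.red y ∈ riemannRochSpace (a • poleDiv k (R.red x) + b • zeroDiv k (R.red x)) := by
  classical
  have hxb0 : R.red x ≠ 0 := fun h => hx (h ▸ isAlgebraic_zero)
  obtain ⟨ux, hux⟩ := R.isUnit_of_red_ne_zero x hxb0
  set xi : R.O := ((ux⁻¹ : R.Oˣ) : R.O) with hxi_def
  have hxi : x * xi = 1 := by rw [← hux, hxi_def]; simp
  have hxiF : ((xi : R.O) : F) = ((x : R.O) : F)⁻¹ :=
    eq_inv_of_mul_eq_one_right (congrArg Subtype.val hxi)
  have hxib : R.red xi = (R.red x)⁻¹ :=
    eq_inv_of_mul_eq_one_right (by rw [← map_mul, hxi, map_one])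
  rw [mem_L_iff] at hy ⊢
  intro Q
  by_cases hyb : R.red y = 0
  · exact Or.inl hyb
  right
  have hy0 : ((y : R.O) : F) ≠ 0 := by
    intro h
    apply hyb
    have : y = 0 := Subtype.ext h
    rw [this, map_zero]
  have hx0 : ((x : R.O) : F) ≠ 0 := by
    intro h
    apply hxb0
    have : x = 0 := Subtype.ext h
    rw [this, map_zero]
  have hyv : ∀ v : Place K F, -((a : ℤ) * max (-v.ord ((x : R.O) : F)) 0
      + b * max (v.ord ((x : R.O) : F)) 0) ≤ v.ord ((y : R.O) : F) := by
    intro v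
    rcases hy v with h | h
    · exact absurd h hy0
    · rwa [pl_div_apply hF] at h
  set y' : R.O := y * x ^ b with hy'
  set y'' : R.O := y' * xi ^ (a + b) with hy''
  have hy'F : ((y' : R.O) : F) = ((y : R.O) : F) * ((x : R.O) : F) ^ b := rfl
  have hy''F : ((y'' : R.O) : F)
      = ((y : R.O) : F) * ((x : R.O) : F) ^ b * (((x : R.O) : F)⁻¹) ^ (a + b) := by
    rw [← hxiF]; rfl
  have h1 : ∀ v : Place K F, 0 ≤ v.ord ((x : R.O) : F) → 0 ≤ v.ord ((y' : R.O) : F) := by
    intro v hv
    rw [hy'F, v.ord_mul hy0 (pow_ne_zero _ hx0), pl_ord_pow]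
    have := hyv v
    rw [max_eq_right (a := -v.ord ((x : R.O) : F)) (by omega), max_eq_left hv] at this
    omega
  have h2 : ∀ v : Place K F, 0 ≤ v.ord ((xi : R.O) : F) → 0 ≤ v.ord ((y'' : R.O) : F) := by
    intro v hv
    rw [hxiF, v.ord_inv] at hv
    rw [hy''F, v.ord_mul (mul_ne_zero hy0 (pow_ne_zero _ hx0)) (pow_ne_zero _ (inv_ne_zero hx0)),
      v.ord_mul hy0 (pow_ne_zero _ hx0), pl_ord_pow, pl_ord_pow, v.ord_inv]
    have := hyv v
    rw [max_eq_left (a := -v.ord ((x : R.O) : F)) (by omega),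
      max_eq_right (a := v.ord ((x : R.O) : F)) (by omega)] at this
    push_cast
    nlinarith
  have hxit : Transcendental k (R.red xi) := by rw [hxib]; exact dg_transcendental_inv hx
  have hdeg' : Module.finrank K⟮((xi : R.O) : F)⟯ F ≤ Module.finrank k⟮R.red xi⟯ Ft := by
    rw [hxiF, hxib, dg_finrank_inv, dg_finrank_inv]; exact hdeg
  have k1 := red_ord_nonneg hF hFt R x hx hdeg y' h1 Q
  have k2 := red_ord_nonneg hF hFt R xi hxit hdeg' y'' h2 Q
  rw [hy', map_mul, map_pow, Q.ord_mul hyb (pow_ne_zero _ hxb0), pl_ord_pow] at k1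
  rw [hy'', hy', map_mul, map_mul, map_pow, map_pow, hxib,
    Q.ord_mul (mul_ne_zero hyb (pow_ne_zero _ hxb0)) (pow_ne_zero _ (inv_ne_zero hxb0)),
    Q.ord_mul hyb (pow_ne_zero _ hxb0), pl_ord_pow, pl_ord_pow, Q.ord_inv] at k2
  rw [pl_div_apply hFt]
  rcases le_or_gt 0 (Q.ord (R.red x)) with h | h
  · have := k1 h
    rw [max_eq_right (a := -Q.ord (R.red x)) (by omega), max_eq_left h]
    omega
  · have := k2 (by omega)
    rw [max_eq_left (a := -Q.ord (R.red x)) (by omega),
      max_eq_right (a := Q.ord (R.red x)) (by omega)]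
    push_cast at this
    nlinarith

end Fermat.Agent.S18Lib
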