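import Fermat.Agent.S18.RedDefs
import Fermat.Agent.S18.Bridge
import Fermat.Agent.S18.RedSpace
import Fermat.Agent.S18.DegLe
import Fermat.Agent.S18.PoleLemma
import Fermat.Agent.S18.GoodX
import Fermat.Agent.S18.Obstruction
import Fermat.Agent.Lib.FF.Riemann

/-!
# S18 library, block (A): the abstract good reduction theorem
-/

set_option autoImplicit false

open AlgebraicCurve IntermediateField Polynomial Fermat.Agent.S24Lib Fermat.Agent.FFLib

namespace Fermat.Agent.S18Lib

section aux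

variable {K F : Type*} [Field K] [Field F] [Algebra K F]

theorem ma_ord_pow (v : Place K F) (x : F) (r : ℕ) : v.ord (x ^ r) = r * v.ord x := by
  have := v.ord_zpow x (r : ℤ)
  rwa [zpow_natCast] at this

theorem ma_ge_pow (v : Place K F) {n : ℤ} {x : F} (hx : D2_ge v n x) (r : ℕ) (hr : 0 < r) :
    D2_ge v (r * n) (x ^ r) := by
  rcases hx with rfl | hx
  · left; exact zero_pow hr.ne'
  · right
    rw [ma_ord_pow]
    exact mul_le_mul_of_nonneg_left hx (by positivity)

theorem ma_ge_of_pow (v : Place K F) {n : ℤ} {x : F} {r : ℕ} (hr : 0 < r)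
    (h : D2_ge v (r * n) (x ^ r)) : D2_ge v n x := by
  rcases h with h | h
  · left; exact pow_eq_zero_iff hr.ne' |>.1 h
  · right
    rw [ma_ord_pow] at h
    exact le_of_mul_le_mul_left h (by exact_mod_cast hr)

/-- an effective divisor of degree `0` is `0` -/
theorem ma_eq_zero_of_degree [IsAlgClosed K] (h : IsFF K F) (D : Divisor K F) (h0 : ∀ v, 0 ≤ D v)
    (hd : Divisor.degree D = 0) (v : Place K F) : D v = 0 := by
  rw [degree_eq_sum h D D.support (Finset.Subset.refl _)] at hd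
  by_cases hv : v ∈ D.support
  · exact (Finset.sum_eq_zero_iff_of_nonneg (fun w _ => h0 w)).1 hd v hv
  · simpa using hv

/-- a divisor of degree `0` with `L(D) ≠ 0` is principal -/
theorem ma_isPrincipal_of_mem [IsAlgClosed K] (h : IsFF K F) (D : Divisor K F)
    (hd : Divisor.degree D = 0) {f : F} (hf : f ≠ 0) (hfD : f ∈ riemannRochSpace D) :
    Divisor.IsPrincipal D := by
  have h1 : ∀ v, (divOf K f + D) v = 0 := by
    apply ma_eq_zero_of_degree h
    · intro v
      rw [Finsupp.add_apply, divOf_apply h]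
      rcases (mem_L_iff.1 hfD v) with h' | h'
      · exact absurd h' hf
      · omega
    · rw [map_add, degree_divOf h, hd, add_zero]
  refine ⟨f⁻¹, inv_ne_zero hf, fun v => ?_⟩
  have := h1 v
  rw [Finsupp.add_apply, divOf_apply h] at this
  rw [v.ord_inv]
  omega

/-- the divisor `a (x)_∞ + b (x)_0` -/
noncomputable def maE (K : Type*) {F : Type*} [Field K] [Field F] [Algebra K F] (x : F) (a b : ℕ) :
    Divisor K F := a • poleDiv K x + b • zeroDiv K x

theorem maE_apply [IsAlgClosed K] (h : IsFF K F) (x : F) (a b : ℕ) (v : Place K F) :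
    maE K x a b v = a * max (-v.ord x) 0 + b * max (v.ord x) 0 := by
  simp [maE, poleDiv_apply h, zeroDiv_apply h]

theorem maE_degree [IsAlgClosed K] (h : IsFF K F) {x : F} (hx : Transcendental K x) (a b : ℕ) :
    Divisor.degree (maE K x a b) = ((a : ℤ) + b) * (Module.finrank K⟮x⟯ F : ℤ) := by
  rw [maE, map_add, map_nsmul, map_nsmul, degree_poleDiv h hx, degree_zeroDiv h hx]
  simp only [nsmul_eq_mul]
  ring

theorem maE_nonneg [IsAlgClosed K] (h : IsFF K F) (x : F) (a b : ℕ) (v : Place K F) :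
    0 ≤ maE K x a b v := by
  rw [maE_apply h]; positivity

theorem ma_one_mem [IsAlgClosed K] (h : IsFF K F) (x : F) (a b : ℕ) :
    (1 : F) ∈ riemannRochSpace (maE K x a b) := by
  rw [mem_L_iff]
  intro v
  right
  rw [v.ord_one]
  have := maE_nonneg h x a b v
  omega

/-- `L(a (x)_∞) ∩ L(b (x)_0) = K` -/
theorem ma_inf_le [IsAlgClosed K] (h : IsFF K F) (x : F) (a b : ℕ) {f : F}
    (h1 : f ∈ riemannRochSpace (maE K x a 0)) (h2 : f ∈ riemannRochSpace (maE K x 0 b)) :
    f ∈ (algebraMap K F).range := by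
  rw [← mem_L_zero_iff h, mem_L_iff]
  intro v
  have h1 := mem_L_iff.1 h1 v
  have h2 := mem_L_iff.1 h2 v
  rw [maE_apply h] at h1 h2
  rcases le_total 0 (v.ord x) with ho | ho
  · rw [max_eq_right (by omega : -v.ord x ≤ 0)] at h1
    simpa using h1
  · rw [max_eq_right ho] at h2
    simpa using h2

/-- disjoint supports -/
theorem ma_split [IsAlgClosed K] (h : IsFF K F) (x : F) (n m : ℕ) {y₁ y₂ : F}
    (h1 : y₁ ∈ riemannRochSpace (maE K x m 0)) (h2 : y₂ ∈ riemannRochSpace (maE K x 0 m))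
    (h12 : y₁ + y₂ ∈ riemannRochSpace (maE K x n n)) :
    y₁ ∈ riemannRochSpace (maE K x n 0) ∧ y₂ ∈ riemannRochSpace (maE K x 0 n) := by
  constructor
  · rw [mem_L_iff]
    intro v
    have h1 := mem_L_iff.1 h1 v
    have h2 := mem_L_iff.1 h2 v
    have h12 := mem_L_iff.1 h12 v
    rw [maE_apply h] at h1 h2 h12 ⊢
    rcases le_total 0 (v.ord x) with ho | ho
    · rw [max_eq_right (by omega : -v.ord x ≤ 0)] at h1 ⊢
      simpa using h1
    · rw [max_eq_right ho] at h2 h12 ⊢
      have e : y₁ = (y₁ + y₂) - y₂ := by ring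
      rw [e]
      have hnn : (0 : ℤ) ≤ (n : ℤ) * max (-v.ord x) 0 := by positivity
      refine D2.ge_sub v (D2.ge_mono v (by simp) h12) (D2.ge_mono v ?_ h2)
      simp only [Nat.cast_zero, zero_mul, mul_zero, add_zero, neg_zero]
      omega
  · rw [mem_L_iff]
    intro v
    have h1 := mem_L_iff.1 h1 v
    have h2 := mem_L_iff.1 h2 v
    have h12 := mem_L_iff.1 h12 v
    rw [maE_apply h] at h1 h2 h12 ⊢
    rcases le_total 0 (v.ord x) with ho | ho
    · rw [max_eq_right (by omega : -v.ord x ≤ 0)] at h1 h12 ⊢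
      have e : y₂ = (y₁ + y₂) - y₁ := by ring
      rw [e]
      have hnn : (0 : ℤ) ≤ (n : ℤ) * max (v.ord x) 0 := by positivity
      refine D2.ge_sub v (D2.ge_mono v (by simp) h12) (D2.ge_mono v ?_ h1)
      simp only [Nat.cast_zero, zero_mul, mul_zero, add_zero, zero_add, neg_zero]
      omega
    · rw [max_eq_right ho] at h2 ⊢
      simpa using h2

end aux

variable {K k F Ft : Type*} [Field K] [Field k] [Field F] [Algebra K F] [Field Ft] [Algebra k Ft]
  {A : ValuationSubring K} {resK : A →+* k}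

/-- `s ∈ L(a (x)_∞ + b (x)_0 + D)`, `div u = r D` ⟹ `s ^ r u ∈ L(r a (x)_∞ + r b (x)_0)` -/
theorem ma_pow_mul_mem [IsAlgClosed K] (hF : IsFF K F) (x u : F) (r : ℕ) (hr : 0 < r)
    (D : Divisor K F) (hD : ∀ v : Place K F, v.ord u = r * D v) (a b : ℕ) {s : F}
    (hs : s ∈ riemannRochSpace (maE K x a b + D)) :
    s ^ r * u ∈ riemannRochSpace (maE K x (r * a) (r * b)) := by
  rw [mem_L_iff]
  intro v
  have h1 := ma_ge_pow v (mem_L_iff.1 hs v) r hr
  have h2 : D2_ge v (r * D v) u := Or.inr (hD v).ge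
  have h3 := D2.ge_mul v h1 h2
  refine D2.ge_mono v (le_of_eq ?_) h3
  rw [Finsupp.add_apply, maE_apply hF, maE_apply hF]
  push_cast
  ring

/-- `V(L(a (x)_∞ + b (x)_0 + D)) ≤ L(a (x̄)_∞ + b (x̄)_0)` -/
theorem ma_red_mem [IsAlgClosed K] [IsAlgClosed k] (hF : IsFF K F) (hFt : IsFF k Ft)
    (R : RedData A resK F Ft) (x : R.O) (hx : Transcendental k (R.red x))
    (hdeg : Module.finrank K⟮((x : R.O) : F)⟯ F ≤ Module.finrank k⟮R.red x⟯ Ft)
    (r : ℕ) (hr : 0 < r) (u : R.O) (hu : R.red u = 1)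
    (D : Divisor K F) (hD : ∀ v : Place K F, v.ord ((u : R.O) : F) = r * D v) (a b : ℕ) (s : R.O)
    (hs : ((s : R.O) : F) ∈ riemannRochSpace (maE K ((x : R.O) : F) a b + D)) :
    R.red s ∈ riemannRochSpace (maE k (R.red x) a b) := by
  have h1 := ma_pow_mul_mem hF (x : F) (u : F) r hr D hD a b hs
  have h2 := red_mem_L_pole_zero hF hFt R x hx hdeg (r * a) (r * b) (s ^ r * u) h1
  rw [map_mul, map_pow, hu, mul_one] at h2
  rw [mem_L_iff]
  intro Q
  have h3 := mem_L_iff.1 h2 Q
  apply ma_ge_of_pow Q hr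
  refine D2.ge_mono Q (le_of_eq ?_) h3
  have e1 := maE_apply hFt (R.red x) (r * a) (r * b) Q
  have e2 := maE_apply hFt (R.red x) a b Q
  rw [maE] at e1
  rw [e1, e2]
  push_cast
  ring

theorem good_reduction_torsion_of_x [IsAlgClosed K] [IsAlgClosed k]
    (hF : IsFF K F) (hFt : IsFF k Ft) (hres : Function.Surjective resK)
    (R : RedData A resK F Ft) (g : ℤ)
    (hlow : ∀ E : Divisor K F, Divisor.degree E + 1 - g ≤ (FFLib.ell E : ℤ))
    (hup : ∀ c : ℤ, ∃ E : Divisor k Ft, c ≤ Divisor.degree E ∧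
      (FFLib.ell E : ℤ) ≤ Divisor.degree E + 1 - g)
    (x : R.O) (hx : Transcendental k (R.red x))
    (hdeg : Module.finrank K⟮((x : R.O) : F)⟯ F ≤ Module.finrank k⟮R.red x⟯ Ft)
    (r : ℕ) (hr : (r : k) ≠ 0) (u : R.O) (hu : R.red u = 1)
    (D : Divisor K F) (hD : ∀ v : Place K F, v.ord ((u : R.O) : F) = r * D v) :
    Divisor.IsPrincipal D := by
  classical
  have hr0 : 0 < r := Nat.pos_of_ne_zero (by rintro rfl; simp at hr)
  have hxK : Transcendental K ((x : R.O) : F) := transcendental_of_red R x hx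
  have hle := finrank_red_le hF hFt R x hx
  set xF : F := ((x : R.O) : F) with hxF
  set xb : Ft := R.red x with hxb
  set dF := Module.finrank K⟮xF⟯ F with hdF
  set dt := Module.finrank k⟮xb⟯ Ft with hdt
  have hdd : dF = dt := le_antisymm hdeg hle
  have hdt0 : 0 < dt := by
    have := IsFF.finiteDimensional hFt hx
    exact Module.finrank_pos
  -- degree of `D`
  have hdegD : Divisor.degree D = 0 := by
    have e : r • D = divOf K (u : F) := by
      ext v
      rw [divOf_apply hF, hD v]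
      simp
    have := degree_divOf hF ((u : R.O) : F)
    rw [← e, map_nsmul, nsmul_eq_mul] at this
    rcases mul_eq_zero.1 this with h | h
    · exact absurd (by exact_mod_cast h) hr0.ne'
    · exact h
  -- Riemann on `Ft`
  obtain ⟨c, hc⟩ := riemann_equality hFt
  have hg : g ≤ (genusR k Ft : ℤ) := by
    obtain ⟨E, hE1, hE2⟩ := hup c
    have := hc E hE1
    omega
  set n : ℕ := c.toNat with hn
  have hcn : c ≤ (n : ℤ) * dt := by
    have h1 : c ≤ (n : ℤ) := Int.self_le_toNat c
    have h2 : (n : ℤ) * 1 ≤ (n : ℤ) * dt := by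
      apply mul_le_mul_of_nonneg_left _ (by positivity)
      exact_mod_cast hdt0
    omega
  -- the spaces
  set U₁ : Submodule K F := riemannRochSpace (maE K xF n 0 + D) with hU₁
  set U₂ : Submodule K F := riemannRochSpace (maE K xF 0 n + D) with hU₂
  set U₁' : Submodule K F := riemannRochSpace (maE K xF (r * n) (r * 0)) with hU₁'
  set U₂' : Submodule K F := riemannRochSpace (maE K xF (r * 0) (r * n)) with hU₂'
  have : FiniteDimensional K U₁ := finiteDimensional_L hF _
  have : FiniteDimensional K U₂ := finiteDimensional_L hF _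
  have : FiniteDimensional K U₁' := finiteDimensional_L hF _
  have : FiniteDimensional K U₂' := finiteDimensional_L hF _
  have hred := ma_red_mem hF hFt R x hx hdeg r hr0 u hu D hD
  -- `V(U_i) = L(..)`
  have key : ∀ a b : ℕ, a + b = n →
      redSpace R hres (riemannRochSpace (maE K xF a b + D)) = riemannRochSpace (maE k xb a b) := by
    intro a b hab
    have : FiniteDimensional K (riemannRochSpace (maE K xF a b + D)) := finiteDimensional_L hF _
    have : FiniteDimensional k (riemannRochSpace (maE k xb a b)) := finiteDimensional_L hFt _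
    apply Submodule.eq_of_le_of_finrank_le
    · rintro _ ⟨s, hs, rfl⟩
      exact hred a b s hs
    · rw [finrank_redSpace]
      have h1 := hlow (maE K xF a b + D)
      rw [map_add, hdegD, maE_degree hF hxK] at h1
      have h2 := hc (maE k xb a b) (by
        rw [maE_degree hFt hx]
        have : ((a : ℤ) + b) = n := by exact_mod_cast hab
        rw [this]; exact hcn)
      rw [maE_degree hFt hx] at h2
      have h3 : (FFLib.ell (maE k xb a b) : ℤ) ≤ (FFLib.ell (maE K xF a b + D) : ℤ) := by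
        rw [← hdF] at h1
        rw [← hdt] at h2
        rw [hdd] at h1
        omega
      exact_mod_cast h3
  have hV₁ : redSpace R hres U₁ = riemannRochSpace (maE k xb n 0) := key n 0 (by simp)
  have hV₂ : redSpace R hres U₂ = riemannRochSpace (maE k xb 0 n) := key 0 n (by simp)
  by_contra hnp
  -- `U₁ ⊓ U₂ = ⊥`
  have hdisj : U₁ ⊓ U₂ = ⊥ := by
    rw [eq_bot_iff]
    rintro f ⟨h1, h2⟩
    by_contra hf
    apply hnp
    refine ma_isPrincipal_of_mem hF D hdegD hf ?_
    rw [mem_L_iff]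
    intro v
    have h1 := mem_L_iff.1 h1 v
    have h2 := mem_L_iff.1 h2 v
    rw [Finsupp.add_apply, maE_apply hF] at h1 h2
    rcases le_total 0 (v.ord xF) with ho | ho
    · rw [max_eq_right (by omega : -v.ord xF ≤ 0)] at h1
      simpa using h1
    · rw [max_eq_right ho] at h2
      simpa using h2
  obtain ⟨s₁, s₂, w, π, hs₁, hs₂, hrs₁, hrs₂, hπ0, hπ, hsw, hw⟩ :=
    exists_gap R hres U₁ U₂ hdisj (by rw [hV₁]; exact ma_one_mem hFt _ _ _)
      (by rw [hV₂]; exact ma_one_mem hFt _ _ _) (by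
        rintro a ⟨h1, h2⟩
        rw [SetLike.mem_coe, hV₁] at h1
        rw [SetLike.mem_coe, hV₂] at h2
        exact ma_inf_le hFt xb n n h1 h2)
  have hπK : (π : K) ≠ 0 := fun h => hπ0 (Subtype.ext h)
  -- `w ∈ L(n (x)_∞ + n (x)_0 + D)`
  have hmono₁ : U₁ ≤ riemannRochSpace (maE K xF n n + D) := by
    apply L_mono
    intro v
    rw [Finsupp.add_apply, Finsupp.add_apply, maE_apply hF, maE_apply hF]
    have : (0 : ℤ) ≤ (n : ℤ) * max (v.ord xF) 0 := by positivity
    simp only [Nat.cast_zero, zero_mul, add_zero]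
    omega
  have hmono₂ : U₂ ≤ riemannRochSpace (maE K xF n n + D) := by
    apply L_mono
    intro v
    rw [Finsupp.add_apply, Finsupp.add_apply, maE_apply hF, maE_apply hF]
    have : (0 : ℤ) ≤ (n : ℤ) * max (-v.ord xF) 0 := by positivity
    simp only [Nat.cast_zero, zero_mul, zero_add]
    omega
  have hswF : ((s₁ : R.O) : F) - s₂ = (π : K) • ((w : R.O) : F) := by
    have := congrArg (fun z : R.O => (z : F)) hsw
    simpa [Algebra.smul_def] using this
  have hw3 : ((w : R.O) : F) ∈ riemannRochSpace (maE K xF n n + D) := by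
    rw [← Submodule.smul_mem_iff _ hπK, ← hswF]
    exact Submodule.sub_mem _ (hmono₁ hs₁) (hmono₂ hs₂)
  have hrw : R.red w ∈ riemannRochSpace (maE k xb n n) := hred n n w hw3
  -- the `r`-th powers
  set G : R.O := ∑ i ∈ Finset.range r, s₁ ^ i * s₂ ^ (r - 1 - i) with hG
  set w' : R.O := w * u * G with hw'
  have hrG : R.red G = (r : Ft) := by
    rw [hG, map_sum]
    simp [hrs₁, hrs₂]
  have hrw' : R.red w' = (r : k) • R.red w := by
    rw [hw', map_mul, map_mul, hu, hrG, mul_one, Algebra.smul_def, map_natCast, mul_comm]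
  have ht : (s₁ ^ r * u - s₂ ^ r * u : R.O) = R.const π * w' := by
    have := geom_sum₂_mul s₁ s₂ r
    rw [← sub_mul, ← this, hsw, hw', ← hG]
    ring
  have htF : ((s₁ : R.O) : F) ^ r * u - (s₂ : F) ^ r * u = (π : K) • ((w' : R.O) : F) := by
    have := congrArg (fun z : R.O => (z : F)) ht
    simpa [Algebra.smul_def] using this
  have ht₁ : ((s₁ : R.O) : F) ^ r * u ∈ U₁' := ma_pow_mul_mem hF xF (u : F) r hr0 D hD n 0 hs₁
  have ht₂ : ((s₂ : R.O) : F) ^ r * u ∈ U₂' := ma_pow_mul_mem hF xF (u : F) r hr0 D hD 0 n hs₂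
  have hw'mem : ((w' : R.O) : F) ∈ U₁' ⊔ U₂' := by
    rw [← Submodule.smul_mem_iff _ hπK, ← htF]
    exact Submodule.sub_mem _ (Submodule.mem_sup_left ht₁) (Submodule.mem_sup_right ht₂)
  have hV₁' : redSpace R hres U₁' ≤ riemannRochSpace (maE k xb (r * n) (r * 0)) := by
    rintro _ ⟨s, hs, rfl⟩
    exact red_mem_L_pole_zero hF hFt R x hx hdeg (r * n) (r * 0) s hs
  have hV₂' : redSpace R hres U₂' ≤ riemannRochSpace (maE k xb (r * 0) (r * n)) := by
    rintro _ ⟨s, hs, rfl⟩
    exact red_mem_L_pole_zero hF hFt R x hx hdeg (r * 0) (r * n) s hs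
  have hsup := redSpace_sup_of_one_mem R hres U₁' U₂' (ma_one_mem hF _ _ _) (ma_one_mem hF _ _ _)
    (by
      rintro a ⟨h1, h2⟩
      have h1 := hV₁' h1
      have h2 := hV₂' h2
      rw [mul_zero] at h1 h2
      exact ma_inf_le hFt xb _ _ h1 h2)
  have hmem : R.red w' ∈ redSpace R hres U₁' ⊔ redSpace R hres U₂' := by
    rw [← hsup]
    exact red_mem_redSpace hres hw'mem
  obtain ⟨y₁, hy₁, y₂, hy₂, hy⟩ := Submodule.mem_sup.1 hmem
  have hy₁ := hV₁' hy₁
  have hy₂ := hV₂' hy₂
  rw [mul_zero] at hy₁ hy₂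
  have hy12 : y₁ + y₂ ∈ riemannRochSpace (maE k xb n n) := by
    rw [hy, hrw']
    exact Submodule.smul_mem _ _ hrw
  obtain ⟨hz₁, hz₂⟩ := ma_split hFt xb n (r * n) hy₁ hy₂ hy12
  apply hw
  rw [hV₁, hV₂]
  have : R.red w = (r : k)⁻¹ • (y₁ + y₂) := by
    rw [hy, hrw', smul_smul, inv_mul_cancel₀ hr, one_smul]
  rw [this]
  exact Submodule.smul_mem _ _ (Submodule.add_mem _ (Submodule.mem_sup_left hz₁)
    (Submodule.mem_sup_right hz₂))

theorem good_reduction_torsion {K k F Ft : Type*} [Field K] [Field k] [Field F] [Algebra K F]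
    [Field Ft] [Algebra k Ft] [IsAlgClosed K] [IsAlgClosed k]
    (hF : IsFF K F) (hFt : IsFF k Ft)
    (A : ValuationSubring K) (resK : A →+* k) (hres : Function.Surjective resK)
    (R : RedData A resK F Ft) (g : ℤ)
    (hlow : ∀ E : Divisor K F, Divisor.degree E + 1 - g ≤ ell E)
    (hup : ∀ c : ℤ, ∃ E : Divisor k Ft, c ≤ Divisor.degree E ∧ ell E ≤ Divisor.degree E + 1 - g)
    (r : ℕ) (hr : (r : k) ≠ 0) (u : R.O) (hu : R.red u = 1)
    (D : Divisor K F) (hD : ∀ v : Place K F, v.ord ((u : R.O) : F) = r * D v) :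
    Divisor.IsPrincipal D := by
  have hlow' : ∀ E : Divisor K F, Divisor.degree E + 1 - g ≤ (FFLib.ell E : ℤ) := fun E => by
    rw [← ell_eq_ell]; exact hlow E
  have hup' : ∀ c : ℤ, ∃ E : Divisor k Ft, c ≤ Divisor.degree E ∧
      (FFLib.ell E : ℤ) ≤ Divisor.degree E + 1 - g := fun c => by
    obtain ⟨E, h1, h2⟩ := hup c
    exact ⟨E, h1, by rw [← ell_eq_ell]; exact h2⟩
  obtain ⟨x, hx, hdeg⟩ := exists_good_x hF hFt hres R g hlow' hup'
  exact good_reduction_torsion_of_x hF hFt hres R g hlow' hup' x hx hdeg r hr u hu D hD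

end Fermat.Agent.S18Lib
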