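import Fermat.Agent.S18.CGauss
import Fermat.Agent.S18.ThetaApi
import Fermat.Agent.S18.RedSpace
import Fermat.Agent.S18.RiemannLower
import Fermat.Agent.S28.Relation
import Fermat.Agent.S24.Fibres
import Fermat.Agent.S20.Serre

/-!
# S18 library, block (C1), leaf (HB): `H`, `j`, `j(q^d)` lie in the function field over `ℚ̄`
-/

set_option autoImplicit false
set_option synthInstance.maxHeartbeats 400000

open AlgebraicCurve ModularCurve CongruenceSubgroup UpperHalfPlane
open scoped Polynomial IntermediateField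

namespace Fermat.Agent.S18Lib

open Fermat.Agent.S24Lib Fermat.Agent.S28Lib Fermat.Agent.S28Lib.RelationAux Fermat.Agent.FFLib
open Fermat.Agent.S20Lib

theorem HB_map_map_int (s : PowerSeries ℤ) {R S : Type*} [CommRing R] [CommRing S] (f : R →+* S) :
    (s.map (Int.castRingHom R)).map f = s.map (Int.castRingHom S) := by
  ext n
  simp only [PowerSeries.coeff_map]
  simp

theorem HH_mem_FB (M : ℕ) [NeZero M] : HH M Qb ∈ FB M := by
  have hM : ((Mn M : ℕ) : ℤ) = MM M := Int.toNat_of_nonneg (MM_pos M).le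
  have hmf : IsMF (Gamma0 M) (12 * ((Mn M : ℕ) : ℤ)) (h0f M) := by rw [hM]; exact isMF_h0f M
  have hs : qExpansion 1 hmf.toModularForm =
      ((PowerSeries.X ^ (ZZ M).toNat * (wU M : PowerSeries ℤ)).map (Int.castRingHom ℚ)).map
        (algebraMap ℚ ℂ) := by
    rw [HB_map_map_int, IsMF.coe_toModularForm]
    exact qExpansion_h0f M
  have hRep := bl_W7_Rep M (Mn M) hmf.toModularForm _ hs
  have hmem := mem_FB_of_Rep M _ _ hRep
  have e : blX (Mn M) ((PowerSeries.X ^ (ZZ M).toNat * (wU M : PowerSeries ℤ)).map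
      (Int.castRingHom ℚ)) = HH M Qb := by
    rw [blX, div_eq_iff (pow_ne_zero _ bl_DK_ne_zero), HB_map_map_int]
    exact (HH_mul_DL_pow Qb M (ZZ_nonneg M) (MM_pos M).le).symm
  rwa [e] at hmem

theorem HB_coeffEmb_jq : coeffEmb Qb jq = jqModC Qb := coeffMap_jqModC (R := ℚ) (algebraMap ℚ Qb)

theorem jqModC_mem_FB (M : ℕ) [NeZero M] : jqModC Qb ∈ FB M := by
  have h := (jBar M).2
  rwa [W7_coe_jBar, W7_jE_eq, HB_coeffEmb_jq] at h

theorem qExpand_jqModC_mem_FB (M : ℕ) [NeZero M] (d : ℕ) [NeZero d] (hd : d ∣ M) :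
    qExpand Qb d (jqModC Qb) ∈ FB M := by
  have h := (jBarD M d hd).2
  have e : ((jBarD M d hd : FB M) : LaurentSeries Qb) = qExpand Qb d (jqModC Qb) := by
    show coeffEmb Qb (qExpand ℚ d jq) = _
    rw [← HB_coeffEmb_jq]
    ext k
    by_cases hk : (d : ℤ) ∣ k
    · obtain ⟨m, rfl⟩ := hk
      rw [coeffEmb_coeff, qExpand_coeff_mul, qExpand_coeff_mul, coeffEmb_coeff]
    · rw [coeffEmb_coeff, qExpand_coeff_of_not_dvd _ _ hk, qExpand_coeff_of_not_dvd _ _ hk,
        map_zero]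
  rwa [e] at h

end Fermat.Agent.S18Lib
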