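import Fermat.Agent.S18.HauptDefs
import Fermat.Agent.S18.UDefs
import Fermat.Agent.S18.RiemannLower

/-!
# S18 block (C2b), leaf (UH): Hauptmodul data from the two Sturm identities
-/

set_option autoImplicit false
set_option synthInstance.maxHeartbeats 400000

open UpperHalfPlane ModularForm Matrix.SpecialLinearGroup CongruenceSubgroup ModularCurve
open AlgebraicCurve IntermediateField
open scoped MatrixGroups Manifold Polynomial
open Fermat.Agent.S20Lib Fermat.Agent.S28Lib Fermat.Agent.S24Lib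

namespace Fermat.Agent.S18Lib

noncomputable section

/-! ## the ring homomorphism `ℤ⟦q⟧ → ℚ̄((q))` -/

/-- `ℤ⟦q⟧ → ℚ̄((q))` -/
def hk : PowerSeries ℤ →+* LaurentSeries Qb :=
  (HahnSeries.ofPowerSeries ℤ Qb).comp (PowerSeries.map (Int.castRingHom Qb))

theorem hk_apply (s : PowerSeries ℤ) :
    hk s = HahnSeries.ofPowerSeries ℤ Qb (s.map (Int.castRingHom Qb)) := rfl

theorem hk_coeff (s : PowerSeries ℤ) (n : ℕ) : (hk s).coeff (n : ℤ) = ((s.coeff n : ℤ) : Qb) := by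
  rw [hk_apply, HahnSeries.ofPowerSeries_apply_coeff, PowerSeries.coeff_map]
  rfl

theorem hk_injective : Function.Injective hk := by
  intro a b h
  ext n
  have := congrArg (fun z => HahnSeries.coeff z (n : ℤ)) h
  simp only [hk_coeff] at this
  exact_mod_cast this

theorem hk_ne_zero {s : PowerSeries ℤ} (n : ℕ) (h : s.coeff n ≠ 0) : hk s ≠ 0 := by
  intro h0
  apply h
  have := congrArg (fun z => HahnSeries.coeff z (n : ℤ)) h0
  simp only [hk_coeff, HahnSeries.coeff_zero] at this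
  exact_mod_cast this

theorem hk_DK : hk (PowerSeries.X * dedekindEtaUnit) = W7_DK := rfl

theorem hk_eq_coeffMap (s : PowerSeries ℤ) :
    coeffMap (Int.castRingHom Qb) (HahnSeries.ofPowerSeries ℤ ℤ s) = hk s :=
  ModularCurve.coeffMap_ofPowerSeries _ _

theorem hk_map_rat (s : PowerSeries ℤ) :
    HahnSeries.ofPowerSeries ℤ Qb ((s.map (Int.castRingHom ℚ)).map (algebraMap ℚ Qb)) = hk s := by
  rw [hk_apply]
  congr 1

theorem hk_X : hk PowerSeries.X = HahnSeries.single (1 : ℤ) 1 := by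
  rw [hk_apply, PowerSeries.map_X, HahnSeries.ofPowerSeries_X]

theorem hk_jE : W7_jE * W7_DK = hk eisenstein4 ^ 3 := by
  have h1 : W7_jE = HahnSeries.single (-1 : ℤ) 1 * hk jNum := by
    rw [W7_jE_eq, jq, coeffEmb, map_mul, coeffMap_single, map_one,
      ModularCurve.coeffMap_ofPowerSeries, jNumQ, hk_map_rat]
  rw [h1, ← hk_DK, map_mul, hk_X, ← map_pow]
  have h2 : jNum * dedekindEtaUnit = eisenstein4 ^ 3 := by
    rw [jNum, mul_assoc, mul_comm dedekindEtaUnitInv, dedekindEtaUnit_mul_inv, mul_one]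
  rw [← h2, map_mul]
  have h3 : HahnSeries.single (-1 : ℤ) (1 : Qb) * HahnSeries.single (1 : ℤ) 1 = 1 := by
    rw [HahnSeries.single_mul_single]
    simp
  calc HahnSeries.single (-1 : ℤ) 1 * hk jNum * (HahnSeries.single (1 : ℤ) 1 * hk dedekindEtaUnit)
      = (HahnSeries.single (-1 : ℤ) (1 : Qb) * HahnSeries.single (1 : ℤ) 1) *
          (hk jNum * hk dedekindEtaUnit) := by ring
    _ = _ := by rw [h3, one_mul]

/-! ## `IsQ` supplements -/

theorem hq_Gamma0_le {p M : ℕ} (h : p ∣ M) : Gamma0 M ≤ Gamma0 p := by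
  intro g hg
  rw [CongruenceSubgroup.Gamma0_mem, ZMod.intCast_zmod_eq_zero_iff_dvd] at hg ⊢
  exact (Int.natCast_dvd_natCast.mpr h).trans hg

theorem hq_of_dvd {p M : ℕ} [NeZero p] [NeZero M] (h : p ∣ M) {k : ℕ} {s : PowerSeries ℚ}
    (hs : IsQ p k s) : IsQ M k s := by
  obtain ⟨f, hf, e⟩ := hs
  exact ⟨f, hf.mono (hq_Gamma0_le h), e⟩

theorem hq_pow {M : ℕ} [NeZero M] {k : ℕ} {s : PowerSeries ℚ} (hs : IsQ M k s) (n : ℕ) :
    IsQ M (n * k) (s ^ n) := by
  induction n with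
  | zero => simpa using isQ_one M
  | succ m ih =>
    rw [pow_succ, Nat.succ_mul]
    exact ih.mul hs

theorem hq_E4 (M : ℕ) [NeZero M] : IsQ M 4 (eisenstein4.map (Int.castRingHom ℚ)) := by
  have := isQ_E4 M (one_dvd M) one_ne_zero
  rwa [PowerSeries.expand_one_apply] at this

/-! ## representation by modular forms, coefficients in `ℚ̄` -/

theorem hr_rep (M : ℕ) [NeZero M] (n : ℕ) (F : ℍ → ℂ) (hF : IsMF (Gamma0 M) (12 * (n : ℤ)) F)
    (φ : PowerSeries Qb) (hφ : qExpansion 1 F = φ.map iotaC) :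
    W7_Rep M n (HahnSeries.ofPowerSeries ℤ Qb φ / W7_DK ^ n) := by
  have hne : ∀ τ, (Dl ^ n) τ ≠ 0 := fun τ => pow_ne_zero _ (Dl_ne_zero τ)
  have hgf : (F / Dl ^ n) * Dl ^ n = F := by
    ext τ
    simp only [Pi.div_apply, Pi.mul_apply]
    rw [div_mul_cancel₀ _ (hne τ)]
  have hmf : IsMF (Gamma0 M) (12 * (n : ℤ)) ((F / Dl ^ n) * Dl ^ n) := by
    rw [hgf]; exact hF
  have hwh := bl_isWH hmf
  refine ⟨F / Dl ^ n, hwh, ?_, hmf⟩
  have hb : IsBoundedAtImInfty ((F / Dl ^ n) * Dl ^ n) := by simpa using hmf.bdd 1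
  have h1 := laurentFun_mul_pow one_pos hwh.isMerInf_one hb
  rw [hgf, Nat.cast_one, hφ, ← W7_coeffMap_ofPowerSeries, ← W7_coeffMap_DK, ← map_pow] at h1
  have hD0 : coeffMap iotaC (W7_DK ^ n) ≠ 0 := by
    rw [Ne, map_eq_zero_iff _ W7_coeffMap_injective]
    exact pow_ne_zero _ bl_DK_ne_zero
  rw [map_div₀, eq_div_iff hD0]
  exact h1

theorem hr_div_mem (M : ℕ) [NeZero M] (n : ℕ) (F G : ℍ → ℂ)
    (hF : IsMF (Gamma0 M) (12 * (n : ℤ)) F) (hG : IsMF (Gamma0 M) (12 * (n : ℤ)) G)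
    (φ ψ : PowerSeries Qb) (hφ : qExpansion 1 F = φ.map iotaC) (hψ : qExpansion 1 G = ψ.map iotaC) :
    HahnSeries.ofPowerSeries ℤ Qb φ / HahnSeries.ofPowerSeries ℤ Qb ψ ∈ FB M := by
  have h1 := mem_FB_of_Rep M n _ (hr_rep M n F hF φ hφ)
  have h2 := mem_FB_of_Rep M n _ (hr_rep M n G hG ψ hψ)
  have h3 := div_mem h1 h2
  rwa [div_div_div_cancel_right₀ (pow_ne_zero _ bl_DK_ne_zero)] at h3

theorem hr_iotaC_map (s : PowerSeries ℚ) :
    (s.map (algebraMap ℚ Qb)).map iotaC = s.map (algebraMap ℚ ℂ) := by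
  ext m
  simp only [PowerSeries.coeff_map]
  exact bl_iotaC_algebraMap _

/-- quotient of two forms of the same weight `12 n` with integral `q`-expansions -/
theorem hr_hk_div_mem (M : ℕ) [NeZero M] (n : ℕ) (a b : PowerSeries ℤ)
    (ha : IsQ M (12 * n) (a.map (Int.castRingHom ℚ)))
    (hb : IsQ M (12 * n) (b.map (Int.castRingHom ℚ))) : hk a / hk b ∈ FB M := by
  obtain ⟨F, hF, eF⟩ := ha
  obtain ⟨G, hG, eG⟩ := hb
  rw [← hk_map_rat a, ← hk_map_rat b]
  refine hr_div_mem M n F G (by simpa using hF) (by simpa using hG) _ _ ?_ ?_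
  · rw [eF, hr_iotaC_map]
  · rw [eG, hr_iotaC_map]

/-! ## the integral Hauptmodul -/

/-- `G_p / q` -/
def hgU (p : ℕ) : PowerSeries ℤ := PowerSeries.mk fun n => (hgZ p).coeff (n + 1)

theorem hgZ_coeff_zero (p : ℕ) : (hgZ p).coeff 0 = 0 := by
  simp [hgZ]

theorem hgZ_coeff_one {p : ℕ} (hp : 2 ≤ p) : (hgZ p).coeff 1 = 1 := by
  have : ¬ p ∣ 1 := by
    intro h
    have := Nat.le_of_dvd one_pos h
    omega
  simp [hgZ, this]

theorem hgZ_eq_X_mul (p : ℕ) : hgZ p = PowerSeries.X * hgU p := by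
  ext n
  cases n with
  | zero => simp [hgZ_coeff_zero]
  | succ m => rw [PowerSeries.coeff_succ_X_mul, hgU, PowerSeries.coeff_mk]

theorem constantCoeff_hgU {p : ℕ} (hp : 2 ≤ p) : PowerSeries.constantCoeff (hgU p) = 1 := by
  rw [← PowerSeries.coeff_zero_eq_constantCoeff_apply, hgU, PowerSeries.coeff_mk]
  exact hgZ_coeff_one hp

/-- the Hauptmodul `t = E₄ / G_p - c₂` as a Laurent series over `ℤ` -/
def htZ (p c₂ : ℕ) : LaurentSeries ℤ :=
  HahnSeries.single (-1 : ℤ) 1 * HahnSeries.ofPowerSeries ℤ ℤ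
    ((eisenstein4 - (c₂ : PowerSeries ℤ) * hgZ p) * (hgU p).invOfUnit 1)

theorem htZ_mul {p : ℕ} (hp : 2 ≤ p) (c₂ : ℕ) :
    htZ p c₂ * HahnSeries.ofPowerSeries ℤ ℤ (hgZ p) =
      HahnSeries.ofPowerSeries ℤ ℤ (eisenstein4 - (c₂ : PowerSeries ℤ) * hgZ p) := by
  have h1 : hgU p * (hgU p).invOfUnit 1 = 1 :=
    PowerSeries.mul_invOfUnit _ _ (by rw [constantCoeff_hgU hp]; rfl)
  have h3 : HahnSeries.single (-1 : ℤ) (1 : ℤ) * HahnSeries.single (1 : ℤ) 1 = 1 := by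
    rw [HahnSeries.single_mul_single]
    simp
  set w := eisenstein4 - (c₂ : PowerSeries ℤ) * hgZ p with hw
  rw [htZ, ← hw]
  conv_lhs => rw [hgZ_eq_X_mul p]
  rw [map_mul, map_mul, HahnSeries.ofPowerSeries_X]
  calc HahnSeries.single (-1 : ℤ) 1 * (HahnSeries.ofPowerSeries ℤ ℤ w *
        HahnSeries.ofPowerSeries ℤ ℤ ((hgU p).invOfUnit 1)) *
        (HahnSeries.single (1 : ℤ) 1 * HahnSeries.ofPowerSeries ℤ ℤ (hgU p))
      = (HahnSeries.single (-1 : ℤ) (1 : ℤ) * HahnSeries.single (1 : ℤ) 1) *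
          (HahnSeries.ofPowerSeries ℤ ℤ w * HahnSeries.ofPowerSeries ℤ ℤ
            (hgU p * (hgU p).invOfUnit 1)) := by rw [map_mul]; ring
    _ = _ := by rw [h3, h1, map_one, one_mul, mul_one]

theorem htZ_coeff {p : ℕ} (hp : 2 ≤ p) (c₂ : ℕ) : (htZ p c₂).coeff (-1) = 1 := by
  have h1 : hgU p * (hgU p).invOfUnit 1 = 1 :=
    PowerSeries.mul_invOfUnit _ _ (by rw [constantCoeff_hgU hp]; rfl)
  have h2 : PowerSeries.constantCoeff ((hgU p).invOfUnit 1) = 1 := by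
    have h := congrArg (PowerSeries.constantCoeff (R := ℤ)) h1
    rwa [map_mul, constantCoeff_hgU hp, one_mul, map_one] at h
  rw [htZ, HahnSeries.coeff_single_mul, one_mul, sub_neg_eq_add, neg_add_cancel,
    show (0 : ℤ) = ((0 : ℕ) : ℤ) from rfl, HahnSeries.ofPowerSeries_apply_coeff,
    PowerSeries.coeff_zero_eq_constantCoeff, map_mul, h2, mul_one, map_sub, map_mul,
    constantCoeff_eisenstein4, ← PowerSeries.coeff_zero_eq_constantCoeff_apply (hgZ p),
    hgZ_coeff_zero, mul_zero, sub_zero]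

/-! ## field algebra -/

theorem ha_rel {L : Type*} [Field L] (e4 g ee dl j t u c0 c2 : L) (s : ℕ) (hs : s ≤ 1)
    (hg : g ≠ 0) (hee : ee ≠ 0)
    (ht : t * g = e4 - c2 * g) (ha : ee ^ 2 = e4 - (c2 - c0) * g)
    (hb : dl * (ee ^ 2) ^ s = g * (e4 - c2 * g) ^ (2 + s))
    (hj : j * dl = e4 ^ 3) (hu : u * (t * ee) = 1) :
    j * t ^ (2 + s) = (t + c0) ^ s * (t + c2) ^ 3 ∧
      u ^ 6 * (t ^ (4 - s) * (t + c0) ^ (3 + s)) * dl = 1 := by
  have he4 : e4 = (t + c2) * g := by linear_combination -ht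
  have hee2 : ee ^ 2 = (t + c0) * g := by linear_combination ha - ht
  have hg3 : g ^ 3 ≠ 0 := pow_ne_zero _ hg
  have hu6 : u ^ 6 * t ^ 6 * (ee ^ 2) ^ 3 = 1 := by
    have : u ^ 6 * t ^ 6 * (ee ^ 2) ^ 3 = (u * (t * ee)) ^ 6 := by ring
    rw [this, hu, one_pow]
  have htc : t + c0 ≠ 0 := by
    intro h
    rw [h, zero_mul] at hee2
    exact hee (pow_eq_zero_iff (two_ne_zero) |>.mp hee2)
  rw [← ht, hee2] at hb
  rw [hee2] at hu6
  rw [he4] at hj
  interval_cases s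
  · have hdl : dl = g ^ 3 * t ^ 2 := by linear_combination hb
    constructor
    · apply mul_left_cancel₀ hg3
      rw [hdl] at hj
      linear_combination hj
    · rw [hdl]
      linear_combination hu6
  · have hdl : dl * (t + c0) = g ^ 3 * t ^ 3 := by
      apply mul_left_cancel₀ hg
      linear_combination hb
    constructor
    · apply mul_left_cancel₀ hg3
      linear_combination (t + c0) * hj - j * hdl
    · have : u ^ 6 * (t ^ (4 - 1) * (t + c0) ^ (3 + 1)) * dl =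
          u ^ 6 * t ^ 3 * (t + c0) ^ 3 * (dl * (t + c0)) := by
        norm_num
        ring
      rw [this, hdl]
      linear_combination hu6

/-! ## assembly -/

theorem haupt_of (M p : ℕ) [NeZero M] [NeZero p] (hpM : p ∣ M) (hp : 2 ≤ p) (s c₀ c₂ : ℕ) (c : ℤ)
    (hs : s ≤ 1) (hc : c₀ ≤ c₂)
    (hQg : IsQ p 4 ((hgZ p).map (Int.castRingHom ℚ)))
    (hQe : IsQ p 2 ((heZ c p).map (Int.castRingHom ℚ)))
    (ha : heZ c p ^ 2 = eisenstein4 - ((c₂ - c₀ : ℕ) : PowerSeries ℤ) * hgZ p)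
    (hb : PowerSeries.X * dedekindEtaUnit * (heZ c p ^ 2) ^ s =
      hgZ p * (eisenstein4 - (c₂ : PowerSeries ℤ) * hgZ p) ^ (2 + s)) :
    Nonempty (HauptData M s c₀ c₂) := by
  set w : PowerSeries ℤ := eisenstein4 - (c₂ : PowerSeries ℤ) * hgZ p with hw
  set T : LaurentSeries Qb := coeffMap (Int.castRingHom Qb) (htZ p c₂) with hT
  have hg0 : hk (hgZ p) ≠ 0 := hk_ne_zero 1 (by rw [hgZ_coeff_one hp]; exact one_ne_zero)
  have hee0 : hk (heZ c p) ≠ 0 := hk_ne_zero 0 (by simp [heZ])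
  have hw0 : hk w ≠ 0 := hk_ne_zero 0 (by
    rw [hw, map_sub, PowerSeries.coeff_zero_eq_constantCoeff_apply,
      PowerSeries.coeff_zero_eq_constantCoeff_apply, map_mul, constantCoeff_eisenstein4,
      ← PowerSeries.coeff_zero_eq_constantCoeff_apply (hgZ p), hgZ_coeff_zero]
    simp)
  have hTg : T * hk (hgZ p) = hk w := by
    have := congrArg (coeffMap (Int.castRingHom Qb)) (htZ_mul hp c₂)
    rwa [map_mul, hk_eq_coeffMap, hk_eq_coeffMap] at this
  have hT0 : T ≠ 0 := by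
    intro h
    rw [h, zero_mul] at hTg
    exact hw0 hTg.symm
  have hQg' : IsQ M 4 ((hgZ p).map (Int.castRingHom ℚ)) := hq_of_dvd hpM hQg
  have hQe' : IsQ M 2 ((heZ c p).map (Int.castRingHom ℚ)) := hq_of_dvd hpM hQe
  have hQw : IsQ M 4 (w.map (Int.castRingHom ℚ)) := by
    have h1 := (hq_E4 M).add (hQg'.smul (-(c₂ : ℚ)))
    have h2 : w.map (Int.castRingHom ℚ) = eisenstein4.map (Int.castRingHom ℚ) +
        (-(c₂ : ℚ)) • (hgZ p).map (Int.castRingHom ℚ) := by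
      rw [hw, map_sub, map_mul, map_natCast, Algebra.smul_def, map_neg, map_natCast, neg_mul,
        sub_eq_add_neg]
    rw [h2]
    exact h1
  have hTmem : T ∈ FB M := by
    have h1 : T = hk (w * eisenstein4 ^ 2) / hk (hgZ p * eisenstein4 ^ 2) := by
      have he : hk (eisenstein4 ^ 2) ≠ 0 := by
        rw [map_pow]
        exact pow_ne_zero _ (hk_ne_zero 0 (by
          rw [PowerSeries.coeff_zero_eq_constantCoeff_apply, constantCoeff_eisenstein4]
          exact one_ne_zero))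
      rw [map_mul, map_mul, mul_div_mul_right _ _ he, eq_div_iff hg0, hTg]
    rw [h1]
    refine hr_hk_div_mem M 1 _ _ ?_ ?_
    · rw [map_mul, map_pow]
      exact hQw.mul (hq_pow (hq_E4 M) 2)
    · rw [map_mul, map_pow]
      exact hQg'.mul (hq_pow (hq_E4 M) 2)
  have hrel := ha_rel (hk eisenstein4) (hk (hgZ p)) (hk (heZ c p)) W7_DK W7_jE T
    (T * hk (heZ c p))⁻¹ (c₀ : LaurentSeries Qb) (c₂ : LaurentSeries Qb) s hs hg0 hee0
    (by rw [hTg, hw, map_sub, map_mul, map_natCast])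
    (by
      have := congrArg hk ha
      rw [map_pow, map_sub, map_mul, map_natCast, Nat.cast_sub hc] at this
      exact this)
    (by
      have := congrArg hk hb
      rw [map_mul, hk_DK, map_pow, map_pow, map_mul, map_pow, map_sub, map_mul, map_natCast] at this
      exact this)
    hk_jE (inv_mul_cancel₀ (mul_ne_zero hT0 hee0))
  refine ⟨{ tZ := htZ p c₂
            u := (T * hk (heZ c p))⁻¹
            coeff_neg_one := htZ_coeff hp c₂
            u_ne := inv_ne_zero (mul_ne_zero hT0 hee0)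
            t_mem := hTmem
            rel_j := hrel.1
            rel_u := hrel.2
            mem := ?_ }⟩
  intro f φ hφ
  obtain ⟨H, hH, eH⟩ := hq_pow hQe' 5
  obtain ⟨G, hG, eG⟩ := hq_pow hQe' 6
  have hf : IsMF (Gamma0 M) 2 f := (isCF_coe _ f).isMF
  have hfH : IsMF (Gamma0 M) (12 * ((1 : ℕ) : ℤ)) ((f : ℍ → ℂ) * H) := hf.mul' hH (by norm_num)
  have h1 := hr_div_mem M 1 ((f : ℍ → ℂ) * H) G hfH (by simpa using hG)
    (φ * (((heZ c p).map (Int.castRingHom ℚ)) ^ 5).map (algebraMap ℚ Qb))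
    ((((heZ c p).map (Int.castRingHom ℚ)) ^ 6).map (algebraMap ℚ Qb))
    (by rw [qExpansion_mul (IsQAux.analytic hf) (IsQAux.analytic hH), hφ, eH, map_mul,
      hr_iotaC_map])
    (by rw [eG, hr_iotaC_map])
  rw [map_mul, map_pow, map_pow, map_pow, map_pow, hk_map_rat] at h1
  have h2 : HahnSeries.ofPowerSeries ℤ Qb φ * (T * hk (heZ c p))⁻¹ =
      HahnSeries.ofPowerSeries ℤ Qb φ * hk (heZ c p) ^ 5 / hk (heZ c p) ^ 6 / T := by
    field_simp
  rw [h2]
  exact div_mem h1 hTmem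

end

end Fermat.Agent.S18Lib
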