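import Fermat.Agent.S18.Bridge
import Fermat.Agent.S24.Fibres
import Fermat.Agent.S24.RiemannHurwitz
import Fermat.Agent.S20.Cosets
import Fermat.Prelude.Def_AlgebraicCurve_DivisorPushPull

/-!
# S18 (D2): the auxiliary level
-/

set_option autoImplicit false
set_option synthInstance.maxHeartbeats 400000

open AlgebraicCurve ModularCurve CongruenceSubgroup

namespace Fermat.Agent.S18Lib

open Fermat.Agent.S24Lib

open IntermediateField in
/-- degrees in a tower `K(x) ⊆ F₁ ⊆ F₂` -/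
theorem D2_tower {K F₁ F₂ : Type*} [Field K] [Field F₁] [Field F₂] [Algebra K F₁] [Algebra K F₂]
    [Algebra F₁ F₂] [IsScalarTower K F₁ F₂] (x : F₁) :
    Module.finrank K⟮algebraMap F₁ F₂ x⟯ F₂ =
      Module.finrank K⟮x⟯ F₁ * Module.finrank F₁ F₂ := by
  rw [Module.finrank_mul_finrank K⟮x⟯ F₁ F₂]
  have hmap : (K⟮x⟯).map (IsScalarTower.toAlgHom K F₁ F₂) = K⟮algebraMap F₁ F₂ x⟯ := by
    rw [IntermediateField.adjoin_map, Set.image_singleton]
    rfl
  rw [← hmap]
  symm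
  exact Algebra.finrank_eq_of_equiv_equiv
    (IntermediateField.equivMap K⟮x⟯ (IsScalarTower.toAlgHom K F₁ F₂)).toRingEquiv
    (RingEquiv.refl F₂) (by ext; rfl)

theorem FB_le_of_dvd {N M : ℕ} [NeZero N] [NeZero M] (h : N ∣ M) : FB N ≤ FB M := by
  show laurentBaseChange Qb (modularFunctionFieldFull N) ≤
    laurentBaseChange Qb (modularFunctionFieldFull M)
  rw [laurentBaseChange, IntermediateField.adjoin_le_iff]
  rintro _ ⟨y, hy, rfl⟩
  exact coeffEmb_mem_laurentBaseChange Qb (full_degeneracy_le h hy)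

theorem D2_degree {N M : ℕ} [NeZero N] [NeZero M] (hNM : FB N ≤ FB M) :
    letI := (IntermediateField.inclusion hNM).toRingHom.toAlgebra
    (Gamma0 M).index = (Gamma0 N).index * Module.finrank (FB N) (FB M) := by
  letI := (IntermediateField.inclusion hNM).toRingHom.toAlgebra
  haveI : IsScalarTower Qb (FB N) (FB M) :=
    IsScalarTower.of_algebraMap_eq fun a => ((IntermediateField.inclusion hNM).commutes a).symm
  have h := D2_tower (K := Qb) (F₁ := FB N) (F₂ := FB M) (jBar N)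
  have hj : algebraMap (FB N) (FB M) (jBar N) = jBar M := Subtype.ext rfl
  rw [hj] at h
  rw [← finrank_eq_index M, ← finrank_eq_index N]
  exact h

theorem D2_index_ne_zero (N : ℕ) [NeZero N] : (Gamma0 N).index ≠ 0 := by
  rw [← finrank_eq_index N]
  have := (finrank_le_index N).1
  exact Module.finrank_pos.ne'

theorem D2_finish {N M : ℕ} [NeZero N] [NeZero M] (hNM : FB N ≤ FB M) (d r : ℕ) (hd0 : 0 < d)
    (h : (Gamma0 M).index = (Gamma0 N).index * d) (hr : ¬ r ∣ d) :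
    letI := (IntermediateField.inclusion hNM).toRingHom.toAlgebra
    FiniteDimensional (FB N) (FB M) ∧ ¬ r ∣ Module.finrank (FB N) (FB M) := by
  letI := (IntermediateField.inclusion hNM).toRingHom.toAlgebra
  have hd := D2_degree hNM
  have h1 : Module.finrank (FB N) (FB M) = d := by
    rw [h] at hd
    exact (Nat.eq_of_mul_eq_mul_left (Nat.pos_of_ne_zero (D2_index_ne_zero N)) hd).symm
  refine ⟨Module.finite_of_finrank_pos (by rw [h1]; exact hd0), ?_⟩
  rw [h1]
  exact hr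

theorem exists_level (N : ℕ) [NeZero N] (ℓ r : ℕ) (hℓ : ℓ.Prime) (hr : r.Prime) (hne : r ≠ ℓ)
    (hℓN : ¬ ℓ ∣ N) :
    ∃ (M : ℕ) (_ : NeZero M) (hNM : FB N ≤ FB M), ¬ ℓ ∣ M ∧ (2 ∣ M ∨ 3 ∣ M) ∧
      letI := (IntermediateField.inclusion hNM).toRingHom.toAlgebra
      FiniteDimensional (FB N) (FB M) ∧ ¬ r ∣ Module.finrank (FB N) (FB M) := by
  have hN0 : N ≠ 0 := NeZero.ne N
  obtain ⟨p, hp, hpℓ, hrp, hp23⟩ : ∃ p : ℕ, p.Prime ∧ p ≠ ℓ ∧ ¬ r ∣ p + 1 ∧ (p = 2 ∨ p = 3) := by
    by_cases h : ℓ ≠ 2 ∧ r ≠ 3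
    · refine ⟨2, Nat.prime_two, h.1.symm, ?_, Or.inl rfl⟩
      intro hd
      exact h.2 ((Nat.prime_dvd_prime_iff_eq hr Nat.prime_three).mp hd)
    · refine ⟨3, Nat.prime_three, ?_, ?_, Or.inr rfl⟩
      · rintro rfl
        apply h
        refine ⟨by norm_num, hne⟩
      · intro hd
        have h4 : r ∣ 2 ^ 2 := by simpa using hd
        have h2 : r = 2 := (Nat.prime_dvd_prime_iff_eq hr Nat.prime_two).mp (hr.dvd_of_dvd_pow h4)
        apply h
        subst h2
        exact ⟨fun h' => hne h'.symm, by norm_num⟩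
  by_cases hpN : p ∣ N
  · refine ⟨N, inferInstance, le_rfl, hℓN, ?_, ?_⟩
    · rcases hp23 with rfl | rfl
      · exact Or.inl hpN
      · exact Or.inr hpN
    · exact D2_finish le_rfl 1 r one_pos (mul_one _).symm
        (fun h => hr.one_lt.ne' (Nat.dvd_one.mp h))
  · have : NeZero (p * N) := ⟨Nat.mul_ne_zero hp.ne_zero hN0⟩
    have hle : FB N ≤ FB (p * N) := FB_le_of_dvd (dvd_mul_left N p)
    refine ⟨p * N, inferInstance, hle, ?_, ?_, ?_⟩
    · intro h
      rcases (Nat.Prime.dvd_mul hℓ).mp h with h | h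
      · exact hpℓ ((Nat.prime_dvd_prime_iff_eq hℓ hp).mp h).symm
      · exact hℓN h
    · rcases hp23 with rfl | rfl
      · exact Or.inl (dvd_mul_right _ _)
      · exact Or.inr (dvd_mul_right _ _)
    · refine D2_finish hle (p + 1) r (Nat.succ_pos _) ?_ hrp
      rw [Fermat.Agent.S20Lib.index_Gamma0 (p * N),
        Fermat.Agent.S20Lib.dedekindPsi_mul_of_not_dvd hN0 hp hpN,
        ← Fermat.Agent.S20Lib.index_Gamma0 N, mul_comm]

end Fermat.Agent.S18Lib
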