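import Fermat.Agent.S18.GoodReduction
import Fermat.Agent.S18.RiemannLower
import Fermat.Agent.S18.RiemannUpper
import Fermat.Agent.S18.RedDataC
import Fermat.Agent.S18.FiniteFT
import Fermat.Agent.S18.ResField
import Fermat.Agent.S18.PowDescent
import Fermat.Agent.S18.Level
import Fermat.Agent.S18.Transfer

/-!
# S18 library, (D4): the Kummer lemma KL, prime exponent
-/

set_option autoImplicit false
set_option synthInstance.maxHeartbeats 400000

open AlgebraicCurve ModularCurve CongruenceSubgroup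

namespace Fermat.Agent.S18Lib

open Fermat.Agent.S24Lib

theorem kl_natCast_kk_ne_zero {ℓ : ℕ} (hℓ : ℓ.Prime) (A : ValuationSubring Qb)
    (hA : A.LiesOverPrime ℓ) (m : ℕ) (hm : ¬ ℓ ∣ m) : (m : kk A) ≠ 0 := by
  intro h0
  have hℓ0 : (ℓ : kk A) = 0 := by
    obtain ⟨ha, hmem⟩ := ValuationSubring.mem_nonunits_iff_exists_mem_maximalIdeal.mp hA
    have h1 : (⟨(ℓ : Qb), ha⟩ : A) = (ℓ : A) := Subtype.ext (by simp)
    rw [h1] at hmem
    have := (IsLocalRing.residue_eq_zero_iff _).mpr hmem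
    rwa [map_natCast] at this
  have hcop : Nat.Coprime ℓ m := (Nat.Prime.coprime_iff_not_dvd hℓ).mpr hm
  have hb := Nat.gcd_eq_gcd_ab ℓ m
  rw [hcop.gcd_eq_one] at hb
  have := congrArg (fun z : ℤ => (z : kk A)) hb
  simp only [Nat.cast_one, Int.cast_one, Int.cast_add, Int.cast_mul, Int.cast_natCast, hℓ0, h0,
    zero_mul, add_zero] at this
  exact one_ne_zero this

theorem kummer_lemma_prime (N : ℕ) [NeZero N] {ℓ : ℕ} [Fact ℓ.Prime] (hℓN : ¬ ℓ ∣ N)
    (A : ValuationSubring Qb) (hA : A.LiesOverPrime ℓ) (r : ℕ) (hr : r.Prime) (hrℓ : r ≠ ℓ)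
    (y₁ y₂ : LaurentSeries A) (h₁ : coeffMap A.subtype y₁ ∈ FB N)
    (h₂ : coeffMap A.subtype y₂ ∈ FB N)
    (hne : coeffMap (IsLocalRing.residue A) y₂ ≠ 0)
    (heq : coeffMap (IsLocalRing.residue A) y₁ = coeffMap (IsLocalRing.residue A) y₂)
    (D : Divisor Qb (FB N))
    (hD : ∀ P : Place Qb (FB N), P.ord (⟨coeffMap A.subtype y₁, h₁⟩ : FB N) -
      P.ord (⟨coeffMap A.subtype y₂, h₂⟩ : FB N) = r * D P) :
    ∃ w : FB N, w ^ r * ⟨coeffMap A.subtype y₂, h₂⟩ = ⟨coeffMap A.subtype y₁, h₁⟩ := by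
  obtain ⟨M, hM, hNM, hℓM, hbase, hfd⟩ := exists_level N ℓ r Fact.out hr hrℓ hℓN
  let _ := (IntermediateField.inclusion hNM).toRingHom.toAlgebra
  obtain ⟨hfin, hrd⟩ := hfd
  have : IsScalarTower Qb (FB N) (FB M) := IsScalarTower.of_algebraMap_eq (fun a => rfl)
  obtain ⟨R, hR⟩ := exists_redData M hℓM A hA
  have hz : ∀ y : LaurentSeries A, coeffMap (IsLocalRing.residue A) y ≠ 0 →
      coeffMap A.subtype y ≠ 0 := by
    intro y hy h0
    apply hy
    have : y = 0 := by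
      ext n
      have := congrArg (fun z => z.coeff n) h0
      simpa using this
    rw [this, map_zero]
  have hY₂ : (⟨coeffMap A.subtype y₂, h₂⟩ : FB N) ≠ 0 := fun h => hz y₂ hne (congrArg Subtype.val h)
  have hY₁ : (⟨coeffMap A.subtype y₁, h₁⟩ : FB N) ≠ 0 :=
    fun h => hz y₁ (heq ▸ hne) (congrArg Subtype.val h)
  set Y₁ : FB N := ⟨coeffMap A.subtype y₁, h₁⟩ with hY₁def
  set Y₂ : FB N := ⟨coeffMap A.subtype y₂, h₂⟩ with hY₂def
  have hu : Y₁ * Y₂⁻¹ ≠ 0 := mul_ne_zero hY₁ (inv_ne_zero hY₂)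
  have hDu : ∀ P : Place Qb (FB N), P.ord (Y₁ * Y₂⁻¹) = r * D P := by
    intro P
    rw [P.ord_mul hY₁ (inv_ne_zero hY₂), P.ord_inv, ← hD P]
    ring
  have H : ∀ D₂ : Divisor Qb (FB M), (∀ P' : Place Qb (FB M),
      P'.ord (algebraMap (FB N) (FB M) (Y₁ * Y₂⁻¹)) = r * D₂ P') → Divisor.IsPrincipal D₂ := by
    intro D₂ hD₂
    have hx : algebraMap (FB N) (FB M) (Y₁ * Y₂⁻¹) * ⟨coeffMap A.subtype y₂, hNM h₂⟩
        = ⟨coeffMap A.subtype y₁, hNM h₁⟩ := by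
      have e₂ : (⟨coeffMap A.subtype y₂, hNM h₂⟩ : FB M) = algebraMap (FB N) (FB M) Y₂ := rfl
      have e₁ : (⟨coeffMap A.subtype y₁, hNM h₁⟩ : FB M) = algebraMap (FB N) (FB M) Y₁ := rfl
      rw [e₂, e₁, ← map_mul, mul_assoc, inv_mul_cancel₀ hY₂, mul_one]
    obtain ⟨hmem, hred⟩ := red_of_frac hR _ y₁ y₂ (hNM h₁) (hNM h₂) hne hx
    have hred1 : R.red ⟨_, hmem⟩ = 1 := by
      apply Subtype.ext
      rw [heq] at hred
      have := mul_right_cancel₀ hne (hred.trans (one_mul _).symm)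
      exact this
    have := isAlgClosed_kk A
    exact good_reduction_torsion (isFF_FB M) (isFF_FT A M) A (IsLocalRing.residue A)
      IsLocalRing.residue_surjective R _ (riemann_lower M) (riemann_upper M hℓM hbase A hA) r
      (kl_natCast_kk_ne_zero Fact.out A hA r
        (fun h => hrℓ ((Nat.prime_dvd_prime_iff_eq Fact.out hr).mp h).symm))
      ⟨_, hmem⟩ hred1 D₂ hD₂
  obtain ⟨w, hw⟩ := exists_pow_eq_of_coprime_finrank (isFF_FB M) r hr hrd (Y₁ * Y₂⁻¹) hu D hDu H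
  exact ⟨w, by rw [hw, mul_assoc, inv_mul_cancel₀ hY₂, mul_one]⟩

end Fermat.Agent.S18Lib
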