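import Fermat.Agent.S18.CGauss
import Fermat.Agent.S18.ThetaApi
import Fermat.Agent.S18.RedSpace
import Fermat.Agent.S28.Relation
import Fermat.Agent.S24.Fibres
import Fermat.Agent.S20.Serre

/-!
# S18 C1 (LI): linear algebra of the family `j^a H^i`
-/

set_option autoImplicit false
set_option synthInstance.maxHeartbeats 400000

open AlgebraicCurve ModularCurve CongruenceSubgroup UpperHalfPlane
open scoped Polynomial IntermediateField

namespace Fermat.Agent.S18Lib

open Fermat.Agent.S24Lib Fermat.Agent.S28Lib Fermat.Agent.S28Lib.RelationAux Fermat.Agent.FFLib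

/-- the two-variable polynomial attached to a family of coefficients -/
noncomputable def li_poly (M : ℕ) (κ : Type) [CommRing κ] (w : Fin (idx M) × ℕ →₀ κ) : κ[X][X] :=
  w.sum fun p c => Polynomial.monomial (p.1 : ℕ) (Polynomial.monomial p.2 c)

theorem li_evJ_monomial (κ : Type) [CommRing κ] (a : ℕ) (c : κ) :
    evJ κ (Polynomial.monomial a c) = HahnSeries.C c * jqModC κ ^ a := by
  show Polynomial.aeval (jqModC κ) (Polynomial.monomial a c) = _
  have h1 : algebraMap κ (PowerSeries κ) c = PowerSeries.C c := by simp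
  rw [Polynomial.aeval_monomial, HahnSeries.algebraMap_apply', h1, HahnSeries.ofPowerSeries_C]

theorem li_ev2_poly (M : ℕ) (κ : Type) [CommRing κ] (w : Fin (idx M) × ℕ →₀ κ) :
    ev2 M κ (li_poly M κ w) = lcF M κ w := by
  unfold ev2 li_poly lcF Finsupp.sum
  rw [Polynomial.eval₂_finsetSum]
  refine Finset.sum_congr rfl fun p _ => ?_
  rw [Polynomial.eval₂_monomial, li_evJ_monomial, mul_assoc]
  rfl

theorem li_coeff (M : ℕ) (κ : Type) [CommRing κ] (w : Fin (idx M) × ℕ →₀ κ) (m a : ℕ) :
    ((li_poly M κ w).coeff m).coeff a = if h : m < idx M then w (⟨m, h⟩, a) else 0 := by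
  unfold li_poly Finsupp.sum
  rw [Polynomial.finsetSum_coeff, Polynomial.finsetSum_coeff]
  simp only [Polynomial.coeff_monomial]
  split_ifs with h
  · rw [Finset.sum_eq_single ((⟨m, h⟩ : Fin (idx M)), a)]
    · simp
    · intro p _ hp
      by_cases h1 : (p.1 : ℕ) = m
      · rw [if_pos h1, Polynomial.coeff_monomial, if_neg]
        intro h2
        apply hp
        ext
        · exact h1
        · exact h2
      · rw [if_neg h1, Polynomial.coeff_zero]
    · intro hn
      rw [Finsupp.notMem_support_iff] at hn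
      simp [hn]
  · refine Finset.sum_eq_zero fun p _ => ?_
    rw [if_neg, Polynomial.coeff_zero]
    intro h1
    exact h (h1 ▸ p.1.2)

theorem lcF_eq_zero_iff (M : ℕ) [NeZero M] (κ : Type) [Field κ]
    (h : ∀ p : κ[X][X], p ≠ 0 → ev2 M κ p = 0 → idx M ≤ p.natDegree)
    (w : Fin (idx M) × ℕ →₀ κ) : lcF M κ w = 0 ↔ w = 0 := by
  constructor
  · intro hw
    have hp : li_poly M κ w = 0 := by
      by_contra hp0
      have h1 := h _ hp0 (by rw [li_ev2_poly, hw])
      apply Polynomial.leadingCoeff_ne_zero.2 hp0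
      ext a
      rw [Polynomial.leadingCoeff, li_coeff, dif_neg (not_lt.2 h1), Polynomial.coeff_zero]
    ext ⟨i, a⟩
    have h2 := li_coeff M κ w i a
    rw [hp, dif_pos i.2] at h2
    simpa using h2.symm
  · rintro rfl
    simp [lcF]

theorem evJ_eq_zero_iff (κ : Type) [Field κ] (b : κ[X]) : evJ κ b = 0 ↔ b = 0 := by
  have := KeyLemma.aeval_injective (jqModC κ) (order_jqModC κ)
  constructor
  · intro h
    apply this
    rw [map_zero]
    exact h
  · rintro rfl
    exact map_zero _

theorem coeffMap_lcF (M : ℕ) [NeZero M] {κ κ' : Type} [CommRing κ] [CommRing κ'] (f : κ →+* κ')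
    (w : Fin (idx M) × ℕ →₀ κ) :
    coeffMap f (lcF M κ w) = lcF M κ' (w.mapRange f (map_zero f)) := by
  unfold lcF
  rw [Finsupp.sum_mapRange_index (by intro p; simp), Finsupp.sum, map_sum]
  refine Finset.sum_congr rfl fun p _ => ?_
  rw [map_mul, coeffMap_eF]
  congr 1
  exact coeffMap_single f 0 (w p)

theorem lcF_add (M : ℕ) (κ : Type) [CommRing κ] (w w' : Fin (idx M) × ℕ →₀ κ) :
    lcF M κ (w + w') = lcF M κ w + lcF M κ w' := by
  unfold lcF
  exact Finsupp.sum_add_index' (by intro p; simp) (by intro p c c'; rw [map_add, add_mul])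

theorem lcF_smul (M : ℕ) (κ : Type) [CommRing κ] (c : κ) (w : Fin (idx M) × ℕ →₀ κ) :
    lcF M κ (c • w) = HahnSeries.C c * lcF M κ w := by
  unfold lcF
  rw [Finsupp.sum_smul_index' (by intro p; simp), Finsupp.mul_sum]
  refine Finset.sum_congr rfl fun p _ => ?_
  show HahnSeries.C (c • w p) * eF M κ p = HahnSeries.C c * (HahnSeries.C (w p) * eF M κ p)
  rw [smul_eq_mul, map_mul, mul_assoc]

theorem li_shift (M : ℕ) (κ : Type) [CommRing κ] (n : ℕ) (w : Fin (idx M) × ℕ →₀ κ) :
    lcF M κ (w.mapDomain fun p => (p.1, p.2 + n)) = jqModC κ ^ n * lcF M κ w := by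
  unfold lcF
  rw [Finsupp.sum_mapDomain_index (by intro p; simp) (by intro p c c'; rw [map_add, add_mul]),
    Finsupp.mul_sum]
  refine Finset.sum_congr rfl fun p _ => ?_
  simp only [eF]
  ring

/-- multiplication by a polynomial in `j` preserves the span of the `j^a H^i` -/
theorem exists_evJ_mul_lcF (M : ℕ) (κ : Type) [CommRing κ] (b : κ[X])
    (w : Fin (idx M) × ℕ →₀ κ) :
    ∃ w' : Fin (idx M) × ℕ →₀ κ, evJ κ b * lcF M κ w = lcF M κ w' := by
  induction b using Polynomial.induction_on' with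
  | add p q hp hq =>
    obtain ⟨w₁, h₁⟩ := hp
    obtain ⟨w₂, h₂⟩ := hq
    exact ⟨w₁ + w₂, by rw [map_add, add_mul, h₁, h₂, lcF_add]⟩
  | monomial n c =>
    exact ⟨c • w.mapDomain fun p => (p.1, p.2 + n), by
      rw [lcF_smul, li_shift, li_evJ_monomial, mul_assoc]⟩

end Fermat.Agent.S18Lib
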