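import Fermat.Agent.S18.HHMemFB

/-!
# S18 library, block (C1), leaf (MB): membership of the `A`-integral combinations of `j^a H^i`
in the function fields over `ℚ̄` and over the residue field
-/

set_option autoImplicit false
set_option synthInstance.maxHeartbeats 400000

open AlgebraicCurve ModularCurve CongruenceSubgroup UpperHalfPlane
open scoped Polynomial IntermediateField

namespace Fermat.Agent.S18Lib

open Fermat.Agent.S24Lib Fermat.Agent.S28Lib Fermat.Agent.S28Lib.RelationAux Fermat.Agent.FFLib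

theorem MB_evJ_mem {κ : Type*} [Field κ] (F : IntermediateField κ (LaurentSeries κ))
    (hj : jqModC κ ∈ F) (b : κ[X]) : evJ κ b ∈ F := by
  have h : evJ κ b = F.val (Polynomial.aeval (⟨jqModC κ, hj⟩ : F) b) :=
    Polynomial.aeval_algHom_apply F.val (⟨jqModC κ, hj⟩ : F) b
  rw [h]
  exact (Polynomial.aeval (⟨jqModC κ, hj⟩ : F) b).2

theorem MB_C_mem {κ : Type*} [Field κ] (F : IntermediateField κ (LaurentSeries κ)) (c : κ) :
    (HahnSeries.C c : LaurentSeries κ) ∈ F := by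
  have h : (HahnSeries.C c : LaurentSeries κ) = algebraMap κ (LaurentSeries κ) c := by
    rw [algebraMap_laurent_eq_single]
    rfl
  rw [h]
  exact F.algebraMap_mem c

theorem MB_lcF_mem (M : ℕ) {κ : Type*} [Field κ] (F : IntermediateField κ (LaurentSeries κ))
    (hj : jqModC κ ∈ F) (hH : HH M κ ∈ F) (w : Fin (idx M) × ℕ →₀ κ) : lcF M κ w ∈ F := by
  rw [lcF, Finsupp.sum]
  refine sum_mem fun p _ => mul_mem (MB_C_mem F _) ?_
  exact mul_mem (pow_mem hj _) (pow_mem hH _)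

theorem MB_coeffMap_lcF (M : ℕ) [NeZero M] {κ κ' : Type*} [CommRing κ] [CommRing κ']
    (f : κ →+* κ') (w : Fin (idx M) × ℕ →₀ κ) :
    coeffMap f (lcF M κ w) = ∑ p ∈ w.support, HahnSeries.C (f (w p)) * eF M κ' p := by
  rw [lcF, Finsupp.sum, map_sum]
  refine Finset.sum_congr rfl fun p _ => ?_
  rw [map_mul, coeffMap_eF]
  congr 1
  exact coeffMap_single _ _ _

theorem MB_coeffMap_lcF_mem (M : ℕ) [NeZero M] {κ κ' : Type*} [CommRing κ] [Field κ']
    (f : κ →+* κ') (F : IntermediateField κ' (LaurentSeries κ'))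
    (hj : jqModC κ' ∈ F) (hH : HH M κ' ∈ F) (w : Fin (idx M) × ℕ →₀ κ) :
    coeffMap f (lcF M κ w) ∈ F := by
  rw [MB_coeffMap_lcF]
  refine sum_mem fun p _ => mul_mem (MB_C_mem F _) ?_
  exact mul_mem (pow_mem hj _) (pow_mem hH _)

theorem cE_evJ_mem_FB (M : ℕ) [NeZero M] (A : ValuationSubring Qb) (b : A[X]) :
    cE A (evJ A b) ∈ FB M := by
  rw [cE_def, coeffMap_evJ]
  exact MB_evJ_mem _ (jqModC_mem_FB M) _

theorem cE_lcF_mem_FB (M : ℕ) [NeZero M] (A : ValuationSubring Qb) (w : Fin (idx M) × ℕ →₀ A) :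
    cE A (lcF M A w) ∈ FB M :=
  MB_coeffMap_lcF_mem M _ _ (jqModC_mem_FB M) (HH_mem_FB M) w

theorem cR_evJ_mem_FT (M : ℕ) [NeZero M] (A : ValuationSubring Qb) (b : A[X]) :
    cR A (evJ A b) ∈ FT A M := by
  rw [cR_def, coeffMap_evJ]
  exact MB_evJ_mem _ (jqModC_mem_full (kk A) M) _

theorem cR_lcF_mem_FT (M : ℕ) [NeZero M] (A : ValuationSubring Qb) (hH : HH M (kk A) ∈ FT A M)
    (w : Fin (idx M) × ℕ →₀ A) : cR A (lcF M A w) ∈ FT A M :=
  MB_coeffMap_lcF_mem M _ _ (jqModC_mem_full (kk A) M) hH w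

end Fermat.Agent.S18Lib
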