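import Fermat.Agent.S18.CGauss
import Fermat.Agent.S18.ThetaApi
import Fermat.Agent.S18.RedSpace
import Fermat.Agent.S18.IndepK
import Fermat.Agent.S18.LinIndE
import Fermat.Agent.S18.HHMemFB
import Fermat.Agent.S28.Relation
import Fermat.Agent.S24.Fibres
import Fermat.Agent.S20.Serre

/-!
# S18 C1 (SP): the family `j^a H^i` spans the function field over `ℚ̄` up to denominators in `ℚ̄[j]`
-/

set_option autoImplicit false
set_option synthInstance.maxHeartbeats 400000

open AlgebraicCurve ModularCurve CongruenceSubgroup UpperHalfPlane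
open scoped Polynomial IntermediateField

namespace Fermat.Agent.S18Lib

open Fermat.Agent.S24Lib Fermat.Agent.S28Lib Fermat.Agent.S28Lib.RelationAux Fermat.Agent.FFLib

theorem sp_coe_aeval (M : ℕ) (p : Qb[X]) :
    ((Polynomial.aeval (jBar M) p : FB M) : LaurentSeries Qb) = evJ Qb p := by
  rw [bl_coe_aeval, W7_jE_eq, HB_coeffEmb_jq]
  rfl

theorem sp_aeval_ne_zero (M : ℕ) [NeZero M] {b : Qb[X]} (hb : b ≠ 0) :
    Polynomial.aeval (jBar M) b ≠ 0 := fun h =>
  hb (transcendental_iff.1 (transcendental_jBar M) b h)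

theorem sp_frac (M : ℕ) [NeZero M] (c : Qb⟮jBar M⟯) :
    ∃ r s : Qb[X], s ≠ 0 ∧
      (c : FB M) * Polynomial.aeval (jBar M) s = Polynomial.aeval (jBar M) r := by
  obtain ⟨r, s, h⟩ := (IntermediateField.mem_adjoin_simple_iff Qb _).1 c.2
  by_cases hs : Polynomial.aeval (jBar M) s = 0
  · refine ⟨0, 1, one_ne_zero, ?_⟩
    rw [h, hs, div_zero, zero_mul, map_zero]
  · refine ⟨r, s, ?_, ?_⟩
    · rintro rfl
      exact hs (map_zero _)
    · rw [h, div_mul_cancel₀ _ hs]

theorem sp_common (M : ℕ) [NeZero M] {n : ℕ} (c : Fin n → Qb⟮jBar M⟯) :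
    ∃ (b : Qb[X]) (p : Fin n → Qb[X]), b ≠ 0 ∧
      ∀ i, (c i : FB M) * Polynomial.aeval (jBar M) b = Polynomial.aeval (jBar M) (p i) := by
  choose r s hs h using fun i => sp_frac M (c i)
  refine ⟨∏ i, s i, fun i => r i * ∏ k ∈ Finset.univ.erase i, s k,
    Finset.prod_ne_zero_iff.2 fun i _ => hs i, fun i => ?_⟩
  rw [← Finset.mul_prod_erase Finset.univ s (Finset.mem_univ i), map_mul, map_mul, ← mul_assoc, h]

theorem sp_key (M : ℕ) [NeZero M] (p : Fin (idx M) → Qb[X])
    (h : ∑ i, evJ Qb (p i) * HH M Qb ^ (i : ℕ) = 0) : ∀ i, p i = 0 := by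
  set P : Qb[X][X] := ∑ i : Fin (idx M), Polynomial.monomial (i : ℕ) (p i) with hP
  have hev : ev2 M Qb P = 0 := by
    rw [← h, hP, ev2, Polynomial.eval₂_finsetSum]
    refine Finset.sum_congr rfl fun i _ => ?_
    rw [Polynomial.eval₂_monomial]
  have hcoeff : ∀ m : ℕ, P.coeff m = if hm : m < idx M then p ⟨m, hm⟩ else 0 := by
    intro m
    rw [hP, Polynomial.finsetSum_coeff]
    simp only [Polynomial.coeff_monomial]
    split_ifs with hm
    · rw [Finset.sum_eq_single (⟨m, hm⟩ : Fin (idx M))]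
      · simp
      · intro i _ hi
        rw [if_neg]
        intro h1
        exact hi (Fin.ext h1)
      · intro hn
        exact absurd (Finset.mem_univ _) hn
    · refine Finset.sum_eq_zero fun i _ => ?_
      rw [if_neg]
      intro h1
      exact hm (h1 ▸ i.2)
  have hP0 : P = 0 := by
    by_contra hne
    have h1 := indep_Qb M P hne hev
    apply Polynomial.leadingCoeff_ne_zero.2 hne
    rw [Polynomial.leadingCoeff, hcoeff, dif_neg (not_lt.2 h1)]
  intro i
  have h2 := hcoeff i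
  rw [hP0, dif_pos i.2, Polynomial.coeff_zero] at h2
  exact h2.symm

theorem sp_lcF_sum (M : ℕ) (κ : Type) [CommRing κ] {ι : Type} (s : Finset ι)
    (w : ι → (Fin (idx M) × ℕ →₀ κ)) : lcF M κ (∑ i ∈ s, w i) = ∑ i ∈ s, lcF M κ (w i) := by
  classical
  induction s using Finset.induction_on with
  | empty => simp [lcF]
  | insert a s ha ih => rw [Finset.sum_insert ha, Finset.sum_insert ha, lcF_add, ih]

theorem sp_lcF_single (M : ℕ) (κ : Type) [CommRing κ] (i : Fin (idx M)) :
    lcF M κ (Finsupp.single (i, 0) 1) = HH M κ ^ (i : ℕ) := by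
  unfold lcF
  rw [Finsupp.sum_single_index (by simp)]
  simp [eF]

theorem sp_linearIndependent (M : ℕ) [NeZero M] :
    LinearIndependent Qb⟮jBar M⟯
      (fun i : Fin (idx M) => (⟨HH M Qb, HH_mem_FB M⟩ : FB M) ^ (i : ℕ)) := by
  rw [Fintype.linearIndependent_iff]
  intro g hg i
  obtain ⟨b, p, hb, hp⟩ := sp_common M g
  have h1 : ∑ i, Polynomial.aeval (jBar M) (p i) * (⟨HH M Qb, HH_mem_FB M⟩ : FB M) ^ (i : ℕ) = 0 := by
    have h2 := congrArg (fun x => x * Polynomial.aeval (jBar M) b) hg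
    simp only [zero_mul, Finset.sum_mul] at h2
    rw [← h2]
    refine Finset.sum_congr rfl fun i _ => ?_
    rw [← hp, IntermediateField.smul_def, smul_eq_mul]
    ring
  have h3 := congrArg (fun x : FB M => (x : LaurentSeries Qb)) h1
  simp only [AddSubmonoidClass.coe_finsetSum, MulMemClass.coe_mul, SubmonoidClass.coe_pow,
    sp_coe_aeval, ZeroMemClass.coe_zero] at h3
  have h4 := sp_key M p h3 i
  have h5 := hp i
  rw [h4, map_zero] at h5
  have h6 := (mul_eq_zero.1 h5).resolve_right (sp_aeval_ne_zero M hb)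
  exact Subtype.ext h6

theorem span_eF_Qb (M : ℕ) [NeZero M] (y : LaurentSeries Qb) (hy : y ∈ FB M) :
    ∃ (b : Qb[X]) (w : Fin (idx M) × ℕ →₀ Qb), b ≠ 0 ∧ evJ Qb b * y = lcF M Qb w := by
  have hfd : FiniteDimensional Qb⟮jBar M⟯ (FB M) := (finrank_le_index M).1
  have hspan := (sp_linearIndependent M).span_eq_top_of_card_eq_finrank' (by
    rw [Fintype.card_fin, finrank_eq_index]
    rfl)
  have hmem : (⟨y, hy⟩ : FB M) ∈ Submodule.span Qb⟮jBar M⟯ (Set.range
      (fun i : Fin (idx M) => (⟨HH M Qb, HH_mem_FB M⟩ : FB M) ^ (i : ℕ))) := by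
    rw [hspan]; trivial
  obtain ⟨c, hc⟩ := (Submodule.mem_span_range_iff_exists_fun _).1 hmem
  obtain ⟨b, p, hb, hp⟩ := sp_common M c
  choose w hw using fun i : Fin (idx M) =>
    exists_evJ_mul_lcF M Qb (p i) (Finsupp.single (i, 0) 1)
  refine ⟨b, ∑ i, w i, hb, ?_⟩
  rw [sp_lcF_sum]
  have h2 := congrArg (fun x => x * Polynomial.aeval (jBar M) b) hc
  simp only [Finset.sum_mul] at h2
  have h3 := congrArg (fun x : FB M => (x : LaurentSeries Qb)) h2
  simp only [AddSubmonoidClass.coe_finsetSum, MulMemClass.coe_mul, sp_coe_aeval] at h3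
  rw [mul_comm, ← h3]
  refine Finset.sum_congr rfl fun i _ => ?_
  rw [← hw, sp_lcF_single, ← sp_coe_aeval M (p i), ← hp, IntermediateField.smul_def, smul_eq_mul]
  simp only [MulMemClass.coe_mul, SubmonoidClass.coe_pow, sp_coe_aeval]
  ring

end Fermat.Agent.S18Lib
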