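import Fermat.Agent.S18.ResField
import Fermat.Agent.S18.IndepK
import Fermat.Agent.S18.LinIndE
import Fermat.Agent.S18.SpanQb
import Fermat.Agent.S18.Scale

/-!
# S18 library, block (C1), leaf (NF): the normal form `x · b(j) = c · ∑ w_{a,i} j^a H^i`
-/

set_option autoImplicit false
set_option synthInstance.maxHeartbeats 400000

open AlgebraicCurve ModularCurve CongruenceSubgroup UpperHalfPlane
open scoped Polynomial IntermediateField

namespace Fermat.Agent.S18Lib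

open Fermat.Agent.S24Lib Fermat.Agent.S28Lib Fermat.Agent.S28Lib.RelationAux Fermat.Agent.FFLib

theorem nf_evJ_C (κ : Type) [CommRing κ] (β : κ) :
    evJ κ (Polynomial.C β) = HahnSeries.C β := by
  simp only [evJ, AlgHom.toRingHom_eq_coe, RingHom.coe_coe, Polynomial.aeval_C]
  rw [HahnSeries.algebraMap_apply', PowerSeries.algebraMap_apply, HahnSeries.ofPowerSeries_C]
  rfl

theorem exists_normalForm (M : ℕ) [NeZero M] {ℓ : ℕ} [Fact ℓ.Prime] (hℓM : ¬ ℓ ∣ M)
    (A : ValuationSubring Qb) (hA : A.LiesOverPrime ℓ) (x : LaurentSeries Qb) (hx : x ∈ FB M)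
    (hx0 : x ≠ 0) :
    ∃ (c : Qb) (b : A[X]) (w : Fin (idx M) × ℕ →₀ A), c ≠ 0 ∧ cR A (evJ A b) ≠ 0 ∧
      cR A (lcF M A w) ≠ 0 ∧ x * cE A (evJ A b) = HahnSeries.C c * cE A (lcF M A w) := by
  obtain ⟨b₀, w₀, hb₀, h₀⟩ := span_eF_Qb M x hx
  have hevb : evJ Qb b₀ ≠ 0 := fun h => hb₀ ((evJ_eq_zero_iff Qb b₀).1 h)
  have hw₀ : w₀ ≠ 0 := by
    intro h
    rw [h, (lcF_eq_zero_iff M Qb (indep_Qb M) 0).2 rfl] at h₀
    exact (mul_ne_zero hevb hx0) h₀
  obtain ⟨β, b', hβ, hb', hbb⟩ := exists_scale_poly A b₀ hb₀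
  obtain ⟨α, w', hα, hw', hww⟩ := exists_scale_finsupp A w₀ hw₀
  have : CharP (kk A) ℓ := charP_kk A hA
  refine ⟨α / β, b', w', div_ne_zero hα hβ, ?_, ?_, ?_⟩
  · rw [cR_def, coeffMap_evJ]
    exact fun h => hb' ((evJ_eq_zero_iff (kk A) _).1 h)
  · rw [cR_def, coeffMap_lcF]
    exact fun h => hw' ((lcF_eq_zero_iff M (kk A) (indep_charP M hℓM (kk A)) _).1 h)
  · rw [cE_def, cE_def, coeffMap_evJ, coeffMap_lcF]
    rw [hbb, hww, map_mul, nf_evJ_C, lcF_smul] at h₀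
    have hCβ : (HahnSeries.C β : LaurentSeries Qb) ≠ 0 := by
      intro h
      apply hβ
      have := congrArg (fun z => HahnSeries.coeff z 0) h
      simpa using this
    apply mul_left_cancel₀ hCβ
    have h1 : (HahnSeries.C β : LaurentSeries Qb) * HahnSeries.C (α / β) = HahnSeries.C α := by
      rw [← map_mul, mul_div_cancel₀ α hβ]
    rw [← mul_assoc (HahnSeries.C β) (HahnSeries.C (α / β)), h1, ← h₀]
    ring

end Fermat.Agent.S18Lib
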