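import Fermat.Agent.S18.PoleLemma

/-!
# S18 library, C2b leaf (UP): orders of the reduction of a function `y` with `y ∈ L((x)_∞)` and
`y ^ m ∈ L((m-1) (x)_∞)`
-/

set_option autoImplicit false

open AlgebraicCurve IntermediateField
open Fermat.Agent.S24Lib

namespace Fermat.Agent.S18Lib

theorem red_ge_of_pow_mem {K k F Ft : Type*} [Field K] [Field k] [Field F] [Algebra K F]
    [Field Ft] [Algebra k Ft] {A : ValuationSubring K} {resK : A →+* k}
    (hF : IsFF K F) (hFt : IsFF k Ft) [IsAlgClosed K] [IsAlgClosed k]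
    (R : RedData A resK F Ft) (x : R.O) (hx : Transcendental k (R.red x))
    (hdeg : Module.finrank K⟮((x : R.O) : F)⟯ F ≤ Module.finrank k⟮R.red x⟯ Ft)
    (y : R.O) (m : ℕ) (hm : 1 ≤ m)
    (hy1 : ((y : R.O) : F) ∈ riemannRochSpace (1 • FFLib.poleDiv K ((x : R.O) : F)))
    (hym : ((y : R.O) : F) ^ m ∈ riemannRochSpace ((m - 1) • FFLib.poleDiv K ((x : R.O) : F)))
    (Q : Place k Ft) :
    (0 ≤ Q.ord (R.red x) → D2_ge Q 0 (R.red y)) ∧
      (Q.ord (R.red x) < 0 → D2_ge Q (1 + Q.ord (R.red x)) (R.red y)) := by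
  constructor
  · intro hQ
    have h1 := red_mem_L_pole_zero hF hFt R x hx hdeg 1 0 y (by rwa [zero_smul, add_zero])
    rw [zero_smul, add_zero, FFLib.mem_L_iff] at h1
    have h2 := h1 Q
    rw [Finsupp.smul_apply, FFLib.poleDiv_apply hFt, max_eq_right (by omega), smul_zero,
      neg_zero] at h2
    exact h2
  · intro hQ
    by_cases hy0 : R.red y = 0
    · exact Or.inl hy0
    right
    have h1 := red_mem_L_pole_zero hF hFt R x hx hdeg (m - 1) 0 (y ^ m)
      (by rw [zero_smul, add_zero]; exact hym)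
    rw [zero_smul, add_zero, FFLib.mem_L_iff] at h1
    have h2 := (h1 Q).resolve_left (by rw [map_pow]; exact pow_ne_zero m hy0)
    rw [Finsupp.smul_apply, FFLib.poleDiv_apply hFt, max_eq_left (by omega), map_pow,
      pl_ord_pow, nsmul_eq_mul] at h2
    have hm' : ((m - 1 : ℕ) : ℤ) = (m : ℤ) - 1 := by
      rw [Nat.cast_sub hm, Nat.cast_one]
    rw [hm'] at h2
    have hmpos : (0 : ℤ) < m := by exact_mod_cast hm
    by_contra hcon
    push Not at hcon
    have h3 : Q.ord (R.red y) ≤ Q.ord (R.red x) := by omega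
    have h4 : (m : ℤ) * Q.ord (R.red y) ≤ (m : ℤ) * Q.ord (R.red x) :=
      mul_le_mul_of_nonneg_left h3 hmpos.le
    nlinarith

end Fermat.Agent.S18Lib
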