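import Fermat.Agent.S18.Defs
import Fermat.Agent.Lib.FF.Defs

/-!
# S18 library, block (A2)-(A5): the reduction `V(U) = red (U ∩ O)` of a `K`-subspace `U ⊆ F`
-/

set_option autoImplicit false

open AlgebraicCurve

namespace Fermat.Agent.S18Lib

variable {K k F Ft : Type*} [Field K] [Field k] [Field F] [Algebra K F] [Field Ft] [Algebra k Ft]
  {A : ValuationSubring K} {resK : A →+* k}

/-- a constant of `A`, as an element of `O` -/
def RedData.const (R : RedData A resK F Ft) (a : A) : R.O :=
  ⟨algebraMap K F (a : K), (R.algebraMap_mem_iff _).2 a.2⟩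

@[simp] theorem RedData.coe_const (R : RedData A resK F Ft) (a : A) :
    ((R.const a : R.O) : F) = algebraMap K F (a : K) := rfl

@[simp] theorem RedData.red_const (R : RedData A resK F Ft) (a : A) :
    R.red (R.const a) = algebraMap k Ft (resK a) := R.red_algebraMap a _

/-- `V(U) = red (U ∩ O)`, a `k`-subspace of `Ft` -/
def redSpace (R : RedData A resK F Ft) (hres : Function.Surjective resK) (U : Submodule K F) :
    Submodule k Ft where
  carrier := {a | ∃ x : R.O, ((x : R.O) : F) ∈ U ∧ R.red x = a}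
  zero_mem' := ⟨0, by simp, map_zero _⟩
  add_mem' := by
    rintro a b ⟨x, hx, rfl⟩ ⟨y, hy, rfl⟩
    exact ⟨x + y, by simpa using U.add_mem hx hy, map_add _ _ _⟩
  smul_mem' := by
    rintro c a ⟨x, hx, rfl⟩
    obtain ⟨c', rfl⟩ := hres c
    refine ⟨R.const c' * x, ?_, ?_⟩
    · have := U.smul_mem (c' : K) hx
      rwa [Algebra.smul_def] at this
    · rw [map_mul, R.red_const, Algebra.smul_def]

theorem mem_redSpace {R : RedData A resK F Ft} {hres : Function.Surjective resK}
    {U : Submodule K F} {a : Ft} :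
    a ∈ redSpace R hres U ↔ ∃ x : R.O, ((x : R.O) : F) ∈ U ∧ R.red x = a := Iff.rfl

theorem red_mem_redSpace {R : RedData A resK F Ft} (hres : Function.Surjective resK)
    {U : Submodule K F} {x : R.O} (hx : ((x : R.O) : F) ∈ U) : R.red x ∈ redSpace R hres U :=
  ⟨x, hx, rfl⟩

theorem redSpace_mono {R : RedData A resK F Ft} (hres : Function.Surjective resK)
    {U U' : Submodule K F} (h : U ≤ U') : redSpace R hres U ≤ redSpace R hres U' := by
  rintro a ⟨x, hx, rfl⟩
  exact ⟨x, h hx, rfl⟩

end Fermat.Agent.S18Lib
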