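import Fermat.Agent.S18.NormalForm
import Fermat.Agent.S18.Membership
import Fermat.Agent.S18.HHMemFT

/-!
# S18 library, block (C1), assembly part 1: the valuation ring `O = gRing A ∩ FB M` and its
reduction map to `FT A M`
-/

set_option autoImplicit false
set_option synthInstance.maxHeartbeats 400000

open AlgebraicCurve ModularCurve CongruenceSubgroup
open scoped Polynomial IntermediateField

namespace Fermat.Agent.S18Lib

open Fermat.Agent.S24Lib Fermat.Agent.S28Lib

noncomputable section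

theorem rr_cE_C (A : ValuationSubring Qb) (a : A) :
    cE A (HahnSeries.C a) = HahnSeries.C (a : Qb) := by
  rw [cE, HahnSeries.C_apply, coeffMap_single]
  rfl

theorem rr_cR_C (A : ValuationSubring Qb) (a : A) :
    cR A (HahnSeries.C a) = HahnSeries.C (resA A a) := by
  rw [cR, HahnSeries.C_apply, coeffMap_single]
  rfl

theorem rr_cE_ne_zero (A : ValuationSubring Qb) {y : LaurentSeries A} (h : cR A y ≠ 0) :
    cE A y ≠ 0 := by
  intro h0
  apply h
  have : y = 0 := cE_injective A (by rw [h0, map_zero])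
  rw [this, map_zero]

theorem rr_res_eq_zero (A : ValuationSubring Qb) {c : Qb} (hc : c ∉ A) (hc' : c⁻¹ ∈ A) :
    resA A ⟨c⁻¹, hc'⟩ = 0 := by
  rw [IsLocalRing.residue_eq_zero_iff, IsLocalRing.mem_maximalIdeal, mem_nonunits_iff]
  intro hu
  apply hc
  obtain ⟨u, hu⟩ := hu
  have h1 : ((u⁻¹ : Aˣ) : A) * ⟨c⁻¹, hc'⟩ = 1 := by rw [← hu]; simp
  have h2 : (((u⁻¹ : Aˣ) : A) : Qb) * c⁻¹ = 1 := by
    have := congrArg (Subtype.val) h1
    simpa using this
  have hc0 : c ≠ 0 := by
    rintro rfl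
    exact hc A.zero_mem
  have h3 : c = (((u⁻¹ : Aˣ) : A) : Qb) := by
    field_simp at h2
    exact h2.symm
  rw [h3]
  exact ((u⁻¹ : Aˣ) : A).2

/-- the scaling constant of an element of the Gauss ring is integral -/
theorem rr_c_mem (A : ValuationSubring Qb) {x : LaurentSeries Qb} (hx : x ∈ gRing A) {c : Qb}
    {b w : LaurentSeries A} (hw : cR A w ≠ 0) (h : x * cE A b = HahnSeries.C c * cE A w) :
    c ∈ A := by
  by_contra hc
  have hc' : c⁻¹ ∈ A := (A.mem_or_inv_mem c).resolve_left hc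
  have hc0 : c ≠ 0 := by
    rintro rfl
    exact hc A.zero_mem
  obtain ⟨a, s, hs, has⟩ := hx
  have h1 : w * s = HahnSeries.C (⟨c⁻¹, hc'⟩ : A) * a * b := by
    apply cE_injective A
    rw [map_mul, map_mul, map_mul, rr_cE_C, ← has]
    have h2 : cE A w = HahnSeries.C c⁻¹ * (x * cE A b) := by
      rw [h, ← mul_assoc, ← map_mul, inv_mul_cancel₀ hc0, map_one, one_mul]
    rw [h2]
    ring
  have h3 := congrArg (cR A) h1
  rw [map_mul, map_mul, map_mul, rr_cR_C, rr_res_eq_zero A hc hc', map_zero, zero_mul,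
    zero_mul] at h3
  exact mul_ne_zero hw hs h3

section

variable (M : ℕ) [NeZero M] {ℓ : ℕ} [Fact ℓ.Prime] (hℓM : ¬ ℓ ∣ M)
  (A : ValuationSubring Qb) (hA : A.LiesOverPrime ℓ)

include hℓM hA in
theorem rr_mem_or_inv_mem (x : LaurentSeries Qb) (hx : x ∈ FB M) :
    x ∈ gRing A ∨ x⁻¹ ∈ gRing A := by
  by_cases hx0 : x = 0
  · left
    rw [hx0]
    exact (gRing A).zero_mem
  obtain ⟨c, b, w, hc, hb, hw, h⟩ := exists_normalForm M hℓM A hA x hx hx0
  rcases A.mem_or_inv_mem c with hcA | hcA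
  · left
    exact ⟨HahnSeries.C (⟨c, hcA⟩ : A) * lcF M A w, evJ A b, hb, by rw [h, map_mul, rr_cE_C]⟩
  · right
    refine ⟨HahnSeries.C (⟨c⁻¹, hcA⟩ : A) * evJ A b, lcF M A w, hw, ?_⟩
    rw [map_mul, rr_cE_C]
    have h2 : cE A (lcF M A w) = HahnSeries.C c⁻¹ * (x * cE A (evJ A b)) := by
      rw [h, ← mul_assoc, ← map_mul, inv_mul_cancel₀ hc, map_one, one_mul]
    rw [h2]
    field_simp

/-- the valuation ring of `FB M` -/
def OC : ValuationSubring (FB M) :=
  { (gRing A).comap (algebraMap (FB M) (LaurentSeries Qb)) with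
    mem_or_inv_mem' := fun x => by
      rcases rr_mem_or_inv_mem M hℓM A hA (x : LaurentSeries Qb) x.2 with h | h
      · exact Or.inl h
      · right
        show algebraMap (FB M) (LaurentSeries Qb) x⁻¹ ∈ gRing A
        rw [map_inv₀]
        exact h }

theorem mem_OC_iff (x : FB M) : x ∈ OC M hℓM A hA ↔ (x : LaurentSeries Qb) ∈ gRing A := Iff.rfl

/-- `O → gRing A` -/
def OCtoG : OC M hℓM A hA →+* gRing A :=
  RingHom.codRestrict ((algebraMap (FB M) (LaurentSeries Qb)).comp (OC M hℓM A hA).subtype)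
    (gRing A) (fun x => x.2)

theorem coe_OCtoG (x : OC M hℓM A hA) :
    (OCtoG M hℓM A hA x : LaurentSeries Qb) = ((x : FB M) : LaurentSeries Qb) := rfl

include hℓM hA in
theorem rr_gRed_mem_FT (x : gRing A) (hx : (x : LaurentSeries Qb) ∈ FB M) :
    gRed A x ∈ FT A M := by
  by_cases hx0 : (x : LaurentSeries Qb) = 0
  · have : x = 0 := Subtype.ext hx0
    rw [this, map_zero]
    exact (FT A M).zero_mem
  obtain ⟨c, b, w, hc, hb, hw, h⟩ := exists_normalForm M hℓM A hA x hx hx0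
  have hcA : c ∈ A := rr_c_mem A x.2 hw h
  have h1 : (x : LaurentSeries Qb) * cE A (evJ A b) =
      cE A (HahnSeries.C (⟨c, hcA⟩ : A) * lcF M A w) := by rw [h, map_mul, rr_cE_C]
  rw [gRed_eq A x hb h1, map_mul, rr_cR_C]
  refine (FT A M).div_mem ((FT A M).mul_mem ?_ ?_) (cR_evJ_mem_FT M A b)
  · have : (HahnSeries.C (resA A ⟨c, hcA⟩) : LaurentSeries (kk A)) =
        algebraMap (kk A) (LaurentSeries (kk A)) (resA A ⟨c, hcA⟩) := by
      rw [algebraMap_laurentSeries_eq_single]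
      rfl
    rw [this]
    exact (FT A M).algebraMap_mem _
  · exact cR_lcF_mem_FT M A (HH_mem_FT M hℓM A hA) w

/-- the reduction map -/
def redC : OC M hℓM A hA →+* FT A M :=
  RingHom.codRestrict ((gRed A).comp (OCtoG M hℓM A hA)) (FT A M)
    (fun x => rr_gRed_mem_FT M hℓM A hA _ (x : FB M).2)

theorem coe_redC (x : OC M hℓM A hA) :
    (redC M hℓM A hA x : LaurentSeries (kk A)) = gRed A (OCtoG M hℓM A hA x) := rfl

theorem redC_mul_eq (x : OC M hℓM A hA) {a s : LaurentSeries A}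
    (h : ((x : FB M) : LaurentSeries Qb) * cE A s = cE A a) :
    (redC M hℓM A hA x : LaurentSeries (kk A)) * cR A s = cR A a :=
  gRed_mul_eq A (OCtoG M hℓM A hA x) h

theorem isUnit_of_redC_ne_zero (x : OC M hℓM A hA) (hx : redC M hℓM A hA x ≠ 0) : IsUnit x := by
  have h1 : gRed A (OCtoG M hℓM A hA x) ≠ 0 := by
    intro h
    apply hx
    exact Subtype.ext h
  have h2 := inv_mem_gRing A _ h1
  have hx0 : (x : FB M) ≠ 0 := by
    intro h0
    apply hx
    have : x = 0 := Subtype.ext h0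
    rw [this, map_zero]
  have h3 : (x : FB M)⁻¹ ∈ OC M hℓM A hA := by
    rw [mem_OC_iff]
    have : (((x : FB M)⁻¹ : FB M) : LaurentSeries Qb) = ((x : FB M) : LaurentSeries Qb)⁻¹ := rfl
    rw [this]
    exact h2
  exact IsUnit.of_mul_eq_one ⟨_, h3⟩ (Subtype.ext (mul_inv_cancel₀ hx0))

omit [NeZero M] in
theorem rr_coe_algebraMap (a : Qb) :
    ((algebraMap Qb (FB M) a : FB M) : LaurentSeries Qb) = HahnSeries.C a := by
  have : ((algebraMap Qb (FB M) a : FB M) : LaurentSeries Qb) =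
      algebraMap Qb (LaurentSeries Qb) a := rfl
  rw [this, algebraMap_laurentSeries_eq_single]
  rfl

theorem algebraMap_mem_OC_iff (a : Qb) : algebraMap Qb (FB M) a ∈ OC M hℓM A hA ↔ a ∈ A := by
  rw [mem_OC_iff, rr_coe_algebraMap]
  constructor
  · rintro ⟨a', s, hs, h⟩
    obtain ⟨n, hn⟩ : ∃ n, (cR A s).coeff n ≠ 0 := by
      by_contra hcon
      push Not at hcon
      exact hs (HahnSeries.ext (funext hcon))
    have hu : IsUnit (s.coeff n) := by
      by_contra hnu
      apply hn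
      rw [cR, coeffMap_coeff, IsLocalRing.residue_eq_zero_iff, IsLocalRing.mem_maximalIdeal,
        mem_nonunits_iff]
      exact hnu
    obtain ⟨u, hu⟩ := hu
    have h1 := congrArg (fun z => HahnSeries.coeff z n) h
    simp only [HahnSeries.C_mul_eq_smul, HahnSeries.coeff_smul, smul_eq_mul, cE,
      coeffMap_coeff] at h1
    have h2 : ((u : A) : Qb) * (((u⁻¹ : Aˣ) : A) : Qb) = 1 :=
      congrArg (fun z : A => (z : Qb)) (Units.mul_inv u)
    have h3 : a = ((a'.coeff n : A) : Qb) * (((u⁻¹ : Aˣ) : A) : Qb) := by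
      have h4 : a * ((u : A) : Qb) = ((a'.coeff n : A) : Qb) := by
        rw [hu]
        exact h1
      rw [← h4, mul_assoc, h2, mul_one]
    rw [h3]
    exact A.mul_mem _ _ (a'.coeff n).2 ((u⁻¹ : Aˣ) : A).2
  · intro ha
    have := cE_mem_gRing A (HahnSeries.C (⟨a, ha⟩ : A))
    rwa [rr_cE_C] at this

theorem redC_algebraMap (a : A) (h : algebraMap Qb (FB M) (a : Qb) ∈ OC M hℓM A hA) :
    redC M hℓM A hA ⟨algebraMap Qb (FB M) (a : Qb), h⟩ = algebraMap (kk A) (FT A M) (resA A a) := by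
  apply Subtype.ext
  have h1 := redC_mul_eq M hℓM A hA ⟨algebraMap Qb (FB M) (a : Qb), h⟩
    (a := HahnSeries.C a) (s := 1) (by rw [map_one, mul_one, rr_cE_C, rr_coe_algebraMap])
  rw [map_one, mul_one, rr_cR_C] at h1
  rw [h1]
  have : ((algebraMap (kk A) (FT A M) (resA A a) : FT A M) : LaurentSeries (kk A)) =
      algebraMap (kk A) (LaurentSeries (kk A)) (resA A a) := rfl
  rw [this, algebraMap_laurentSeries_eq_single]
  rfl

end

end

end Fermat.Agent.S18Lib
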