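import Fermat.Agent.S18.DerivQ
import Fermat.Agent.S18.Bracket

/-!
# S18 block C1, leaf (AN): the analytic input of the theta trick
-/

set_option autoImplicit false
set_option synthInstance.maxHeartbeats 400000

open AlgebraicCurve ModularCurve CongruenceSubgroup UpperHalfPlane
open scoped Polynomial IntermediateField

namespace Fermat.Agent.S18Lib

open Fermat.Agent.S24Lib Fermat.Agent.S28Lib Fermat.Agent.S28Lib.RelationAux Fermat.Agent.FFLib
open Fermat.Agent.S20Lib

/-- the `q`-expansion as a Laurent series -/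
noncomputable def AN_Q (F : ℍ → ℂ) : LaurentSeries ℂ := HahnSeries.ofPowerSeries ℤ ℂ (qExpansion 1 F)

theorem AN_analytic {F : ℍ → ℂ} (hF : QI ⊤ 1 F) : AnalyticAt ℂ (cuspFunction 1 F) 0 := by
  have := hF.analytic one_pos
  rwa [Nat.cast_one] at this

theorem AN_Q_D {F : ℍ → ℂ} (hF : QI ⊤ 1 F) :
    AN_Q (Derivative.normalizedDerivOfComplex F) = thetaFun (AN_Q F) := by
  ext n
  rw [thetaFun_coeff, AN_Q, AN_Q]
  have h1 := PowerSeries.coeff_coe (qExpansion 1 (Derivative.normalizedDerivOfComplex F)) n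
  have h2 := PowerSeries.coeff_coe (qExpansion 1 F) n
  rw [h1, h2]
  split_ifs with h
  · simp
  · rw [qExpansion_D_coeff hF]
    congr 1
    have : ((n.natAbs : ℤ) : ℂ) = (n : ℂ) := by
      rw [Int.natAbs_of_nonneg (not_lt.mp h)]
    rw [← this]
    simp

theorem AN_Q_E4 : AN_Q E4 = LL ℂ eisenstein4 := by
  rw [AN_Q, LL_apply, ← qExpansion_E4]

theorem AN_Q_Dl : AN_Q Dl = DL ℂ := by
  rw [AN_Q, DL, LL_apply, ← qExpansion_Delta]

theorem AN_c_eq {c : ℂ}
    (hc : (3 : ℂ) • (Derivative.normalizedDerivOfComplex E4 * Dl)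
      - E4 * Derivative.normalizedDerivOfComplex Dl = c • (E6 * Dl)) :
    (3 : ℂ) • (qExpansion 1 (Derivative.normalizedDerivOfComplex E4) * qExpansion 1 Dl)
      - qExpansion 1 E4 * qExpansion 1 (Derivative.normalizedDerivOfComplex Dl)
      = c • (qExpansion 1 E6 * qExpansion 1 Dl) := by
  have q4 : QI ⊤ 1 E4 := W2.qi_of_isMF_top isMF_E4
  have q6 : QI ⊤ 1 E6 := W2.qi_of_isMF_top isMF_E6
  have qD : QI ⊤ 1 Dl := W2.qi_of_isMF_top isMF_Dl
  have qd4 := DQ_qi q4
  have qdD := DQ_qi qD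
  have h := congrArg (qExpansion 1) hc
  rw [qExpansion_smul (AN_analytic (q6.mul one_pos qD)), qExpansion_mul (AN_analytic q6) (AN_analytic qD),
    qExpansion_sub (f := (3 : ℂ) • (Derivative.normalizedDerivOfComplex E4 * Dl))
      (by
        have := cuspFunction_smul (h := 1) (AN_analytic (qd4.mul one_pos qD)).continuousAt (3 : ℂ)
        rw [this]
        exact (AN_analytic (qd4.mul one_pos qD)).const_smul)
      (AN_analytic (q4.mul one_pos qdD)),
    qExpansion_smul (AN_analytic (qd4.mul one_pos qD)),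
    qExpansion_mul (AN_analytic qd4) (AN_analytic qD),
    qExpansion_mul (AN_analytic q4) (AN_analytic qdD)] at h
  exact h

theorem exists_e6 : ∃ e6 : LaurentSeries ℂ,
    LL ℂ eisenstein4 ^ 3 - e6 ^ 2 = 1728 * DL ℂ ∧
    3 * thetaFun (LL ℂ eisenstein4) * DL ℂ - LL ℂ eisenstein4 * thetaFun (DL ℂ) = -(e6 * DL ℂ) := by
  have q4 : QI ⊤ 1 E4 := W2.qi_of_isMF_top isMF_E4
  have q6 : QI ⊤ 1 E6 := W2.qi_of_isMF_top isMF_E6
  have qD : QI ⊤ 1 Dl := W2.qi_of_isMF_top isMF_Dl
  have hsm : ∀ (a : ℂ) (p : PowerSeries ℂ), HahnSeries.ofPowerSeries ℤ ℂ (a • p)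
      = HahnSeries.C a * HahnSeries.ofPowerSeries ℤ ℂ p := by
    intro a p
    rw [PowerSeries.smul_eq_C_mul, map_mul, HahnSeries.ofPowerSeries_C]
  refine ⟨AN_Q E6, ?_, ?_⟩
  · have h := congrArg (qExpansion 1) Dl_eq
    rw [qExpansion_smul (AN_analytic qD),
      qExpansion_sub (AN_analytic (q4.pow one_pos 3)) (AN_analytic (q6.pow one_pos 2)),
      EsymmAux.qExpansion_pow_of_isMF isMF_E4, EsymmAux.qExpansion_pow_of_isMF isMF_E6] at h
    have h2 := congrArg (HahnSeries.ofPowerSeries ℤ ℂ) h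
    rw [hsm, map_sub, map_pow, map_pow] at h2
    rw [← AN_Q_E4, ← AN_Q_Dl]
    rw [show (1728 : LaurentSeries ℂ) = HahnSeries.C (1728 : ℂ) by rw [map_ofNat]]
    exact h2.symm
  · obtain ⟨c, hc⟩ := exists_bracket
    have h := AN_c_eq hc
    have hD0 : (qExpansion 1 Dl).coeff 0 = 0 := by
      rw [show qExpansion 1 Dl = _ from qExpansion_Delta]
      simp
    have hD1 : (qExpansion 1 Dl).coeff 1 = 1 := by
      rw [show qExpansion 1 Dl = _ from qExpansion_Delta, PowerSeries.coeff_map,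
        show (1 : ℕ) = 0 + 1 from rfl, PowerSeries.coeff_succ_X_mul,
        PowerSeries.coeff_zero_eq_constantCoeff_apply, constantCoeff_dedekindEtaUnit]
      simp
    have h40 : (qExpansion 1 E4).coeff 0 = 1 := EisensteinSeries.E_qExpansion_coeff_zero _ ⟨2, rfl⟩
    have h60 : (qExpansion 1 E6).coeff 0 = 1 := EisensteinSeries.E_qExpansion_coeff_zero _ ⟨3, rfl⟩
    have hc1 : c = -1 := by
      have h1 := congrArg (PowerSeries.coeff 1) h
      simp only [map_sub, PowerSeries.coeff_smul, PowerSeries.coeff_mul,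
        Finset.Nat.antidiagonal_succ, Finset.Nat.antidiagonal_zero, qExpansion_D_coeff q4,
        qExpansion_D_coeff qD] at h1
      simp at h1
      rw [← PowerSeries.coeff_zero_eq_constantCoeff_apply, ← PowerSeries.coeff_zero_eq_constantCoeff_apply,
        ← PowerSeries.coeff_zero_eq_constantCoeff_apply, hD0, hD1, h40, h60] at h1
      simp at h1
      exact h1.symm
    subst hc1
    have h2 := congrArg (HahnSeries.ofPowerSeries ℤ ℂ) h
    rw [hsm, map_sub, hsm, map_mul, map_mul, map_mul] at h2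
    change HahnSeries.C (3 : ℂ) * (AN_Q (Derivative.normalizedDerivOfComplex E4) * AN_Q Dl)
      - AN_Q E4 * AN_Q (Derivative.normalizedDerivOfComplex Dl)
      = HahnSeries.C (-1 : ℂ) * (AN_Q E6 * AN_Q Dl) at h2
    rw [AN_Q_D q4, AN_Q_D qD, AN_Q_E4, AN_Q_Dl, map_ofNat, map_neg, map_one] at h2
    linear_combination h2

end Fermat.Agent.S18Lib
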